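import Fermat.Agent.X0N.J_helper8_Basic
import Fermat.Prelude.Def_ModularForm_HeckeOperator

/-!
# (AN0) part 3: `z ↦ F (d z)` and Laurent expansions (`q ↦ q^d`)
-/

namespace Fermat.Agent.X0N

open UpperHalfPlane hiding I
open Complex Filter Function Topology ModularForm
open Fermat.Agent.RatStr
open scoped Manifold MatrixGroups

local notation "𝕢" => Periodic.qParam

/-- The function `z ↦ F (d z)`. -/
noncomputable def dilate (d : ℕ) (F : ℍ → ℂ) : ℍ → ℂ := fun z => F (heckeDiagMatrix d • z)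

theorem dilate_apply (d : ℕ) (F : ℍ → ℂ) (z : ℍ) : dilate d F z = F (heckeDiagMatrix d • z) := rfl

theorem dilate_mul (d : ℕ) (F G : ℍ → ℂ) : dilate d (F * G) = dilate d F * dilate d G := rfl

theorem dilate_pow (d : ℕ) (F : ℍ → ℂ) (n : ℕ) : dilate d (F ^ n) = dilate d F ^ n := rfl

theorem qParam_heckeDiagMatrix_smul {d : ℕ} (hd : d ≠ 0) (z : ℍ) :
    𝕢 1 ((heckeDiagMatrix d • z : ℍ) : ℂ) = 𝕢 1 (z : ℂ) ^ d := by
  rw [coe_heckeDiagMatrix_smul hd, Periodic.qParam, Periodic.qParam, ← Complex.exp_nat_mul]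
  congr 1
  push_cast
  ring

theorem dilate_qf {d : ℕ} (hd : d ≠ 0) : dilate d (qf 1) = qf 1 ^ d := by
  ext z
  simp only [dilate_apply, qf_apply, Pi.pow_apply]
  exact qParam_heckeDiagMatrix_smul hd z

theorem im_heckeDiagMatrix_smul' {d : ℕ} (hd : d ≠ 0) (z : ℍ) :
    (heckeDiagMatrix d • z : ℍ).im = d * z.im := by
  have := congrArg Complex.im (coe_heckeDiagMatrix_smul hd z)
  simpa using this

/-- dilated power series: `X ↦ X^d` -/
noncomputable def dilPS (d : ℕ) (p : PowerSeries ℂ) : PowerSeries ℂ :=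
  PowerSeries.mk fun n => if d ∣ n then p.coeff (n / d) else 0

theorem isHolBdd_dilate {d : ℕ} (hd : d ≠ 0) {F : ℍ → ℂ} (hF : IsHolBdd 1 F) :
    IsHolBdd 1 (dilate d F) where
  per := by
    apply periodic_comp_ofComplex_of_vadd
    intro τ
    simp only [dilate_apply]
    have h1 : ∀ (n : ℕ) (w : ℍ), F ((n : ℝ) +ᵥ w) = F w := by
      intro n
      induction n with
      | zero => intro w; simp
      | succ n ih =>
        intro w
        have : (((n + 1 : ℕ) : ℝ) +ᵥ w) = (1 : ℝ) +ᵥ ((n : ℝ) +ᵥ w) := by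
          ext
          simp only [UpperHalfPlane.coe_vadd]
          push_cast
          ring
        rw [this, vadd_of_periodic_comp_ofComplex hF.per, ih]
    have h2 : heckeDiagMatrix d • ((1 : ℝ) +ᵥ τ) = (d : ℝ) +ᵥ (heckeDiagMatrix d • τ) := by
      ext
      rw [coe_heckeDiagMatrix_smul hd, UpperHalfPlane.coe_vadd, UpperHalfPlane.coe_vadd,
        coe_heckeDiagMatrix_smul hd]
      push_cast
      ring
    rw [h2, h1]
  hol := by
    have h1 : MDiff (fun z : ℍ => heckeDiagMatrix d • z) :=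
      UpperHalfPlane.mdifferentiable_smul (det_heckeDiagMatrix_pos d)
    exact hF.hol.comp h1
  bdd := by
    have hb := hF.bdd
    rw [UpperHalfPlane.isBoundedAtImInfty_iff] at hb ⊢
    obtain ⟨M, A, h⟩ := hb
    refine ⟨M, A, fun z hz => ?_⟩
    apply h
    rw [im_heckeDiagMatrix_smul' hd]
    have hd1 : (1 : ℝ) ≤ d := by exact_mod_cast Nat.one_le_iff_ne_zero.mpr hd
    have := z.im_pos
    nlinarith

/-- `UpperHalfPlane.qExpansion_coeff_unique` for plain functions. -/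
theorem qExpansion_coeff_unique' {f : ℍ → ℂ} {c : ℕ → ℂ}
    (hfanalytic : AnalyticAt ℂ (cuspFunction 1 f) 0)
    (hf : ∀ τ : ℍ, HasSum (fun m ↦ c m • 𝕢 1 (τ : ℂ) ^ m) (f τ)) (m : ℕ) :
    c m = (qExpansion 1 f).coeff m := by
  have h1 := (hasFPowerSeriesOnBall_cuspFunction one_pos hfanalytic hf).hasFPowerSeriesAt
  have h2 := hfanalytic.hasFPowerSeriesAt
  have h3 := congr_arg (FormalMultilinearSeries.coeff · m) (h1.eq_formalMultilinearSeries h2)
  simp only [FormalMultilinearSeries.coeff_ofScalars] at h3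
  rw [h3, qExpansion_coeff]
  ring

theorem qExpansion_dilate {d : ℕ} (hd : d ≠ 0) {F : ℍ → ℂ} (hF : IsHolBdd 1 F) :
    qExpansion 1 (dilate d F) = dilPS d (qExpansion 1 F) := by
  ext n
  set c : ℕ → ℂ := fun n => if d ∣ n then (qExpansion 1 F).coeff (n / d) else 0 with hc
  have key : ∀ τ : ℍ, HasSum (fun m => c m • 𝕢 1 (τ : ℂ) ^ m) (dilate d F τ) := by
    intro τ
    have h1 := hasSum_qExpansion one_pos hF.per hF.hol hF.bdd (heckeDiagMatrix d • τ)
    rw [qParam_heckeDiagMatrix_smul hd] at h1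
    have hinj : Function.Injective (fun m : ℕ => d * m) :=
      fun a b hab => Nat.eq_of_mul_eq_mul_left (Nat.pos_of_ne_zero hd) hab
    rw [← hinj.hasSum_iff]
    · refine (show dilate d F τ = F (heckeDiagMatrix d • τ) from rfl) ▸ ?_
      convert h1 using 2 with m
      simp only [comp_apply, hc, dvd_mul_right, if_true, Nat.mul_div_cancel_left _ (Nat.pos_of_ne_zero hd)]
      rw [pow_mul]
    · intro x hx
      have : ¬ d ∣ x := by
        rintro ⟨k, rfl⟩
        exact hx ⟨k, rfl⟩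
      simp [hc, this]
  have := qExpansion_coeff_unique' ((isHolBdd_dilate hd hF).analyticAt one_pos) key n
  rw [← this, dilPS, PowerSeries.coeff_mk]


theorem qExpand_ofPowerSeries (d : ℕ) [NeZero d] (P : PowerSeries ℂ) :
    ModularCurve.qExpand ℂ d (HahnSeries.ofPowerSeries ℤ ℂ P) =
      HahnSeries.ofPowerSeries ℤ ℂ (dilPS d P) := by
  have hd : d ≠ 0 := NeZero.ne d
  ext k
  by_cases hk : (d : ℤ) ∣ k
  · obtain ⟨k', rfl⟩ := hk
    rw [ModularCurve.qExpand_coeff_mul]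
    by_cases hk' : 0 ≤ k'
    · obtain ⟨n, rfl⟩ := Int.eq_ofNat_of_zero_le hk'
      rw [HahnSeries.ofPowerSeries_apply_coeff]
      have : (d : ℤ) * (n : ℤ) = ((d * n : ℕ) : ℤ) := by push_cast; ring
      rw [this, HahnSeries.ofPowerSeries_apply_coeff, dilPS, PowerSeries.coeff_mk]
      simp [Nat.mul_div_cancel_left _ (Nat.pos_of_ne_zero hd)]
    · rw [not_le] at hk'
      rw [ModularCurve.ofPowerSeries_coeff_of_neg _ hk', ModularCurve.ofPowerSeries_coeff_of_neg]
      have : (0 : ℤ) < d := by exact_mod_cast Nat.pos_of_ne_zero hd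
      nlinarith
  · rw [ModularCurve.qExpand_coeff_of_not_dvd _ _ hk]
    by_cases hk' : 0 ≤ k
    · obtain ⟨n, rfl⟩ := Int.eq_ofNat_of_zero_le hk'
      rw [HahnSeries.ofPowerSeries_apply_coeff, dilPS, PowerSeries.coeff_mk]
      have : ¬ d ∣ n := fun h => hk (by exact_mod_cast h)
      simp [this]
    · rw [not_le] at hk'
      rw [ModularCurve.ofPowerSeries_coeff_of_neg _ hk']

theorem dilate_mul_qf_pow {d : ℕ} (hd : d ≠ 0) (F : ℍ → ℂ) (m : ℕ) :
    dilate d (F * qf 1 ^ m) = dilate d F * qf 1 ^ (d * m) := by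
  rw [dilate_mul, dilate_pow, dilate_qf hd, pow_mul]

theorem isMeroInfty_dilate {d : ℕ} (hd : d ≠ 0) {F : ℍ → ℂ} (hF : IsMeroInfty 1 F) :
    IsMeroInfty 1 (dilate d F) := by
  obtain ⟨m, hm⟩ := hF
  exact ⟨d * m, dilate_mul_qf_pow hd F m ▸ isHolBdd_dilate hd hm⟩

theorem laurent_dilate (d : ℕ) [NeZero d] {F : ℍ → ℂ} (hF : IsMeroInfty 1 F) :
    laurent 1 (dilate d F) = ModularCurve.qExpand ℂ d (laurent 1 F) := by
  have hd : d ≠ 0 := NeZero.ne d
  obtain ⟨m, hm⟩ := hF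
  have h1 : IsHolBdd 1 (dilate d F * qf 1 ^ (d * m)) :=
    dilate_mul_qf_pow hd F m ▸ isHolBdd_dilate hd hm
  rw [laurent_eq one_pos h1, laurent_eq one_pos hm, map_mul, ModularCurve.qExpand_single,
    qExpand_ofPowerSeries, ← dilate_mul_qf_pow hd F m, qExpansion_dilate hd hm]
  congr 2
  push_cast
  rw [mul_neg]

/-- `z ↦ j (d z)`. -/
noncomputable def jFunN (d : ℕ) : ℍ → ℂ := dilate d jFun

theorem isMeroInfty_jFunN {d : ℕ} (hd : d ≠ 0) : IsMeroInfty 1 (jFunN d) :=
  isMeroInfty_dilate hd isMeroInfty_jFun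

theorem qExpand_coeffEmb (d : ℕ) [NeZero d] (x : LaurentSeries ℚ) :
    ModularCurve.qExpand ℂ d (ModularCurve.coeffEmb ℂ x) =
      ModularCurve.coeffEmb ℂ (ModularCurve.qExpand ℚ d x) := by
  ext k
  by_cases hk : (d : ℤ) ∣ k
  · obtain ⟨k', rfl⟩ := hk
    simp [ModularCurve.qExpand_coeff_mul]
  · simp [ModularCurve.qExpand_coeff_of_not_dvd _ _ hk]

theorem laurent_jFunN (d : ℕ) [NeZero d] :
    laurent 1 (jFunN d) = ModularCurve.coeffEmb ℂ (ModularCurve.qExpand ℚ d ModularCurve.jq) := by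
  rw [jFunN, laurent_dilate d isMeroInfty_jFun, laurent_jFun, qExpand_coeffEmb]


end Fermat.Agent.X0N
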