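import Mathlib

/-!
# Meromorphic functions on the upper half plane as a fraction field

`HolH` is the ring of holomorphic functions on `ℍ` (a domain), `MerH := FractionRing HolH` is the
field of meromorphic functions on `ℍ` that are quotients of holomorphic functions.  We define the
action of `SL(2, ℤ)` by precomposition and the order `ordAt τ : MerH → ℤ` at a point `τ ∈ ℍ`.
-/

set_option autoImplicit false

namespace Fermat.Agent.X0N

open UpperHalfPlane Complex Filter Topology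
open scoped MatrixGroups Manifold

/-- The ring of holomorphic functions on the upper half plane. -/
def HolH : Subring (ℍ → ℂ) where
  carrier := {f | MDiff f}
  mul_mem' := fun hf hg => hf.mul hg
  one_mem' := mdifferentiable_const
  add_mem' := fun hf hg => hf.add hg
  zero_mem' := mdifferentiable_const
  neg_mem' := fun hf => hf.neg

theorem mem_HolH {f : ℍ → ℂ} : f ∈ HolH ↔ MDiff f := Iff.rfl

theorem HolH.mdiff (f : HolH) : MDiff (f : ℍ → ℂ) := f.2

instance : IsDomain HolH := by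
  have : NoZeroDivisors HolH := by
    refine ⟨fun {a b} h => ?_⟩
    have h' : (a : ℍ → ℂ) * (b : ℍ → ℂ) = 0 := by
      have := congrArg (Subtype.val) h
      simpa using this
    rcases (UpperHalfPlane.mul_eq_zero_iff a.2 b.2).mp h' with h0 | h0
    · exact Or.inl (Subtype.ext h0)
    · exact Or.inr (Subtype.ext h0)
  have : Nontrivial HolH := by
    refine ⟨⟨0, 1, fun h => ?_⟩⟩
    have := congrFun (congrArg Subtype.val h) UpperHalfPlane.I
    simp at this
  exact NoZeroDivisors.to_isDomain _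

/-- The field of meromorphic functions on `ℍ` (quotients of holomorphic functions). -/
abbrev MerH : Type := FractionRing HolH

/-- constant functions -/
def HolH.const : ℂ →+* HolH where
  toFun c := ⟨fun _ => c, mdifferentiable_const⟩
  map_one' := rfl
  map_mul' _ _ := rfl
  map_zero' := rfl
  map_add' _ _ := rfl

@[simp] theorem HolH.const_apply (c : ℂ) (τ : ℍ) : (HolH.const c : ℍ → ℂ) τ = c := rfl

theorem HolH.const_injective : Function.Injective HolH.const := by
  intro a b h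
  have := congrFun (congrArg Subtype.val h) UpperHalfPlane.I
  simpa using this

/-- constants in `MerH` -/
noncomputable def MerH.const : ℂ →+* MerH := (algebraMap HolH MerH).comp HolH.const

theorem MerH.const_injective : Function.Injective MerH.const :=
  (IsFractionRing.injective HolH MerH).comp HolH.const_injective

/-! ### The action of `SL(2, ℤ)` -/

theorem mdiff_comp_SL {f : ℍ → ℂ} (hf : MDiff f) (γ : SL(2, ℤ)) :
    MDiff (fun τ : ℍ => f (γ • τ)) := by
  have h1 : MDiff (fun τ : ℍ => (γ : GL (Fin 2) ℝ) • τ) :=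
    UpperHalfPlane.mdifferentiable_smul (by simp)
  exact hf.comp h1

/-- Precomposition with `γ ∈ SL(2, ℤ)` as a ring homomorphism of `HolH`. -/
noncomputable def HolH.compHom (γ : SL(2, ℤ)) : HolH →+* HolH where
  toFun f := ⟨fun τ => (f : ℍ → ℂ) (γ • τ), mdiff_comp_SL f.2 γ⟩
  map_one' := rfl
  map_mul' _ _ := rfl
  map_zero' := rfl
  map_add' _ _ := rfl

@[simp] theorem HolH.compHom_apply (γ : SL(2, ℤ)) (f : HolH) (τ : ℍ) :
    (HolH.compHom γ f : ℍ → ℂ) τ = (f : ℍ → ℂ) (γ • τ) := rfl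

theorem HolH.compHom_one (f : HolH) : HolH.compHom 1 f = f := by
  ext τ; simp

theorem HolH.compHom_mul (γ₁ γ₂ : SL(2, ℤ)) (f : HolH) :
    HolH.compHom (γ₁ * γ₂) f = HolH.compHom γ₂ (HolH.compHom γ₁ f) := by
  ext τ; simp [mul_smul]

/-- Precomposition with `γ ∈ SL(2, ℤ)` as a ring automorphism of `HolH`. -/
noncomputable def HolH.comp (γ : SL(2, ℤ)) : HolH ≃+* HolH where
  __ := HolH.compHom γ
  invFun := HolH.compHom γ⁻¹
  left_inv f := by
    show HolH.compHom γ⁻¹ (HolH.compHom γ f) = f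
    rw [← HolH.compHom_mul, mul_inv_cancel, HolH.compHom_one]
  right_inv f := by
    show HolH.compHom γ (HolH.compHom γ⁻¹ f) = f
    rw [← HolH.compHom_mul, inv_mul_cancel, HolH.compHom_one]

@[simp] theorem HolH.comp_apply (γ : SL(2, ℤ)) (f : HolH) (τ : ℍ) :
    (HolH.comp γ f : ℍ → ℂ) τ = (f : ℍ → ℂ) (γ • τ) := rfl

/-- Precomposition with `γ ∈ SL(2, ℤ)` as a field automorphism of `MerH`. -/
noncomputable def MerH.comp (γ : SL(2, ℤ)) : MerH ≃+* MerH :=
  IsFractionRing.ringEquivOfRingEquiv (HolH.comp γ)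

@[simp] theorem MerH.comp_algebraMap (γ : SL(2, ℤ)) (f : HolH) :
    MerH.comp γ (algebraMap HolH MerH f) = algebraMap HolH MerH (HolH.comp γ f) := by
  simp [MerH.comp]

theorem MerH.comp_one (x : MerH) : MerH.comp 1 x = x := by
  obtain ⟨a, b, hb, rfl⟩ := IsFractionRing.div_surjective (A := HolH) x
  simp only [map_div₀, MerH.comp_algebraMap]
  congr 2 <;> ext τ <;> simp

theorem MerH.comp_mul (γ₁ γ₂ : SL(2, ℤ)) (x : MerH) :
    MerH.comp (γ₁ * γ₂) x = MerH.comp γ₂ (MerH.comp γ₁ x) := by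
  obtain ⟨a, b, hb, rfl⟩ := IsFractionRing.div_surjective (A := HolH) x
  simp only [map_div₀, MerH.comp_algebraMap]
  congr 2 <;> ext τ <;> simp [mul_smul]

theorem MerH.comp_const (γ : SL(2, ℤ)) (c : ℂ) : MerH.comp γ (MerH.const c) = MerH.const c := by
  simp only [MerH.const, RingHom.comp_apply, MerH.comp_algebraMap]
  congr 1


/-! ### Orders at points of `ℍ` -/

namespace HolH

theorem analyticAt (f : HolH) (τ : ℍ) : AnalyticAt ℂ ((f : ℍ → ℂ) ∘ ofComplex) (τ : ℂ) := by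
  have h := UpperHalfPlane.mdifferentiable_iff.mp f.2
  exact h.analyticAt (isOpen_upperHalfPlaneSet.mem_nhds τ.im_pos)

theorem order_ne_top {f : HolH} (hf : f ≠ 0) (τ : ℍ) :
    analyticOrderAt ((f : ℍ → ℂ) ∘ ofComplex) (τ : ℂ) ≠ ⊤ := by
  intro h
  rw [analyticOrderAt_eq_top] at h
  apply hf
  apply Subtype.ext
  apply UpperHalfPlane.eq_zero_of_frequently f.2 (τ := τ)
  apply Eventually.frequently
  have h2 : ∀ᶠ z in 𝓝 τ, (f : ℍ → ℂ) z = 0 := by
    rw [← isOpenEmbedding_coe.map_nhds_eq, eventually_map] at h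
    filter_upwards [h] with a ha
    simpa using ha
  exact h2.filter_mono nhdsWithin_le_nhds

/-- The order of vanishing of a holomorphic function at `τ`. -/
noncomputable def ord (τ : ℍ) (f : HolH) : ℕ :=
  analyticOrderNatAt ((f : ℍ → ℂ) ∘ ofComplex) (τ : ℂ)

theorem cast_ord {f : HolH} (hf : f ≠ 0) (τ : ℍ) :
    (ord τ f : ℕ∞) = analyticOrderAt ((f : ℍ → ℂ) ∘ ofComplex) (τ : ℂ) :=
  Nat.cast_analyticOrderNatAt (order_ne_top hf τ)

theorem ord_mul {f g : HolH} (hf : f ≠ 0) (hg : g ≠ 0) (τ : ℍ) :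
    ord τ (f * g) = ord τ f + ord τ g :=
  analyticOrderNatAt_mul (analyticAt f τ) (analyticAt g τ) (order_ne_top hf τ) (order_ne_top hg τ)

theorem min_ord_le_ord_add {f g : HolH} (hf : f ≠ 0) (hg : g ≠ 0) (hfg : f + g ≠ 0) (τ : ℍ) :
    min (ord τ f) (ord τ g) ≤ ord τ (f + g) := by
  have h := le_analyticOrderAt_add (f := (f : ℍ → ℂ) ∘ ofComplex) (g := (g : ℍ → ℂ) ∘ ofComplex)
    (z₀ := (τ : ℂ))
  have h2 : ((f : ℍ → ℂ) ∘ ofComplex) + ((g : ℍ → ℂ) ∘ ofComplex) =
      (((f + g : HolH) : ℍ → ℂ) ∘ ofComplex) := rfl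
  rw [h2, ← cast_ord hf, ← cast_ord hg, ← cast_ord hfg] at h
  rcases le_total (ord τ f) (ord τ g) with hle | hle
  · rw [min_eq_left (by exact_mod_cast hle)] at h
    rw [min_eq_left hle]
    exact_mod_cast h
  · rw [min_eq_right (by exact_mod_cast hle)] at h
    rw [min_eq_right hle]
    exact_mod_cast h

theorem ord_zero (τ : ℍ) : ord τ 0 = 0 := by
  have h : analyticOrderAt (((0 : HolH) : ℍ → ℂ) ∘ ofComplex) (τ : ℂ) = ⊤ := by
    rw [analyticOrderAt_eq_top]
    exact Eventually.of_forall fun z => rfl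
  rw [ord, analyticOrderNatAt, h]
  rfl

theorem ord_eq_zero_iff (f : HolH) (τ : ℍ) : ord τ f = 0 ↔ (f : ℍ → ℂ) τ ≠ 0 ∨ f = 0 := by
  by_cases hf : f = 0
  · subst hf
    simp [ord_zero]
  · have h1 : (ord τ f : ℕ∞) = 0 ↔ ((f : ℍ → ℂ) ∘ ofComplex) (τ : ℂ) ≠ 0 := by
      rw [cast_ord hf]
      exact (analyticAt f τ).analyticOrderAt_eq_zero
    simp only [hf, or_false]
    rw [← Nat.cast_inj (R := ℕ∞), Nat.cast_zero, h1]
    simp

theorem ord_const {c : ℂ} (hc : c ≠ 0) (τ : ℍ) : ord τ (HolH.const c) = 0 := by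
  rw [ord_eq_zero_iff]
  exact Or.inl (by simpa using hc)

theorem ord_one (τ : ℍ) : ord τ 1 = 0 := by
  rw [ord_eq_zero_iff]
  exact Or.inl (by simp)

theorem ord_comp (γ : SL(2, ℤ)) (f : HolH) (τ : ℍ) : ord τ (HolH.comp γ f) = ord (γ • τ) f := by
  by_cases hf : f = 0
  · subst hf
    simp [ord_zero]
  have hcf : HolH.comp γ f ≠ 0 := by
    simpa using hf
  have hdet : 0 < (γ : GL (Fin 2) ℝ).val.det := by
    have h : ((γ : GL (Fin 2) ℝ).det : ℝ) = 1 := by simp
    rw [Matrix.GeneralLinearGroup.val_det_apply] at h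
    rw [h]; exact one_pos
  have h := UpperHalfPlane.meromorphicOrderAt_comp_smul (f := (f : ℍ → ℂ)) (τ := τ)
    (g := (γ : GL (Fin 2) ℝ)) hdet
  have e1 : (fun z : ℂ => (f : ℍ → ℂ) ((γ : GL (Fin 2) ℝ) • ofComplex z)) =
      ((HolH.comp γ f : HolH) : ℍ → ℂ) ∘ ofComplex := rfl
  have e2 : (fun z : ℂ => (f : ℍ → ℂ) (ofComplex z)) = (f : ℍ → ℂ) ∘ ofComplex := rfl
  have e3 : (((γ : GL (Fin 2) ℝ) • τ : ℍ) : ℂ) = ((γ • τ : ℍ) : ℂ) := rfl
  rw [e1, e2, e3, (analyticAt _ τ).meromorphicOrderAt_eq,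
    (analyticAt f (γ • τ)).meromorphicOrderAt_eq, ← cast_ord hcf,
    ← cast_ord hf] at h
  have h3 : ((ord τ (HolH.comp γ f) : ℕ) : ℤ) = ((ord (γ • τ) f : ℕ) : ℤ) := by
    have := h
    simp only [ENat.map_natCast, WithTop.coe_natCast] at this
    exact_mod_cast this
  exact_mod_cast h3

end HolH


namespace MerH

/-- The canonical map `HolH → MerH`. -/
noncomputable abbrev ofHol : HolH →+* MerH := algebraMap HolH MerH

theorem ofHol_injective : Function.Injective ofHol := IsFractionRing.injective HolH MerH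

theorem ofHol_ne_zero {f : HolH} (hf : f ≠ 0) : ofHol f ≠ 0 := by
  rwa [Ne, map_eq_zero_iff _ ofHol_injective]

theorem exists_div (x : MerH) : ∃ a b : HolH, b ≠ 0 ∧ x = ofHol a / ofHol b := by
  obtain ⟨a, b, hb, rfl⟩ := IsFractionRing.div_surjective (A := HolH) x
  exact ⟨a, b, nonZeroDivisors.ne_zero hb, rfl⟩

/-- a chosen numerator -/
noncomputable def num (x : MerH) : HolH := Classical.choose (exists_div x)

/-- a chosen denominator -/
noncomputable def den (x : MerH) : HolH := Classical.choose (Classical.choose_spec (exists_div x))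

theorem den_ne_zero (x : MerH) : den x ≠ 0 :=
  (Classical.choose_spec (Classical.choose_spec (exists_div x))).1

theorem eq_num_div_den (x : MerH) : x = ofHol (num x) / ofHol (den x) :=
  (Classical.choose_spec (Classical.choose_spec (exists_div x))).2

theorem num_ne_zero {x : MerH} (hx : x ≠ 0) : num x ≠ 0 := by
  intro h
  apply hx
  rw [eq_num_div_den x, h, map_zero, zero_div]

/-- The order of a meromorphic function at `τ` (`0` for the zero function). -/
noncomputable def ordAt (τ : ℍ) (x : MerH) : ℤ :=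
  open Classical in if x = 0 then 0 else (HolH.ord τ (num x) : ℤ) - (HolH.ord τ (den x) : ℤ)

@[simp] theorem ordAt_zero (τ : ℍ) : ordAt τ 0 = 0 := by simp [ordAt]

theorem ordAt_div_ofHol {a b : HolH} (ha : a ≠ 0) (hb : b ≠ 0) (τ : ℍ) :
    ordAt τ (ofHol a / ofHol b) = (HolH.ord τ a : ℤ) - (HolH.ord τ b : ℤ) := by
  set x := ofHol a / ofHol b with hx
  have hx0 : x ≠ 0 := div_ne_zero (ofHol_ne_zero ha) (ofHol_ne_zero hb)
  rw [ordAt, if_neg hx0]
  have h1 := eq_num_div_den x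
  have hd := den_ne_zero x
  have hn := num_ne_zero hx0
  rw [hx, div_eq_div_iff (ofHol_ne_zero hb) (ofHol_ne_zero hd), ← map_mul, ← map_mul] at h1
  have h2 := ofHol_injective h1
  have h3 := congrArg (HolH.ord τ) h2
  rw [HolH.ord_mul ha hd, HolH.ord_mul hn hb] at h3
  omega

theorem ordAt_ofHol {f : HolH} (hf : f ≠ 0) (τ : ℍ) : ordAt τ (ofHol f) = HolH.ord τ f := by
  have h := ordAt_div_ofHol hf one_ne_zero τ
  rw [map_one, div_one, HolH.ord_one] at h
  simpa using h

theorem ordAt_one (τ : ℍ) : ordAt τ 1 = 0 := by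
  have h := ordAt_ofHol (one_ne_zero) τ
  rw [map_one, HolH.ord_one] at h
  simpa using h

theorem ordAt_mul {x y : MerH} (hx : x ≠ 0) (hy : y ≠ 0) (τ : ℍ) :
    ordAt τ (x * y) = ordAt τ x + ordAt τ y := by
  obtain ⟨a, b, hb, rfl⟩ := exists_div x
  obtain ⟨c, d, hd, rfl⟩ := exists_div y
  have ha : a ≠ 0 := by
    rintro rfl
    simp at hx
  have hc : c ≠ 0 := by
    rintro rfl
    simp at hy
  rw [div_mul_div_comm, ← map_mul, ← map_mul, ordAt_div_ofHol (mul_ne_zero ha hc)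
    (mul_ne_zero hb hd), ordAt_div_ofHol ha hb, ordAt_div_ofHol hc hd, HolH.ord_mul ha hc,
    HolH.ord_mul hb hd]
  push_cast
  ring

theorem ordAt_inv (x : MerH) (τ : ℍ) : ordAt τ x⁻¹ = -ordAt τ x := by
  by_cases hx : x = 0
  · simp [hx]
  have h := ordAt_mul hx (inv_ne_zero hx) τ
  rw [mul_inv_cancel₀ hx, ordAt_one] at h
  omega

theorem ordAt_div {x y : MerH} (hx : x ≠ 0) (hy : y ≠ 0) (τ : ℍ) :
    ordAt τ (x / y) = ordAt τ x - ordAt τ y := by
  rw [div_eq_mul_inv, ordAt_mul hx (inv_ne_zero hy), ordAt_inv]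
  ring

theorem ordAt_pow (x : MerH) (n : ℕ) (τ : ℍ) : ordAt τ (x ^ n) = n * ordAt τ x := by
  by_cases hx : x = 0
  · rcases n with _ | n
    · simp [ordAt_one]
    · simp [hx]
  induction n with
  | zero => simp [ordAt_one]
  | succ n ih =>
    rw [pow_succ, ordAt_mul (pow_ne_zero n hx) hx, ih]
    push_cast
    ring

theorem ordAt_neg (x : MerH) (τ : ℍ) : ordAt τ (-x) = ordAt τ x := by
  by_cases hx : x = 0
  · simp [hx]
  have h1 : (-1 : MerH) ≠ 0 := by simp
  have h2 : ordAt τ (-1 : MerH) = 0 := by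
    have h := ordAt_mul h1 h1 τ
    rw [neg_one_mul, neg_neg, ordAt_one] at h
    omega
  rw [← neg_one_mul, ordAt_mul h1 hx, h2, zero_add]

theorem min_ordAt_le_ordAt_add {x y : MerH} (hx : x ≠ 0) (hy : y ≠ 0) (hxy : x + y ≠ 0)
    (τ : ℍ) : min (ordAt τ x) (ordAt τ y) ≤ ordAt τ (x + y) := by
  obtain ⟨a, b, hb, rfl⟩ := exists_div x
  obtain ⟨c, d, hd, rfl⟩ := exists_div y
  have ha : a ≠ 0 := by
    rintro rfl
    simp at hx
  have hc : c ≠ 0 := by
    rintro rfl
    simp at hy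
  have hbd : b * d ≠ 0 := mul_ne_zero hb hd
  have hsum : ofHol a / ofHol b + ofHol c / ofHol d = ofHol (a * d + b * c) / ofHol (b * d) := by
    rw [div_add_div _ _ (ofHol_ne_zero hb) (ofHol_ne_zero hd)]
    simp only [map_add, map_mul]
  rw [hsum] at hxy ⊢
  have hnum : a * d + b * c ≠ 0 := by
    rintro h
    rw [h] at hxy
    simp at hxy
  rw [ordAt_div_ofHol hnum hbd, ordAt_div_ofHol ha hb, ordAt_div_ofHol hc hd, HolH.ord_mul hb hd]
  have h1 := HolH.min_ord_le_ord_add (mul_ne_zero ha hd) (mul_ne_zero hb hc) hnum τ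
  rw [HolH.ord_mul ha hd, HolH.ord_mul hb hc] at h1
  have h2 : (min (HolH.ord τ a + HolH.ord τ d) (HolH.ord τ b + HolH.ord τ c) : ℤ) ≤
      (HolH.ord τ (a * d + b * c) : ℤ) := by exact_mod_cast h1
  push_cast
  rcases le_total (HolH.ord τ a + HolH.ord τ d) (HolH.ord τ b + HolH.ord τ c) with h | h
  · have h' : ((HolH.ord τ a : ℤ) + HolH.ord τ d) ≤ (HolH.ord τ b : ℤ) + HolH.ord τ c := by
      exact_mod_cast h
    rw [min_eq_left h'] at h2
    apply le_trans (min_le_left _ _)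
    linarith
  · have h' : ((HolH.ord τ b : ℤ) + HolH.ord τ c) ≤ (HolH.ord τ a : ℤ) + HolH.ord τ d := by
      exact_mod_cast h
    rw [min_eq_right h'] at h2
    apply le_trans (min_le_right _ _)
    linarith

theorem ordAt_const {c : ℂ} (hc : c ≠ 0) (τ : ℍ) : ordAt τ (MerH.const c) = 0 := by
  have hne : HolH.const c ≠ 0 := by
    intro h
    exact hc (HolH.const_injective (by rw [h, map_zero]))
  have := ordAt_ofHol hne τ
  rw [HolH.ord_const hc] at this
  simpa [MerH.const] using this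

theorem ordAt_comp (γ : SL(2, ℤ)) (x : MerH) (τ : ℍ) :
    ordAt τ (MerH.comp γ x) = ordAt (γ • τ) x := by
  by_cases hx : x = 0
  · simp [hx]
  obtain ⟨a, b, hb, rfl⟩ := exists_div x
  have ha : a ≠ 0 := by
    rintro rfl
    simp at hx
  have hca : HolH.comp γ a ≠ 0 := by simpa using ha
  have hcb : HolH.comp γ b ≠ 0 := by simpa using hb
  rw [map_div₀, MerH.comp_algebraMap, MerH.comp_algebraMap, ordAt_div_ofHol hca hcb,
    ordAt_div_ofHol ha hb, HolH.ord_comp, HolH.ord_comp]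

end MerH

/-! ### `ℂ`-algebra structures -/

noncomputable instance : Algebra ℂ HolH := HolH.const.toAlgebra

theorem HolH.algebraMap_eq_const : algebraMap ℂ HolH = HolH.const := rfl

theorem MerH.algebraMap_eq_const : algebraMap ℂ MerH = MerH.const := by
  ext c
  rw [IsScalarTower.algebraMap_apply ℂ HolH MerH]
  rfl

/-- `MerH.comp γ` as a `ℂ`-algebra automorphism. -/
noncomputable def MerH.compAlg (γ : SL(2, ℤ)) : MerH ≃ₐ[ℂ] MerH :=
  AlgEquiv.ofRingEquiv (f := MerH.comp γ) (fun c => by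
    rw [MerH.algebraMap_eq_const]
    exact MerH.comp_const γ c)

@[simp] theorem MerH.compAlg_apply (γ : SL(2, ℤ)) (x : MerH) :
    MerH.compAlg γ x = MerH.comp γ x := rfl

/-- The coordinate function `τ ↦ τ - τ₀`, a uniformiser at `τ₀`. -/
def HolH.coordSub (τ₀ : ℍ) : HolH :=
  ⟨fun τ => (τ : ℂ) - (τ₀ : ℂ), mdifferentiable_coe.sub mdifferentiable_const⟩

@[simp] theorem HolH.coordSub_apply (τ₀ τ : ℍ) :
    (HolH.coordSub τ₀ : ℍ → ℂ) τ = (τ : ℂ) - (τ₀ : ℂ) := rfl

theorem HolH.coordSub_ne_zero (τ₀ : ℍ) : HolH.coordSub τ₀ ≠ 0 := by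
  intro h
  have h1 := congrFun (congrArg Subtype.val h) ((1 : ℝ) +ᵥ τ₀)
  simp at h1

theorem HolH.ord_coordSub (τ₀ : ℍ) : HolH.ord τ₀ (HolH.coordSub τ₀) = 1 := by
  have h1 : ((HolH.coordSub τ₀ : HolH) : ℍ → ℂ) ∘ ofComplex =ᶠ[𝓝 (τ₀ : ℂ)]
      (fun z : ℂ => z - (τ₀ : ℂ)) := by
    filter_upwards [isOpen_upperHalfPlaneSet.mem_nhds τ₀.im_pos] with z hz
    simp [ofComplex_apply_of_im_pos hz]
  have h2 : ((HolH.ord τ₀ (HolH.coordSub τ₀) : ℕ) : ℕ∞) = 1 := by
    rw [HolH.cast_ord (HolH.coordSub_ne_zero τ₀), analyticOrderAt_congr h1]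
    exact analyticOrderAt_id_sub_const_self
  exact_mod_cast h2

theorem MerH.ordAt_coordSub (τ₀ : ℍ) : MerH.ordAt τ₀ (MerH.ofHol (HolH.coordSub τ₀)) = 1 := by
  rw [MerH.ordAt_ofHol (HolH.coordSub_ne_zero τ₀), HolH.ord_coordSub]
  rfl

end Fermat.Agent.X0N
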