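import Fermat.Agent.RatStr.Laurent_helper1
import Fermat.Agent.X0N.J_helper8_Dilate
import Fermat.Agent.X0N.Mer_helper6_Basic

/-!
# Period change and translation for Laurent `q`-expansions (helper1, for (CUSP))

* (L-P) `isMeroInfty_of_one`, `laurent_of_one : laurent h F = qExpand ℂ h (laurent 1 F)`
  for `F` meromorphic at `i∞` with period `1` and `h : ℕ`, `[NeZero h]`.
* (L-T) `shiftOne F τ = F (1 +ᵥ τ)`, `isMeroInfty_shiftOne`,
  `laurent_shiftOne_coeff : (laurent h (shiftOne F)).coeff n = zetaH h ^ n * (laurent h F).coeff n`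
  with `zetaH h = exp (2πi/h)`.
-/

namespace Fermat.Agent.X0N

open UpperHalfPlane hiding I
open Complex Filter Function Fermat.Agent.RatStr
open scoped Manifold Topology Real

local notation "𝕢" => Periodic.qParam

/-- `UpperHalfPlane.qExpansion_coeff_unique` for plain functions and arbitrary period. -/
theorem qExpansion_coeff_unique_of_period {h : ℝ} (hh : 0 < h) {f : ℍ → ℂ} {c : ℕ → ℂ}
    (hfanalytic : AnalyticAt ℂ (cuspFunction h f) 0)
    (hf : ∀ τ : ℍ, HasSum (fun m ↦ c m • 𝕢 h (τ : ℂ) ^ m) (f τ)) (m : ℕ) :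
    c m = (qExpansion h f).coeff m := by
  have h1 := (hasFPowerSeriesOnBall_cuspFunction hh hfanalytic hf).hasFPowerSeriesAt
  have h2 := hfanalytic.hasFPowerSeriesAt
  have h3 := congr_arg (FormalMultilinearSeries.coeff · m) (h1.eq_formalMultilinearSeries h2)
  simp only [FormalMultilinearSeries.coeff_ofScalars] at h3
  rw [h3, qExpansion_coeff]
  ring

theorem qParam_nat_pow (h : ℕ) [NeZero h] (z : ℂ) : 𝕢 (h : ℝ) z ^ h = 𝕢 1 z := by
  have hh : (h : ℂ) ≠ 0 := by exact_mod_cast NeZero.ne h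
  rw [Periodic.qParam, Periodic.qParam, ← Complex.exp_nat_mul]
  congr 1
  push_cast
  field_simp

theorem qf_nat_pow (h : ℕ) [NeZero h] : qf (h : ℝ) ^ h = qf 1 := by
  funext τ
  simp only [Pi.pow_apply, qf_apply]
  exact qParam_nat_pow h τ

/-- A `1`-periodic function is `h`-periodic. -/
theorem isHolBdd_of_one (h : ℕ) [NeZero h] {G : ℍ → ℂ} (hG : IsHolBdd 1 G) :
    IsHolBdd (h : ℝ) G where
  per := by simpa using hG.per.nat_mul h
  hol := hG.hol
  bdd := hG.bdd

theorem qExpansion_of_one (h : ℕ) [NeZero h] {G : ℍ → ℂ} (hG : IsHolBdd 1 G) :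
    qExpansion (h : ℝ) G = dilPS h (qExpansion 1 G) := by
  have hd : h ≠ 0 := NeZero.ne h
  have hh : (0 : ℝ) < h := by exact_mod_cast Nat.pos_of_ne_zero hd
  ext n
  set c : ℕ → ℂ := fun n => if h ∣ n then (qExpansion 1 G).coeff (n / h) else 0 with hc
  have key : ∀ τ : ℍ, HasSum (fun m => c m • 𝕢 (h : ℝ) (τ : ℂ) ^ m) (G τ) := by
    intro τ
    have h1 := hasSum_qExpansion one_pos hG.per hG.hol hG.bdd τ
    rw [← qParam_nat_pow h] at h1
    have hinj : Function.Injective (fun m : ℕ => h * m) :=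
      fun a b hab => Nat.eq_of_mul_eq_mul_left (Nat.pos_of_ne_zero hd) hab
    rw [← hinj.hasSum_iff]
    · convert h1 using 2 with m
      simp only [comp_apply, hc, dvd_mul_right, if_true,
        Nat.mul_div_cancel_left _ (Nat.pos_of_ne_zero hd)]
      rw [pow_mul]
    · intro x hx
      have : ¬ h ∣ x := by
        rintro ⟨k, rfl⟩
        exact hx ⟨k, rfl⟩
      simp [hc, this]
  have := qExpansion_coeff_unique_of_period hh ((isHolBdd_of_one h hG).analyticAt hh) key n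
  rw [← this, dilPS, PowerSeries.coeff_mk]

/-- (L-P) A function meromorphic at `i∞` with period `1` is so with period `h`. -/
theorem isMeroInfty_of_one (h : ℕ) [NeZero h] {F : ℍ → ℂ} (hF : IsMeroInfty 1 F) :
    IsMeroInfty (h : ℝ) F := by
  obtain ⟨m, hm⟩ := hF
  refine ⟨h * m, ?_⟩
  rw [pow_mul, qf_nat_pow]
  exact isHolBdd_of_one h hm

/-- (L-P) Period change: the Laurent expansion in `q_h = q^{1/h}` is obtained from the one in `q`
by `q ↦ q_h ^ h`. -/
theorem laurent_of_one (h : ℕ) [NeZero h] {F : ℍ → ℂ} (hF : IsMeroInfty 1 F) :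
    laurent (h : ℝ) F = ModularCurve.qExpand ℂ h (laurent 1 F) := by
  have hd : h ≠ 0 := NeZero.ne h
  have hh : (0 : ℝ) < h := by exact_mod_cast Nat.pos_of_ne_zero hd
  obtain ⟨m, hm⟩ := hF
  have hm' : IsHolBdd (h : ℝ) (F * qf (h : ℝ) ^ (h * m)) := by
    rw [pow_mul, qf_nat_pow]
    exact isHolBdd_of_one h hm
  rw [laurent_eq hh hm', laurent_eq one_pos hm, map_mul, ModularCurve.qExpand_single,
    qExpand_ofPowerSeries, pow_mul, qf_nat_pow, qExpansion_of_one h hm]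
  have e : (-((h * m : ℕ) : ℤ)) = (h : ℤ) * -(m : ℤ) := by push_cast; ring
  rw [e]

theorem laurent_of_one_coeff_mul (h : ℕ) [NeZero h] {F : ℍ → ℂ} (hF : IsMeroInfty 1 F) (n : ℤ) :
    (laurent (h : ℝ) F).coeff ((h : ℤ) * n) = (laurent 1 F).coeff n := by
  rw [laurent_of_one h hF, ModularCurve.qExpand_coeff_mul]

theorem laurent_of_one_coeff_of_not_dvd (h : ℕ) [NeZero h] {F : ℍ → ℂ} (hF : IsMeroInfty 1 F)
    {n : ℤ} (hn : ¬ (h : ℤ) ∣ n) : (laurent (h : ℝ) F).coeff n = 0 := by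
  rw [laurent_of_one h hF, ModularCurve.qExpand_coeff_of_not_dvd _ _ hn]

/-- Translation `τ ↦ τ + 1`. -/
noncomputable def shiftOne (F : ℍ → ℂ) : ℍ → ℂ := fun τ => F ((1 : ℝ) +ᵥ τ)

theorem shiftOne_apply (F : ℍ → ℂ) (τ : ℍ) : shiftOne F τ = F ((1 : ℝ) +ᵥ τ) := rfl

theorem shiftOne_mul (F G : ℍ → ℂ) : shiftOne (F * G) = shiftOne F * shiftOne G := rfl

theorem shiftOne_pow (F : ℍ → ℂ) (n : ℕ) : shiftOne (F ^ n) = shiftOne F ^ n := rfl

/-- The root of unity `exp (2πi/h)`. -/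
noncomputable def zetaH (h : ℝ) : ℂ := Complex.exp (2 * π * I / h)

theorem zetaH_ne_zero (h : ℝ) : zetaH h ≠ 0 := Complex.exp_ne_zero _

theorem qParam_add_one (h : ℝ) (z : ℂ) : 𝕢 h (z + 1) = zetaH h * 𝕢 h z := by
  rw [Periodic.qParam, Periodic.qParam, zetaH, ← Complex.exp_add]
  congr 1
  ring

theorem shiftOne_qf (h : ℝ) : shiftOne (qf h) = zetaH h • qf h := by
  funext τ
  simp only [shiftOne_apply, qf_apply, Pi.smul_apply, smul_eq_mul]
  rw [← qParam_add_one]
  congr 1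
  simp [UpperHalfPlane.coe_vadd, add_comm]

theorem isHolBdd_shiftOne {h : ℝ} {G : ℍ → ℂ} (hG : IsHolBdd h G) : IsHolBdd h (shiftOne G) where
  per := by
    apply periodic_comp_ofComplex_of_vadd
    intro τ
    have := vadd_of_periodic_comp_ofComplex hG.per ((1 : ℝ) +ᵥ τ)
    simp only [shiftOne_apply]
    rw [← this, vadd_vadd, vadd_vadd, add_comm]
  hol := by
    have := mdiff_comp_SL hG.hol ModularGroup.T
    convert this using 2 with τ
    rw [shiftOne_apply, UpperHalfPlane.modular_T_smul]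
  bdd := by
    have ht : Tendsto (fun τ : ℍ => (1 : ℝ) +ᵥ τ) atImInfty atImInfty := by
      rw [atImInfty, tendsto_comap_iff]
      have : (UpperHalfPlane.im ∘ fun τ : ℍ => (1 : ℝ) +ᵥ τ) = UpperHalfPlane.im := by
        funext τ; simp [UpperHalfPlane.vadd_im]
      rw [this]
      exact tendsto_comap
    exact hG.bdd.comp_tendsto ht

theorem qExpansion_shiftOne {h : ℝ} (hh : 0 < h) {G : ℍ → ℂ} (hG : IsHolBdd h G) (n : ℕ) :
    (qExpansion h (shiftOne G)).coeff n = zetaH h ^ n * (qExpansion h G).coeff n := by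
  have key : ∀ τ : ℍ, HasSum (fun m => (zetaH h ^ m * (qExpansion h G).coeff m) • 𝕢 h (τ : ℂ) ^ m)
      (shiftOne G τ) := by
    intro τ
    have h1 := hasSum_qExpansion hh hG.per hG.hol hG.bdd ((1 : ℝ) +ᵥ τ)
    have e : (((1 : ℝ) +ᵥ τ : ℍ) : ℂ) = (τ : ℂ) + 1 := by
      simp [UpperHalfPlane.coe_vadd, add_comm]
    rw [e, qParam_add_one] at h1
    rw [shiftOne_apply]
    convert h1 using 2 with m
    simp only [smul_eq_mul]
    rw [mul_pow]
    ring
  exact (qExpansion_coeff_unique_of_period hh ((isHolBdd_shiftOne hG).analyticAt hh) key n).symm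

theorem shiftOne_mul_qf_pow (h : ℝ) (F : ℍ → ℂ) (m : ℕ) :
    shiftOne F * qf h ^ m = (zetaH h ^ m)⁻¹ • shiftOne (F * qf h ^ m) := by
  rw [shiftOne_mul, shiftOne_pow, shiftOne_qf, smul_pow, mul_smul_comm, smul_smul,
    inv_mul_cancel₀ (pow_ne_zero _ (zetaH_ne_zero h)), one_smul]

/-- (L-T) translation preserves meromorphy at `i∞`. -/
theorem isMeroInfty_shiftOne {h : ℝ} {F : ℍ → ℂ} (hF : IsMeroInfty h F) :
    IsMeroInfty h (shiftOne F) := by
  obtain ⟨m, hm⟩ := hF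
  refine ⟨m, ?_⟩
  rw [shiftOne_mul_qf_pow]
  exact (isHolBdd_shiftOne hm).smul _

/-- (L-T) translation by `1` twists the `n`-th Laurent coefficient by `ζ_h ^ n`. -/
theorem laurent_shiftOne_coeff {h : ℝ} (hh : 0 < h) {F : ℍ → ℂ} (hF : IsMeroInfty h F) (n : ℤ) :
    (laurent h (shiftOne F)).coeff n = zetaH h ^ n * (laurent h F).coeff n := by
  obtain ⟨m, hm⟩ := hF
  have hm' : IsHolBdd h (shiftOne F * qf h ^ m) := by
    rw [shiftOne_mul_qf_pow]
    exact (isHolBdd_shiftOne hm).smul _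
  rw [laurent_eq hh hm', laurent_eq hh hm]
  have hn : n = (n + m) + (-(m : ℤ)) := by ring
  rw [hn, HahnSeries.coeff_single_mul_add, HahnSeries.coeff_single_mul_add, one_mul, one_mul,
    ← hn]
  by_cases hk : 0 ≤ n + m
  · obtain ⟨k, hk⟩ := Int.eq_ofNat_of_zero_le hk
    rw [hk, HahnSeries.ofPowerSeries_apply_coeff, HahnSeries.ofPowerSeries_apply_coeff,
      shiftOne_mul_qf_pow, qExpansion_smul ((isHolBdd_shiftOne hm).analyticAt hh), PowerSeries.coeff_smul,
      qExpansion_shiftOne hh hm, smul_eq_mul, ← mul_assoc]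
    congr 1
    have hn' : n = (k : ℤ) - m := by omega
    rw [hn', zpow_sub₀ (zetaH_ne_zero h), zpow_natCast, zpow_natCast]
    field_simp
  · rw [not_le] at hk
    rw [ModularCurve.ofPowerSeries_coeff_of_neg _ hk, ModularCurve.ofPowerSeries_coeff_of_neg _ hk,
      mul_zero]

theorem zetaH_zpow (h : ℝ) (n : ℤ) : zetaH h ^ n = Complex.exp (2 * π * I * n / h) := by
  rw [zetaH, ← Complex.exp_int_mul]
  congr 1
  ring

theorem zetaH_nat_pow_self (h : ℕ) [NeZero h] : zetaH (h : ℝ) ^ h = 1 := by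
  have hh : (h : ℂ) ≠ 0 := by exact_mod_cast NeZero.ne h
  rw [zetaH, ← Complex.exp_nat_mul]
  have : (h : ℂ) * (2 * π * I / ((h : ℝ) : ℂ)) = 2 * π * I := by
    push_cast
    field_simp
  rw [this, Complex.exp_two_pi_mul_I]

/-- (L-T) in literal form. -/
theorem laurent_vadd_one_coeff {h : ℝ} (hh : 0 < h) {F : ℍ → ℂ} (hF : IsMeroInfty h F) (n : ℤ) :
    (laurent h (fun τ => F ((1 : ℝ) +ᵥ τ))).coeff n =
      Complex.exp (2 * π * I * n / h) * (laurent h F).coeff n := by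
  rw [← zetaH_zpow]
  exact laurent_shiftOne_coeff hh hF n

theorem isMeroInfty_vadd_one {h : ℝ} {F : ℍ → ℂ} (hF : IsMeroInfty h F) :
    IsMeroInfty h (fun τ => F ((1 : ℝ) +ᵥ τ)) := isMeroInfty_shiftOne hF

end Fermat.Agent.X0N
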