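import Mathlib

/-!
# (AN3) Transfer of degrees along a linearly disjoint field extension (abstract part)

Setting: fields `k ⊆ L`, field extensions `E₀ / k`, `E / L` and a ring homomorphism `φ : E₀ →+* E`
over `k → L` which preserves linear independence over the base fields (`IsLinDisjHom k L φ`;
e.g. `k((q)) → L((q))` coefficientwise, see `LD_helper1_Laurent`).

* `IsLinDisjHom.transcendental` : `x` transcendental over `k` ⇒ `φ x` transcendental over `L`.
* `IsLinDisjHom.linearIndependent_adjoin` : linearly independent over `k(x)` ⇒ image linearly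
  independent over `L(φ x)`   (the non-trivial direction).
* `IsLinDisjHom.linearIndependent_of_map` : the trivial converse.
* `IsLinDisjHom.map_mem_adjoin`, `IsLinDisjHom.adjoin_image_adjoin` : `L(φ(k(S))) = L(φ S)`.
* `linearIndependent_typed_iff` : independence over `k(x') ⊆ F₀` (typed) versus over
  `k(x) ⊆ E₀` (ambient).
* `IsLinDisjHom.finrank_le`, `IsLinDisjHom.finrank_eq` : `[F₀ : k(x)]` from bounds over `L`.
-/

namespace Fermat.Agent.X0N

open IntermediateField

/-! ### Abstract linear disjointness transfer -/

/-- Powers of a transcendental element are linearly independent. -/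
theorem linearIndependent_pow_of_transcendental {R A : Type*} [CommRing R] [Ring A] [Algebra R A]
    {x : A} (hx : Transcendental R x) : LinearIndependent R (fun a : ℕ => x ^ a) := by
  have h := (Polynomial.basisMonomials R).linearIndependent.map'
    (Polynomial.aeval x).toLinearMap
    (LinearMap.ker_eq_bot.mpr (transcendental_iff_injective.mp hx))
  have e : (fun a : ℕ => x ^ a) =
      (⇑(Polynomial.aeval x).toLinearMap ∘ ⇑(Polynomial.basisMonomials R)) := by
    ext a : 1
    simp
  rw [e]
  exact h

/-- Conversely, if the powers are linearly independent the element is transcendental. -/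
theorem transcendental_of_linearIndependent_pow {R A : Type*} [CommRing R] [Ring A] [Algebra R A]
    {x : A} (hx : LinearIndependent R (fun a : ℕ => x ^ a)) : Transcendental R x := by
  rw [transcendental_iff]
  intro P hP
  rw [linearIndependent_iff'] at hx
  rw [Polynomial.aeval_eq_sum_range] at hP
  ext a
  rw [Polynomial.coeff_zero]
  by_cases ha : a < P.natDegree + 1
  · exact hx (Finset.range (P.natDegree + 1)) (fun a => P.coeff a) hP a (Finset.mem_range.mpr ha)
  · exact Polynomial.coeff_eq_zero_of_natDegree_lt (by omega)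

section Abstract

variable {k L E₀ E : Type*} [Field k] [Field L] [Algebra k L] [Field E₀] [Field E]
  [Algebra k E₀] [Algebra L E]

/-- The hypothesis: `ι : E₀ → E` is a ring homomorphism over `k → L` which preserves linear
independence (`E₀` and `L` are linearly disjoint over `k` inside `E`). -/
structure IsLinDisjHom (k L : Type*) {E₀ E : Type*} [Field k] [Field L] [Algebra k L] [Field E₀]
    [Field E] [Algebra k E₀] [Algebra L E] (φ : E₀ →+* E) : Prop where
  map_algebraMap : ∀ a : k, φ (algebraMap k E₀ a) = algebraMap L E (algebraMap k L a)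
  linIndep : ∀ {ι : Type} {f : ι → E₀}, LinearIndependent k f →
    LinearIndependent L (fun i => φ (f i))

variable {φ : E₀ →+* E}

theorem IsLinDisjHom.transcendental (hφ : IsLinDisjHom k L φ) {x : E₀}
    (hx : Transcendental k x) : Transcendental L (φ x) := by
  have h2 := hφ.linIndep (linearIndependent_pow_of_transcendental hx)
  apply transcendental_of_linearIndependent_pow
  have e : (fun a : ℕ => (φ x) ^ a) = fun a : ℕ => φ (x ^ a) := by
    ext a : 1
    simp
  rw [e]
  exact h2

open IntermediateField.algebraAdjoinAdjoin in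
/-- **Claim 1**: a family which is linearly independent over `k(x)` stays linearly independent
over `L(φ x)`. -/
theorem IsLinDisjHom.linearIndependent_adjoin (hφ : IsLinDisjHom k L φ) {x : E₀}
    (hx : Transcendental k x) {ι : Type} {b : ι → E₀} (hb : LinearIndependent k⟮x⟯ b) :
    LinearIndependent L⟮φ x⟯ (fun i => φ (b i)) := by
  classical
  set y := φ x with hy
  -- powers of the generator are `k`-linearly independent
  have h1 : LinearIndependent k (fun a : ℕ => (AdjoinSimple.gen k x) ^ a) := by
    have hg : Transcendental k (AdjoinSimple.gen k x) := by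
      rw [← AdjoinSimple.coe_gen k x] at hx
      exact (transcendental_algebraMap_iff (algebraMap k⟮x⟯ E₀).injective).mp hx
    exact linearIndependent_pow_of_transcendental hg
  have h2 := linearIndependent_smul h1 hb
  have h3 := hφ.linIndep h2
  have h4 : LinearIndependent L (fun p : ℕ × ι => y ^ p.1 * φ (b p.2)) := by
    have e : (fun p : ℕ × ι => y ^ p.1 * φ (b p.2)) =
        fun p : ℕ × ι => φ ((AdjoinSimple.gen k x) ^ p.1 • b p.2) := by
      ext p : 1
      rw [IntermediateField.smul_def, smul_eq_mul, map_mul]
      simp [hy]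
    rw [e]
    exact h3
  -- independence over the polynomial subalgebra
  have h5 : LinearIndependent (Algebra.adjoin L {y}) (fun i => φ (b i)) := by
    rw [linearIndependent_iff']
    intro s g hg i hi
    -- write each coefficient as a polynomial in `y`
    have hpoly : ∀ j, ∃ P : Polynomial L, Polynomial.aeval y P = (g j : E) := by
      intro j
      have h := (g j).2
      have e : Algebra.adjoin L {y} = (Polynomial.aeval (R := L) y).range :=
        Algebra.adjoin_singleton_eq_range_aeval L y
      have h' : (g j : E) ∈ (Polynomial.aeval (R := L) y).range := by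
        rw [← e]; exact h
      exact h'
    choose P hP using hpoly
    -- a common degree bound
    obtain ⟨D, hD⟩ : ∃ D : ℕ, ∀ j ∈ s, (P j).natDegree < D := by
      refine ⟨s.sup (fun j => (P j).natDegree) + 1, fun j hj => ?_⟩
      exact Nat.lt_succ_of_le (Finset.le_sup (f := fun j => (P j).natDegree) hj)
    rw [linearIndependent_iff'] at h4
    have h6 : ∑ p ∈ Finset.range D ×ˢ s, (P p.2).coeff p.1 • (y ^ p.1 * φ (b p.2)) = 0 := by
      rw [Finset.sum_product_right]
      rw [← hg]
      apply Finset.sum_congr rfl
      intro j hj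
      rw [Subalgebra.smul_def, ← hP j, Polynomial.aeval_eq_sum_range' (hD j hj), smul_eq_mul,
        Finset.sum_mul]
      apply Finset.sum_congr rfl
      intro a _
      rw [smul_mul_assoc]
    have h7 := h4 (Finset.range D ×ˢ s) (fun p => (P p.2).coeff p.1) h6
    have h8 : P i = 0 := by
      ext a
      by_cases ha : a < D
      · exact h7 (a, i) (Finset.mem_product.mpr ⟨Finset.mem_range.mpr ha, hi⟩)
      · rw [Polynomial.coeff_zero]
        exact Polynomial.coeff_eq_zero_of_natDegree_lt (lt_of_lt_of_le (hD i hi) (not_lt.mp ha))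
    apply Subtype.ext
    rw [← hP i, h8, map_zero]
    rfl
  exact (LinearIndependent.iff_fractionRing (Algebra.adjoin L {y}) L⟮y⟯).mp h5

/-- Preimage of an intermediate field under `φ`, as an intermediate field of `E₀ / k`. -/
def IsLinDisjHom.comap (hφ : IsLinDisjHom k L φ) (F' : IntermediateField L E) :
    IntermediateField k E₀ :=
  Subfield.toIntermediateField (F'.toSubfield.comap φ) (fun a => by
    show φ (algebraMap k E₀ a) ∈ F'
    rw [hφ.map_algebraMap]
    exact F'.algebraMap_mem _)

@[simp] theorem IsLinDisjHom.mem_comap (hφ : IsLinDisjHom k L φ) (F' : IntermediateField L E)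
    (z : E₀) : z ∈ hφ.comap F' ↔ φ z ∈ F' := Iff.rfl

/-- `φ` maps `k(S)` into `L(φ S)`. -/
theorem IsLinDisjHom.map_mem_adjoin (hφ : IsLinDisjHom k L φ) (S : Set E₀) {z : E₀}
    (hz : z ∈ adjoin k S) : φ z ∈ adjoin L (φ '' S) := by
  have h : adjoin k S ≤ hφ.comap (adjoin L (φ '' S)) := by
    rw [adjoin_le_iff]
    intro s hs
    exact subset_adjoin L _ ⟨s, hs, rfl⟩
  exact h hz

theorem IsLinDisjHom.adjoin_image_adjoin (hφ : IsLinDisjHom k L φ) (S : Set E₀) :
    adjoin L (φ '' (adjoin k S : Set E₀)) = adjoin L (φ '' S) := by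
  apply le_antisymm
  · rw [adjoin_le_iff]
    rintro _ ⟨z, hz, rfl⟩
    exact hφ.map_mem_adjoin S hz
  · exact adjoin.mono L _ _ (Set.image_mono (subset_adjoin k S))

theorem IsLinDisjHom.injective (_hφ : IsLinDisjHom k L φ) : Function.Injective φ := φ.injective

/-- The trivial direction: `φ` reflects linear independence over `k(x)`, `L(φ x)`. -/
theorem IsLinDisjHom.linearIndependent_of_map (hφ : IsLinDisjHom k L φ) {x : E₀}
    {ι : Type*} {b : ι → E₀} (hb : LinearIndependent L⟮φ x⟯ (fun i => φ (b i))) :
    LinearIndependent k⟮x⟯ b := by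
  rw [linearIndependent_iff'] at hb ⊢
  intro s g hg i hi
  have hmem : ∀ r : k⟮x⟯, φ (r : E₀) ∈ L⟮φ x⟯ := by
    intro r
    have := hφ.map_mem_adjoin {x} r.2
    simpa using this
  have h1 := hb s (fun j => ⟨φ (g j : E₀), hmem (g j)⟩) (by
    have h2 := congrArg φ hg
    rw [map_sum, map_zero] at h2
    rw [← h2]
    apply Finset.sum_congr rfl
    intro j _
    rw [IntermediateField.smul_def, IntermediateField.smul_def, smul_eq_mul, smul_eq_mul, map_mul]) i hi
  have h3 : φ (g i : E₀) = 0 := congrArg Subtype.val h1
  have h4 : (g i : E₀) = 0 := by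
    apply φ.injective
    rw [h3, map_zero]
  exact Subtype.ext h4

end Abstract

/-! ### Typed versus ambient linear independence -/

section Typed

variable {k E₀ : Type*} [Field k] [Field E₀] [Algebra k E₀]

/-- For an intermediate field `F₀` and `x' : F₀`, linear independence over `k(x') ⊆ F₀` of a
family in `F₀` is the same as linear independence over `k(x) ⊆ E₀` of the family in `E₀`. -/
theorem linearIndependent_typed_iff (F₀ : IntermediateField k E₀) (x' : F₀) {ι : Type*}
    (b : ι → F₀) :
    LinearIndependent k⟮x'⟯ b ↔ LinearIndependent k⟮(x' : E₀)⟯ (fun i => (b i : E₀)) := by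
  have hlift : ∀ r : F₀, r ∈ k⟮x'⟯ ↔ (r : E₀) ∈ k⟮(x' : E₀)⟯ := by
    intro r
    rw [← IntermediateField.lift_adjoin_simple, IntermediateField.mem_lift]
  constructor
  · intro h
    have := h.map_of_surjective_injective
      (fun r : k⟮x'⟯ => (⟨((r : F₀) : E₀), (hlift r).mp r.2⟩ : k⟮(x' : E₀)⟯))
      (F₀.val.toLinearMap.toAddMonoidHom)
      (by
        rintro ⟨s, hs⟩
        have hs' : s ∈ F₀ := by
          have : k⟮(x' : E₀)⟯ ≤ F₀ := by
            rw [adjoin_simple_le_iff]; exact x'.2
          exact this hs
        exact ⟨⟨⟨s, hs'⟩, (hlift ⟨s, hs'⟩).mpr hs⟩, rfl⟩)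
      (by
        intro m hm
        exact Subtype.ext hm)
      (by
        intro r m
        rfl)
    exact this
  · intro h
    rw [linearIndependent_iff'] at h ⊢
    intro s g hg i hi
    have h1 := h s (fun j => ⟨((g j : F₀) : E₀), (hlift (g j)).mp (g j).2⟩) (by
      have h2 := congrArg (fun z : F₀ => (z : E₀)) hg
      simp only [AddSubmonoidClass.coe_finsetSum, ZeroMemClass.coe_zero] at h2
      rw [← h2]
      apply Finset.sum_congr rfl
      intro j _
      rfl) i hi
    have h3 : ((g i : F₀) : E₀) = 0 := congrArg Subtype.val h1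
    exact Subtype.ext (Subtype.ext h3)

end Typed

/-! ### The degree transfer theorem -/

section Degree

variable {k L E₀ E : Type*} [Field k] [Field L] [Algebra k L] [Field E₀] [Field E]
  [Algebra k E₀] [Algebra L E] {φ : E₀ →+* E}

/-- **Upper bound transfer.** If every `L(φ x)`-linearly independent finite family inside `F'`
has at most `n` elements, and `φ` maps `F₀` into `F'`, then `F₀` is finite over `k(x)` of
degree at most `n`. -/
theorem IsLinDisjHom.finrank_le (hφ : IsLinDisjHom k L φ) (F₀ : IntermediateField k E₀)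
    (x' : F₀) (hx : Transcendental k (x' : E₀)) (F' : IntermediateField L E)
    (hF' : ∀ z ∈ F₀, φ z ∈ F') (n : ℕ)
    (hub : ∀ (ι : Type) [Fintype ι] (b : ι → E), (∀ i, b i ∈ F') →
      LinearIndependent L⟮φ (x' : E₀)⟯ b → Fintype.card ι ≤ n) :
    Module.Finite k⟮x'⟯ F₀ ∧ Module.finrank k⟮x'⟯ F₀ ≤ n := by
  have hrank : Module.rank k⟮x'⟯ F₀ ≤ n := by
    apply rank_le
    intro s hs
    -- pass to a `Type`-valued index
    have hs' : LinearIndependent k⟮x'⟯ (fun i : Fin s.card => ((s.equivFin.symm i : s) : F₀)) :=
      hs.comp _ (s.equivFin.symm.injective)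
    have h1 := (linearIndependent_typed_iff F₀ x' _).mp hs'
    have h2 := hφ.linearIndependent_adjoin hx h1
    have h3 := hub (Fin s.card) _ (fun i => hF' _ (SetLike.coe_mem _)) h2
    simpa using h3
  have hfin : Module.Finite k⟮x'⟯ F₀ := by
    rw [← Module.rank_lt_aleph0_iff]
    exact lt_of_le_of_lt hrank (Cardinal.natCast_lt_aleph0)
  exact ⟨hfin, Module.finrank_le_of_rank_le hrank⟩

/-- **Degree transfer.** Upper bound over `L`, plus an element whose first `n` powers are
independent over `L(φ x)`, pin down the degree `[F₀ : k(x)] = n`. -/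
theorem IsLinDisjHom.finrank_eq (hφ : IsLinDisjHom k L φ) (F₀ : IntermediateField k E₀)
    (x' : F₀) (hx : Transcendental k (x' : E₀)) (F' : IntermediateField L E)
    (hF' : ∀ z ∈ F₀, φ z ∈ F') (n : ℕ)
    (hub : ∀ (ι : Type) [Fintype ι] (b : ι → E), (∀ i, b i ∈ F') →
      LinearIndependent L⟮φ (x' : E₀)⟯ b → Fintype.card ι ≤ n)
    (t : F₀)
    (hlb : LinearIndependent L⟮φ (x' : E₀)⟯ (fun i : Fin n => (φ (t : E₀)) ^ (i : ℕ))) :
    Module.Finite k⟮x'⟯ F₀ ∧ Module.finrank k⟮x'⟯ F₀ = n := by
  obtain ⟨hfin, hle⟩ := hφ.finrank_le F₀ x' hx F' hF' n hub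
  refine ⟨hfin, le_antisymm hle ?_⟩
  have h1 : LinearIndependent k⟮(x' : E₀)⟯ (fun i : Fin n => ((t : E₀)) ^ (i : ℕ)) := by
    apply hφ.linearIndependent_of_map
    simpa using hlb
  have h2 : LinearIndependent k⟮x'⟯ (fun i : Fin n => t ^ (i : ℕ)) := by
    rw [linearIndependent_typed_iff]
    simpa using h1
  have := h2.fintype_card_le_finrank
  simpa using this

end Degree

end Fermat.Agent.X0N
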