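import Mathlib
import Fermat.Prelude.Def_ModularCurve_ArithmeticGalois
import Fermat.Agent.X0N.LD_helper1_Abstract

/-!
# (AN3) Linear disjointness for Laurent series and the modular function fields

* `linIndep_iota` : a `k`-linearly independent family in `k((q))` stays `L`-linearly independent
  in `L((q))` (coefficientwise base change `iota k L = coeffMap (algebraMap k L)`).
* `isLinDisjHom_iota : IsLinDisjHom k L (iota k L)`.
* `transcendental_jq`, `transcendental_coeffEmb_jq`.
* `iota_coeffEmb`, `iota_mem_laurentBaseChange`, `laurentBaseChange_eq_adjoin`.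
* `finrank_laurentBaseChange_eq` : the degree `[K·F₀ : K(x)]` computed from bounds over a bigger
  field `L` (e.g. `K = ℚ̄`, `L = ℂ`).
-/

namespace Fermat.Agent.X0N

open ModularCurve HahnSeries IntermediateField

/-- Linear independence with respect to the module structure coming from an `Algebra` instance
(for Laurent series there are two propositionally-but-not-definitionally equal `k`-module
structures; all field theory uses this one). -/
abbrev LinIndep (R : Type*) {ι M : Type*} [CommRing R] [Ring M] [Algebra R M]
    (f : ι → M) : Prop :=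
  @LinearIndependent ι R M f _ _ Algebra.toModule

section T1

variable {k L : Type*} [Field k] [Field L] [Algebra k L]

/-- Coefficientwise base change of Laurent series along `k → L`. -/
noncomputable abbrev iota (k L : Type*) [Field k] [Field L] [Algebra k L] :
    LaurentSeries k →+* LaurentSeries L :=
  coeffMap (algebraMap k L)

theorem iota_injective : Function.Injective (iota k L) := by
  intro x y hxy
  ext n
  have := congrArg (fun z => z.coeff n) hxy
  simp only [coeffMap_coeff] at this
  exact (algebraMap k L).injective this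

theorem coeff_algebraMap_mul (a : k) (x : LaurentSeries k) (n : ℤ) :
    (algebraMap k (LaurentSeries k) a * x).coeff n = a * x.coeff n := by
  rw [algebraMap_laurentSeries_eq_single, HahnSeries.single_zero_mul_eq_smul,
    HahnSeries.coeff_smul, smul_eq_mul]

theorem iota_algebraMap (a : k) :
    iota k L (algebraMap k (LaurentSeries k) a) = algebraMap L (LaurentSeries L) (algebraMap k L a) := by
  rw [algebraMap_laurentSeries_eq_single, algebraMap_laurentSeries_eq_single, coeffMap_single]

/-- **Linear disjointness, coefficientwise form.** A `k`-linearly independent family of Laurent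
series over `k` stays `L`-linearly independent in `L((q))`. -/
theorem linIndep_iota {ι : Type*} {f : ι → LaurentSeries k}
    (hf : LinIndep k f) : LinIndep L (fun i => iota k L (f i)) := by
  classical
  replace hf := (@linearIndependent_iff' ι k (LaurentSeries k) _ _ Algebra.toModule f).mp hf
  refine (@linearIndependent_iff' ι L (LaurentSeries L) _ _ Algebra.toModule _).mpr ?_
  simp only [Algebra.smul_def] at hf ⊢
  intro s c hc i hi
  -- decompose the coefficients along a `k`-basis of `L`
  let b := Module.Basis.ofVectorSpace k L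
  -- for each basis index `β`, the `β`-coordinates give a `k`-linear relation
  have key : ∀ β, ∑ j ∈ s, algebraMap k (LaurentSeries k) (b.repr (c j) β) * f j = 0 := by
    intro β
    ext n
    have h1 := congrArg (fun z => z.coeff n) hc
    simp only [HahnSeries.coeff_sum, coeff_algebraMap_mul, coeffMap_coeff,
      HahnSeries.coeff_zero] at h1
    have h2 := congrArg (fun z => b.repr z β) h1
    simp only [map_sum, map_zero, Finsupp.coe_finsetSum, Finset.sum_apply,
      Finsupp.coe_zero, Pi.zero_apply] at h2
    simp only [HahnSeries.coeff_sum, coeff_algebraMap_mul, HahnSeries.coeff_zero]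
    rw [← h2]
    apply Finset.sum_congr rfl
    intro j _
    have h3 : c j * algebraMap k L ((f j).coeff n) = (f j).coeff n • c j := by
      rw [Algebra.smul_def, mul_comm]
    rw [h3, map_smul, Finsupp.smul_apply, smul_eq_mul, mul_comm]
  have h4 : ∀ β, b.repr (c i) β = 0 := fun β => hf s (fun j => b.repr (c j) β) (key β) i hi
  have h5 : b.repr (c i) = 0 := by
    ext β
    simp [h4 β]
  exact b.repr.map_eq_zero_iff.mp h5

end T1


/-! ### The instance of the abstract framework -/

section Instance

variable {k L : Type*} [Field k] [Field L] [Algebra k L]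

theorem isLinDisjHom_iota : IsLinDisjHom k L (iota k L) where
  map_algebraMap := iota_algebraMap
  linIndep := fun hf => linIndep_iota hf

end Instance

/-! ### Transcendence of `j` -/

theorem transcendental_jq : Transcendental ℚ jq := by
  rw [transcendental_iff]
  intro p hp
  by_contra hp0
  set n := p.natDegree with hn
  have hcoeff : (Polynomial.aeval jq p).coeff (-(n : ℤ)) = p.coeff n := by
    rw [Polynomial.aeval_def, Polynomial.eval₂_eq_sum_range, HahnSeries.coeff_sum,
      Finset.sum_eq_single n]
    · rw [algebraMap_apply_eq_single, HahnSeries.coeff_single_zero_mul,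
        coeff_jq_pow_self, mul_one]
    · intro i hi hin
      have hilt : i < n := lt_of_le_of_ne (Nat.lt_succ_iff.mp (Finset.mem_range.mp hi)) hin
      rw [algebraMap_apply_eq_single, HahnSeries.coeff_single_zero_mul,
        coeff_jq_pow_of_lt, mul_zero]
      omega
    · intro hn'
      exact absurd (Finset.self_mem_range_succ n) hn'
  rw [hp] at hcoeff
  simp only [HahnSeries.coeff_zero] at hcoeff
  exact hp0 (Polynomial.leadingCoeff_eq_zero.mp hcoeff.symm)

section BaseChange

variable (K : Type*) [Field K] [Algebra ℚ K]

theorem coeffEmb_eq_iota : (coeffEmb K : LaurentSeries ℚ →+* LaurentSeries K) = iota ℚ K := rfl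

theorem isLinDisjHom_coeffEmb : IsLinDisjHom ℚ K (coeffEmb K) := isLinDisjHom_iota

theorem transcendental_coeffEmb_jq : Transcendental K (coeffEmb K jq) :=
  (isLinDisjHom_coeffEmb K).transcendental transcendental_jq

/-- `K·F₀` is generated over `K` by the images of any set of generators of `F₀`. -/
theorem laurentBaseChange_adjoin (S : Set (LaurentSeries ℚ)) :
    laurentBaseChange K (IntermediateField.adjoin ℚ S) =
      IntermediateField.adjoin K (coeffEmb K '' S) :=
  (isLinDisjHom_coeffEmb K).adjoin_image_adjoin S

variable {K}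
variable {L : Type*} [Field L] [Algebra ℚ L] [Algebra K L] [IsScalarTower ℚ K L]

theorem iota_coeffEmb (z : LaurentSeries ℚ) : iota K L (coeffEmb K z) = coeffEmb L z := by
  ext n
  simp only [coeffMap_coeff, coeffEmb_coeff]
  exact (IsScalarTower.algebraMap_apply ℚ K L _).symm

/-- `iota K L` maps `K·F₀` into `L·F₀`. -/
theorem iota_mem_laurentBaseChange (F₀ : IntermediateField ℚ (LaurentSeries ℚ))
    {z : LaurentSeries K} (hz : z ∈ laurentBaseChange K F₀) :
    iota K L z ∈ laurentBaseChange L F₀ := by
  have h := (isLinDisjHom_iota (k := K) (L := L)).map_mem_adjoin _ hz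
  refine (IntermediateField.adjoin.mono L _ _ ?_) h
  rintro _ ⟨_, ⟨w, hw, rfl⟩, rfl⟩
  exact ⟨w, hw, (iota_coeffEmb w).symm⟩

/-- **Degree transfer for the modular function fields.** Let `F₀ ⊆ ℚ((q))` be a field containing a
transcendental `x` and an element `t`.  If over the big field `L` (e.g. `ℂ`) every
`L(x)`-independent family in `L·F₀` has at most `n` elements, and `1, t, …, t^(n-1)` are
`L(x)`-independent, then `[K·F₀ : K(x)] = n` for every intermediate `ℚ ⊆ K ⊆ L`
(e.g. `K = ℚ̄`). -/
theorem finrank_laurentBaseChange_eq (F₀ : IntermediateField ℚ (LaurentSeries ℚ))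
    {x t : LaurentSeries ℚ} (hx : x ∈ F₀) (hxt : Transcendental ℚ x) (ht : t ∈ F₀) (n : ℕ)
    (hub : ∀ (ι : Type) [Fintype ι] (b : ι → LaurentSeries L),
      (∀ i, b i ∈ laurentBaseChange L F₀) →
      LinearIndependent L⟮coeffEmb L x⟯ b → Fintype.card ι ≤ n)
    (hlb : LinearIndependent L⟮coeffEmb L x⟯ (fun i : Fin n => (coeffEmb L t) ^ (i : ℕ))) :
    Module.Finite
        K⟮(⟨coeffEmb K x, coeffEmb_mem_laurentBaseChange K hx⟩ : laurentBaseChange K F₀)⟯
        (laurentBaseChange K F₀) ∧
      Module.finrank
        K⟮(⟨coeffEmb K x, coeffEmb_mem_laurentBaseChange K hx⟩ : laurentBaseChange K F₀)⟯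
        (laurentBaseChange K F₀) = n := by
  have hφ := isLinDisjHom_iota (k := K) (L := L)
  have hxK : Transcendental K (coeffEmb K x) := (isLinDisjHom_coeffEmb K).transcendental hxt
  refine hφ.finrank_eq (laurentBaseChange K F₀)
    ⟨coeffEmb K x, coeffEmb_mem_laurentBaseChange K hx⟩ hxK (laurentBaseChange L F₀)
    (fun z hz => iota_mem_laurentBaseChange F₀ hz) n ?_
    ⟨coeffEmb K t, coeffEmb_mem_laurentBaseChange K ht⟩ ?_
  · intro ι _ b hb hli
    refine hub ι b hb ?_
    have e : iota K L (coeffEmb K x) = coeffEmb L x := iota_coeffEmb x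
    change LinearIndependent L⟮iota K L (coeffEmb K x)⟯ b at hli
    rw [e] at hli
    exact hli
  · have e : iota K L (coeffEmb K x) = coeffEmb L x := iota_coeffEmb x
    have e' : iota K L (coeffEmb K t) = coeffEmb L t := iota_coeffEmb t
    change LinearIndependent L⟮iota K L (coeffEmb K x)⟯
      (fun i : Fin n => (iota K L (coeffEmb K t)) ^ (i : ℕ))
    rw [e, e']
    exact hlb

end BaseChange

/-! ### The modular function field over `ℚ̄` -/

section Modular

variable (N : ℕ) [NeZero N]

theorem jq_mem_full : jq ∈ modularFunctionFieldFull N :=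
  modularFunctionField_le_full N (jq_mem N)

theorem jqN_mem_full : jqN N ∈ modularFunctionFieldFull N :=
  jqd_mem_full N dvd_rfl

/-- `K·ℚ(j_d : d ∣ N)` is generated over `K` by the `j_d`. -/
theorem laurentBaseChange_full_eq_adjoin (K : Type*) [Field K] [Algebra ℚ K] :
    laurentBaseChange K (modularFunctionFieldFull N) =
      IntermediateField.adjoin K (coeffEmb K '' divisorExpansions N) :=
  laurentBaseChange_adjoin K _

/-- The function `j` as an element of the function field of `X₀(N)` over `ℚ̄`. -/
noncomputable def jBar : modularFunctionFieldBar N :=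
  ⟨coeffEmb (AlgebraicClosure ℚ) jq, coeffEmb_mem_laurentBaseChange _ (jq_mem_full N)⟩

@[simp] theorem coe_jBar :
    ((jBar N : modularFunctionFieldBar N) : LaurentSeries (AlgebraicClosure ℚ)) =
      coeffEmb (AlgebraicClosure ℚ) jq := rfl

theorem transcendental_jBar : Transcendental (AlgebraicClosure ℚ) (jBar N) := by
  have h := transcendental_coeffEmb_jq (AlgebraicClosure ℚ)
  rw [← coe_jBar N] at h
  exact (transcendental_algebraMap_iff
    (algebraMap (modularFunctionFieldBar N) (LaurentSeries (AlgebraicClosure ℚ))).injective).mp h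

/-- **Degree of the function field of `X₀(N)` over `ℚ̄(j)` from complex-analytic input.**
`hub`: over `ℂ`, at most `n` elements of `ℂ(j_d : d ∣ N)` can be `ℂ(j)`-linearly independent;
`hlb`: `1, j_N, …, j_N^(n-1)` are `ℂ(j)`-linearly independent.  (Both for `n = ψ(N)` are the
content of (AN1).) -/
theorem finrank_modularFunctionFieldBar [Algebra (AlgebraicClosure ℚ) ℂ]
    [IsScalarTower ℚ (AlgebraicClosure ℚ) ℂ] (n : ℕ)
    (hub : ∀ (ι : Type) [Fintype ι] (b : ι → LaurentSeries ℂ),
      (∀ i, b i ∈ laurentBaseChange ℂ (modularFunctionFieldFull N)) →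
      LinearIndependent ℂ⟮coeffEmb ℂ jq⟯ b → Fintype.card ι ≤ n)
    (hlb : LinearIndependent ℂ⟮coeffEmb ℂ jq⟯ (fun i : Fin n => (coeffEmb ℂ (jqN N)) ^ (i : ℕ))) :
    Module.Finite (AlgebraicClosure ℚ)⟮jBar N⟯ (modularFunctionFieldBar N) ∧
      Module.finrank (AlgebraicClosure ℚ)⟮jBar N⟯ (modularFunctionFieldBar N) = n :=
  finrank_laurentBaseChange_eq (K := AlgebraicClosure ℚ) (L := ℂ) (modularFunctionFieldFull N)
    (jq_mem_full N) transcendental_jq (jqN_mem_full N) n hub hlb

end Modular

end Fermat.Agent.X0N
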