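import Mathlib
import Fermat.Agent.X0N.LD_helper1_Abstract

/-!
# (AN3) continued: minimal polynomials under a linearly disjoint homomorphism

* `IsLinDisjHom.adjoinMap hφ x : k⟮x⟯ →+* L⟮φ x⟯` : restriction of `φ`.
* `IsLinDisjHom.minpoly_map` : `(minpoly k⟮x⟯ y).map (hφ.adjoinMap x) = minpoly L⟮φ x⟯ (φ y)`.
* `IsLinDisjHom.of_factor` : linear disjointness can be checked after an `L`-linear map.
-/

namespace Fermat.Agent.X0N

open IntermediateField

section MinPoly

variable {k L E₀ E : Type*} [Field k] [Field L] [Algebra k L] [Field E₀] [Field E]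
  [Algebra k E₀] [Algebra L E] {φ : E₀ →+* E}

theorem IsLinDisjHom.map_mem_adjoin_simple (hφ : IsLinDisjHom k L φ) (x : E₀) (r : k⟮x⟯) :
    φ (r : E₀) ∈ L⟮φ x⟯ := by
  have := hφ.map_mem_adjoin {x} r.2
  simpa using this

/-- The restriction of `φ` to `k(x) → L(φ x)`. -/
noncomputable def IsLinDisjHom.adjoinMap (hφ : IsLinDisjHom k L φ) (x : E₀) :
    k⟮x⟯ →+* L⟮φ x⟯ where
  toFun r := ⟨φ (r : E₀), hφ.map_mem_adjoin_simple x r⟩
  map_one' := Subtype.ext (by simp)
  map_mul' a b := Subtype.ext (by simp)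
  map_zero' := Subtype.ext (by simp)
  map_add' a b := Subtype.ext (by simp)

@[simp] theorem IsLinDisjHom.coe_adjoinMap (hφ : IsLinDisjHom k L φ) (x : E₀) (r : k⟮x⟯) :
    ((hφ.adjoinMap x r : L⟮φ x⟯) : E) = φ (r : E₀) := rfl

/-- Evaluating a mapped polynomial: `(p.map ψ)(φ y) = φ (p(y))`. -/
theorem IsLinDisjHom.aeval_map_adjoinMap (hφ : IsLinDisjHom k L φ) (x y : E₀)
    (p : Polynomial k⟮x⟯) :
    Polynomial.aeval (φ y) (p.map (hφ.adjoinMap x)) = φ (Polynomial.aeval y p) := by
  induction p using Polynomial.induction_on' with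
  | add p q hp hq => simp only [Polynomial.map_add, map_add, hp, hq]
  | monomial n a =>
    simp only [Polynomial.map_monomial, Polynomial.aeval_monomial, map_mul, map_pow]
    rfl

/-- **Minimal polynomials are preserved**: for `y` integral over `k(x)`, the minimal polynomial
of `φ y` over `L(φ x)` is the image of the minimal polynomial of `y` over `k(x)`. -/
theorem IsLinDisjHom.minpoly_map (hφ : IsLinDisjHom k L φ) {x y : E₀}
    (hx : Transcendental k x) (hy : IsIntegral k⟮x⟯ y) :
    (minpoly k⟮x⟯ y).map (hφ.adjoinMap x) = minpoly L⟮φ x⟯ (φ y) := by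
  set p := minpoly k⟮x⟯ y with hp
  have hmonic : (p.map (hφ.adjoinMap x)).Monic := (minpoly.monic hy).map _
  have hroot : Polynomial.aeval (φ y) (p.map (hφ.adjoinMap x)) = 0 := by
    rw [hφ.aeval_map_adjoinMap, minpoly.aeval, map_zero]
  -- the first `deg p` powers of `φ y` are independent over `L(φ x)`
  have hli : LinearIndependent L⟮φ x⟯ (fun i : Fin p.natDegree => (φ y) ^ (i : ℕ)) := by
    have h1 : LinearIndependent k⟮x⟯ (fun i : Fin p.natDegree => y ^ (i : ℕ)) :=
      linearIndependent_pow y
    have h2 := hφ.linearIndependent_adjoin hx h1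
    simpa using h2
  refine minpoly.unique _ _ hmonic hroot ?_
  intro q hq hq0
  by_contra hlt
  push Not at hlt
  -- `q` has degree `< deg p` and kills `φ y`: contradiction with independence
  have hdeg : q.natDegree < p.natDegree := by
    have h3 : (p.map (hφ.adjoinMap x)).natDegree = p.natDegree :=
      Polynomial.natDegree_map_eq_of_injective (hφ.adjoinMap x).injective p
    have := Polynomial.natDegree_lt_natDegree hq.ne_zero hlt
    rwa [h3] at this
  rw [linearIndependent_iff'] at hli
  have h4 : ∑ i : Fin p.natDegree, q.coeff (i : ℕ) • (φ y) ^ (i : ℕ) = 0 := by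
    rw [← hq0, Polynomial.aeval_eq_sum_range' hdeg]
    rw [Finset.sum_fin_eq_sum_range]
    apply Finset.sum_congr rfl
    intro i hi
    rw [dif_pos (Finset.mem_range.mp hi)]
  have h5 := hli Finset.univ (fun i => q.coeff (i : ℕ)) h4 ⟨q.natDegree, hdeg⟩ (Finset.mem_univ _)
  simp only at h5
  have : q.leadingCoeff = 0 := h5
  rw [hq.leadingCoeff] at this
  exact one_ne_zero this

end MinPoly

section Factor

variable {k L E₀ E E' : Type*} [Field k] [Field L] [Algebra k L] [Field E₀] [Field E] [Field E']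
  [Algebra k E₀] [Algebra L E] [Algebra L E']

/-- If `φ` becomes a linearly disjoint homomorphism `χ` after composing with an `L`-linear map
`Λ` defined on an `L`-submodule containing the image of `φ`, then `φ` is itself linearly
disjoint. -/
theorem IsLinDisjHom.of_factor {φ : E₀ →+* E} {χ : E₀ →+* E'} (hχ : IsLinDisjHom k L χ)
    (hmap : ∀ a : k, φ (algebraMap k E₀ a) = algebraMap L E (algebraMap k L a))
    (M : Submodule L E) (hM : ∀ z, φ z ∈ M) (Λ : M →ₗ[L] E')
    (hΛ : ∀ z, Λ ⟨φ z, hM z⟩ = χ z) : IsLinDisjHom k L φ where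
  map_algebraMap := hmap
  linIndep := by
    intro ι f hf
    have h1 := hχ.linIndep hf
    have h2 : LinearIndependent L (fun i => (⟨φ (f i), hM (f i)⟩ : M)) := by
      apply LinearIndependent.of_comp Λ
      have e : (Λ ∘ fun i => (⟨φ (f i), hM (f i)⟩ : M)) = fun i => χ (f i) := by
        ext i
        exact hΛ (f i)
      rw [e]
      exact h1
    have h3 := h2.map' M.subtype (Submodule.ker_subtype M)
    exact h3

end Factor

end Fermat.Agent.X0N
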