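import Mathlib
import Fermat.Agent.X0N.Mer_helper6_Basic
import Fermat.Agent.RatStr.Laurent_helper1
import Fermat.Prelude.Def_ModularCurve_LaurentCoeff

/-!
# Realising formal Laurent series in `q` as meromorphic functions on `ℍ`

For a field `k` with an embedding `ι : k →+* ℂ` we consider
* `convSeries ι`: the subring of `k((q))` of series whose image in `ℂ((q))` is the Laurent
  expansion at `i∞` of a function holomorphic on `ℍ`, `1`-periodic, with a pole of finite order at
  `i∞` (helper1's `IsMeroInfty 1`);
* `merSeries ι`: its fraction field inside `k((q))`;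
* `merSeries.real ι : merSeries ι →+* MerH`, the realisation as a meromorphic function on `ℍ`.
-/

set_option autoImplicit false

namespace Fermat.Agent.X0N

open UpperHalfPlane Complex Filter Topology ModularCurve
open Fermat.Agent.RatStr
open scoped MatrixGroups Manifold

variable {k : Type*} [Field k] (ι : k →+* ℂ)

theorem coeffMap_injective : Function.Injective (coeffMap ι : LaurentSeries k → LaurentSeries ℂ) := by
  intro x y h
  ext n
  have := congrArg (fun z : LaurentSeries ℂ => z.coeff n) h
  simp only [coeffMap_coeff] at this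
  exact ι.injective this

/-- The subring of `k((q))` of series that converge to a holomorphic function on `ℍ`
(meromorphic at `i∞`). -/
noncomputable def convSeries : Subring (LaurentSeries k) :=
  (laurentHom 1 one_pos).range.comap (coeffMap ι)

theorem mem_convSeries {x : LaurentSeries k} :
    x ∈ convSeries ι ↔ ∃ F : ℍ → ℂ, IsMeroInfty 1 F ∧ laurent 1 F = coeffMap ι x := by
  rw [convSeries, Subring.mem_comap, RingHom.mem_range]
  constructor
  · rintro ⟨F, hF⟩
    exact ⟨F.1, F.2, hF⟩
  · rintro ⟨F, hF, h⟩
    exact ⟨⟨F, hF⟩, h⟩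

namespace convSeries

/-- The holomorphic function on `ℍ` attached to a convergent series. -/
noncomputable def fn (x : convSeries ι) : ℍ → ℂ := Classical.choose ((mem_convSeries ι).mp x.2)

theorem isMeroInfty_fn (x : convSeries ι) : IsMeroInfty 1 (fn ι x) :=
  (Classical.choose_spec ((mem_convSeries ι).mp x.2)).1

theorem laurent_fn (x : convSeries ι) : laurent 1 (fn ι x) = coeffMap ι (x : LaurentSeries k) :=
  (Classical.choose_spec ((mem_convSeries ι).mp x.2)).2

theorem fn_eq_of_laurent_eq (x : convSeries ι) {F : ℍ → ℂ} (hF : IsMeroInfty 1 F)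
    (h : laurent 1 F = coeffMap ι (x : LaurentSeries k)) : fn ι x = F :=
  laurent_injective one_pos (isMeroInfty_fn ι x) hF (by rw [laurent_fn, h])

theorem fn_one : fn ι 1 = 1 :=
  fn_eq_of_laurent_eq ι 1 (IsMeroInfty.one 1) (by
    rw [laurent_one one_pos]
    show (1 : LaurentSeries ℂ) = coeffMap ι 1
    rw [map_one])

theorem fn_zero : fn ι 0 = 0 :=
  fn_eq_of_laurent_eq ι 0 (IsMeroInfty.zero 1) (by
    rw [laurent_zero]
    show (0 : LaurentSeries ℂ) = coeffMap ι 0
    rw [map_zero])

theorem fn_mul (x y : convSeries ι) : fn ι (x * y) = fn ι x * fn ι y :=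
  fn_eq_of_laurent_eq ι (x * y) ((isMeroInfty_fn ι x).mul (isMeroInfty_fn ι y)) (by
    rw [laurent_mul one_pos (isMeroInfty_fn ι x) (isMeroInfty_fn ι y), laurent_fn, laurent_fn]
    show _ = coeffMap ι ((x : LaurentSeries k) * (y : LaurentSeries k))
    rw [map_mul])

theorem fn_add (x y : convSeries ι) : fn ι (x + y) = fn ι x + fn ι y :=
  fn_eq_of_laurent_eq ι (x + y) ((isMeroInfty_fn ι x).add one_pos (isMeroInfty_fn ι y)) (by
    rw [laurent_add one_pos (isMeroInfty_fn ι x) (isMeroInfty_fn ι y), laurent_fn, laurent_fn]
    show _ = coeffMap ι ((x : LaurentSeries k) + (y : LaurentSeries k))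
    rw [map_add])

/-- The ring homomorphism from convergent series to holomorphic functions on `ℍ`. -/
noncomputable def toHol : convSeries ι →+* HolH where
  toFun x := ⟨fn ι x, (isMeroInfty_fn ι x).hol⟩
  map_one' := Subtype.ext (fn_one ι)
  map_mul' x y := Subtype.ext (fn_mul ι x y)
  map_zero' := Subtype.ext (fn_zero ι)
  map_add' x y := Subtype.ext (fn_add ι x y)

@[simp] theorem coe_toHol (x : convSeries ι) : (toHol ι x : ℍ → ℂ) = fn ι x := rfl

theorem toHol_injective : Function.Injective (toHol ι) := by
  rw [injective_iff_map_eq_zero]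
  intro x hx
  have h1 : fn ι x = 0 := congrArg Subtype.val hx
  have h2 := laurent_fn ι x
  rw [h1, laurent_zero] at h2
  apply Subtype.ext
  apply coeffMap_injective ι
  rw [← h2]
  simp

/-- If `F` is holomorphic on `ℍ`, meromorphic at `i∞`, with expansion `coeffMap ι x`, then
`x` is a convergent series with function `F`. -/
theorem toHol_mk {x : LaurentSeries k} {F : ℍ → ℂ} (hF : IsMeroInfty 1 F)
    (h : laurent 1 F = coeffMap ι x) :
    (toHol ι ⟨x, (mem_convSeries ι).mpr ⟨F, hF, h⟩⟩ : ℍ → ℂ) = F :=
  fn_eq_of_laurent_eq ι _ hF h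

theorem algebraMap_mem (c : k) : algebraMap k (LaurentSeries k) c ∈ convSeries ι := by
  rw [mem_convSeries]
  refine ⟨fun _ => ι c, IsMeroInfty.const 1 _, ?_⟩
  rw [laurent_const one_pos, algebraMap_laurentSeries_eq_single, coeffMap_single]
  rfl

theorem toHol_algebraMap (c : k) :
    toHol ι ⟨algebraMap k (LaurentSeries k) c, algebraMap_mem ι c⟩ = HolH.const (ι c) := by
  apply Subtype.ext
  apply fn_eq_of_laurent_eq ι _ (IsMeroInfty.const 1 _)
  show laurent 1 (fun _ => ι c) = coeffMap ι (algebraMap k (LaurentSeries k) c)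
  rw [laurent_const one_pos, algebraMap_laurentSeries_eq_single, coeffMap_single]
  rfl

end convSeries


/-- The field of fractions of `convSeries ι` inside `k((q))`: formal series that are expansions of
ratios of holomorphic functions on `ℍ` (`1`-periodic, meromorphic at `i∞`). -/
noncomputable def merSeries : Subfield (LaurentSeries k) :=
  Subfield.closure (convSeries ι : Set (LaurentSeries k))

theorem convSeries_le_merSeries : (convSeries ι : Set (LaurentSeries k)) ⊆ merSeries ι :=
  Subfield.subset_closure

theorem mem_merSeries {x : LaurentSeries k} :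
    x ∈ merSeries ι ↔ ∃ a ∈ convSeries ι, ∃ b ∈ convSeries ι, a / b = x := by
  rw [merSeries, Subfield.mem_closure_iff, Subring.closure_eq]

noncomputable instance : Algebra (convSeries ι) (merSeries ι) :=
  (Subring.inclusion (S := convSeries ι) (T := (merSeries ι).toSubring)
    (convSeries_le_merSeries ι)).toAlgebra

theorem coe_algebraMap_convSeries (x : convSeries ι) :
    ((algebraMap (convSeries ι) (merSeries ι) x : merSeries ι) : LaurentSeries k) = x := rfl

instance : FaithfulSMul (convSeries ι) (merSeries ι) := by
  rw [faithfulSMul_iff_algebraMap_injective]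
  intro x y h
  apply Subtype.ext
  have := congrArg (fun z : merSeries ι => (z : LaurentSeries k)) h
  simpa [coe_algebraMap_convSeries] using this

instance : IsFractionRing (convSeries ι) (merSeries ι) :=
  IsFractionRing.of_field _ _ fun ⟨z, hz⟩ => by
    obtain ⟨a, ha, b, hb, hab⟩ := (mem_merSeries ι).mp hz
    exact ⟨⟨a, ha⟩, ⟨b, hb⟩, Subtype.ext hab.symm⟩

/-- **Realisation**: the field homomorphism `merSeries ι → MerH`. -/
noncomputable def merSeries.real : merSeries ι →+* MerH :=
  IsFractionRing.lift (A := convSeries ι) (K := merSeries ι) (g := MerH.ofHol.comp (convSeries.toHol ι))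
    (MerH.ofHol_injective.comp (convSeries.toHol_injective ι))

theorem merSeries.real_algebraMap (x : convSeries ι) :
    merSeries.real ι (algebraMap (convSeries ι) (merSeries ι) x) =
      MerH.ofHol (convSeries.toHol ι x) := by
  rw [merSeries.real, IsFractionRing.lift_algebraMap]
  rfl

theorem merSeries.real_of_mem_convSeries {x : LaurentSeries k} (hx : x ∈ convSeries ι) :
    merSeries.real ι ⟨x, convSeries_le_merSeries ι hx⟩ = MerH.ofHol (convSeries.toHol ι ⟨x, hx⟩) :=
  merSeries.real_algebraMap ι ⟨x, hx⟩

theorem merSeries.real_injective : Function.Injective (merSeries.real ι) :=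
  (merSeries.real ι).injective

theorem algebraMap_mem_merSeries (c : k) : algebraMap k (LaurentSeries k) c ∈ merSeries ι :=
  convSeries_le_merSeries ι (convSeries.algebraMap_mem ι c)

theorem merSeries.real_const (c : k) :
    merSeries.real ι ⟨algebraMap k (LaurentSeries k) c, algebraMap_mem_merSeries ι c⟩ =
      MerH.const (ι c) := by
  rw [merSeries.real_of_mem_convSeries ι (convSeries.algebraMap_mem ι c),
    convSeries.toHol_algebraMap]
  rfl

/-- The realisation of a series given as the expansion of a holomorphic function. -/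
theorem merSeries.real_of_laurent_eq {x : LaurentSeries k} {F : ℍ → ℂ} (hF : IsMeroInfty 1 F)
    (h : laurent 1 F = coeffMap ι x) :
    ∃ (hx : x ∈ merSeries ι), merSeries.real ι ⟨x, hx⟩ = MerH.ofHol ⟨F, hF.hol⟩ := by
  have hx : x ∈ convSeries ι := (mem_convSeries ι).mpr ⟨F, hF, h⟩
  refine ⟨convSeries_le_merSeries ι hx, ?_⟩
  rw [merSeries.real_of_mem_convSeries ι hx]
  congr 1
  apply Subtype.ext
  exact convSeries.toHol_mk ι hF h

end Fermat.Agent.X0N
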