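import Mathlib
import Fermat.Agent.X0N.Mer_helper6_Real
import Fermat.Prelude.Def_ModularCurve_ArithmeticGalois
import Fermat.Agent.X0N.J_helper8_Dilate
import Fermat.Agent.RatStr.PrimitiveElement

/-!
# The realisation of the Prelude function fields `laurentBaseChange k (modularFunctionFieldFull N)`

Given a field `k ⊆ ℂ` (embedding `ι`, `k` a `ℚ`-algebra) and the analytic input
"`j(q^d)` is the expansion of a holomorphic function on `ℍ`, meromorphic at `i∞`" (package (J1)),
we construct `realN : laurentBaseChange k (modularFunctionFieldFull N) →+* MerH`.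
-/

set_option autoImplicit false

namespace Fermat.Agent.X0N

open UpperHalfPlane Complex Filter Topology ModularCurve IntermediateField
open Fermat.Agent.RatStr
open scoped MatrixGroups Manifold

variable {k : Type*} [Field k] [Algebra ℚ k] (ι : k →+* ℂ)

/-- `merSeries ι` as an intermediate field of `k((q))/k`. -/
noncomputable def merSeriesI : IntermediateField k (LaurentSeries k) where
  toSubalgebra :=
    { (merSeries ι).toSubring.toSubsemiring with
      algebraMap_mem' := fun c => algebraMap_mem_merSeries ι c }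
  inv_mem' := fun _ hx => (merSeries ι).inv_mem hx

omit [Algebra ℚ k] in
theorem mem_merSeriesI {x : LaurentSeries k} : x ∈ merSeriesI ι ↔ x ∈ merSeries ι := Iff.rfl

/-- If the generators of `F₀ = ℚ(S)` have convergent images in `k((q))`, then the base change
`k(F₀)` consists of meromorphic series. -/
theorem laurentBaseChange_le_merSeriesI {S : Set (LaurentSeries ℚ)}
    (hS : ∀ s ∈ S, coeffEmb k s ∈ merSeries ι) :
    laurentBaseChange k (IntermediateField.adjoin ℚ S) ≤ merSeriesI ι := by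
  rw [laurentBaseChange, IntermediateField.adjoin_le_iff]
  rintro _ ⟨x, hx, rfl⟩
  rw [SetLike.mem_coe, mem_merSeriesI]
  have hx' : x ∈ (IntermediateField.adjoin ℚ S).toSubfield := hx
  rw [IntermediateField.adjoin_toSubfield] at hx'
  have hle : Subfield.closure (Set.range (algebraMap ℚ (LaurentSeries ℚ)) ∪ S) ≤
      (merSeries ι).comap (coeffEmb k) := by
    rw [Subfield.closure_le]
    rintro y (⟨r, rfl⟩ | hy)
    · show coeffEmb k (algebraMap ℚ (LaurentSeries ℚ) r) ∈ merSeries ι
      have : coeffEmb k (algebraMap ℚ (LaurentSeries ℚ) r) =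
          algebraMap k (LaurentSeries k) (algebraMap ℚ k r) := by
        rw [algebraMap_laurentSeries_eq_single, algebraMap_laurentSeries_eq_single, coeffEmb,
          coeffMap_single]
      rw [this]
      exact algebraMap_mem_merSeries ι _
    · exact hS y hy
  exact hle hx'


/-- Two ring homomorphisms out of `F(S)` that agree on `F` and on `S` are equal. -/
theorem ringHom_ext_adjoin {F E L : Type*} [Field F] [Field E] [Algebra F E] [Field L]
    {S : Set E} (f g : ↥(IntermediateField.adjoin F S) →+* L)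
    (hF : ∀ c : F, f (algebraMap F _ c) = g (algebraMap F _ c))
    (hS : ∀ s (hs : s ∈ S), f ⟨s, IntermediateField.subset_adjoin F S hs⟩ =
      g ⟨s, IntermediateField.subset_adjoin F S hs⟩) : f = g := by
  ext ⟨x, hx⟩
  induction hx using IntermediateField.adjoin_induction with
  | mem x hx => exact hS x hx
  | algebraMap c => exact hF c
  | add x y hx hy h1 h2 =>
    have : (⟨x + y, add_mem hx hy⟩ : ↥(IntermediateField.adjoin F S)) = ⟨x, hx⟩ + ⟨y, hy⟩ := rfl
    rw [this, map_add, map_add, h1, h2]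
  | inv x hx h1 =>
    have : (⟨x⁻¹, inv_mem hx⟩ : ↥(IntermediateField.adjoin F S)) = (⟨x, hx⟩)⁻¹ := rfl
    rw [this, map_inv₀, map_inv₀, h1]
  | mul x y hx hy h1 h2 =>
    have : (⟨x * y, mul_mem hx hy⟩ : ↥(IntermediateField.adjoin F S)) = ⟨x, hx⟩ * ⟨y, hy⟩ := rfl
    rw [this, map_mul, map_mul, h1, h2]

theorem coeffMap_coeffEmb_eq (x : LaurentSeries ℚ) :
    coeffMap ι (coeffEmb k x) = coeffEmb ℂ x := by
  rw [coeffEmb, coeffEmb, coeffMap_coeffMap]
  exact coeffMap_congr (Subsingleton.elim _ _) x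

/-- (J1) in the form needed here: `j(q^d)` with coefficients in `k` is a convergent series. -/
theorem coeffEmb_jqd_mem_convSeries (d : ℕ) [NeZero d] :
    coeffEmb k (qExpand ℚ d jq) ∈ convSeries ι := by
  rw [mem_convSeries]
  exact ⟨jFunN d, isMeroInfty_jFunN (NeZero.ne d), by
    rw [laurent_jFunN, coeffMap_coeffEmb_eq]⟩

variable (N : ℕ)

theorem modularFunctionField_le_merSeriesI :
    laurentBaseChange k (modularFunctionFieldFull N) ≤ merSeriesI ι := by
  apply laurentBaseChange_le_merSeriesI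
  rintro s ⟨d, hd, _, rfl⟩
  have := hd
  exact convSeries_le_merSeries ι (coeffEmb_jqd_mem_convSeries ι d)

/-- The inclusion of the Prelude function field into `merSeries ι`. -/
noncomputable def inclN : ↥(laurentBaseChange k (modularFunctionFieldFull N)) →+* merSeries ι where
  toFun x := ⟨x.1, modularFunctionField_le_merSeriesI ι N x.2⟩
  map_one' := rfl
  map_mul' _ _ := rfl
  map_zero' := rfl
  map_add' _ _ := rfl

/-- **The analytic realisation** of the function field `k(j(q^d) : d ∣ N) ⊆ k((q))` of `X₀(N)`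
as meromorphic functions on `ℍ`. -/
noncomputable def realN : ↥(laurentBaseChange k (modularFunctionFieldFull N)) →+* MerH :=
  (merSeries.real ι).comp (inclN ι N)

theorem realN_injective : Function.Injective (realN ι N) := (realN ι N).injective

theorem realN_algebraMap (c : k) :
    realN ι N (algebraMap k _ c) = MerH.const (ι c) :=
  merSeries.real_const ι c

/-- `j(q^d)` as an element of the Prelude function field. -/
noncomputable def jdBar {d : ℕ} [NeZero d] (hd : d ∣ N) :
    ↥(laurentBaseChange k (modularFunctionFieldFull N)) :=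
  ⟨coeffEmb k (qExpand ℚ d jq), coeffEmb_mem_laurentBaseChange k (jqd_mem_full N hd)⟩

/-- `τ ↦ j(dτ)` as a holomorphic function on `ℍ`. -/
noncomputable def jdHol (d : ℕ) [NeZero d] : HolH := ⟨jFunN d, (isMeroInfty_jFunN (NeZero.ne d)).hol⟩

@[simp] theorem jdHol_apply (d : ℕ) [NeZero d] (τ : ℍ) : (jdHol d : ℍ → ℂ) τ = jFunN d τ := rfl

theorem realN_jdBar {d : ℕ} [NeZero d] (hd : d ∣ N) :
    realN ι N (jdBar N hd) = MerH.ofHol (jdHol d) := by
  obtain ⟨hx, h⟩ := merSeries.real_of_laurent_eq ι (x := coeffEmb k (qExpand ℚ d jq))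
    (isMeroInfty_jFunN (NeZero.ne d)) (by rw [laurent_jFunN, coeffMap_coeffEmb_eq])
  exact h


/-! ### Invariance under `Γ₀(N)` -/

/-- For `γ ∈ Γ₀(d)`, `(d 0; 0 1) γ = γ' (d 0; 0 1)` with `γ' ∈ SL(2, ℤ)`. -/
theorem exists_SL_heckeDiagMatrix_smul {d : ℕ} (hd : d ≠ 0) {γ : SL(2, ℤ)}
    (hγ : γ ∈ CongruenceSubgroup.Gamma0 d) :
    ∃ γ' : SL(2, ℤ), ∀ z : ℍ,
      ModularForm.heckeDiagMatrix d • (γ • z) = γ' • (ModularForm.heckeDiagMatrix d • z) := by
  rw [CongruenceSubgroup.Gamma0_mem, ZMod.intCast_zmod_eq_zero_iff_dvd] at hγ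
  obtain ⟨e, he⟩ := hγ
  have hdet : γ 0 0 * γ 1 1 - γ 0 1 * γ 1 0 = 1 := by
    have := γ.det_coe
    rwa [Matrix.det_fin_two] at this
  let g' : SL(2, ℤ) := ⟨!![γ 0 0, d * γ 0 1; e, γ 1 1], by
    rw [Matrix.det_fin_two_of]
    rw [he] at hdet
    linear_combination hdet⟩
  have hH : ModularForm.heckeDiagMatrix d * (Matrix.SpecialLinearGroup.mapGL ℝ γ : GL (Fin 2) ℝ) =
      (Matrix.SpecialLinearGroup.mapGL ℝ g' : GL (Fin 2) ℝ) * ModularForm.heckeDiagMatrix d := by
    apply Matrix.GeneralLinearGroup.ext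
    intro i j
    simp only [Matrix.GeneralLinearGroup.coe_mul, ModularForm.val_heckeDiagMatrix hd,
      Matrix.mul_apply, Fin.sum_univ_two]
    have e00 : ((Matrix.SpecialLinearGroup.mapGL ℝ g' : GL (Fin 2) ℝ) :
        Matrix (Fin 2) (Fin 2) ℝ) 0 0 = ((γ 0 0 : ℤ) : ℝ) := by
      rw [RatStr.mapGL_apply_val]; rfl
    have e01 : ((Matrix.SpecialLinearGroup.mapGL ℝ g' : GL (Fin 2) ℝ) :
        Matrix (Fin 2) (Fin 2) ℝ) 0 1 = (d : ℝ) * ((γ 0 1 : ℤ) : ℝ) := by
      rw [RatStr.mapGL_apply_val]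
      have : g' 0 1 = d * γ 0 1 := rfl
      rw [this]; push_cast; ring
    have e10 : ((Matrix.SpecialLinearGroup.mapGL ℝ g' : GL (Fin 2) ℝ) :
        Matrix (Fin 2) (Fin 2) ℝ) 1 0 = (e : ℝ) := by
      rw [RatStr.mapGL_apply_val]; rfl
    have e11 : ((Matrix.SpecialLinearGroup.mapGL ℝ g' : GL (Fin 2) ℝ) :
        Matrix (Fin 2) (Fin 2) ℝ) 1 1 = ((γ 1 1 : ℤ) : ℝ) := by
      rw [RatStr.mapGL_apply_val]; rfl
    have f10 : ((Matrix.SpecialLinearGroup.mapGL ℝ γ : GL (Fin 2) ℝ) :
        Matrix (Fin 2) (Fin 2) ℝ) 1 0 = (d : ℝ) * (e : ℝ) := by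
      rw [RatStr.mapGL_apply_val, he]
      push_cast
      ring
    fin_cases i <;> fin_cases j
    · simp only [Fin.zero_eta, Fin.isValue, e00, RatStr.mapGL_apply_val]
      simp [mul_comm]
    · simp only [Fin.zero_eta, Fin.mk_one, Fin.isValue, e00, e01, RatStr.mapGL_apply_val]
      simp
    · simp only [Fin.zero_eta, Fin.mk_one, Fin.isValue, e10, e11, f10]
      simp [mul_comm]
    · simp only [Fin.mk_one, Fin.isValue, e10, e11, RatStr.mapGL_apply_val]
      simp
  refine ⟨g', fun z => ?_⟩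
  rw [ModularGroup.sl_moeb, ModularGroup.sl_moeb, ← mul_smul, ← mul_smul]
  exact congrArg (· • z) hH

theorem Gamma0_le_of_dvd {d N : ℕ} (h : d ∣ N) :
    CongruenceSubgroup.Gamma0 N ≤ CongruenceSubgroup.Gamma0 d := by
  intro γ hγ
  rw [CongruenceSubgroup.Gamma0_mem, ZMod.intCast_zmod_eq_zero_iff_dvd] at hγ ⊢
  exact (Int.natCast_dvd_natCast.mpr h).trans hγ

theorem jFunN_smul_of_mem_Gamma0 {d : ℕ} (hd : d ≠ 0) {γ : SL(2, ℤ)}
    (hγ : γ ∈ CongruenceSubgroup.Gamma0 d) (z : ℍ) : jFunN d (γ • z) = jFunN d z := by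
  obtain ⟨γ', h⟩ := exists_SL_heckeDiagMatrix_smul hd hγ
  rw [jFunN, dilate_apply, dilate_apply, h z, jFun_smul]

theorem comp_jdHol_of_mem_Gamma0 {d : ℕ} [NeZero d] {γ : SL(2, ℤ)}
    (hγ : γ ∈ CongruenceSubgroup.Gamma0 d) : HolH.comp γ (jdHol d) = jdHol d := by
  ext z
  exact jFunN_smul_of_mem_Gamma0 (NeZero.ne d) hγ z

omit [Algebra ℚ k] in
theorem coeffEmb_algebraMap_rat [Algebra ℚ k] (c : ℚ) :
    coeffEmb k (algebraMap ℚ (LaurentSeries ℚ) c) =
      algebraMap k (LaurentSeries k) (algebraMap ℚ k c) := by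
  rw [algebraMap_laurentSeries_eq_single, algebraMap_laurentSeries_eq_single, coeffEmb,
    coeffMap_single]

/-- Induction principle, rational part. -/
theorem modularFunctionField_induction_aux
    {p : ↥(laurentBaseChange k (modularFunctionFieldFull N)) → Prop}
    (hconst : ∀ c : k, p (algebraMap k _ c))
    (hgen : ∀ (d : ℕ) [NeZero d] (hd : d ∣ N), p (jdBar N hd))
    (hadd : ∀ x y, p x → p y → p (x + y))
    (hmul : ∀ x y, p x → p y → p (x * y))
    (hinv : ∀ x, p x → p x⁻¹)
    (y : LaurentSeries ℚ) (hy : y ∈ modularFunctionFieldFull N) :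
    p ⟨coeffEmb k y, coeffEmb_mem_laurentBaseChange k hy⟩ := by
  have hy' : y ∈ IntermediateField.adjoin ℚ (divisorExpansions N) := hy
  refine IntermediateField.adjoin_induction ℚ
    (p := fun y hy => p ⟨coeffEmb k y, coeffEmb_mem_laurentBaseChange k hy⟩)
    ?_ ?_ ?_ ?_ ?_ hy'
  · rintro y ⟨d, hd, hdN, rfl⟩
    have := hd
    exact hgen d hdN
  · intro c
    have h1 := hconst (algebraMap ℚ k c)
    convert h1 using 1
    exact Subtype.ext (coeffEmb_algebraMap_rat c)
  · intro x y hx hy h1 h2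
    have h3 := hadd _ _ h1 h2
    convert h3 using 1
    exact Subtype.ext (map_add (coeffEmb k) x y)
  · intro x hx h1
    have h3 := hinv _ h1
    convert h3 using 1
    exact Subtype.ext (map_inv₀ (coeffEmb k) x)
  · intro x y hx hy h1 h2
    have h3 := hmul _ _ h1 h2
    convert h3 using 1
    exact Subtype.ext (map_mul (coeffEmb k) x y)

/-- Induction principle for the Prelude function field: a property of elements of
`k(j(q^d) : d ∣ N)` that holds for constants and for the `j(q^d)`, and is stable under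
`+`, `*`, `⁻¹`, holds for all elements. -/
theorem modularFunctionField_induction
    {p : ↥(laurentBaseChange k (modularFunctionFieldFull N)) → Prop}
    (hconst : ∀ c : k, p (algebraMap k _ c))
    (hgen : ∀ (d : ℕ) [NeZero d] (hd : d ∣ N), p (jdBar N hd))
    (hadd : ∀ x y, p x → p y → p (x + y))
    (hmul : ∀ x y, p x → p y → p (x * y))
    (hinv : ∀ x, p x → p x⁻¹)
    (x : ↥(laurentBaseChange k (modularFunctionFieldFull N))) : p x := by
  obtain ⟨x, hx⟩ := x
  have hx' : x ∈ IntermediateField.adjoin k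
      (⇑(coeffEmb k) '' (modularFunctionFieldFull N : Set (LaurentSeries ℚ))) := hx
  refine IntermediateField.adjoin_induction k
    (p := fun x hx => p ⟨x, hx⟩) ?_ ?_ ?_ ?_ ?_ hx'
  · rintro x ⟨y, hy, rfl⟩
    exact modularFunctionField_induction_aux N hconst hgen hadd hmul hinv y hy
  · intro c
    exact hconst c
  · intro x y hx hy h1 h2
    exact hadd ⟨x, hx⟩ ⟨y, hy⟩ h1 h2
  · intro x hx h1
    exact hinv ⟨x, hx⟩ h1
  · intro x y hx hy h1 h2
    exact hmul ⟨x, hx⟩ ⟨y, hy⟩ h1 h2

/-- **`Γ₀(N)`-invariance** of the realisation. -/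
theorem comp_realN_of_mem_Gamma0 {γ : SL(2, ℤ)} (hγ : γ ∈ CongruenceSubgroup.Gamma0 N)
    (x : ↥(laurentBaseChange k (modularFunctionFieldFull N))) :
    MerH.comp γ (realN ι N x) = realN ι N x := by
  induction x using modularFunctionField_induction with
  | hconst c =>
    rw [realN_algebraMap]
    exact MerH.comp_const γ _
  | hgen d hd =>
    rw [realN_jdBar, MerH.comp_algebraMap, comp_jdHol_of_mem_Gamma0 (Gamma0_le_of_dvd hd hγ)]
  | hadd x y h1 h2 => rw [map_add, map_add, h1, h2]
  | hmul x y h1 h2 => rw [map_mul, map_mul, h1, h2]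
  | hinv x h1 => rw [map_inv₀, map_inv₀, h1]

end Fermat.Agent.X0N
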