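import Mathlib
import Fermat.Agent.X0N.Mer_helper6_RealN
import Fermat.Agent.X0N.LD_helper1_Laurent
import Fermat.Agent.X0N.LD_helper1_Minpoly

/-!
# The realisation `realN` is a linearly disjoint homomorphism

`realN ι N = real_ℂ ∘ coeffMap ι`, where `real_ℂ : ↥(merSeriesI (RingHom.id ℂ)) →ₐ[ℂ] MerH` is an
injective `ℂ`-algebra homomorphism; together with helper1's `isLinDisjHom_iota` this gives
`IsLinDisjHom k ℂ (realN (algebraMap k ℂ) N)`.
-/

set_option autoImplicit false

namespace Fermat.Agent.X0N

open UpperHalfPlane Complex Filter Topology ModularCurve IntermediateField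
open Fermat.Agent.RatStr
open scoped MatrixGroups Manifold

section Factor

variable {k : Type*} [Field k] (ι : k →+* ℂ)

theorem coeffMap_mem_convSeries {x : LaurentSeries k} (hx : x ∈ convSeries ι) :
    coeffMap ι x ∈ convSeries (RingHom.id ℂ) := by
  rw [mem_convSeries] at hx ⊢
  obtain ⟨F, hF, h⟩ := hx
  exact ⟨F, hF, by rw [h, coeffMap_id]⟩

theorem coeffMap_mem_merSeries {x : LaurentSeries k} (hx : x ∈ merSeries ι) :
    coeffMap ι x ∈ merSeries (RingHom.id ℂ) := by
  rw [mem_merSeries] at hx ⊢
  obtain ⟨a, ha, b, hb, rfl⟩ := hx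
  exact ⟨coeffMap ι a, coeffMap_mem_convSeries ι ha, coeffMap ι b, coeffMap_mem_convSeries ι hb,
    (map_div₀ (coeffMap ι) a b).symm⟩

/-- Base change of coefficients `merSeries ι → merSeries id`. -/
noncomputable def merSeries.baseChange : merSeries ι →+* merSeries (RingHom.id ℂ) where
  toFun x := ⟨coeffMap ι x.1, coeffMap_mem_merSeries ι x.2⟩
  map_one' := Subtype.ext (map_one (coeffMap ι))
  map_mul' x y := Subtype.ext (map_mul (coeffMap ι) x.1 y.1)
  map_zero' := Subtype.ext (map_zero (coeffMap ι))
  map_add' x y := Subtype.ext (map_add (coeffMap ι) x.1 y.1)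

theorem convSeries.toHol_coeffMap (a : convSeries ι) :
    convSeries.toHol (RingHom.id ℂ) ⟨coeffMap ι a.1, coeffMap_mem_convSeries ι a.2⟩ =
      convSeries.toHol ι a := by
  apply Subtype.ext
  apply convSeries.fn_eq_of_laurent_eq (RingHom.id ℂ) _ (convSeries.isMeroInfty_fn ι a)
  rw [convSeries.laurent_fn, coeffMap_id]

/-- **Factorisation** of the realisation through base change to `ℂ`. -/
theorem merSeries.real_eq_real_id (x : merSeries ι) :
    merSeries.real ι x = merSeries.real (RingHom.id ℂ) (merSeries.baseChange ι x) := by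
  have h : merSeries.real ι = (merSeries.real (RingHom.id ℂ)).comp (merSeries.baseChange ι) := by
    apply IsLocalization.ringHom_ext (nonZeroDivisors (convSeries ι))
    ext a
    rw [RingHom.comp_apply, RingHom.comp_apply, RingHom.comp_apply, merSeries.real_algebraMap]
    have h1 : merSeries.baseChange ι (algebraMap (convSeries ι) (merSeries ι) a) =
        algebraMap (convSeries (RingHom.id ℂ)) (merSeries (RingHom.id ℂ))
          ⟨coeffMap ι a.1, coeffMap_mem_convSeries ι a.2⟩ := rfl
    rw [h1, merSeries.real_algebraMap, convSeries.toHol_coeffMap]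
  rw [h]
  rfl

end Factor

/-- `merSeriesI ι` and `merSeries ι` have the same elements. -/
noncomputable def merSeriesI.toSeries {k : Type*} [Field k] (ι : k →+* ℂ) :
    ↥(merSeriesI ι) →+* merSeries ι where
  toFun x := ⟨x.1, x.2⟩
  map_one' := rfl
  map_mul' _ _ := rfl
  map_zero' := rfl
  map_add' _ _ := rfl

/-- The realisation over `ℂ` as a `ℂ`-algebra homomorphism on all meromorphic series. -/
noncomputable def realI : ↥(merSeriesI (RingHom.id ℂ)) →ₐ[ℂ] MerH :=
  { (merSeries.real (RingHom.id ℂ)).comp (merSeriesI.toSeries (RingHom.id ℂ)) with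
    commutes' := fun c => by
      show merSeries.real (RingHom.id ℂ) ⟨algebraMap ℂ (LaurentSeries ℂ) c, _⟩ =
        algebraMap ℂ MerH c
      rw [merSeries.real_const, MerH.algebraMap_eq_const]
      rfl }

theorem realI_apply (x : ↥(merSeriesI (RingHom.id ℂ))) :
    realI x = merSeries.real (RingHom.id ℂ) ⟨x.1, x.2⟩ := rfl

theorem realI_injective : Function.Injective realI := realI.injective

section LinDisj

variable (N : ℕ) {k : Type*} [Field k] [Algebra ℚ k] [Algebra k ℂ]

/-- `realN` factors as base change of coefficients to `ℂ` followed by `realI`. -/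
theorem realN_eq_realI (x : ↥(laurentBaseChange k (modularFunctionFieldFull N))) :
    realN (algebraMap k ℂ) N x =
      realI ⟨coeffMap (algebraMap k ℂ) x.1,
        coeffMap_mem_merSeries (algebraMap k ℂ)
          (modularFunctionField_le_merSeriesI (algebraMap k ℂ) N x.2)⟩ :=
  merSeries.real_eq_real_id (algebraMap k ℂ) (inclN (algebraMap k ℂ) N x)

attribute [-instance] HahnSeries.instModule in
/-- **The realisation is a linearly disjoint homomorphism** over `k → ℂ`. -/
theorem isLinDisjHom_realN : IsLinDisjHom k ℂ (realN (algebraMap k ℂ) N) where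
  map_algebraMap a := by
    rw [realN_algebraMap, MerH.algebraMap_eq_const]
  linIndep := by
    intro ι' f hf
    have h1 : LinIndep k (fun i => ((f i : ↥(laurentBaseChange k
        (modularFunctionFieldFull N))) : LaurentSeries k)) :=
      @LinearIndependent.map' ι' k _ (LaurentSeries k) f _ _ _ _ Algebra.toModule hf
        (laurentBaseChange k (modularFunctionFieldFull N)).val.toLinearMap
        (LinearMap.ker_eq_bot.mpr Subtype.val_injective)
    have h2 : LinIndep ℂ (fun i => iota k ℂ (f i).1) :=
      (isLinDisjHom_iota (k := k) (L := ℂ)).linIndep h1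
    have hmem : ∀ i, iota k ℂ (f i).1 ∈ merSeriesI (RingHom.id ℂ) := fun i =>
      coeffMap_mem_merSeries (algebraMap k ℂ)
        (modularFunctionField_le_merSeriesI (algebraMap k ℂ) N (f i).2)
    have h3 : LinearIndependent ℂ (fun i => (⟨iota k ℂ (f i).1, hmem i⟩ :
        ↥(merSeriesI (RingHom.id ℂ)))) :=
      @LinearIndependent.of_comp ι' ℂ _ (LaurentSeries ℂ) _ _ _ _ _ Algebra.toModule
        (merSeriesI (RingHom.id ℂ)).val.toLinearMap h2
    have h4 := h3.map' realI.toLinearMap (LinearMap.ker_eq_bot.mpr realI_injective)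
    have h5 : (fun i => realN (algebraMap k ℂ) N (f i)) =
        (⇑realI.toLinearMap ∘ fun i => (⟨iota k ℂ (f i).1, hmem i⟩ :
          ↥(merSeriesI (RingHom.id ℂ)))) := by
      ext i
      exact realN_eq_realI N (f i)
    rw [h5]
    exact h4

end LinDisj

end Fermat.Agent.X0N
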