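import Fermat.Agent.X0N.SYM_helper2_ModFun
import Fermat.Agent.X0N.J_helper8_Dilate
import Fermat.Agent.RatStr.Primitive

set_option autoImplicit false

/-!
# (SYM) `F(N z)` is a modular form for `Γ₀(N)`; the functions `j(d z)` are modular functions
-/

namespace Fermat.Agent.X0N

open UpperHalfPlane ModularForm Filter Function Polynomial
open scoped MatrixGroups ModularForm Manifold Topology
open Fermat.Agent.RatStr CongruenceSubgroup

noncomputable section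

local notation "Δ" => ModularForm.discriminant

variable (N : ℕ) [NeZero N]

/-- for `γ ∈ Γ₀(N)`: `diag(N,1) γ = δ diag(N,1)` with `δ ∈ SL(2,ℤ)`. -/
theorem exists_alphaN_mul_eq {γ : SL(2, ℤ)} (hγ : γ ∈ Gamma0 N) :
    ∃ δ : SL(2, ℤ), alphaN N * (γ : GL (Fin 2) ℝ) = (δ : GL (Fin 2) ℝ) * alphaN N := by
  rw [Gamma0_mem, ZMod.intCast_zmod_eq_zero_iff_dvd] at hγ
  obtain ⟨c, hc⟩ := hγ
  have hdet : γ 0 0 * γ 1 1 - γ 0 1 * γ 1 0 = 1 := by
    have := γ.det_coe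
    rwa [Matrix.det_fin_two] at this
  let δ : SL(2, ℤ) := ⟨!![γ 0 0, N * γ 0 1; c, γ 1 1], by
    rw [Matrix.det_fin_two_of]; rw [hc] at hdet; linarith⟩
  refine ⟨δ, ?_⟩
  apply Units.ext
  rw [Units.val_mul, Units.val_mul]
  have e1 : ((γ : GL (Fin 2) ℝ) : Matrix (Fin 2) (Fin 2) ℝ) =
      (γ : Matrix (Fin 2) (Fin 2) ℤ).map (algebraMap ℤ ℝ) :=
    Matrix.SpecialLinearGroup.mapGL_coe_matrix γ
  have e2 : ((δ : GL (Fin 2) ℝ) : Matrix (Fin 2) (Fin 2) ℝ) =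
      (δ : Matrix (Fin 2) (Fin 2) ℤ).map (algebraMap ℤ ℝ) :=
    Matrix.SpecialLinearGroup.mapGL_coe_matrix δ
  rw [e1, e2]
  unfold alphaN
  rw [val_utGL]
  have hc' : (γ 1 0 : ℝ) = (N : ℝ) * c := by exact_mod_cast hc
  ext i j
  fin_cases i <;> fin_cases j <;>
    simp [Matrix.mul_apply, Fin.sum_univ_two, δ, hc', mul_comm]

variable {k : ℤ} {F : ℍ → ℂ}

theorem slash_alphaN_slash_of_decomp (hF : IsMF ⊤ k F) {γ δ : SL(2, ℤ)} {β : GL (Fin 2) ℝ}
    (h : alphaN N * (γ : GL (Fin 2) ℝ) = (δ : GL (Fin 2) ℝ) * β) :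
    (F ∣[k] alphaN N) ∣[k] γ = F ∣[k] β := by
  rw [SL_slash, ← SlashAction.slash_mul, h, SlashAction.slash_mul, ← SL_slash,
    hF.inv δ (Subgroup.mem_top δ)]

/-- **Level raising**: for a level one form `F`, `F ∣[k] diag(N,1)` (a multiple of `F(N z)`) is a
modular form for `Γ₀(N)`. -/
theorem isMF_slash_alphaN (hF : IsMF ⊤ k F) : IsMF (Gamma0 N) k (F ∣[k] alphaN N) := by
  refine ⟨hF.holo.slash k _, fun γ hγ => ?_, fun γ => ?_⟩
  · obtain ⟨δ, h⟩ := exists_alphaN_mul_eq N hγ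
    exact slash_alphaN_slash_of_decomp N hF h
  · obtain ⟨δ, a, b, d, ha, hd, -, -, -, -, hmat⟩ :=
      exists_decomp_GL N (Nat.pos_of_ne_zero (NeZero.ne N)) γ
    have hmat' : alphaN N * (γ : GL (Fin 2) ℝ) = (δ : GL (Fin 2) ℝ) * utGL a b d ha hd := hmat
    rw [slash_alphaN_slash_of_decomp N hF hmat']
    have h1 : IsBoundedAtImInfty (fun τ : ℍ => F (utGL (a : ℝ) b d ha hd • τ)) :=
      hF.bdd_one.comp_tendsto (tendsto_utGL_smul_atImInfty ha hd)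
    have h2 : F ∣[k] utGL (a : ℝ) b d ha hd =
        fun τ : ℍ => F (utGL (a : ℝ) b d ha hd • τ) *
          ((((a : ℝ) * d : ℝ) : ℂ) ^ (k - 1) * ((d : ℝ) : ℂ) ^ (-k)) := by
      funext τ
      rw [slash_utGL_apply]
      ring
    rw [h2]
    exact h1.mul (Asymptotics.isBigO_const_const _ one_ne_zero _)

theorem heckeDiagMatrix_eq_alphaN : heckeDiagMatrix N = alphaN N := by
  unfold heckeDiagMatrix alphaN utGL
  rw [dif_neg (NeZero.ne N)]

theorem slash_alphaN_apply (F : ℍ → ℂ) (k : ℤ) (z : ℍ) :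
    (F ∣[k] alphaN N) z = dilate N F z * (N : ℂ) ^ (k - 1) := by
  unfold alphaN
  rw [slash_utGL_apply, dilate_apply, heckeDiagMatrix_eq_alphaN]
  unfold alphaN
  simp

/-- `τ ↦ j(N τ)` as a holomorphic function. -/
def jNHol : HolH := ⟨jFunN N, by
  have h : jFunN N = fun z => jFun (heckeDiagMatrix N • z) := rfl
  rw [h]
  exact mdiff_jFun.comp (UpperHalfPlane.mdifferentiable_smul (by
    rw [heckeDiagMatrix_eq_alphaN]; exact det_utGL_pos _ _))⟩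

@[simp] theorem coe_jNHol : (jNHol N : ℍ → ℂ) = jFunN N := rfl

theorem jH_eq_jFun : jH = jFun := rfl

/-- `j(N τ)` is a modular function for `Γ₀(N)`. -/
theorem isModFun_jNHol : IsModFun (Gamma0 N) (MerH.ofHol (jNHol N)) := by
  have h4 : IsMF (Gamma0 N) 4 ((E₄ : ℍ → ℂ) ∣[(4 : ℤ)] alphaN N) := isMF_slash_alphaN N isMF_E4
  have h12 : IsMF (Gamma0 N) 12 ((Δ : ℍ → ℂ) ∣[(12 : ℤ)] alphaN N) :=
    isMF_slash_alphaN N isMF_discriminant
  have hg : IsMF (Gamma0 N) 12 (((N : ℂ) ^ 2) • ((E₄ : ℍ → ℂ) ∣[(4 : ℤ)] alphaN N) ^ 3) :=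
    ((h4.pow 3).weight_cast (by norm_num)).smul _
  have hN : (N : ℂ) ≠ 0 := by exact_mod_cast NeZero.ne N
  have hne : ∀ z, ((Δ : ℍ → ℂ) ∣[(12 : ℤ)] alphaN N) z ≠ 0 := fun z => DN_ne_zero N z
  refine ⟨12, ⟨_, hg.holo⟩, ⟨_, h12.holo⟩, hg, h12, ?_, ?_⟩
  · intro h0
    exact hne UpperHalfPlane.I (congrFun (congrArg Subtype.val h0) UpperHalfPlane.I)
  · rw [eq_div_iff (MerH.ofHol_ne_zero (by
      intro h0
      exact hne UpperHalfPlane.I (congrFun (congrArg Subtype.val h0) UpperHalfPlane.I))),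
      ← map_mul]
    congr 1
    ext z
    simp only [Subring.coe_mul, Pi.mul_apply, coe_jNHol, Pi.smul_apply, Pi.pow_apply,
      smul_eq_mul]
    rw [slash_alphaN_apply, slash_alphaN_apply]
    have hD : dilate N (Δ : ℍ → ℂ) z ≠ 0 := by
      rw [dilate_apply]; exact discriminant_ne_zero _
    have : jFunN N z = dilate N (E₄ : ℍ → ℂ) z ^ 3 / dilate N (Δ : ℍ → ℂ) z := rfl
    rw [this]
    have e1 : (N : ℂ) ^ ((4 : ℤ) - 1) = (N : ℂ) ^ 3 := by norm_num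
    have e2 : (N : ℂ) ^ ((12 : ℤ) - 1) = (N : ℂ) ^ 11 := by norm_num
    rw [e1, e2]
    field_simp

omit [NeZero N] in
/-- `j(d τ)` is a modular function for `Γ₀(N)` when `d ∣ N`. -/
theorem isModFun_jNHol_of_dvd {d : ℕ} [NeZero d] (hd : d ∣ N) :
    IsModFun (Gamma0 N) (MerH.ofHol (jNHol d)) := by
  refine (isModFun_jNHol d).mono ?_
  intro γ hγ
  rw [Gamma0_mem, ZMod.intCast_zmod_eq_zero_iff_dvd] at hγ ⊢
  exact (Int.natCast_dvd_natCast.mpr hd).trans hγ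

/-- `j` itself is a modular function for any subgroup. -/
theorem isModFun_jM (Γ : Subgroup SL(2, ℤ)) : IsModFun Γ jM := by
  have h4 : IsMF Γ 12 ((E₄ : ℍ → ℂ) ^ 3) :=
    ((isMF_E4.pow 3).weight_cast (by norm_num)).mono le_top
  have h12 : IsMF Γ 12 (Δ : ℍ → ℂ) := isMF_discriminant.mono le_top
  have hne : (⟨_, h12.holo⟩ : HolH) ≠ 0 := by
    intro h0
    exact discriminant_ne_zero UpperHalfPlane.I
      (congrFun (congrArg Subtype.val h0) UpperHalfPlane.I)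
  refine ⟨12, ⟨_, h4.holo⟩, ⟨_, h12.holo⟩, h4, h12, hne, ?_⟩
  rw [eq_div_iff (MerH.ofHol_ne_zero hne), jM, ← map_mul]
  congr 1
  ext z
  simp only [Subring.coe_mul, Pi.mul_apply, Pi.pow_apply]
  show jH z * Δ z = E₄ z ^ 3
  rw [E4_cube_eq]; ring

end

end Fermat.Agent.X0N
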