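import Fermat.Agent.X0N.SYM_helper2_ModFun

set_option autoImplicit false

/-!
# (SYM) conjugates of a modular function and its characteristic polynomial over `ℂ(j)`
-/

namespace Fermat.Agent.X0N

open UpperHalfPlane ModularForm Filter Function Polynomial
open scoped MatrixGroups ModularForm Manifold Topology
open Fermat.Agent.RatStr

noncomputable section

variable (Γ : Subgroup SL(2, ℤ))

/-- the conjugate of `x` indexed by the left coset `q = gΓ`: it is `x ∘ g⁻¹`. -/
def conjM (x : MerH) (q : SL(2, ℤ) ⧸ Γ) : MerH := MerH.comp (q.out)⁻¹ x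

variable {Γ} {x : MerH}

theorem conjM_mk (hx : IsModFun Γ x) (g : SL(2, ℤ)) :
    conjM Γ x (g : SL(2, ℤ) ⧸ Γ) = MerH.comp g⁻¹ x := by
  unfold conjM
  obtain ⟨h, hh⟩ := QuotientGroup.mk_out_eq_mul Γ g
  rw [hh, mul_inv_rev, MerH.comp_mul, hx.comp_of_mem (Γ.inv_mem h.2)]

theorem conjM_one (hx : IsModFun Γ x) : conjM Γ x ((1 : SL(2, ℤ)) : SL(2, ℤ) ⧸ Γ) = x := by
  rw [conjM_mk hx, inv_one, MerH.comp_one]

theorem comp_conjM (hx : IsModFun Γ x) (γ : SL(2, ℤ)) (q : SL(2, ℤ) ⧸ Γ) :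
    MerH.comp γ (conjM Γ x q) = conjM Γ x (γ⁻¹ • q) := by
  induction q using QuotientGroup.induction_on with
  | H g =>
    rw [conjM_mk hx, ← MerH.comp_mul, MulAction.Quotient.smul_mk, conjM_mk hx]
    congr 1
    simp [mul_inv_rev]

theorem isModFun_conjM (hx : IsModFun Γ x) (q : SL(2, ℤ) ⧸ Γ) :
    IsModFun Γ.normalCore (conjM Γ x q) :=
  (hx.mono Γ.normalCore_le).comp _

theorem ordAt_conjM (x : MerH) (q : SL(2, ℤ) ⧸ Γ) (τ : ℍ) :
    MerH.ordAt τ (conjM Γ x q) = MerH.ordAt ((q.out)⁻¹ • τ) x :=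
  MerH.ordAt_comp _ _ _

variable (Γ) [Γ.FiniteIndex]

/-- the characteristic polynomial `∏_q (X - x_q)` of a modular function. -/
def charPolyM (x : MerH) : MerH[X] := ∏ q : SL(2, ℤ) ⧸ Γ, (X - C (conjM Γ x q))

variable {Γ}

theorem charPolyM_monic (x : MerH) : (charPolyM Γ x).Monic :=
  monic_prod_of_monic _ _ fun q _ => monic_X_sub_C _

theorem charPolyM_natDegree (x : MerH) : (charPolyM Γ x).natDegree = Γ.index := by
  unfold charPolyM
  rw [natDegree_prod_of_monic _ _ fun _ _ => monic_X_sub_C _]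
  simp only [natDegree_X_sub_C, Finset.sum_const, Finset.card_univ, smul_eq_mul, mul_one]
  rw [Subgroup.index, Nat.card_eq_fintype_card]

theorem charPolyM_eval_self (hx : IsModFun Γ x) : (charPolyM Γ x).eval x = 0 := by
  unfold charPolyM
  rw [eval_prod]
  apply Finset.prod_eq_zero (Finset.mem_univ ((1 : SL(2, ℤ)) : SL(2, ℤ) ⧸ Γ))
  rw [conjM_one hx]
  simp

theorem charPolyM_map_comp (hx : IsModFun Γ x) (γ : SL(2, ℤ)) :
    (charPolyM Γ x).map (MerH.comp γ : MerH →+* MerH) = charPolyM Γ x := by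
  unfold charPolyM
  rw [Polynomial.map_prod]
  simp only [Polynomial.map_sub, Polynomial.map_X, Polynomial.map_C, RingHom.coe_coe,
    comp_conjM hx]
  exact Equiv.prod_comp (MulAction.toPerm γ⁻¹ : Equiv.Perm (SL(2, ℤ) ⧸ Γ))
    (fun q => X - C (conjM Γ x q))

theorem charPolyM_coeff_comp (hx : IsModFun Γ x) (γ : SL(2, ℤ)) (i : ℕ) :
    MerH.comp γ ((charPolyM Γ x).coeff i) = (charPolyM Γ x).coeff i := by
  conv_rhs => rw [← charPolyM_map_comp hx γ]
  rw [coeff_map]
  rfl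

/-- the characteristic polynomial with coefficients in the field of modular functions of the
normal core. -/
def charPolyCore (hx : IsModFun Γ x) : (modFun Γ.normalCore)[X] :=
  ∏ q : SL(2, ℤ) ⧸ Γ, (X - C (⟨conjM Γ x q, isModFun_conjM hx q⟩ : modFun Γ.normalCore))

theorem charPolyCore_map (hx : IsModFun Γ x) :
    (charPolyCore hx).map (algebraMap (modFun Γ.normalCore) MerH) = charPolyM Γ x := by
  unfold charPolyCore charPolyM
  rw [Polynomial.map_prod]
  refine Finset.prod_congr rfl fun q _ => ?_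
  simp only [Polynomial.map_sub, Polynomial.map_X, Polynomial.map_C]
  rfl

theorem charPolyM_coeff_isModFun (hx : IsModFun Γ x) (i : ℕ) :
    IsModFun Γ.normalCore ((charPolyM Γ x).coeff i) := by
  rw [← charPolyCore_map hx, coeff_map]
  exact ((charPolyCore hx).coeff i).2

/-- the subfield `ℂ(j)` of `MerH`. -/
def CjM : IntermediateField ℂ MerH := IntermediateField.adjoin ℂ {jM}

theorem jM_mem_CjM : jM ∈ CjM := IntermediateField.mem_adjoin_simple_self ℂ jM

theorem aeval_jM_mem_CjM (P : ℂ[X]) : Polynomial.aeval jM P ∈ CjM := by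
  have h1 : Polynomial.aeval jM P ∈ Algebra.adjoin ℂ {jM} := aeval_mem_adjoin_singleton ℂ jM
  exact IntermediateField.algebra_adjoin_le_adjoin ℂ _ h1

theorem mem_CjM_of_mul_eq {y : MerH} {P Q : ℂ[X]} (hQ : Q ≠ 0)
    (h : y * Polynomial.aeval jM Q = Polynomial.aeval jM P) : y ∈ CjM := by
  have : y = Polynomial.aeval jM P / Polynomial.aeval jM Q := by
    rw [eq_div_iff (aeval_jM_ne_zero hQ), h]
  rw [this]
  exact CjM.div_mem (aeval_jM_mem_CjM P) (aeval_jM_mem_CjM Q)

/-- every element of `ℂ(j)` is a ratio of polynomials in `j`. -/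
theorem exists_rat_of_mem_CjM {y : MerH} (hy : y ∈ CjM) :
    ∃ P Q : ℂ[X], Q ≠ 0 ∧ y * Polynomial.aeval jM Q = Polynomial.aeval jM P := by
  rw [CjM, IntermediateField.mem_adjoin_simple_iff] at hy
  obtain ⟨P, Q, rfl⟩ := hy
  by_cases hQ : Polynomial.aeval jM Q = 0
  · refine ⟨0, 1, one_ne_zero, ?_⟩
    rw [hQ, div_zero, zero_mul, map_zero]
  · refine ⟨P, Q, fun h => hQ (by rw [h, map_zero]), ?_⟩
    rw [div_mul_cancel₀ _ hQ]

/-- **(SYM) over `ℂ`: the coefficients of the characteristic polynomial lie in `ℂ(j)`.** -/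
theorem charPolyM_coeff_mem (hx : IsModFun Γ x) (i : ℕ) : (charPolyM Γ x).coeff i ∈ CjM := by
  obtain ⟨P, Q, hQ, h⟩ := (charPolyM_coeff_isModFun hx i).exists_rat_of_invariant
    (fun γ => charPolyM_coeff_comp hx γ i)
  exact mem_CjM_of_mul_eq hQ h

/-- the characteristic polynomial as a polynomial over `ℂ(j)`. -/
theorem exists_charPoly_CjM (hx : IsModFun Γ x) :
    ∃ p : CjM[X], p.Monic ∧ p.natDegree = Γ.index ∧
      p.map (algebraMap CjM MerH) = charPolyM Γ x ∧ Polynomial.aeval x p = 0 := by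
  have hl : charPolyM Γ x ∈ Polynomial.lifts (algebraMap CjM MerH) := by
    rw [Polynomial.lifts_iff_coeff_lifts]
    intro i
    exact ⟨⟨_, charPolyM_coeff_mem hx i⟩, rfl⟩
  obtain ⟨p, hp, hdeg, hmon⟩ :=
    Polynomial.lifts_and_natDegree_eq_and_monic hl (charPolyM_monic x)
  refine ⟨p, hmon, hdeg.trans (charPolyM_natDegree x), hp, ?_⟩
  rw [Polynomial.aeval_def, ← Polynomial.eval_map, hp]
  exact charPolyM_eval_self hx

theorem isIntegral_CjM (hx : IsModFun Γ x) : IsIntegral CjM x := by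
  obtain ⟨p, hmon, -, -, hroot⟩ := exists_charPoly_CjM hx
  exact ⟨p, hmon, hroot⟩

theorem natDegree_minpoly_le (hx : IsModFun Γ x) : (minpoly CjM x).natDegree ≤ Γ.index := by
  obtain ⟨p, hmon, hdeg, -, hroot⟩ := exists_charPoly_CjM hx
  rw [← hdeg]
  exact Polynomial.natDegree_le_of_dvd (minpoly.dvd CjM x hroot) hmon.ne_zero

end

end Fermat.Agent.X0N
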