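import Fermat.Agent.X0N.J_helper8_EtaProd
import Fermat.Agent.RatStr.Laurent_helper1
import Fermat.Prelude.Def_ModularCurve_LaurentCoeff

/-!
# (AN0) part 2: the `j`-function on the upper half plane and its Laurent expansion
-/

namespace Fermat.Agent.X0N

open UpperHalfPlane hiding I
open Complex Filter Function Topology ModularForm
open Fermat.Agent.RatStr
open scoped Manifold MatrixGroups

local notation "𝕢" => Periodic.qParam
local notation "Δ" => ModularForm.discriminant

/-- `∏ (1 - q^(n+1))` as a function on the upper half plane. -/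
noncomputable def etaProdFun (z : ℍ) : ℂ := etaFun (𝕢 1 z)

theorem norm_qParam_one_lt_one (z : ℍ) : ‖𝕢 1 (z : ℂ)‖ < 1 := by
  simpa using (Periodic.norm_qParam_lt_iff zero_lt_one 0 z.1).mpr z.2

theorem qParam_mem_ball (z : ℍ) : 𝕢 1 (z : ℂ) ∈ Metric.ball (0 : ℂ) 1 := by
  simpa using norm_qParam_one_lt_one z

theorem differentiableOn_etaFun : DifferentiableOn ℂ etaFun (Metric.ball (0 : ℂ) 1) :=
  differentiableOn_tprod_one_sub_pow

theorem etaFun_zero : etaFun 0 = 1 := by
  simp [etaFun]

theorem discriminant_eq_qf_mul (z : ℍ) : Δ z = qf 1 z * etaProdFun z ^ 24 := by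
  rw [discriminant_eq_q_prod, etaProdFun, etaFun, qf_apply]
  congr 1
  exact (multipliable_one_sub_pow (norm_qParam_one_lt_one z)).tprod_pow 24

theorem etaProdFun_ne_zero (z : ℍ) : etaProdFun z ≠ 0 := by
  intro h
  have := discriminant_ne_zero z
  rw [discriminant_eq_qf_mul, h] at this
  simp at this

theorem tendsto_etaProdFun : Tendsto etaProdFun atImInfty (𝓝 1) := by
  have h1 : ContinuousAt etaFun 0 :=
    (differentiableOn_etaFun.differentiableAt
      (Metric.ball_mem_nhds 0 one_pos)).continuousAt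
  have h2 : Tendsto (fun z : ℍ => 𝕢 1 (z : ℂ)) atImInfty (𝓝 0) :=
    UpperHalfPlane.qParam_tendsto_atImInfty one_pos
  have := h1.tendsto.comp h2
  rwa [etaFun_zero] at this

theorem isHolBdd_etaProdFun : IsHolBdd 1 etaProdFun where
  per := by
    apply periodic_comp_ofComplex_of_vadd
    intro τ
    simp only [etaProdFun, UpperHalfPlane.coe_vadd]
    rw [add_comm]
    congr 1
    exact_mod_cast qParam_add_period (h := 1) one_ne_zero (τ : ℂ)
  hol := by
    rw [UpperHalfPlane.mdifferentiable_iff]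
    have h1 : DifferentiableOn ℂ (fun z : ℂ => etaFun (𝕢 1 z)) {z : ℂ | 0 < z.im} := by
      refine differentiableOn_etaFun.comp
        (Periodic.differentiable_qParam (h := 1)).differentiableOn ?_
      intro z hz
      simpa using (Periodic.norm_qParam_lt_iff zero_lt_one 0 z).mpr hz
    refine h1.congr fun z hz => ?_
    simp only [comp_apply, etaProdFun]
    rw [ofComplex_apply_of_im_pos hz]
  bdd := tendsto_etaProdFun.isBigO_one ℝ

theorem cuspFunction_etaProdFun_eqOn :
    Set.EqOn (cuspFunction 1 etaProdFun) etaFun (Metric.ball 0 1) := by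
  have hne : ∀ q : ℂ, q ∈ Metric.ball (0 : ℂ) 1 → q ≠ 0 → cuspFunction 1 etaProdFun q = etaFun q := by
    intro q hq hq0
    have him := Periodic.im_invQParam_pos_of_norm_lt_one one_pos
      (by simpa [dist_zero_right] using hq) hq0
    have h1 := eq_cuspFunction (f := etaProdFun) ⟨_, him⟩ one_ne_zero isHolBdd_etaProdFun.per
    simp only [etaProdFun] at h1
    rw [Periodic.qParam_right_inv one_ne_zero hq0] at h1
    exact h1
  intro q hq
  by_cases hq0 : q = 0
  · subst hq0
    have hc1 : ContinuousAt (cuspFunction 1 etaProdFun) 0 :=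
      (isHolBdd_etaProdFun.analyticAt one_pos).continuousAt
    have hc2 : ContinuousAt etaFun 0 :=
      (differentiableOn_etaFun.differentiableAt (Metric.ball_mem_nhds 0 one_pos)).continuousAt
    have t1 : Tendsto (cuspFunction 1 etaProdFun) (𝓝[≠] 0) (𝓝 (cuspFunction 1 etaProdFun 0)) :=
      hc1.tendsto.mono_left nhdsWithin_le_nhds
    have t2 : Tendsto (cuspFunction 1 etaProdFun) (𝓝[≠] 0) (𝓝 (etaFun 0)) := by
      refine (hc2.tendsto.mono_left nhdsWithin_le_nhds).congr' ?_
      have : ∀ᶠ q in 𝓝[≠] (0 : ℂ), q ∈ Metric.ball (0 : ℂ) 1 ∧ q ≠ 0 := by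
        refine Filter.Eventually.and ?_ eventually_mem_nhdsWithin
        exact nhdsWithin_le_nhds (Metric.ball_mem_nhds 0 one_pos)
      filter_upwards [this] with q hq
      exact (hne q hq.1 hq.2).symm
    exact tendsto_nhds_unique t1 t2
  · exact hne q hq hq0

theorem qExpansion_etaProdFun :
    qExpansion 1 etaProdFun = ModularCurve.etaProd.map (Int.castRingHom ℂ) := by
  ext m
  rw [qExpansion_coeff, PowerSeries.coeff_map]
  have : iteratedDeriv m (cuspFunction 1 etaProdFun) 0 = iteratedDeriv m etaFun 0 := by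
    apply Filter.EventuallyEq.iteratedDeriv_eq
    exact cuspFunction_etaProdFun_eqOn.eventuallyEq_of_mem (Metric.ball_mem_nhds 0 one_pos)
  rw [this, iteratedDeriv_etaFun_zero]
  have : (m.factorial : ℂ) ≠ 0 := by exact_mod_cast m.factorial_ne_zero
  field_simp
  simp


/-- `1 / ∏ (1 - q^n)^24` on the upper half plane. -/
noncomputable def etaInv24 (z : ℍ) : ℂ := (etaProdFun z ^ 24)⁻¹

theorem etaProdFun_pow_mul_etaInv24 : etaProdFun ^ 24 * etaInv24 = 1 := by
  ext z
  simp only [Pi.mul_apply, Pi.pow_apply, etaInv24, Pi.one_apply]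
  exact mul_inv_cancel₀ (pow_ne_zero _ (etaProdFun_ne_zero z))

theorem isHolBdd_etaInv24 : IsHolBdd 1 etaInv24 where
  per := by
    apply periodic_comp_ofComplex_of_vadd
    intro τ
    have := vadd_of_periodic_comp_ofComplex isHolBdd_etaProdFun.per τ
    simp only [etaInv24, this]
  hol := by
    have h := (isHolBdd_etaProdFun.pow 24).hol
    rw [UpperHalfPlane.mdifferentiable_iff] at h ⊢
    have : DifferentiableOn ℂ (fun z => (((etaProdFun ^ 24) ∘ ofComplex) z)⁻¹)
        {z : ℂ | 0 < z.im} := by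
      refine h.inv ?_
      intro z hz
      simp only [comp_apply, Pi.pow_apply]
      exact pow_ne_zero _ (etaProdFun_ne_zero _)
    exact this
  bdd := by
    have : Tendsto etaInv24 atImInfty (𝓝 ((1 ^ 24)⁻¹)) :=
      (tendsto_etaProdFun.pow 24).inv₀ (by norm_num)
    exact this.isBigO_one ℝ

theorem qExpansion_etaInv24 :
    qExpansion 1 etaInv24 = ModularCurve.dedekindEtaUnitInv.map (Int.castRingHom ℂ) := by
  have h1 : qExpansion 1 (etaProdFun ^ 24) * qExpansion 1 etaInv24 = 1 := by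
    rw [← qExpansion_mul' one_pos (isHolBdd_etaProdFun.pow 24) isHolBdd_etaInv24,
      etaProdFun_pow_mul_etaInv24, qExpansion_one]
  have h2 : qExpansion 1 (etaProdFun ^ 24) =
      ModularCurve.dedekindEtaUnit.map (Int.castRingHom ℂ) := by
    have : ∀ n : ℕ, qExpansion 1 (etaProdFun ^ n) = (qExpansion 1 etaProdFun) ^ n := by
      intro n
      induction n with
      | zero => simpa using qExpansion_one 1
      | succ n ih =>
        rw [pow_succ, qExpansion_mul' one_pos (isHolBdd_etaProdFun.pow n) isHolBdd_etaProdFun, ih,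
          pow_succ]
    rw [this, qExpansion_etaProdFun, ModularCurve.dedekindEtaUnit, map_pow]
  have h3 : ModularCurve.dedekindEtaUnit.map (Int.castRingHom ℂ) *
      ModularCurve.dedekindEtaUnitInv.map (Int.castRingHom ℂ) = 1 := by
    rw [← map_mul, ModularCurve.dedekindEtaUnit_mul_inv, map_one]
  rw [h2] at h1
  calc qExpansion 1 etaInv24 = 1 * qExpansion 1 etaInv24 := (one_mul _).symm
    _ = (ModularCurve.dedekindEtaUnitInv.map (Int.castRingHom ℂ) *
        ModularCurve.dedekindEtaUnit.map (Int.castRingHom ℂ)) * qExpansion 1 etaInv24 := by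
        rw [mul_comm (ModularCurve.dedekindEtaUnitInv.map _), h3]
    _ = _ := by rw [mul_assoc, h1, mul_one]


theorem qExpansion_E₄ :
    qExpansion 1 E₄ = ModularCurve.eisenstein4.map (Int.castRingHom ℂ) := by
  ext m
  rw [EisensteinSeries.E_qExpansion_coeff _ ⟨2, rfl⟩, PowerSeries.coeff_map,
    ModularCurve.eisenstein4, PowerSeries.coeff_mk]
  have hb : bernoulli 4 = -1 / 30 := by decide +kernel
  by_cases hm : m = 0
  · simp [hm]
  · simp only [hm, if_false, hb, ArithmeticFunction.sigma_apply]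
    push_cast
    norm_num

theorem coeffMap_ofPowerSeries {R S : Type*} [CommRing R] [CommRing S] (f : R →+* S)
    (p : PowerSeries R) :
    ModularCurve.coeffMap f (HahnSeries.ofPowerSeries ℤ R p) =
      HahnSeries.ofPowerSeries ℤ S (p.map f) := by
  ext k
  rw [ModularCurve.coeffMap_coeff]
  by_cases hk : 0 ≤ k
  · obtain ⟨n, rfl⟩ := Int.eq_ofNat_of_zero_le hk
    rw [HahnSeries.ofPowerSeries_apply_coeff, HahnSeries.ofPowerSeries_apply_coeff,
      PowerSeries.coeff_map]
  · rw [not_le] at hk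
    rw [ModularCurve.ofPowerSeries_coeff_of_neg _ hk, ModularCurve.ofPowerSeries_coeff_of_neg _ hk,
      map_zero]

/-- The modular `j`-invariant as a function on the upper half plane. -/
noncomputable def jFun (z : ℍ) : ℂ := E₄ z ^ 3 / Δ z

theorem jFun_mul_qf : jFun * qf 1 = (⇑E₄) ^ 3 * etaInv24 := by
  ext z
  simp only [Pi.mul_apply, jFun, Pi.pow_apply, etaInv24, discriminant_eq_qf_mul]
  have h1 := qf_ne_zero 1 z
  have h2 := etaProdFun_ne_zero z
  field_simp

theorem isHolBdd_E₄ : IsHolBdd 1 (⇑E₄) :=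
  isHolBdd_of_modularForm E₄ one_pos (by simp)

theorem isHolBdd_jFun_mul_qf : IsHolBdd 1 (jFun * qf 1 ^ 1) := by
  rw [pow_one, jFun_mul_qf]
  exact (isHolBdd_E₄.pow 3).mul isHolBdd_etaInv24

theorem isMeroInfty_jFun : IsMeroInfty 1 jFun := ⟨1, isHolBdd_jFun_mul_qf⟩

theorem laurent_jFun : laurent 1 jFun = ModularCurve.coeffEmb ℂ ModularCurve.jq := by
  rw [laurent_eq one_pos isHolBdd_jFun_mul_qf, pow_one, jFun_mul_qf,
    qExpansion_mul' one_pos (isHolBdd_E₄.pow 3) isHolBdd_etaInv24, qExpansion_etaInv24]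
  have h3 : qExpansion 1 ((⇑E₄) ^ 3) = (qExpansion 1 E₄) ^ 3 := by
    rw [pow_succ, pow_succ, pow_one, qExpansion_mul' one_pos (isHolBdd_E₄.mul isHolBdd_E₄) isHolBdd_E₄,
      qExpansion_mul' one_pos isHolBdd_E₄ isHolBdd_E₄]
    ring
  have hR : ModularCurve.coeffEmb ℂ ModularCurve.jq = HahnSeries.single (-1 : ℤ) (1 : ℂ) *
      HahnSeries.ofPowerSeries ℤ ℂ (ModularCurve.jNumQ.map (algebraMap ℚ ℂ)) := by
    rw [ModularCurve.coeffEmb, ModularCurve.jq, map_mul, ModularCurve.coeffMap_single,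
      coeffMap_ofPowerSeries, map_one]
  rw [h3, qExpansion_E₄, hR]
  congr 1
  congr 1
  have hmm : ∀ p : PowerSeries ℤ, (p.map (Int.castRingHom ℚ)).map (algebraMap ℚ ℂ) =
      p.map (Int.castRingHom ℂ) := by
    intro p
    ext n
    simp [PowerSeries.coeff_map]
  rw [ModularCurve.jNumQ, ModularCurve.jNum, hmm, map_mul, map_pow]


theorem modularForm_SL_smul {k : ℤ} (f : ModularForm 𝒮ℒ k) (γ : SL(2, ℤ)) (z : ℍ) :
    f (γ • z) = denom γ z ^ k * f z := by
  have h : ((⇑f) ∣[k] γ) z = f z := congrFun (SlashInvariantFormClass.slash_action_eq f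
    (Matrix.SpecialLinearGroup.mapGL ℝ γ) ⟨γ, rfl⟩) z
  rw [ModularForm.SL_slash_apply] at h
  have hne : denom γ z ≠ 0 := denom_ne_zero γ z
  rw [zpow_neg, mul_inv_eq_iff_eq_mul₀ (zpow_ne_zero _ hne)] at h
  rw [h, mul_comm]

theorem discriminant_SL_smul' (γ : SL(2, ℤ)) (z : ℍ) : Δ (γ • z) = denom γ z ^ (12 : ℤ) * Δ z := by
  have h := congrFun
    (SlashInvariantForm.slash_action_generators_SL2Z discriminant_S_invariant
      discriminant_T_invariant γ) z
  rw [ModularForm.SL_slash_apply] at h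
  have hne : denom γ z ≠ 0 := denom_ne_zero γ z
  rw [zpow_neg, mul_inv_eq_iff_eq_mul₀ (zpow_ne_zero _ hne)] at h
  rw [h, mul_comm]

theorem jFun_smul (γ : SL(2, ℤ)) (z : ℍ) : jFun (γ • z) = jFun z := by
  unfold jFun
  rw [modularForm_SL_smul, discriminant_SL_smul']
  have h1 : denom γ z ≠ 0 := denom_ne_zero _ _
  have h2 := discriminant_ne_zero z
  field_simp

theorem mdiff_jFun : MDiff jFun := isMeroInfty_jFun.hol

theorem jFun_mul_discriminant (z : ℍ) : jFun z * Δ z = E₄ z ^ 3 := by
  unfold jFun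
  field_simp [discriminant_ne_zero z]

theorem jFun_sub_mul_discriminant (z : ℍ) : (jFun z - 1728) * Δ z = E₆ z ^ 2 := by
  rw [sub_mul, jFun_mul_discriminant, discriminant_eq_E₄_cube_sub_E₆_sq]
  ring


end Fermat.Agent.X0N
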