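import Fermat.Agent.X0N.J_helper8_Lattice
import Fermat.Agent.X0N.J_helper8_Basic
import Fermat.Agent.RatStr.B_helper9_Struct

/-!
# (AN0) part 5 (J2): `j z = j w` implies `w ∈ SL(2,ℤ) z`
-/

namespace Fermat.Agent.X0N

open Filter Topology Complex UpperHalfPlane ModularForm EisensteinSeries
open Fermat.Agent.RatStr
open scoped PeriodPair MatrixGroups

local notation "Δ" => ModularForm.discriminant

theorem levelOne_scaling {z w : ℍ} {l : ℂ} (hl : l ≠ 0) (h4 : E₄ w = l ^ 4 * E₄ z)
    (h6 : E₆ w = l ^ 6 * E₆ z) {k : ℤ} (F : ModularForm 𝒮ℒ k) : F w = l ^ k * F z := by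
  have hF := coe_mem_isoSpan' F
  unfold isoSpan at hF
  refine Submodule.span_induction (p := fun H _ => H w = l ^ k * H z) ?_ ?_ ?_ ?_ hF
  · rintro H ⟨a, b, hab, rfl⟩
    simp only
    rw [h4, h6, ← hab, mul_pow, mul_pow, zpow_add₀ hl, zpow_mul, zpow_mul]
    norm_cast
    ring
  · simp
  · intro x y _ _ hx hy
    simp only [Pi.add_apply, hx, hy]
    ring
  · intro c x _ hx
    simp only [Pi.smul_apply, hx, smul_eq_mul]
    ring

theorem exists_scaling {z w : ℍ} (h : jFun z = jFun w) :
    ∃ l : ℂ, l ≠ 0 ∧ E₄ w = l ^ 4 * E₄ z ∧ E₆ w = l ^ 6 * E₆ z := by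
  have hΔz := discriminant_ne_zero z
  have hΔw := discriminant_ne_zero w
  have hz := discriminant_eq_E₄_cube_sub_E₆_sq z
  have hw := discriminant_eq_E₄_cube_sub_E₆_sq w
  set a := E₄ z with ha
  set b := E₆ z with hb
  set a' := E₄ w with ha'
  set b' := E₆ w with hb'
  have hj : a ^ 3 * Δ w = a' ^ 3 * Δ z := by
    have h1 := jFun_mul_discriminant z
    have h2 := jFun_mul_discriminant w
    rw [← ha] at h1
    rw [← ha'] at h2
    rw [← h1, ← h2, h]
    ring
  have key : a ^ 3 * b' ^ 2 = a' ^ 3 * b ^ 2 := by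
    rw [hz, hw] at hj
    linear_combination (-1728 : ℂ) * hj
  have hnz : a ^ 3 - b ^ 2 ≠ 0 := by
    intro h0
    rw [hz, h0] at hΔz
    simp at hΔz
  have hnw : a' ^ 3 - b' ^ 2 ≠ 0 := by
    intro h0
    rw [hw, h0] at hΔw
    simp at hΔw
  by_cases ha0 : a = 0
  · have hb0 : b ≠ 0 := by
      intro hb0
      apply hnz
      rw [ha0, hb0]; ring
    have ha'0 : a' = 0 := by
      rw [ha0] at key
      have : a' ^ 3 * b ^ 2 = 0 := by rw [← key]; ring
      rcases mul_eq_zero.mp this with h | h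
      · exact pow_eq_zero_iff (by norm_num) |>.mp h
      · exact absurd (pow_eq_zero_iff (by norm_num) |>.mp h) hb0
    have hb'0 : b' ≠ 0 := by
      intro hb0
      apply hnw
      rw [ha'0, hb0]; ring
    obtain ⟨l, hl⟩ := IsAlgClosed.exists_pow_nat_eq (b' / b) (n := 6) (by norm_num)
    have hl0 : l ≠ 0 := by
      rintro rfl
      have : b' / b ≠ 0 := div_ne_zero hb'0 hb0
      apply this
      rw [← hl]; ring
    refine ⟨l, hl0, ?_, ?_⟩
    · rw [ha'0, ha0]; ring
    · rw [hl]; field_simp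
  · by_cases hb0 : b = 0
    · have hb'0 : b' = 0 := by
        rw [hb0] at key
        have : a ^ 3 * b' ^ 2 = 0 := by rw [key]; ring
        rcases mul_eq_zero.mp this with h | h
        · exact absurd (pow_eq_zero_iff (by norm_num) |>.mp h) ha0
        · exact pow_eq_zero_iff (by norm_num) |>.mp h
      have ha'0 : a' ≠ 0 := by
        intro h0
        apply hnw
        rw [h0, hb'0]; ring
      obtain ⟨l, hl⟩ := IsAlgClosed.exists_pow_nat_eq (a' / a) (n := 4) (by norm_num)
      have hl0 : l ≠ 0 := by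
        rintro rfl
        have : a' / a ≠ 0 := div_ne_zero ha'0 ha0
        apply this
        rw [← hl]; ring
      refine ⟨l, hl0, ?_, ?_⟩
      · rw [hl]; field_simp
      · rw [hb'0, hb0]; ring
    · have ha'0 : a' ≠ 0 := by
        intro h0
        rw [h0] at key
        have : a ^ 3 * b' ^ 2 = 0 := by rw [key]; ring
        have hb'0 : b' = 0 := by
          rcases mul_eq_zero.mp this with h | h
          · exact absurd (pow_eq_zero_iff (by norm_num) |>.mp h) ha0
          · exact pow_eq_zero_iff (by norm_num) |>.mp h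
        apply hnw
        rw [h0, hb'0]; ring
      have hb'0 : b' ≠ 0 := by
        intro h0
        rw [h0] at key
        have : a' ^ 3 * b ^ 2 = 0 := by rw [← key]; ring
        rcases mul_eq_zero.mp this with h | h
        · exact ha'0 (pow_eq_zero_iff (by norm_num) |>.mp h)
        · exact hb0 (pow_eq_zero_iff (by norm_num) |>.mp h)
      obtain ⟨l, hl⟩ := IsAlgClosed.exists_pow_nat_eq (a * b' / (a' * b)) (n := 2) (by norm_num)
      have hl0 : l ≠ 0 := by
        rintro rfl
        have : a * b' / (a' * b) ≠ 0 :=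
          div_ne_zero (mul_ne_zero ha0 hb'0) (mul_ne_zero ha'0 hb0)
        apply this
        rw [← hl]; ring
      have h4 : l ^ 4 = a' / a := by
        have : l ^ 4 = (l ^ 2) ^ 2 := by ring
        rw [this, hl, div_pow, div_eq_div_iff (pow_ne_zero 2 (mul_ne_zero ha'0 hb0)) ha0]
        linear_combination key
      have h6 : l ^ 6 = b' / b := by
        have : l ^ 6 = l ^ 2 * l ^ 4 := by ring
        rw [this, hl, h4]
        field_simp
      refine ⟨l, hl0, ?_, ?_⟩
      · rw [h4]; field_simp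
      · rw [h6]; field_simp

/-- **Injectivity of `j` modulo `SL(2,ℤ)`.** -/
theorem exists_smul_eq_of_jFun_eq {z w : ℍ} (h : jFun z = jFun w) :
    ∃ γ : SL(2, ℤ), γ • z = w := by
  obtain ⟨l, hl, h4, h6⟩ := exists_scaling h
  have hμ : l⁻¹ ≠ 0 := inv_ne_zero hl
  apply exists_SL2_smul_eq_of_lattice_eq hμ
  apply lattice_eq_of_G_eq
  intro k hk
  rw [pairOf_G _ _ _ hk, pairOf_G _ _ _ hk]
  have := levelOne_scaling hl h4 h6 (E hk)
  rw [this]
  simp only [one_pow, inv_one, one_mul, inv_pow, inv_inv, zpow_natCast]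
  ring

end Fermat.Agent.X0N
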