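import Fermat.Agent.X0N.J_helper8_Deriv
import Fermat.Agent.X0N.J_helper8_Inj

/-!
# (AN0) part 7: the elliptic points `i` and `ρ`
-/

namespace Fermat.Agent.X0N

open UpperHalfPlane hiding I
open Complex Filter Function Topology ModularForm EisensteinSeries ModularGroup
open Fermat.Agent.RatStr
open scoped Manifold MatrixGroups Real

local notation "Δ" => ModularForm.discriminant

theorem S_smul_I : S • UpperHalfPlane.I = UpperHalfPlane.I := by
  apply UpperHalfPlane.ext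
  rw [UpperHalfPlane.modular_S_smul]
  simp [UpperHalfPlane.coe_I, Complex.inv_I]

theorem denom_S_I : denom S UpperHalfPlane.I = Complex.I := by
  rw [ModularGroup.denom_S]; rfl

theorem E₆_I : E₆ UpperHalfPlane.I = 0 := by
  have h := modularForm_SL_smul E₆ S UpperHalfPlane.I
  rw [S_smul_I, denom_S_I] at h
  have h6 : (Complex.I : ℂ) ^ (6 : ℤ) = -1 := by
    have : (Complex.I : ℂ) ^ (6 : ℤ) = (Complex.I ^ 2) ^ 3 := by norm_cast; ring
    rw [this, Complex.I_sq]; norm_num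
  rw [h6] at h
  linear_combination h / 2

theorem jFun_I : jFun UpperHalfPlane.I = 1728 := by
  have h := jFun_sub_mul_discriminant UpperHalfPlane.I
  rw [E₆_I] at h
  have h2 : jFun UpperHalfPlane.I - 1728 = 0 := by
    rcases mul_eq_zero.mp (h.trans (by ring)) with h | h
    · exact h
    · exact absurd h (discriminant_ne_zero _)
  linear_combination h2

/-- The elliptic point `ρ = e^{2πi/3}`. -/
noncomputable def rhoH : ℍ :=
  ⟨⟨-1 / 2, Real.sqrt 3 / 2⟩, by
    show 0 < Real.sqrt 3 / 2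
    positivity⟩

theorem rhoH_sq_add : (rhoH : ℂ) ^ 2 + (rhoH : ℂ) + 1 = 0 := by
  have h3 : Real.sqrt 3 * Real.sqrt 3 = 3 := Real.mul_self_sqrt (by norm_num)
  apply Complex.ext
  · simp only [rhoH, UpperHalfPlane.coe_mk, pow_two, Complex.add_re, Complex.mul_re,
      Complex.one_re, Complex.zero_re]
    nlinarith
  · simp only [rhoH, UpperHalfPlane.coe_mk, pow_two, Complex.add_im, Complex.mul_im,
      Complex.one_im, Complex.zero_im]
    ring

theorem ST_smul_rhoH : (S * T) • rhoH = rhoH := by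
  apply UpperHalfPlane.ext
  rw [mul_smul, UpperHalfPlane.modular_T_smul, UpperHalfPlane.modular_S_smul]
  simp only [UpperHalfPlane.coe_vadd]
  have h := rhoH_sq_add
  have hne : (1 : ℂ) + (rhoH : ℂ) ≠ 0 := by
    intro h0
    have : (rhoH : ℂ) = -1 := by linear_combination h0
    rw [this] at h
    norm_num at h
  push_cast
  have hne' : -(1 + (rhoH : ℂ)) ≠ 0 := neg_ne_zero.mpr hne
  rw [inv_eq_iff_eq_inv]
  apply eq_inv_of_mul_eq_one_left
  linear_combination -h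

theorem denom_ST (z : ℍ) : denom ((S * T : SL(2, ℤ)) : GL (Fin 2) ℝ) z = (z : ℂ) + 1 := by
  rw [ModularGroup.denom_apply]
  have h10 : (S * T : SL(2, ℤ)) 1 0 = 1 := by
    rw [Matrix.SpecialLinearGroup.coe_mul, Matrix.mul_apply, Fin.sum_univ_two]
    simp [S, T]
  have h11 : (S * T : SL(2, ℤ)) 1 1 = 1 := by
    rw [Matrix.SpecialLinearGroup.coe_mul, Matrix.mul_apply, Fin.sum_univ_two]
    simp [S, T]
  rw [h10, h11]
  simp

theorem E₄_rhoH : E₄ rhoH = 0 := by
  have h := modularForm_SL_smul E₄ (S * T) rhoH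
  rw [ST_smul_rhoH, denom_ST] at h
  have hr := rhoH_sq_add
  have h4 : ((rhoH : ℂ) + 1) ^ (4 : ℤ) = -(rhoH : ℂ) - 1 := by
    have : ((rhoH : ℂ) + 1) ^ (4 : ℤ) = ((rhoH : ℂ) + 1) ^ 4 := by norm_cast
    rw [this]
    linear_combination ((rhoH : ℂ) ^ 2 + 3 * (rhoH : ℂ) + 2) * hr
  rw [h4] at h
  have hne : (rhoH : ℂ) + 2 ≠ 0 := by
    intro h0
    have : (rhoH : ℂ) = -2 := by linear_combination h0
    rw [this] at hr
    norm_num at hr
  have h5 : ((rhoH : ℂ) + 2) * E₄ rhoH = 0 := by linear_combination h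
  rcases mul_eq_zero.mp h5 with h | h
  · exact absurd h hne
  · exact h

theorem jFun_rhoH : jFun rhoH = 0 := by
  unfold jFun
  rw [E₄_rhoH]; simp

theorem exists_smul_I_of_jFun_eq {z : ℍ} (h : jFun z = 1728) :
    ∃ γ : SL(2, ℤ), γ • UpperHalfPlane.I = z :=
  exists_smul_eq_of_jFun_eq (jFun_I.trans h.symm)

theorem exists_smul_rhoH_of_jFun_eq {z : ℍ} (h : jFun z = 0) :
    ∃ γ : SL(2, ℤ), γ • rhoH = z :=
  exists_smul_eq_of_jFun_eq (jFun_rhoH.trans h.symm)

theorem inv_denom_S_I_sq : ((denom S UpperHalfPlane.I) ^ 2)⁻¹ = (-1 : ℂ) := by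
  rw [denom_S_I, Complex.I_sq]; norm_num

/-- `((denom (ST) ρ)^2)⁻¹ = ρ²` is a primitive cube root of unity. -/
theorem inv_denom_ST_rhoH_sq :
    ((denom ((S * T : SL(2, ℤ)) : GL (Fin 2) ℝ) rhoH) ^ 2)⁻¹ = (rhoH : ℂ) ^ 2 := by
  rw [denom_ST]
  have hr := rhoH_sq_add
  have h1 : ((rhoH : ℂ) + 1) ^ 2 = (rhoH : ℂ) := by linear_combination hr
  rw [h1, inv_eq_iff_eq_inv]
  apply eq_inv_of_mul_eq_one_left
  linear_combination ((rhoH : ℂ) - 1) * hr

theorem rhoH_sq_ne_one : (rhoH : ℂ) ^ 2 ≠ 1 := by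
  intro h
  have hr := rhoH_sq_add
  have h2 : (rhoH : ℂ) = -2 := by linear_combination hr - h
  rw [h2] at h
  norm_num at h

theorem rhoH_sq_pow_three : ((rhoH : ℂ) ^ 2) ^ 3 = 1 := by
  have hr := rhoH_sq_add
  linear_combination ((rhoH : ℂ) ^ 4 - (rhoH : ℂ) ^ 3 + (rhoH : ℂ) - 1) * hr

end Fermat.Agent.X0N
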