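import Mathlib
import Fermat.Agent.X0N.Mer_helper6_RealN
import Fermat.Agent.X0N.SYM_helper2_Dilate
import Fermat.Agent.X0N.SYM_helper2_CharPoly

/-!
# Conjugates of `j_N = j(N·)`: the stabiliser is `Γ₀(N)`, and the degree over `ℂ(j)`

* `exists_jFun_bounds`: `‖j(w)‖ ≍ e^{2π Im w}` near `i∞`;
* `mem_Gamma0_of_jFunN_smul_eq`: `j_N ∘ γ = j_N → γ ∈ Γ₀(N)`;
* `isModFun_realN`: the realisation of the Prelude function field lands in `modFun (Gamma0 N)`;
* `conjM_jN_injective`: the `ψ(N)` conjugates of `j_N` are pairwise distinct;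
* `natDegree_minpoly_jN`: `[ℂ(j, j_N) : ℂ(j)] = [SL(2,ℤ) : Γ₀(N)]`.
-/

set_option autoImplicit false

namespace Fermat.Agent.X0N

open UpperHalfPlane Complex Filter Topology ModularCurve IntermediateField ModularForm
open Fermat.Agent.RatStr
open scoped MatrixGroups Manifold

theorem tendsto_jFun_mul_qf : Tendsto (jFun * qf 1) atImInfty (𝓝 1) := by
  rw [jFun_mul_qf]
  have h1 : Tendsto (fun z : ℍ => (E₄ z) ^ 3) atImInfty (𝓝 1) := by
    simpa using E4_tendsto_one.pow 3
  have h2 : Tendsto etaInv24 atImInfty (𝓝 1) := by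
    have := (tendsto_etaProdFun.pow 24).inv₀ (by simp)
    simp only [one_pow, inv_one] at this
    exact this
  have := h1.mul h2
  rw [mul_one] at this
  exact this

theorem norm_qf_one (w : ℍ) : ‖qf 1 w‖ = Real.exp (-2 * Real.pi * w.im) := by
  simp [qf_apply, Function.Periodic.qParam, Complex.norm_exp]

/-- Two-sided exponential bounds for `j` near `i∞`. -/
theorem exists_jFun_bounds :
    ∃ A : ℝ, ∀ w : ℍ, A ≤ w.im →
      (1 / 2 : ℝ) * Real.exp (2 * Real.pi * w.im) ≤ ‖jFun w‖ ∧
      ‖jFun w‖ ≤ (3 / 2 : ℝ) * Real.exp (2 * Real.pi * w.im) := by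
  have hprod := tendsto_jFun_mul_qf.eventually
    (Metric.ball_mem_nhds 1 (by norm_num : (0 : ℝ) < 1 / 2))
  rw [Filter.Eventually, UpperHalfPlane.atImInfty_mem] at hprod
  obtain ⟨A, hA⟩ := hprod
  refine ⟨A, fun w hw => ?_⟩
  have hτ := hA w hw
  have hsub : ‖jFun w * qf 1 w - 1‖ < 1 / 2 := by
    have : dist ((jFun * qf 1) w) 1 < 1 / 2 := hτ
    rwa [Complex.dist_eq] at this
  have h1 := norm_sub_norm_le 1 (jFun w * qf 1 w)
  have h2 := norm_sub_norm_le (jFun w * qf 1 w) 1
  rw [norm_one] at h1 h2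
  rw [norm_sub_rev] at h1
  have hlow : 1 / 2 ≤ ‖jFun w * qf 1 w‖ := by linarith
  have hup : ‖jFun w * qf 1 w‖ ≤ 3 / 2 := by linarith
  rw [norm_mul, norm_qf_one] at hlow hup
  have hexp := Real.exp_pos (-2 * Real.pi * w.im)
  have hexp2 := Real.exp_pos (2 * Real.pi * w.im)
  have he : Real.exp (-2 * Real.pi * w.im) * Real.exp (2 * Real.pi * w.im) = 1 := by
    rw [← Real.exp_add]
    have : -2 * Real.pi * w.im + 2 * Real.pi * w.im = 0 := by ring
    rw [this, Real.exp_zero]
  constructor
  · have := mul_le_mul_of_nonneg_right hlow hexp2.le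
    rw [mul_assoc ‖jFun w‖, he, mul_one] at this
    exact this
  · have := mul_le_mul_of_nonneg_right hup hexp2.le
    rw [mul_assoc ‖jFun w‖, he, mul_one] at this
    exact this

/-- Growth comparison: if `j((a z + b)/d) = j(N z)` identically, with `a d = N`, then `d ≤ 1`. -/
theorem le_one_of_jFun_smul_eq {N : ℕ} (hN : N ≠ 0) {a b d : ℝ} (ha : 0 < a) (hd : 0 < d)
    (had : a * d ≠ 0) (hadN : a * d = N)
    (h : ∀ z : ℍ, jFun (ModularForm.upperTriangularGL a b d had • z) =
      jFun (ModularForm.heckeDiagMatrix N • z)) : d ≤ 1 := by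
  by_contra hd1
  rw [not_le] at hd1
  have hNpos : (0 : ℝ) < N := by exact_mod_cast Nat.pos_of_ne_zero hN
  have hε : 0 < (N : ℝ) - a / d := by
    rw [← hadN, sub_pos, div_lt_iff₀ hd]
    nlinarith
  obtain ⟨A, hA⟩ := exists_jFun_bounds
  have hadpos : 0 < a / d := div_pos ha hd
  set y : ℝ := max (max (A / (a / d)) (A / N)) (max 1 (3 / (2 * Real.pi * (N - a / d))))
    with hy
  have hy1 : 1 ≤ y := le_trans (le_max_left _ _) (le_max_right _ _)
  have hypos : 0 < y := lt_of_lt_of_le one_pos hy1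
  have hyA1 : A / (a / d) ≤ y := le_trans (le_max_left _ _) (le_max_left _ _)
  have hyA2 : A / N ≤ y := le_trans (le_max_right _ _) (le_max_left _ _)
  have hyc : 3 / (2 * Real.pi * (N - a / d)) ≤ y :=
    le_trans (le_max_right _ _) (le_max_right _ _)
  set z : ℍ := ⟨⟨0, y⟩, hypos⟩ with hz
  have hzim : z.im = y := rfl
  have h1 := (hA (ModularForm.upperTriangularGL a b d had • z) (by
    rw [im_upperTriangularGL_smul ha hd, hzim]
    rwa [div_le_iff₀' hadpos] at hyA1)).2
  have h2 := (hA (ModularForm.heckeDiagMatrix N • z) (by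
    rw [im_heckeDiagMatrix_smul hN, hzim]
    rwa [div_le_iff₀' hNpos] at hyA2)).1
  rw [im_upperTriangularGL_smul ha hd, hzim] at h1
  rw [im_heckeDiagMatrix_smul hN, hzim] at h2
  rw [h z] at h1
  have h3 : (1 / 2 : ℝ) * Real.exp (2 * Real.pi * (N * y)) ≤
      (3 / 2 : ℝ) * Real.exp (2 * Real.pi * (a / d * y)) := h2.trans h1
  have h4 : Real.exp (2 * Real.pi * ((N - a / d) * y)) ≤ 3 := by
    have he : Real.exp (2 * Real.pi * ((N - a / d) * y)) =
        Real.exp (2 * Real.pi * (N * y)) * Real.exp (-(2 * Real.pi * (a / d * y))) := by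
      rw [← Real.exp_add]
      congr 1
      ring
    have he2 : Real.exp (2 * Real.pi * (a / d * y)) * Real.exp (-(2 * Real.pi * (a / d * y))) = 1 := by
      rw [← Real.exp_add, add_neg_cancel, Real.exp_zero]
    have hpos := Real.exp_pos (-(2 * Real.pi * (a / d * y)))
    rw [he]
    have := mul_le_mul_of_nonneg_right h3 hpos.le
    rw [mul_assoc (3 / 2 : ℝ), he2, mul_assoc] at this
    linarith
  have h6 : 3 ≤ 2 * Real.pi * ((N - a / d) * y) := by
    have hpos : 0 < 2 * Real.pi * (N - a / d) := by positivity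
    rw [div_le_iff₀' hpos] at hyc
    linarith
  have h7 := Real.add_one_le_exp (2 * Real.pi * ((N - a / d) * y))
  linarith

/-- **The stabiliser of `j_N = j(N·)` in `SL(2, ℤ)` is `Γ₀(N)`** (the nontrivial inclusion). -/
theorem mem_Gamma0_of_jFunN_smul_eq {N : ℕ} (hN : N ≠ 0) (γ : SL(2, ℤ))
    (h : ∀ z : ℍ, jFunN N (γ • z) = jFunN N z) : γ ∈ CongruenceSubgroup.Gamma0 N := by
  obtain ⟨g', a, b, d, had, ha, hd, hadN, hH⟩ := S22.exists_hermite_heckeDiagMatrix hN γ
  have haR : (0 : ℝ) < a := by exact_mod_cast ha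
  have hdR : (0 : ℝ) < d := by exact_mod_cast hd
  have hadNR : (a : ℝ) * (d : ℝ) = (N : ℝ) := by exact_mod_cast hadN
  have key : ∀ z : ℍ, jFun (ModularForm.upperTriangularGL a b d had • z) =
      jFun (ModularForm.heckeDiagMatrix N • z) := by
    intro z
    have hsmul : ModularForm.heckeDiagMatrix N • (γ • z) =
        g' • (ModularForm.upperTriangularGL a b d had • z) := by
      rw [ModularGroup.sl_moeb, ModularGroup.sl_moeb, ← mul_smul, ← mul_smul]
      exact congrArg (· • z) hH
    have h1 := h z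
    rw [jFunN, dilate_apply, dilate_apply, hsmul, jFun_smul] at h1
    exact h1
  have hd1 : (d : ℝ) ≤ 1 := le_one_of_jFun_smul_eq hN haR hdR had hadNR key
  have hd1' : d = 1 := by
    have : d ≤ 1 := by exact_mod_cast hd1
    omega
  have haN : a = N := by rw [hd1', mul_one] at hadN; exact hadN
  have hentry := congrArg (fun M : GL (Fin 2) ℝ => (M : Matrix (Fin 2) (Fin 2) ℝ) 1 0) hH
  simp only [Matrix.GeneralLinearGroup.coe_mul, ModularForm.val_heckeDiagMatrix hN,
    ModularForm.val_upperTriangularGL, Matrix.mul_apply, Fin.sum_univ_two] at hentry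
  simp at hentry
  rw [CongruenceSubgroup.Gamma0_mem]
  have hint : γ 1 0 = g' 1 0 * a := by exact_mod_cast hentry
  rw [hint, haN]
  simp


/-! ### The realisation lands in the modular functions for `Γ₀(N)` -/

section Real

variable {k : Type*} [Field k] [Algebra ℚ k] (ι : k →+* ℂ) (N : ℕ)

theorem jdHol_eq_jNHol (d : ℕ) [NeZero d] : jdHol d = jNHol d := rfl

theorem isModFun_realN (x : ↥(laurentBaseChange k (modularFunctionFieldFull N))) :
    IsModFun (CongruenceSubgroup.Gamma0 N) (realN ι N x) := by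
  induction x using modularFunctionField_induction with
  | hconst c =>
    rw [realN_algebraMap, ← MerH.algebraMap_eq_const]
    exact isModFun_algebraMap _
  | hgen d hd =>
    rw [realN_jdBar]
    exact isModFun_jNHol_of_dvd N hd
  | hadd x y h1 h2 => rw [map_add]; exact h1.add h2
  | hmul x y h1 h2 => rw [map_mul]; exact h1.mul h2
  | hinv x h1 => rw [map_inv₀]; exact h1.inv

end Real

/-! ### Distinct conjugates -/

section Conj

variable (N : ℕ) [NeZero N]

/-- The stabiliser of `j_N ∈ MerH` under `MerH.comp` is exactly `Γ₀(N)`. -/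
theorem comp_jNHol_eq_iff (γ : SL(2, ℤ)) :
    MerH.comp γ (MerH.ofHol (jNHol N)) = MerH.ofHol (jNHol N) ↔
      γ ∈ CongruenceSubgroup.Gamma0 N := by
  constructor
  · intro h
    rw [MerH.comp_algebraMap] at h
    have h2 := MerH.ofHol_injective h
    apply mem_Gamma0_of_jFunN_smul_eq (NeZero.ne N)
    intro z
    exact congrFun (congrArg Subtype.val h2) z
  · intro h
    exact (isModFun_jNHol N).comp_of_mem h

/-- The conjugates of `j_N` indexed by `SL(2, ℤ) ⧸ Γ₀(N)` are pairwise distinct. -/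
theorem conjM_jN_injective :
    Function.Injective (conjM (CongruenceSubgroup.Gamma0 N) (MerH.ofHol (jNHol N))) := by
  intro q₁ q₂
  induction q₁ using QuotientGroup.induction_on with
  | H g₁ =>
    induction q₂ using QuotientGroup.induction_on with
    | H g₂ =>
      intro h
      rw [conjM_mk (isModFun_jNHol N), conjM_mk (isModFun_jNHol N)] at h
      have h2 : MerH.comp (g₁⁻¹ * g₂) (MerH.ofHol (jNHol N)) = MerH.ofHol (jNHol N) := by
        rw [MerH.comp_mul, h, ← MerH.comp_mul, inv_mul_cancel, MerH.comp_one]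
      rw [comp_jNHol_eq_iff] at h2
      exact QuotientGroup.eq.mpr h2

end Conj

/-! ### Lower bound for the degree over `ℂ(j)` from distinct conjugates -/

section Degree

open Polynomial

theorem comp_jM (γ : SL(2, ℤ)) : MerH.comp γ jM = jM :=
  (isModFun_jM ⊤).comp_of_mem (Subgroup.mem_top γ)

theorem comp_aeval_jM (γ : SL(2, ℤ)) (P : ℂ[X]) :
    MerH.comp γ (Polynomial.aeval jM P) = Polynomial.aeval jM P := by
  have h := Polynomial.aeval_algHom_apply (MerH.compAlg γ).toAlgHom jM P
  have h2 : (MerH.compAlg γ).toAlgHom jM = jM := comp_jM γ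
  rw [h2] at h
  exact h.symm

/-- Elements of `ℂ(j)` are invariant under `SL(2, ℤ)`. -/
theorem comp_eq_self_of_mem_CjM (γ : SL(2, ℤ)) {y : MerH} (hy : y ∈ CjM) :
    MerH.comp γ y = y := by
  obtain ⟨P, Q, hQ, h⟩ := exists_rat_of_mem_CjM hy
  have hQ' := aeval_jM_ne_zero hQ
  have : y = Polynomial.aeval jM P / Polynomial.aeval jM Q := by rw [eq_div_iff hQ', h]
  rw [this, map_div₀, comp_aeval_jM, comp_aeval_jM]

theorem map_comp_map_algebraMap_CjM (γ : SL(2, ℤ)) (p : CjM[X]) :
    (p.map (algebraMap CjM MerH)).map (MerH.comp γ : MerH →+* MerH) =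
      p.map (algebraMap CjM MerH) := by
  ext i
  rw [coeff_map, coeff_map]
  exact comp_eq_self_of_mem_CjM γ (p.coeff i).2

/-- All `SL(2, ℤ)`-translates of a root of a polynomial over `ℂ(j)` are roots. -/
theorem eval_comp_eq_zero (γ : SL(2, ℤ)) {x : MerH} {p : CjM[X]}
    (hp : Polynomial.aeval x p = 0) :
    (p.map (algebraMap CjM MerH)).eval (MerH.comp γ x) = 0 := by
  rw [← map_comp_map_algebraMap_CjM γ p, eval_map]
  have := Polynomial.eval₂_at_apply (MerH.comp γ : MerH →+* MerH) (p := p.map (algebraMap CjM MerH)) x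
  rw [RingHom.coe_coe] at this
  rw [this, eval_map, ← Polynomial.aeval_def, hp, map_zero]

variable {Γ : Subgroup SL(2, ℤ)} [Γ.FiniteIndex] {x : MerH}

/-- If the conjugates of `x` are pairwise distinct, every polynomial over `ℂ(j)` killing `x`
has degree at least the index. -/
theorem index_le_natDegree_of_conjM_injective (hinj : Function.Injective (conjM Γ x))
    {p : CjM[X]} (hp0 : p ≠ 0) (hp : Polynomial.aeval x p = 0) : Γ.index ≤ p.natDegree := by
  classical
  have hp0' : p.map (algebraMap CjM MerH) ≠ 0 :=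
    (Polynomial.map_ne_zero_iff (algebraMap CjM MerH).injective).mpr hp0
  have hsub : (Finset.univ.image (conjM Γ x)).val ⊆ (p.map (algebraMap CjM MerH)).roots := by
    intro y hy
    rw [Finset.mem_val, Finset.mem_image] at hy
    obtain ⟨q, -, rfl⟩ := hy
    rw [Polynomial.mem_roots hp0', Polynomial.IsRoot.def]
    exact eval_comp_eq_zero _ hp
  have h1 := Polynomial.card_le_degree_of_subset_roots hsub
  rw [Finset.card_image_of_injective _ hinj, Finset.card_univ,
    Polynomial.natDegree_map] at h1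
  rw [Subgroup.index, Nat.card_eq_fintype_card]
  exact h1

theorem natDegree_minpoly_eq_index_of_conjM_injective (hx : IsModFun Γ x)
    (hinj : Function.Injective (conjM Γ x)) : (minpoly CjM x).natDegree = Γ.index :=
  le_antisymm (natDegree_minpoly_le hx)
    (index_le_natDegree_of_conjM_injective hinj (minpoly.ne_zero (isIntegral_CjM hx))
      (minpoly.aeval CjM x))

end Degree

/-- `[ℂ(j, j_N) : ℂ(j)] = [SL(2, ℤ) : Γ₀(N)]`. -/
theorem natDegree_minpoly_jN (N : ℕ) [NeZero N] :
    (minpoly CjM (MerH.ofHol (jNHol N))).natDegree = (CongruenceSubgroup.Gamma0 N).index :=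
  natDegree_minpoly_eq_index_of_conjM_injective (isModFun_jNHol N) (conjM_jN_injective N)

end Fermat.Agent.X0N
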