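import Mathlib
import Fermat.Agent.X0N.J_helper8_Elliptic
import Fermat.Agent.X0N.Mer_helper6_Conj

/-!
# (J3) Surjectivity of `j : ℍ → ℂ`

The range of `j` is open (open mapping theorem), closed (every point of `ℍ` is `SL(2,ℤ)`-equivalent
to a point of the fundamental domain, on which `‖j‖ → ∞` as `Im → ∞`), and non-empty.
-/

set_option autoImplicit false

namespace Fermat.Agent.X0N

open UpperHalfPlane Complex Filter Topology ModularForm
open scoped MatrixGroups Manifold Modular

/-- `j ∘ ofComplex` is analytic on the open upper half plane. -/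
theorem analyticOnNhd_jFun_comp_ofComplex :
    AnalyticOnNhd ℂ (jFun ∘ ofComplex) {z : ℂ | 0 < z.im} := by
  intro z hz
  have := analyticAt_comp_ofComplex mdiff_jFun ⟨z, hz⟩
  exact this

theorem range_jFun_eq_image :
    Set.range jFun = (jFun ∘ ofComplex) '' {z : ℂ | 0 < z.im} := by
  ext c
  constructor
  · rintro ⟨z, rfl⟩
    refine ⟨(z : ℂ), z.im_pos, ?_⟩
    simp [Function.comp, ofComplex_apply]
  · rintro ⟨z, hz, rfl⟩
    exact ⟨ofComplex z, rfl⟩

theorem isOpen_range_jFun : IsOpen (Set.range jFun) := by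
  rw [range_jFun_eq_image]
  have hU : IsPreconnected {z : ℂ | 0 < z.im} :=
    (convex_halfSpace_im_gt 0).isPreconnected
  rcases analyticOnNhd_jFun_comp_ofComplex.is_constant_or_isOpen hU with ⟨w, hw⟩ | h
  · exfalso
    have h1 := hw (UpperHalfPlane.I : ℂ) UpperHalfPlane.I.im_pos
    have h2 := hw (rhoH : ℂ) rhoH.im_pos
    simp only [Function.comp, ofComplex_apply] at h1 h2
    rw [jFun_I] at h1
    rw [jFun_rhoH] at h2
    rw [← h2] at h1
    norm_num at h1
  · exact h _ subset_rfl isOpen_upperHalfPlaneSet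

/-- Points of the fundamental domain have imaginary part at least `1/2`. -/
theorem half_le_im_of_mem_fd {z : ℍ} (hz : z ∈ 𝒟) : (1 / 2 : ℝ) ≤ z.im := by
  have h := ModularGroup.three_le_four_mul_im_sq_of_mem_fd hz
  have hpos := z.im_pos
  nlinarith

/-- The values of `j` of norm at most `R` are taken on a compact part of the fundamental domain. -/
theorem exists_compact_jFun (R : ℝ) :
    ∃ K : Set ℂ, IsCompact K ∧ K ⊆ {z : ℂ | 0 < z.im} ∧
      ∀ z : ℍ, ‖jFun z‖ ≤ R → ∃ w ∈ K, (jFun ∘ ofComplex) w = jFun z := by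
  obtain ⟨A, hA⟩ := exists_jFun_bounds
  set M : ℝ := max A (Real.log (2 * (|R| + 1)) / (2 * Real.pi)) + 1 with hM
  refine ⟨{z : ℂ | |z.re| ≤ 1 / 2 ∧ 1 / 2 ≤ z.im ∧ z.im ≤ M}, ?_, ?_, ?_⟩
  · have hcl : IsClosed {z : ℂ | |z.re| ≤ 1 / 2 ∧ 1 / 2 ≤ z.im ∧ z.im ≤ M} := by
      refine IsClosed.inter ?_ (IsClosed.inter ?_ ?_)
      · exact isClosed_le (continuous_abs.comp Complex.continuous_re) continuous_const
      · exact isClosed_le continuous_const Complex.continuous_im
      · exact isClosed_le Complex.continuous_im continuous_const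
    refine Metric.isCompact_of_isClosed_isBounded hcl ?_
    rw [Metric.isBounded_iff_subset_closedBall (0 : ℂ)]
    refine ⟨1 / 2 + |M| + 1, fun z hz => ?_⟩
    rw [mem_closedBall_zero_iff]
    obtain ⟨h1, h2, h3⟩ := hz
    have := Complex.norm_le_abs_re_add_abs_im z
    have h4 : |z.im| ≤ |M| := by
      rw [abs_of_nonneg (by linarith : (0 : ℝ) ≤ z.im)]
      exact h3.trans (le_abs_self M)
    linarith
  · intro z hz
    have : (1 / 2 : ℝ) ≤ z.im := hz.2.1
    show 0 < z.im
    linarith
  · intro z hz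
    obtain ⟨g, hg⟩ := ModularGroup.exists_smul_mem_fd z
    refine ⟨((g • z : ℍ) : ℂ), ⟨?_, ?_, ?_⟩, ?_⟩
    · exact hg.2
    · exact half_le_im_of_mem_fd hg
    · by_contra hlt
      rw [not_le] at hlt
      have hA' : A ≤ (g • z).im := by
        have : A ≤ M - 1 := by rw [hM]; simp
        have h' : M < (g • z).im := hlt
        linarith
      have hb := (hA (g • z) hA').1
      rw [jFun_smul] at hb
      have hlog : Real.log (2 * (|R| + 1)) / (2 * Real.pi) ≤ M - 1 := by rw [hM]; simp
      have hpi : 0 < 2 * Real.pi := by positivity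
      have h1 : Real.log (2 * (|R| + 1)) < 2 * Real.pi * (g • z).im := by
        have h' : M < (g • z).im := hlt
        have : Real.log (2 * (|R| + 1)) / (2 * Real.pi) < (g • z).im := by linarith
        rw [div_lt_iff₀ hpi] at this
        linarith
      have hpos : 0 < 2 * (|R| + 1) := by positivity
      have h2 : 2 * (|R| + 1) < Real.exp (2 * Real.pi * (g • z).im) := by
        rwa [← Real.log_lt_iff_lt_exp hpos]
      have : ‖jFun z‖ ≤ |R| := hz.trans (le_abs_self R)
      linarith
    · simp only [Function.comp, ofComplex_apply]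
      exact jFun_smul g z

theorem isClosed_range_jFun : IsClosed (Set.range jFun) := by
  rw [← closure_subset_iff_isClosed]
  intro c hc
  obtain ⟨K, hK, hKU, hKj⟩ := exists_compact_jFun (‖c‖ + 1)
  have hcont : ContinuousOn (jFun ∘ ofComplex) K :=
    (analyticOnNhd_jFun_comp_ofComplex.continuousOn).mono hKU
  have hclosed : IsClosed ((jFun ∘ ofComplex) '' K) := (hK.image_of_continuousOn hcont).isClosed
  have hcK : c ∈ (jFun ∘ ofComplex) '' K := by
    by_contra hnot
    have hopen : IsOpen ((jFun ∘ ofComplex) '' K)ᶜ := hclosed.isOpen_compl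
    obtain ⟨ε, hε, hball⟩ := Metric.isOpen_iff.mp hopen c hnot
    rw [Metric.mem_closure_iff] at hc
    obtain ⟨v, ⟨z, rfl⟩, hv⟩ := hc (min ε 1) (lt_min hε one_pos)
    have hv1 : dist c (jFun z) < 1 := hv.trans_le (min_le_right _ _)
    have hv2 : dist c (jFun z) < ε := hv.trans_le (min_le_left _ _)
    have hnorm : ‖jFun z‖ ≤ ‖c‖ + 1 := by
      have := norm_sub_norm_le (jFun z) c
      rw [dist_comm, Complex.dist_eq] at hv1
      linarith
    obtain ⟨w, hw, hwz⟩ := hKj z hnorm
    have : jFun z ∈ ((jFun ∘ ofComplex) '' K)ᶜ := hball (by rwa [Metric.mem_ball, dist_comm])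
    exact this ⟨w, hw, hwz⟩
  obtain ⟨w, hw, rfl⟩ := hcK
  exact ⟨ofComplex w, rfl⟩

/-- **(J3)** The `j`-function `ℍ → ℂ` is surjective. -/
theorem jFun_surjective : Function.Surjective jFun := by
  have hclopen : IsClopen (Set.range jFun) := ⟨isClosed_range_jFun, isOpen_range_jFun⟩
  have := hclopen.eq_univ ⟨_, ⟨UpperHalfPlane.I, rfl⟩⟩
  exact Set.range_eq_univ.mp this

/-- Every complex number is a value of `j`. -/
theorem exists_jFun_eq (c : ℂ) : ∃ z : ℍ, jFun z = c := jFun_surjective c

end Fermat.Agent.X0N
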