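import Fermat.Agent.X0N.SYM_helper2_CharPoly

set_option autoImplicit false

/-!
# (SYM) regularity of rational functions of `j` and the integrality criterion over `ℂ`
-/

namespace Fermat.Agent.X0N

open UpperHalfPlane ModularForm Filter Function Polynomial
open scoped MatrixGroups ModularForm Manifold Topology
open Fermat.Agent.RatStr

noncomputable section

/-- the subring of `MerH` of functions regular at `τ` (the valuation ring of `ordAt τ`). -/
def regularAt (τ : ℍ) : Subring MerH where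
  carrier := {y | 0 ≤ MerH.ordAt τ y}
  mul_mem' := by
    intro a b ha hb
    simp only [Set.mem_ofPred_eq] at ha hb ⊢
    by_cases ha0 : a = 0
    · simp [ha0]
    by_cases hb0 : b = 0
    · simp [hb0]
    rw [MerH.ordAt_mul ha0 hb0]
    exact add_nonneg ha hb
  one_mem' := by simp [MerH.ordAt_one]
  add_mem' := by
    intro a b ha hb
    simp only [Set.mem_ofPred_eq] at ha hb ⊢
    by_cases ha0 : a = 0
    · simpa [ha0] using hb
    by_cases hb0 : b = 0
    · simpa [hb0] using ha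
    by_cases hab : a + b = 0
    · simp [hab]
    exact le_trans (le_min ha hb) (MerH.min_ordAt_le_ordAt_add ha0 hb0 hab τ)
  zero_mem' := by simp
  neg_mem' := by
    intro a ha
    simp only [Set.mem_ofPred_eq] at ha ⊢
    rwa [MerH.ordAt_neg]

theorem mem_regularAt {τ : ℍ} {y : MerH} : y ∈ regularAt τ ↔ 0 ≤ MerH.ordAt τ y := Iff.rfl

theorem ofHol_mem_regularAt (τ : ℍ) (f : HolH) : MerH.ofHol f ∈ regularAt τ := by
  rw [mem_regularAt]
  by_cases hf : f = 0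
  · simp [hf]
  · rw [MerH.ordAt_ofHol hf]
    exact Int.natCast_nonneg _

theorem aeval_jM_mem_regularAt (τ : ℍ) (P : ℂ[X]) : Polynomial.aeval jM P ∈ regularAt τ := by
  rw [aeval_jM]
  exact ofHol_mem_regularAt τ _

theorem ordAt_aeval_jM_eq_zero {τ : ℍ} {P : ℂ[X]} (h : P.eval (jH τ) ≠ 0) :
    MerH.ordAt τ (Polynomial.aeval jM P) = 0 := by
  have hP : Polynomial.aeval jHol1 P ≠ 0 := by
    intro h0
    apply h
    rw [← coe_aeval_jHol1, h0]
    rfl
  rw [aeval_jM, MerH.ordAt_ofHol hP]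
  have : HolH.ord τ (Polynomial.aeval jHol1 P) = 0 := by
    rw [HolH.ord_eq_zero_iff]
    left
    rwa [coe_aeval_jHol1]
  simp [this]

theorem ordAt_aeval_jM_pos {τ : ℍ} {Q : ℂ[X]} (hQ : Q ≠ 0) (h : Q.eval (jH τ) = 0) :
    0 < MerH.ordAt τ (Polynomial.aeval jM Q) := by
  have hQ' := aeval_jHol1_ne_zero hQ
  rw [aeval_jM, MerH.ordAt_ofHol hQ']
  have : HolH.ord τ (Polynomial.aeval jHol1 Q) ≠ 0 := by
    rw [Ne, HolH.ord_eq_zero_iff, not_or]
    refine ⟨?_, hQ'⟩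
    rw [coe_aeval_jHol1, h]
    simp
  exact_mod_cast Nat.pos_of_ne_zero this

/-- **Regularity**: a rational function `P(j)/Q(j)` in lowest terms which is regular at `τ₀` has
`Q(j(τ₀)) ≠ 0`. -/
theorem eval_ne_zero_of_regular {y : MerH} {P Q : ℂ[X]} (hcop : IsCoprime P Q) (hQ : Q ≠ 0)
    (h : y * Polynomial.aeval jM Q = Polynomial.aeval jM P) {τ₀ : ℍ}
    (hreg : 0 ≤ MerH.ordAt τ₀ y) : Q.eval (jH τ₀) ≠ 0 := by
  intro hQc
  have hPc : P.eval (jH τ₀) ≠ 0 := by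
    intro hPc
    obtain ⟨a, b, hab⟩ := hcop
    have := congrArg (Polynomial.eval (jH τ₀)) hab
    simp [hPc, hQc] at this
  have hP0 : Polynomial.aeval jM P ≠ 0 := by
    apply aeval_jM_ne_zero
    rintro rfl
    simp at hPc
  have hy0 : y ≠ 0 := by
    rintro rfl
    rw [zero_mul] at h
    exact hP0 h.symm
  have h1 := congrArg (MerH.ordAt τ₀) h
  rw [MerH.ordAt_mul hy0 (aeval_jM_ne_zero hQ), ordAt_aeval_jM_eq_zero hPc] at h1
  have h2 := ordAt_aeval_jM_pos hQ hQc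
  omega

/-- every element of `ℂ(j)` regular at `τ₀` is `P(j)/Q(j)` with `Q(j(τ₀)) ≠ 0`. -/
theorem exists_rat_of_mem_CjM_of_regular {y : MerH} (hy : y ∈ CjM) {τ₀ : ℍ}
    (hreg : 0 ≤ MerH.ordAt τ₀ y) :
    ∃ P Q : ℂ[X], Q.eval (jH τ₀) ≠ 0 ∧ y * Polynomial.aeval jM Q = Polynomial.aeval jM P := by
  obtain ⟨P₀, Q₀, hQ₀, h⟩ := exists_rat_of_mem_CjM hy
  -- reduce to lowest terms
  classical
  set d := GCDMonoid.gcd P₀ Q₀ with hd
  have hd0 : d ≠ 0 := gcd_ne_zero_of_right hQ₀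
  set P := P₀ / d with hPdef
  set Q := Q₀ / d with hQdef
  have hP : P₀ = d * P := (EuclideanDomain.mul_div_cancel' hd0 (gcd_dvd_left _ _)).symm
  have hQ : Q₀ = d * Q := (EuclideanDomain.mul_div_cancel' hd0 (gcd_dvd_right _ _)).symm
  have hcop : IsCoprime P Q := isCoprime_div_gcd_div_gcd hQ₀
  have hQ0 : Q ≠ 0 := by
    intro h0
    rw [h0, mul_zero] at hQ
    exact hQ₀ hQ
  have h' : y * Polynomial.aeval jM Q = Polynomial.aeval jM P := by
    have hdM : Polynomial.aeval jM d ≠ 0 := aeval_jM_ne_zero hd0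
    apply mul_right_cancel₀ hdM
    rw [mul_assoc, ← map_mul, ← map_mul, mul_comm Q d, mul_comm P d, ← hP, ← hQ, h]
  exact ⟨P, Q, eval_ne_zero_of_regular hcop hQ0 h' hreg, h'⟩

/-- the local ring of `ℂ(j)` at the point `j = j(τ₀)`, as a subring of `MerH`. -/
def regCjM (τ₀ : ℍ) : Subring MerH := CjM.toSubring ⊓ regularAt τ₀

theorem mem_regCjM {τ₀ : ℍ} {y : MerH} :
    y ∈ regCjM τ₀ ↔ y ∈ CjM ∧ 0 ≤ MerH.ordAt τ₀ y := Iff.rfl

theorem mem_regCjM_iff {τ₀ : ℍ} {y : MerH} :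
    y ∈ regCjM τ₀ ↔ ∃ P Q : ℂ[X], Q.eval (jH τ₀) ≠ 0 ∧
      y * Polynomial.aeval jM Q = Polynomial.aeval jM P := by
  constructor
  · rintro ⟨h1, h2⟩
    exact exists_rat_of_mem_CjM_of_regular h1 h2
  · rintro ⟨P, Q, hQc, h⟩
    have hQ : Q ≠ 0 := by
      rintro rfl
      simp at hQc
    refine ⟨mem_CjM_of_mul_eq hQ h, ?_⟩
    by_cases hy : y = 0
    · rw [hy]; exact (regularAt τ₀).zero_mem
    have h1 := congrArg (MerH.ordAt τ₀) h
    rw [MerH.ordAt_mul hy (aeval_jM_ne_zero hQ), ordAt_aeval_jM_eq_zero hQc, add_zero] at h1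
    show 0 ≤ MerH.ordAt τ₀ y
    rw [h1]
    exact aeval_jM_mem_regularAt τ₀ P

variable {Γ : Subgroup SL(2, ℤ)} [Γ.FiniteIndex] {x : MerH}

theorem charPolyM_coeff_mem_of_forall_mem (S : Subring MerH)
    (h : ∀ q : SL(2, ℤ) ⧸ Γ, conjM Γ x q ∈ S) (i : ℕ) : (charPolyM Γ x).coeff i ∈ S := by
  have : charPolyM Γ x =
      (∏ q : SL(2, ℤ) ⧸ Γ, (X - C (⟨conjM Γ x q, h q⟩ : S))).map S.subtype := by
    unfold charPolyM
    rw [Polynomial.map_prod]
    refine Finset.prod_congr rfl fun q _ => ?_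
    simp only [Polynomial.map_sub, Polynomial.map_X, Polynomial.map_C]
    rfl
  rw [this, coeff_map]
  exact ((∏ q : SL(2, ℤ) ⧸ Γ, (X - C (⟨conjM Γ x q, h q⟩ : S))).coeff i).2

/-- **Integrality criterion over `ℂ`**: a modular function for `Γ` which is regular at all
points of the `SL(2,ℤ)`-orbit of `τ₀` is integral over the local ring of `ℂ(j)` at `j(τ₀)`. -/
theorem isIntegral_regCjM (hx : IsModFun Γ x) {τ₀ : ℍ}
    (hreg : ∀ γ : SL(2, ℤ), 0 ≤ MerH.ordAt (γ • τ₀) x) : IsIntegral (regCjM τ₀) x := by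
  have hc : ∀ i, (charPolyM Γ x).coeff i ∈ regCjM τ₀ := by
    intro i
    refine ⟨charPolyM_coeff_mem hx i, ?_⟩
    apply charPolyM_coeff_mem_of_forall_mem (regularAt τ₀)
    intro q
    rw [mem_regularAt, ordAt_conjM]
    exact hreg _
  have hl : charPolyM Γ x ∈ Polynomial.lifts (regCjM τ₀).subtype := by
    rw [Polynomial.lifts_iff_coeff_lifts]
    intro i
    exact ⟨⟨_, hc i⟩, rfl⟩
  obtain ⟨p, hp, -, hmon⟩ :=
    Polynomial.lifts_and_natDegree_eq_and_monic hl (charPolyM_monic x)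
  refine ⟨p, hmon, ?_⟩
  have : Polynomial.eval₂ (algebraMap (regCjM τ₀) MerH) x p = (p.map (regCjM τ₀).subtype).eval x :=
    (Polynomial.eval_map _ _).symm
  rw [this, hp]
  exact charPolyM_eval_self hx

end

end Fermat.Agent.X0N
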