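import Fermat.Agent.X0N.J_helper8_Elliptic
import Fermat.Agent.X0N.Mer_helper6_Basic

/-!
# (AN0) part 8: local orders of `j - c` in helper6's `HolH.ord` language
-/

namespace Fermat.Agent.X0N

open UpperHalfPlane hiding I
open Complex Filter Function Topology ModularForm EisensteinSeries
open Fermat.Agent.RatStr
open scoped Manifold MatrixGroups Real

/-- `j` as an element of `HolH`. -/
noncomputable def jHol : HolH := ⟨jFun, mdiff_jFun⟩

@[simp] theorem jHol_apply (z : ℍ) : (jHol : ℍ → ℂ) z = jFun z := rfl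

theorem mdiff_jFunN (d : ℕ) : MDiff (jFunN d) := by
  rcases Nat.eq_zero_or_pos d with rfl | hd
  · have : jFunN 0 = jFun := by
      ext z
      simp [jFunN, dilate]
    rw [this]; exact mdiff_jFun
  · exact (isMeroInfty_jFunN hd.ne').hol

/-- `z ↦ j (d z)` as an element of `HolH`. -/
noncomputable def jHolN (d : ℕ) : HolH := ⟨jFunN d, mdiff_jFunN d⟩

@[simp] theorem jHolN_apply (d : ℕ) (z : ℍ) : (jHolN d : ℍ → ℂ) z = jFunN d z := rfl

theorem ord_jHol_sub_const_of_ne {z₀ : ℍ} (h0 : jFun z₀ ≠ 0) (h1 : jFun z₀ ≠ 1728) :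
    HolH.ord z₀ (jHol - HolH.const (jFun z₀)) = 1 := by
  unfold HolH.ord analyticOrderNatAt
  have : (((jHol - HolH.const (jFun z₀) : HolH) : ℍ → ℂ) ∘ ofComplex) =
      fun w : ℂ => jFun (ofComplex w) - jFun z₀ := rfl
  rw [this, analyticOrderAt_jFun_sub_of_ne h0 h1]
  rfl

theorem ord_jHol_sub_const_of_eq_1728 {z₀ : ℍ} (h : jFun z₀ = 1728) :
    HolH.ord z₀ (jHol - HolH.const 1728) = 2 := by
  unfold HolH.ord analyticOrderNatAt
  have : (((jHol - HolH.const 1728 : HolH) : ℍ → ℂ) ∘ ofComplex) =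
      fun w : ℂ => jFun (ofComplex w) - 1728 := rfl
  rw [this, analyticOrderAt_jFun_sub_of_eq_1728 h]
  rfl

theorem ord_jHol_of_eq_zero {z₀ : ℍ} (h : jFun z₀ = 0) : HolH.ord z₀ jHol = 3 := by
  unfold HolH.ord analyticOrderNatAt
  have : ((jHol : ℍ → ℂ) ∘ ofComplex) = fun w : ℂ => jFun (ofComplex w) := rfl
  rw [this, analyticOrderAt_jFun_of_eq_zero h]
  rfl

/-- uniform statement: the order of `j - j(z₀)` at `z₀` is `1`, `2` or `3`. -/
theorem ord_jHol_sub_const (z₀ : ℍ) :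
    HolH.ord z₀ (jHol - HolH.const (jFun z₀)) =
      if jFun z₀ = 0 then 3 else if jFun z₀ = 1728 then 2 else 1 := by
  by_cases h0 : jFun z₀ = 0
  · rw [if_pos h0, h0]
    have : jHol - HolH.const 0 = jHol := by simp
    rw [this]
    exact ord_jHol_of_eq_zero h0
  · rw [if_neg h0]
    by_cases h1 : jFun z₀ = 1728
    · rw [if_pos h1, h1]
      exact ord_jHol_sub_const_of_eq_1728 h1
    · rw [if_neg h1]
      exact ord_jHol_sub_const_of_ne h0 h1

end Fermat.Agent.X0N
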