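import Fermat.Agent.X0N.SYM_helper2_Descent
import Fermat.Agent.X0N.Mer_helper6_LinDisj
import Fermat.Agent.FF.Squeeze

set_option autoImplicit false

/-!
# (SYM)/(INT) final, unconditional form: integrality over the local ring of `k(j)` at `j = a`

Uses helper6's `isLinDisjHom_realN` to discharge the linear-disjointness hypothesis of
`SYM_helper2_Descent`, and packages the result in the shape consumed by helper4's squeeze
theorem (`FF.Coord.card_zeros_eq_card_quotient_ordFn`, hypothesis `hint`).
-/

namespace Fermat.Agent.X0N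

open UpperHalfPlane ModularForm Filter Function Polynomial ModularCurve IntermediateField
open scoped MatrixGroups ModularForm Manifold Topology
open Fermat.Agent.RatStr CongruenceSubgroup

noncomputable section

section Final

open AlgebraicCurve Fermat.Agent.FF

variable {k : Type*} [Field k] [Algebra ℚ k] [Algebra k ℂ] (N : ℕ) [NeZero N]

local notation "FN" => FNk k N
local notation "φN" => realN (algebraMap k ℂ) N

/-- `j` is transcendental over `k` in the Prelude function field (unconditional). -/
theorem transcendental_jB' : Transcendental k (jB (k := k) N) :=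
  transcendental_jB N (isLinDisjHom_realN N)

/-- every element of the Prelude function field is algebraic over `k(j)` (unconditional). -/
theorem isIntegral_jB' (x : FN) : IsIntegral k⟮jB (k := k) N⟯ x :=
  isIntegral_jB N (isLinDisjHom_realN N) x

/-- **Descent** (unconditional): the coefficients of the minimal polynomial of `x` over `k(j)`
are realised in every subring of `MerH` containing all conjugates of `realN x`. -/
theorem realN_coeff_minpoly_mem' (x : FN) (S : Subring MerH)
    (hS : ∀ q, conjM (Gamma0 N) (φN x) q ∈ S) (i : ℕ) :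
    φN (((minpoly k⟮jB (k := k) N⟯ x).coeff i : k⟮jB (k := k) N⟯) : FN) ∈ S :=
  realN_coeff_minpoly_mem N (isLinDisjHom_realN N) x S hS i

/-- (unconditional) regular at all analytic points over `j = a` implies regular at every place
over `j = a`. -/
theorem mem_place_of_forall_regular' (x : FN) (a : k) (τ₀ : ℍ)
    (hτ₀ : jH τ₀ = algebraMap k ℂ a)
    (hreg : ∀ γ : SL(2, ℤ), 0 ≤ MerH.ordAt (γ • τ₀) (φN x))
    (v : Place k FN) (hv : 0 < v.ord (jB (k := k) N - algebraMap k FN a)) :
    x ∈ v.toValuationSubring :=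
  mem_place_of_forall_regular N (isLinDisjHom_realN N) x a τ₀ hτ₀ hreg v hv

/-- an element of `k(j)` whose realisation is regular at `τ₀`, `j(τ₀) = a`, is a quotient
`P(j)/Q(j)` with `Q(a) ≠ 0`. -/
theorem exists_rep_of_realN_regular (r : k⟮jB (k := k) N⟯) (a : k) (τ₀ : ℍ)
    (hτ₀ : jH τ₀ = algebraMap k ℂ a) (hreg : φN (r : FN) ∈ regularAt τ₀) :
    ∃ P Q : k[X], Q.eval a ≠ 0 ∧
      (r : FN) * Polynomial.aeval (jB (k := k) N) Q = Polynomial.aeval (jB (k := k) N) P := by
  have hφ := isLinDisjHom_realN (k := k) N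
  obtain ⟨P, Q, hcop, hQj, hr'⟩ := exists_coprime_rep (jB (k := k) N) r
  have hQ0 : Q ≠ 0 := by
    intro h0
    rw [h0, map_zero] at hQj
    exact hQj rfl
  have hQc : Q.map (algebraMap k ℂ) ≠ 0 :=
    (Polynomial.map_ne_zero_iff (algebraMap k ℂ).injective).mpr hQ0
  have hcopc : IsCoprime (P.map (algebraMap k ℂ)) (Q.map (algebraMap k ℂ)) :=
    hcop.map (Polynomial.mapRingHom (algebraMap k ℂ))
  have hrel : φN (r : FN) * Polynomial.aeval jM (Q.map (algebraMap k ℂ)) =
      Polynomial.aeval jM (P.map (algebraMap k ℂ)) := by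
    rw [hr', map_div₀, realN_aeval N hφ, realN_aeval N hφ, realN_jB,
      div_mul_cancel₀ _ (aeval_jM_ne_zero hQc)]
  have hne := eval_ne_zero_of_regular hcopc hQc hrel hreg
  rw [hτ₀, Polynomial.eval_map, Polynomial.eval₂_at_apply] at hne
  have hQa : Q.eval a ≠ 0 := fun h0 => hne (by rw [h0, map_zero])
  refine ⟨P, Q, hQa, ?_⟩
  rw [hr', div_mul_cancel₀ _ hQj]

/-- **(INT2), finite points**: if all conjugates of the realisation of `f` are regular at `τ₀`
and `j(τ₀) = a ∈ k`, then `f` is integral over the local ring of `k(j)` at `j = a`. This is the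
hypothesis `hint` of `FF.Coord.card_zeros_eq_card_quotient_ordFn`. -/
theorem isIntegral_localSubring_of_regular (c : Coord k FN) (hc : c.x = jB (k := k) N)
    {a : k} {τ₀ : ℍ} (hτ : jFun τ₀ = algebraMap k ℂ a) {f : FN}
    (hf : ∀ q, 0 ≤ MerH.ordAt τ₀ (conjM (Gamma0 N) (φN f) q)) :
    IsIntegral (c.localSubring a) f := by
  have hint := isIntegral_jB' N f
  have hcoeff : ∀ i, (((minpoly k⟮jB (k := k) N⟯ f).coeff i : k⟮jB (k := k) N⟯) : FN) ∈
      c.localSubring a := by
    intro i
    rw [Coord.mem_localSubring, hc]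
    apply exists_rep_of_realN_regular N _ a τ₀ hτ
    apply realN_coeff_minpoly_mem' N f (regularAt τ₀)
    intro q
    rw [mem_regularAt]
    exact hf q
  have hl : (minpoly k⟮jB (k := k) N⟯ f).map (algebraMap k⟮jB (k := k) N⟯ FN) ∈
      Polynomial.lifts (c.localSubring a).subtype := by
    rw [Polynomial.lifts_iff_coeff_lifts]
    intro i
    rw [coeff_map]
    exact ⟨⟨_, hcoeff i⟩, rfl⟩
  obtain ⟨p, hp, -, hmon⟩ :=
    Polynomial.lifts_and_natDegree_eq_and_monic hl ((minpoly.monic hint).map _)
  refine ⟨p, hmon, ?_⟩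
  have : Polynomial.eval₂ (algebraMap (c.localSubring a) FN) f p =
      (p.map (c.localSubring a).subtype).eval f := (Polynomial.eval_map _ _).symm
  rw [this, hp, Polynomial.eval_map, ← Polynomial.aeval_def, minpoly.aeval]

/-- variant: the coordinate is only known to be realised by `j`. -/
theorem isIntegral_localSubring_of_regular' (c : Coord k FN) (hc : φN c.x = jM)
    {a : k} {τ₀ : ℍ} (hτ : jFun τ₀ = algebraMap k ℂ a) {f : FN}
    (hf : ∀ q, 0 ≤ MerH.ordAt τ₀ (conjM (Gamma0 N) (φN f) q)) :
    IsIntegral (c.localSubring a) f := by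
  apply isIntegral_localSubring_of_regular N c _ hτ hf
  apply (realN (algebraMap k ℂ) N).injective
  rw [hc, realN_jB]

/-- variant with the hypothesis on the `SL(2,ℤ)`-orbit of `τ₀`. -/
theorem isIntegral_localSubring_of_forall_regular (c : Coord k FN) (hc : c.x = jB (k := k) N)
    {a : k} {τ₀ : ℍ} (hτ : jFun τ₀ = algebraMap k ℂ a) {f : FN}
    (hf : ∀ γ : SL(2, ℤ), 0 ≤ MerH.ordAt (γ • τ₀) (φN f)) :
    IsIntegral (c.localSubring a) f := by
  apply isIntegral_localSubring_of_regular N c hc hτ
  intro q
  rw [ordAt_conjM]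
  exact hf _

end Final

end

end Fermat.Agent.X0N
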