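import Mathlib

set_option autoImplicit false

namespace Fermat.Agent.X0N

/-- Lifting lemma: if `b` is prime to `gcd δ m`, some `b + k m` is prime to `δ`. -/
theorem exists_add_mul_coprime {δ : ℕ} (hδ : δ ≠ 0) (m b : ℕ) (hb : b.Coprime (δ.gcd m)) :
    ∃ k : ℕ, (b + k * m).Coprime δ := by
  let ps : Finset ℕ := {p ∈ δ.primeFactors | ¬p ∣ b}
  use ps.prod id
  apply Nat.coprime_of_dvd
  intro p pp hp hpn
  by_cases hpx : p ∣ b
  · have h := Nat.dvd_sub hp hpx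
    rw [add_comm, Nat.add_sub_cancel] at h
    rcases pp.dvd_mul.mp h with h | h
    · have ⟨q, hq, hq'⟩ := (pp.prime.dvd_finsetProd_iff id).mp h
      rw [Finset.mem_filter, Nat.mem_primeFactors,
        ← (Nat.prime_dvd_prime_iff_eq pp hq.1.1).mp hq'] at hq
      exact hq.2 hpx
    · exact Nat.Prime.not_coprime_iff_dvd.mpr ⟨p, pp, hpx, Nat.dvd_gcd hpn h⟩ hb
  · have pps : p ∈ ps := Finset.mem_filter.mpr ⟨Nat.mem_primeFactors.mpr ⟨pp, hpn, hδ⟩, hpx⟩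
    have h := Nat.dvd_sub hp ((Finset.dvd_prod_of_mem id pps).mul_right m)
    rw [Nat.add_sub_cancel] at h
    contradiction

/-- If two coprime pairs are related modulo `N`, then `gcd c N = gcd c' N`. -/
theorem gcd_dvd_of_rel {N : ℕ} {a c a' c' : ℤ} (h : IsCoprime a c)
    (hr : (N : ℤ) ∣ a * c' - c * a') : Int.gcd c N ∣ Int.gcd c' N := by
  have h1 : ((Int.gcd c N : ℕ) : ℤ) ∣ c := Int.gcd_dvd_left c N
  have h2 : ((Int.gcd c N : ℕ) : ℤ) ∣ (N : ℤ) := Int.gcd_dvd_right c N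
  have h3 : ((Int.gcd c N : ℕ) : ℤ) ∣ a * c' := by
    have := (h2.trans hr).add (h1.mul_right a')
    simpa using this
  have h4 : IsCoprime a ((Int.gcd c N : ℕ) : ℤ) := h.of_isCoprime_of_dvd_right h1
  have h5 : ((Int.gcd c N : ℕ) : ℤ) ∣ c' := h4.symm.dvd_of_dvd_mul_left h3
  exact Int.natCast_dvd_natCast.mp (Int.dvd_coe_gcd h5 h2)

theorem gcd_eq_of_rel {N : ℕ} {a c a' c' : ℤ} (h : IsCoprime a c) (h' : IsCoprime a' c')
    (hr : (N : ℤ) ∣ a * c' - c * a') : Int.gcd c N = Int.gcd c' N := by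
  have hr' : (N : ℤ) ∣ a' * c - c' * a := by
    have : a' * c - c' * a = -(a * c' - c * a') := by ring
    rw [this]
    exact (dvd_neg).mpr hr
  exact Nat.dvd_antisymm (gcd_dvd_of_rel h hr) (gcd_dvd_of_rel h' hr')


/-- `c / gcd(c, N)` is a unit modulo `N / gcd(c, N)`. -/
theorem isUnit_div_gcd {N : ℕ} (hN : N ≠ 0) (c : ℤ) {δ m : ℕ} (hδ : Int.gcd c N = δ)
    (hm : δ * m = N) : IsUnit (((c / (δ : ℤ) : ℤ)) : ZMod m) := by
  rw [ZMod.coe_int_isUnit_iff_isCoprime, Int.isCoprime_iff_gcd_eq_one, Int.gcd_comm]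
  have hpos : 0 < Int.gcd c N := by
    rcases Nat.eq_zero_or_pos (Int.gcd c N) with h0 | h0
    · exfalso
      have := (Int.gcd_eq_zero_iff.mp h0).2
      exact hN (by exact_mod_cast this)
    · exact h0
  have h1 := Int.gcd_div_gcd_div_gcd hpos
  rw [hδ] at h1
  have hδ0 : δ ≠ 0 := by rw [← hδ]; exact hpos.ne'
  have h2 : ((N : ℤ) / (δ : ℤ)) = (m : ℤ) := by
    rw [← hm]
    push_cast
    exact Int.mul_ediv_cancel_left _ (by exact_mod_cast hδ0)
  rw [h2] at h1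
  exact h1

/-- The invariant `β = a · (c/δ)⁻¹ ∈ ℤ/m`. -/
noncomputable def betaAt (m δ : ℕ) (a c : ℤ) : ZMod m :=
  (a : ZMod m) * (((c / (δ : ℤ) : ℤ)) : ZMod m)⁻¹

theorem rel_iff_betaAt {N : ℕ} (hN : N ≠ 0) {a c a' c' : ℤ} {δ m : ℕ}
    (hδ : Int.gcd c N = δ) (hδ' : Int.gcd c' N = δ) (hm : δ * m = N) :
    (N : ℤ) ∣ a * c' - c * a' ↔ betaAt m δ a c = betaAt m δ a' c' := by
  have hu := isUnit_div_gcd hN c hδ hm
  have hu' := isUnit_div_gcd hN c' hδ' hm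
  have hδ0 : (δ : ℤ) ≠ 0 := by
    intro h
    apply hN
    rw [← hm]
    have : δ = 0 := by exact_mod_cast h
    rw [this, zero_mul]
  have hc : c = (δ : ℤ) * (c / (δ : ℤ)) := by
    rw [Int.mul_ediv_cancel']
    rw [← hδ]; exact Int.gcd_dvd_left c N
  have hc' : c' = (δ : ℤ) * (c' / (δ : ℤ)) := by
    rw [Int.mul_ediv_cancel']
    rw [← hδ']; exact Int.gcd_dvd_left c' N
  set γ := c / (δ : ℤ) with hγ
  set γ' := c' / (δ : ℤ) with hγ'
  have h1 : a * c' - c * a' = (δ : ℤ) * (a * γ' - γ * a') := by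
    rw [hc, hc']; ring
  have h2 : ((N : ℤ)) = (δ : ℤ) * (m : ℤ) := by rw [← hm]; push_cast; ring
  rw [h1, h2, mul_dvd_mul_iff_left hδ0, ← ZMod.intCast_zmod_eq_zero_iff_dvd]
  unfold betaAt
  rw [← hγ, ← hγ']
  push_cast
  constructor
  · intro h
    have h3 : (a : ZMod m) * (γ' : ZMod m) = (γ : ZMod m) * (a' : ZMod m) := sub_eq_zero.mp h
    calc (a : ZMod m) * (γ : ZMod m)⁻¹
        = (a : ZMod m) * ((γ' : ZMod m) * (γ' : ZMod m)⁻¹) * (γ : ZMod m)⁻¹ := by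
          rw [ZMod.mul_inv_of_unit _ hu', mul_one]
      _ = ((a : ZMod m) * (γ' : ZMod m)) * (γ' : ZMod m)⁻¹ * (γ : ZMod m)⁻¹ := by ring
      _ = ((γ : ZMod m) * (γ : ZMod m)⁻¹) * (a' : ZMod m) * (γ' : ZMod m)⁻¹ := by rw [h3]; ring
      _ = (a' : ZMod m) * (γ' : ZMod m)⁻¹ := by rw [ZMod.mul_inv_of_unit _ hu, one_mul]
  · intro h
    rw [sub_eq_zero]
    calc (a : ZMod m) * (γ' : ZMod m)
        = ((a : ZMod m) * (γ : ZMod m)⁻¹) * (γ : ZMod m) * (γ' : ZMod m) := by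
          rw [mul_assoc (a : ZMod m), ZMod.inv_mul_of_unit _ hu, mul_one]
      _ = ((a' : ZMod m) * (γ' : ZMod m)⁻¹) * (γ : ZMod m) * (γ' : ZMod m) := by rw [h]
      _ = (γ : ZMod m) * (a' : ZMod m) * ((γ' : ZMod m)⁻¹ * (γ' : ZMod m)) := by ring
      _ = (γ : ZMod m) * (a' : ZMod m) := by rw [ZMod.inv_mul_of_unit _ hu', mul_one]


/-- The parameter `(δ, b)` of a pair `(a, c)`: `δ = gcd(c, N)`, `b = a (c/δ)⁻¹ mod N/δ`. -/
noncomputable def par (N : ℕ) (a c : ℤ) : Σ _ : ℕ, ℕ :=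
  ⟨Int.gcd c N, (betaAt (N / Int.gcd c N) (Int.gcd c N) a c).val⟩

/-- The parameter set: `δ ∣ N`, `b < N/δ` prime to `gcd(δ, N/δ)`. -/
def parSet (N : ℕ) : Finset (Σ _ : ℕ, ℕ) :=
  N.divisors.sigma fun δ => (Finset.range (N / δ)).filter fun b => b.Coprime (δ.gcd (N / δ))

theorem mem_parSet {N : ℕ} {p : Σ _ : ℕ, ℕ} :
    p ∈ parSet N ↔ p.1 ∈ N.divisors ∧ p.2 < N / p.1 ∧ p.2.Coprime (p.1.gcd (N / p.1)) := by
  simp [parSet, Finset.mem_sigma]

theorem gcd_mul_div {N : ℕ} (c : ℤ) : Int.gcd c N * (N / Int.gcd c N) = N :=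
  Nat.mul_div_cancel' (Int.natCast_dvd_natCast.mp (Int.gcd_dvd_right c N))

theorem div_gcd_ne_zero {N : ℕ} (hN : N ≠ 0) (c : ℤ) : N / Int.gcd c N ≠ 0 := by
  intro h
  have := gcd_mul_div (N := N) c
  rw [h, mul_zero] at this
  exact hN this.symm

theorem par_eq_iff {N : ℕ} (hN : N ≠ 0) {a c a' c' : ℤ} (h : IsCoprime a c)
    (h' : IsCoprime a' c') : par N a c = par N a' c' ↔ (N : ℤ) ∣ a * c' - c * a' := by
  constructor
  · intro hp
    have h1 : Int.gcd c N = Int.gcd c' N := congrArg Sigma.fst hp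
    have h2 : (betaAt (N / Int.gcd c N) (Int.gcd c N) a c).val =
        (betaAt (N / Int.gcd c' N) (Int.gcd c' N) a' c').val := by
      have := congrArg Sigma.snd hp
      simpa [par] using this
    rw [← h1] at h2
    have : NeZero (N / Int.gcd c N) := ⟨div_gcd_ne_zero hN c⟩
    have h3 := ZMod.val_injective _ h2
    exact (rel_iff_betaAt hN rfl h1.symm (gcd_mul_div c)).mpr h3
  · intro hr
    have h1 : Int.gcd c N = Int.gcd c' N := gcd_eq_of_rel h h' hr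
    have h3 := (rel_iff_betaAt hN rfl h1.symm (gcd_mul_div c)).mp hr
    unfold par
    rw [← h1, h3]

theorem par_mem {N : ℕ} (hN : N ≠ 0) {a c : ℤ} (h : IsCoprime a c) : par N a c ∈ parSet N := by
  rw [mem_parSet]
  set δ := Int.gcd c N with hδ
  set m := N / δ with hm
  have hδm : δ * m = N := gcd_mul_div c
  have : NeZero m := ⟨div_gcd_ne_zero hN c⟩
  refine ⟨?_, ?_, ?_⟩
  · simp only [par, Nat.mem_divisors]
    exact ⟨Int.natCast_dvd_natCast.mp (Int.gcd_dvd_right c N), hN⟩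
  · simp only [par]
    exact ZMod.val_lt _
  · simp only [par]
    rw [← hδ, ← hm]
    set β := betaAt m δ a c with hβ
    set b := β.val with hb
    have hu := isUnit_div_gcd hN c hδ.symm hδm
    set γ := c / (δ : ℤ) with hγ
    have h1 : β * (γ : ZMod m) = (a : ZMod m) := by
      rw [hβ]
      unfold betaAt
      rw [← hγ, mul_assoc, ZMod.inv_mul_of_unit _ hu, mul_one]
    have h2 : (((b : ℤ) * γ : ℤ) : ZMod m) = (a : ZMod m) := by
      push_cast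
      rw [hb, ZMod.natCast_zmod_val, h1]
    rw [ZMod.intCast_eq_intCast_iff_dvd_sub] at h2
    have he : ((δ.gcd m : ℕ) : ℤ) ∣ a - (b : ℤ) * γ :=
      (Int.natCast_dvd_natCast.mpr (Nat.gcd_dvd_right δ m)).trans h2
    obtain ⟨k, hk⟩ := he
    have hδc : (δ : ℤ) ∣ c := by rw [hδ]; exact Int.gcd_dvd_left c N
    have hce : IsCoprime a ((δ.gcd m : ℕ) : ℤ) :=
      h.of_isCoprime_of_dvd_right ((Int.natCast_dvd_natCast.mpr (Nat.gcd_dvd_left δ m)).trans hδc)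
    have h3 : (b : ℤ) * γ = a + (-k) * ((δ.gcd m : ℕ) : ℤ) := by linarith
    have h4 : IsCoprime ((b : ℤ) * γ) ((δ.gcd m : ℕ) : ℤ) := by
      rw [h3]; exact hce.add_mul_right_left (-k)
    exact Nat.isCoprime_iff_coprime.mp h4.of_mul_left_left

theorem par_surj {N : ℕ} (hN : N ≠ 0) {p : Σ _ : ℕ, ℕ} (hp : p ∈ parSet N) :
    ∃ a c : ℤ, IsCoprime a c ∧ par N a c = p := by
  obtain ⟨δ, b⟩ := p
  rw [mem_parSet] at hp
  obtain ⟨hδ, hb, hcop⟩ := hp
  simp only at hδ hb hcop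
  have hδN : δ ∣ N := (Nat.mem_divisors.mp hδ).1
  have hδ0 : δ ≠ 0 := fun h => hN (by rw [h] at hδN; exact Nat.eq_zero_of_zero_dvd hδN)
  obtain ⟨k, hk⟩ := exists_add_mul_coprime hδ0 (N / δ) b hcop
  refine ⟨((b + k * (N / δ) : ℕ) : ℤ), (δ : ℤ), Nat.isCoprime_iff_coprime.mpr hk, ?_⟩
  have hg : Int.gcd (δ : ℤ) N = δ := by
    rw [Int.gcd_natCast_natCast]
    exact Nat.gcd_eq_left hδN
  unfold par
  rw [hg]
  congr 1
  unfold betaAt
  rw [Int.ediv_self (by exact_mod_cast hδ0)]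
  have h1 : ((1 : ℤ) : ZMod (N / δ))⁻¹ = 1 := by
    have := ZMod.mul_inv_of_unit (1 : ZMod (N / δ)) isUnit_one
    rw [one_mul] at this
    rw [Int.cast_one, this]
  have h2 : ((((b + k * (N / δ) : ℕ) : ℤ)) : ZMod (N / δ)) = ((b : ℕ) : ZMod (N / δ)) := by
    rw [Int.cast_natCast, Nat.cast_add, Nat.cast_mul, ZMod.natCast_self, mul_zero, add_zero]
  rw [h1, mul_one, h2, ZMod.val_natCast]
  exact Nat.mod_eq_of_lt hb

theorem par_shift {N : ℕ} (hN : N ≠ 0) (a c : ℤ) :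
    par N (a + c) c = ⟨Int.gcd c N, ((par N a c).2 + Int.gcd c N) % (N / Int.gcd c N)⟩ := by
  unfold par
  congr 1
  set δ := Int.gcd c N with hδ
  set m := N / δ with hm
  have hδm : δ * m = N := gcd_mul_div c
  have : NeZero m := ⟨div_gcd_ne_zero hN c⟩
  have hu := isUnit_div_gcd hN c hδ.symm hδm
  have hδc : (δ : ℤ) ∣ c := by rw [hδ]; exact Int.gcd_dvd_left c N
  have hc : c = (δ : ℤ) * (c / (δ : ℤ)) := (Int.mul_ediv_cancel' hδc).symm
  have h1 : betaAt m δ (a + c) c = betaAt m δ a c + (δ : ZMod m) := by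
    unfold betaAt
    set γ := c / (δ : ℤ) with hγ
    have : ((a + c : ℤ) : ZMod m) = (a : ZMod m) + (δ : ZMod m) * (γ : ZMod m) := by
      conv_lhs => rw [hc]
      push_cast
      ring
    rw [this, add_mul, mul_assoc, ZMod.mul_inv_of_unit _ hu, mul_one]
  rw [h1, ZMod.val_add, ZMod.val_natCast, Nat.add_mod_mod]

end Fermat.Agent.X0N
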