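import Mathlib
import Fermat.Agent.X0N.Cosets_helper9_Arith

set_option autoImplicit false

namespace Fermat.Agent.X0N

open CongruenceSubgroup MatrixGroups ModularGroup Matrix

/-- The first column of an element of `SL(2, ℤ)` is a coprime pair. -/
theorem isCoprime_col (g : SL(2, ℤ)) : IsCoprime (g 0 0) (g 1 0) := by
  refine ⟨g 1 1, -g 0 1, ?_⟩
  have := g.det_coe
  rw [Matrix.det_fin_two] at this
  linarith

/-- Every coprime pair is the first column of some element of `SL(2, ℤ)`. -/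
theorem exists_SL2_col {a c : ℤ} (h : IsCoprime a c) : ∃ g : SL(2, ℤ), g 0 0 = a ∧ g 1 0 = c := by
  obtain ⟨u, v, huv⟩ := h
  refine ⟨⟨!![a, -v; c, u], ?_⟩, ?_, ?_⟩
  · rw [Matrix.det_fin_two_of]; linarith
  · simp
  · simp

/-- Coset criterion: `g Γ₀(N) = g' Γ₀(N)` iff the first columns are proportional mod `N`. -/
theorem inv_mul_mem_Gamma0_iff (N : ℕ) (g g' : SL(2, ℤ)) :
    g⁻¹ * g' ∈ Gamma0 N ↔ (N : ℤ) ∣ g 0 0 * g' 1 0 - g 1 0 * g' 0 0 := by
  rw [Gamma0_mem, ZMod.intCast_zmod_eq_zero_iff_dvd]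
  have : (g⁻¹ * g') 1 0 = g 0 0 * g' 1 0 - g 1 0 * g' 0 0 := by
    rw [Matrix.SpecialLinearGroup.SL2_inv_expl g]
    simp [Matrix.mul_apply, Fin.sum_univ_two]
    ring
  rw [this]

theorem T_mul_col (g : SL(2, ℤ)) : (T * g) 0 0 = g 0 0 + g 1 0 ∧ (T * g) 1 0 = g 1 0 := by
  constructor
  · simp [Matrix.mul_apply, Fin.sum_univ_two]
  · simp

theorem S_mul_col (g : SL(2, ℤ)) : (S * g) 0 0 = -g 1 0 ∧ (S * g) 1 0 = g 0 0 := by
  constructor
  · simp [Matrix.mul_apply, Fin.sum_univ_two]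
  · simp [Matrix.mul_apply, Fin.sum_univ_two]


variable (N : ℕ) [NeZero N]

/-- The parameter of an element of `SL(2, ℤ)` (depends only on its coset mod `Γ₀(N)`). -/
noncomputable def parG (g : SL(2, ℤ)) : Σ _ : ℕ, ℕ := par N (g 0 0) (g 1 0)

theorem parG_eq_iff (g g' : SL(2, ℤ)) :
    parG N g = parG N g' ↔ (g : SL(2, ℤ) ⧸ Gamma0 N) = (g' : SL(2, ℤ) ⧸ Gamma0 N) := by
  rw [QuotientGroup.eq, inv_mul_mem_Gamma0_iff]
  exact par_eq_iff (NeZero.ne N) (isCoprime_col g) (isCoprime_col g')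

/-- The parameter map on cosets. -/
noncomputable def parQ : SL(2, ℤ) ⧸ Gamma0 N → Σ _ : ℕ, ℕ :=
  Quotient.lift (parG N) (fun g g' h => by
    rw [parG_eq_iff]
    exact Quotient.sound h)

@[simp]
theorem parQ_mk (g : SL(2, ℤ)) : parQ N (g : SL(2, ℤ) ⧸ Gamma0 N) = parG N g := rfl

theorem parQ_injective : Function.Injective (parQ N) := by
  intro x y
  induction x using QuotientGroup.induction_on with
  | H g =>
    induction y using QuotientGroup.induction_on with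
    | H g' =>
      intro h
      rw [parQ_mk, parQ_mk] at h
      exact (parG_eq_iff N g g').mp h

theorem parQ_mem (x : SL(2, ℤ) ⧸ Gamma0 N) : parQ N x ∈ parSet N := by
  induction x using QuotientGroup.induction_on with
  | H g => exact par_mem (NeZero.ne N) (isCoprime_col g)

theorem parQ_surj {p : Σ _ : ℕ, ℕ} (hp : p ∈ parSet N) : ∃ x, parQ N x = p := by
  obtain ⟨a, c, hac, hpar⟩ := par_surj (NeZero.ne N) hp
  obtain ⟨g, ha, hc⟩ := exists_SL2_col hac
  refine ⟨(g : SL(2, ℤ) ⧸ Gamma0 N), ?_⟩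
  rw [parQ_mk, parG, ha, hc, hpar]

/-- **The cosets of `Γ₀(N)` are parametrised by `parSet N`.** -/
noncomputable def cosetEquiv : (SL(2, ℤ) ⧸ Gamma0 N) ≃ parSet N :=
  Equiv.ofBijective (fun x => ⟨parQ N x, parQ_mem N x⟩)
    ⟨fun x y h => parQ_injective N (congrArg Subtype.val h),
      fun ⟨p, hp⟩ => by
        obtain ⟨x, hx⟩ := parQ_surj N hp
        exact ⟨x, Subtype.ext hx⟩⟩

theorem card_cosets : Nat.card (SL(2, ℤ) ⧸ Gamma0 N) = (parSet N).card := by
  rw [Nat.card_congr (cosetEquiv N), Nat.card_eq_fintype_card, Fintype.card_coe]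

theorem index_Gamma0_eq : (Gamma0 N).index = (parSet N).card := by
  rw [Subgroup.index, card_cosets]

/-- `T` acts on the parameters by `(δ, b) ↦ (δ, b + δ mod N/δ)`. -/
theorem parG_T_mul (g : SL(2, ℤ)) :
    parG N (T * g) = ⟨(parG N g).1, ((parG N g).2 + (parG N g).1) % (N / (parG N g).1)⟩ := by
  unfold parG
  rw [(T_mul_col g).1, (T_mul_col g).2, par_shift (NeZero.ne N)]
  rfl

end Fermat.Agent.X0N
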