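import Mathlib
import Fermat.Prelude.Def_ModularCurve_GenusNumerics
import Fermat.Agent.X0N.Cosets_helper9_Param

set_option autoImplicit false

namespace Fermat.Agent.X0N

open Finset

/-- Among the first `j * e` naturals, exactly `j * φ(e)` are prime to `e`. -/
theorem card_filter_coprime_range_mul (e j : ℕ) :
    ((range (j * e)).filter fun b => b.Coprime e).card = j * Nat.totient e := by
  induction j with
  | zero => simp
  | succ j ih =>
    have h1 : range ((j + 1) * e) = range (j * e) ∪ Ico (j * e) (j * e + e) := by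
      ext x
      simp only [mem_range, mem_union, mem_Ico]
      constructor
      · intro hx
        by_cases h : x < j * e
        · left; exact h
        · right; exact ⟨not_lt.mp h, by linarith [hx, add_mul j 1 e]⟩
      · rintro (hx | ⟨_, hx⟩)
        · nlinarith [Nat.zero_le e]
        · linarith [add_mul j 1 e]
    have h2 : Disjoint (range (j * e)) (Ico (j * e) (j * e + e)) := by
      rw [Finset.disjoint_left]
      intro x hx hx'
      simp only [mem_range] at hx
      simp only [mem_Ico] at hx'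
      omega
    rw [h1, filter_union, card_union_of_disjoint (disjoint_filter_filter h2), ih]
    have h3 : ((Ico (j * e) (j * e + e)).filter fun b => b.Coprime e).card = Nat.totient e := by
      rw [← Nat.filter_coprime_Ico_eq_totient e (j * e)]
      congr 1
      refine filter_congr fun x _ => ?_
      exact Nat.coprime_comm
    rw [h3]
    ring

/-- The summand in the count of `parSet`. -/
def hfun (δ m : ℕ) : ℕ := (m / Nat.gcd δ m) * Nat.totient (Nat.gcd δ m)

theorem card_parSet (N : ℕ) : (parSet N).card = ∑ δ ∈ N.divisors, hfun δ (N / δ) := by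
  rw [parSet, card_sigma]
  refine sum_congr rfl fun δ _ => ?_
  have h : N / δ = (N / δ / Nat.gcd δ (N / δ)) * Nat.gcd δ (N / δ) :=
    (Nat.div_mul_cancel (Nat.gcd_dvd_right _ _)).symm
  have h2 : range (N / δ) = range ((N / δ / Nat.gcd δ (N / δ)) * Nat.gcd δ (N / δ)) := by
    rw [← h]
  rw [h2, card_filter_coprime_range_mul]
  rfl


theorem sum_divisors_mul_coprime {M N : ℕ} (h : M.Coprime N) (F : ℕ → ℕ) :
    ∑ d ∈ (M * N).divisors, F d = ∑ d₁ ∈ M.divisors, ∑ d₂ ∈ N.divisors, F (d₁ * d₂) := by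
  rw [h.divisors_mul, sum_map]
  simp only [Function.Embedding.coeFn_mk]
  have := sum_attach (M.divisors ×ˢ N.divisors) (fun p => F (p.1 * p.2))
  exact this.trans (sum_product _ _ _)

theorem hfun_mul {δ₁ m₁ δ₂ m₂ : ℕ} (h : (δ₁ * m₁).Coprime (δ₂ * m₂)) :
    hfun (δ₁ * δ₂) (m₁ * m₂) = hfun δ₁ m₁ * hfun δ₂ m₂ := by
  have h11 : δ₁.Coprime δ₂ := (h.coprime_mul_right).coprime_mul_right_right
  have h12 : δ₁.Coprime m₂ := (h.coprime_mul_right).coprime_mul_left_right
  have h21 : m₁.Coprime δ₂ := (h.coprime_mul_left).coprime_mul_right_right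
  have h22 : m₁.Coprime m₂ := (h.coprime_mul_left).coprime_mul_left_right
  have hg : Nat.gcd (δ₁ * δ₂) (m₁ * m₂) = Nat.gcd δ₁ m₁ * Nat.gcd δ₂ m₂ := by
    rw [h22.gcd_mul, Nat.Coprime.gcd_mul_right_cancel δ₁ h21.symm,
      mul_comm δ₁ δ₂, Nat.Coprime.gcd_mul_right_cancel δ₂ h12]
  have hc : (Nat.gcd δ₁ m₁).Coprime (Nat.gcd δ₂ m₂) :=
    Nat.Coprime.coprime_dvd_left (Nat.gcd_dvd_left _ _)
      (Nat.Coprime.coprime_dvd_right (Nat.gcd_dvd_left _ _) h11)
  unfold hfun
  rw [hg, Nat.totient_mul hc,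
    Nat.mul_div_mul_comm (Nat.gcd_dvd_right δ₁ m₁) (Nat.gcd_dvd_right δ₂ m₂)]
  ring

/-- The count function `G(N) = Σ_{δ ∣ N} hfun δ (N/δ)`. -/
def gfun (N : ℕ) : ℕ := ∑ δ ∈ N.divisors, hfun δ (N / δ)

theorem gfun_mul {M N : ℕ} (h : M.Coprime N) : gfun (M * N) = gfun M * gfun N := by
  unfold gfun
  rw [sum_divisors_mul_coprime h, sum_mul_sum]
  refine sum_congr rfl fun d₁ hd₁ => sum_congr rfl fun d₂ hd₂ => ?_
  have h1 : d₁ ∣ M := Nat.dvd_of_mem_divisors hd₁
  have h2 : d₂ ∣ N := Nat.dvd_of_mem_divisors hd₂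
  rw [Nat.mul_div_mul_comm h1 h2]
  apply hfun_mul
  rw [Nat.mul_div_cancel' h1, Nat.mul_div_cancel' h2]
  exact h


theorem hfun_pow_pow {p : ℕ} (hp : p.Prime) {a k : ℕ} (ha : 0 < a) (hk : 0 < k) :
    hfun (p ^ a) (p ^ k) = p ^ (k - 1) * (p - 1) := by
  unfold hfun
  rcases le_total a k with hak | hka
  · rw [Nat.gcd_eq_left (pow_dvd_pow p hak), Nat.pow_div hak hp.pos, Nat.totient_prime_pow hp ha,
      ← mul_assoc, ← pow_add]
    congr 2
    omega
  · rw [Nat.gcd_eq_right (pow_dvd_pow p hka), Nat.pow_div le_rfl hp.pos, Nat.totient_prime_pow hp hk,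
      Nat.sub_self, pow_zero, one_mul]

theorem hfun_one_left (m : ℕ) : hfun 1 m = m := by
  unfold hfun
  simp

theorem hfun_one_right (δ : ℕ) : hfun δ 1 = 1 := by
  unfold hfun
  simp

theorem gfun_prime_pow {p : ℕ} (hp : p.Prime) {n : ℕ} (hn : 0 < n) :
    gfun (p ^ n) = p ^ n + p ^ (n - 1) := by
  unfold gfun
  rw [Nat.sum_divisors_prime_pow hp]
  -- partial sums from the top: `Σ_{i ≤ n, i ≥ n - K} = p^K` for `K < n`
  have key : ∀ K, K < n →
      ∑ i ∈ Finset.Icc (n - K) n, hfun (p ^ i) (p ^ n / p ^ i) = p ^ K := by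
    intro K
    induction K with
    | zero =>
      intro _
      simp [Nat.div_self (pow_pos hp.pos n), hfun_one_right]
    | succ K ih =>
      intro hK
      have h1 : Finset.Icc (n - (K + 1)) n = insert (n - (K + 1)) (Finset.Icc (n - K) n) := by
        ext x
        simp only [Finset.mem_Icc, Finset.mem_insert]
        omega
      rw [h1, Finset.sum_insert (by simp only [Finset.mem_Icc]; omega), ih (by omega)]
      have h2 : p ^ n / p ^ (n - (K + 1)) = p ^ (K + 1) := by
        rw [Nat.pow_div (by omega) hp.pos]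
        congr 1
        omega
      rw [h2, hfun_pow_pow hp (by omega) (by omega), Nat.add_sub_cancel, pow_succ]
      have hp1 : 1 ≤ p := hp.one_lt.le
      zify [hp1]
      ring
  have h3 : Finset.range (n + 1) = insert 0 (Finset.Icc (n - (n - 1)) n) := by
    ext x
    simp only [Finset.mem_range, Finset.mem_Icc, Finset.mem_insert]
    omega
  rw [h3, Finset.sum_insert (by simp only [Finset.mem_Icc]; omega), key (n - 1) (by omega)]
  simp [hfun_one_left]


open ModularCurve in
theorem dedekindPsi_mul {a b : ℕ} (h : a.Coprime b) :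
    dedekindPsi (a * b) = dedekindPsi a * dedekindPsi b := by
  unfold dedekindPsi
  rw [Finset.sum_filter, Finset.sum_filter, Finset.sum_filter, sum_divisors_mul_coprime h,
    sum_mul_sum]
  refine sum_congr rfl fun d₁ hd₁ => sum_congr rfl fun d₂ hd₂ => ?_
  have h1 : d₁ ∣ a := Nat.dvd_of_mem_divisors hd₁
  have h2 : d₂ ∣ b := Nat.dvd_of_mem_divisors hd₂
  have hc : d₁.Coprime d₂ := Nat.Coprime.coprime_dvd_left h1 (Nat.Coprime.coprime_dvd_right h2 h)
  rw [Nat.mul_div_mul_comm h1 h2]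
  by_cases hs1 : Squarefree d₁
  · by_cases hs2 : Squarefree d₂
    · rw [if_pos ((Nat.squarefree_mul hc).mpr ⟨hs1, hs2⟩), if_pos hs1, if_pos hs2]
    · rw [if_neg (fun hh => hs2 ((Nat.squarefree_mul hc).mp hh).2), if_neg hs2, mul_zero]
  · rw [if_neg (fun hh => hs1 ((Nat.squarefree_mul hc).mp hh).1), if_neg hs1, zero_mul]

open ModularCurve in
theorem dedekindPsi_prime_pow {p : ℕ} (hp : p.Prime) {n : ℕ} (hn : 0 < n) :
    dedekindPsi (p ^ n) = p ^ n + p ^ (n - 1) := by
  unfold dedekindPsi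
  rw [Finset.sum_filter, Nat.sum_divisors_prime_pow hp]
  obtain ⟨n', rfl⟩ : ∃ n', n = n' + 1 := ⟨n - 1, by omega⟩
  rw [Finset.sum_range_succ', Finset.sum_range_succ']
  have h0 : ∀ i ∈ Finset.range n',
      (if Squarefree (p ^ (i + 1 + 1)) then p ^ (n' + 1) / p ^ (i + 1 + 1) else 0) = 0 := by
    intro i _
    rw [if_neg]
    intro hsq
    have := (Nat.squarefree_pow_iff hp.ne_one (by omega : i + 1 + 1 ≠ 0)).mp hsq
    omega
  rw [Finset.sum_eq_zero h0, zero_add]
  have hsq1 : Squarefree (p ^ (0 + 1)) := by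
    rw [zero_add, pow_one]; exact hp.squarefree
  have hsq0 : Squarefree (p ^ 0) := by
    rw [pow_zero]; exact squarefree_one
  rw [if_pos hsq1, if_pos hsq0, zero_add, pow_one, pow_zero, Nat.div_one, Nat.add_sub_cancel,
    pow_succ, Nat.mul_div_cancel _ hp.pos, add_comm]

/-- **The index formula**: `#parSet N = ψ(N)`. -/
theorem gfun_eq_dedekindPsi (N : ℕ) (hN : 0 < N) : gfun N = ModularCurve.dedekindPsi N := by
  induction N using Nat.recOnPosPrimePosCoprime with
  | prime_pow p n hp hn => rw [gfun_prime_pow hp hn, dedekindPsi_prime_pow hp hn]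
  | zero => exact absurd hN (lt_irrefl 0)
  | one =>
    rw [ModularCurve.dedekindPsi_one]
    simp [gfun, hfun]
  | coprime a b ha hb hab iha ihb =>
    rw [gfun_mul hab, dedekindPsi_mul hab, iha (by omega), ihb (by omega)]

theorem card_parSet_eq_dedekindPsi (N : ℕ) [NeZero N] :
    (parSet N).card = ModularCurve.dedekindPsi N := by
  rw [card_parSet]
  exact gfun_eq_dedekindPsi N (Nat.pos_of_ne_zero (NeZero.ne N))

open CongruenceSubgroup MatrixGroups in
/-- **`[SL₂(ℤ) : Γ₀(N)] = ψ(N)`.** -/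
theorem index_Gamma0 (N : ℕ) [NeZero N] : (Gamma0 N).index = ModularCurve.dedekindPsi N := by
  rw [index_Gamma0_eq, card_parSet_eq_dedekindPsi]

open CongruenceSubgroup MatrixGroups in
theorem card_cosets_eq_dedekindPsi (N : ℕ) [NeZero N] :
    Nat.card (SL(2, ℤ) ⧸ Gamma0 N) = ModularCurve.dedekindPsi N := by
  rw [card_cosets, card_parSet_eq_dedekindPsi]

end Fermat.Agent.X0N
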