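import Mathlib
import Fermat.Prelude.Def_ModularCurve_GenusNumerics
import Fermat.Agent.X0N.Cosets_helper9_Param

set_option autoImplicit false

namespace Fermat.Agent.X0N

open CongruenceSubgroup MatrixGroups ModularGroup Matrix

/-- If `b ≡ b' mod gcd(δ, m)` then `b + tδ ≡ b' mod m` for some `t`. -/
theorem exists_shift (δ m b b' : ℕ) (hm : m ≠ 0) (h : b % Nat.gcd δ m = b' % Nat.gcd δ m) :
    ∃ t : ℕ, (b + t * δ) % m = b' % m := by
  have h1 : ((Nat.gcd δ m : ℕ) : ℤ) ∣ (b' : ℤ) - b := (Nat.modEq_iff_dvd).mp h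
  obtain ⟨k, hk⟩ := h1
  have h2 := Nat.gcd_eq_gcd_ab δ m
  set x := Nat.gcdA δ m
  set y := Nat.gcdB δ m
  have hmpos : (0 : ℤ) < m := by exact_mod_cast Nat.pos_of_ne_zero hm
  set t : ℤ := (k * x) % m with ht
  have ht0 : 0 ≤ t := Int.emod_nonneg _ hmpos.ne'
  refine ⟨t.toNat, ?_⟩
  have h3 : (m : ℤ) ∣ (b' : ℤ) - ((b + t.toNat * δ : ℕ) : ℤ) := by
    push_cast
    rw [Int.toNat_of_nonneg ht0]
    have h4 : (m : ℤ) ∣ k * x - t := by
      rw [ht]
      exact Int.dvd_self_sub_emod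
    obtain ⟨q, hq⟩ := h4
    refine ⟨k * y + q * δ, ?_⟩
    have : (b' : ℤ) - (b + t * δ) = ((b' : ℤ) - b) - t * δ := by ring
    rw [this, hk, h2]
    have ht' : t = k * x - m * q := by linarith
    rw [ht']
    ring
  exact ((Nat.modEq_iff_dvd).mpr h3)


variable (N : ℕ) [NeZero N]

theorem parQ_T_smul (x : SL(2, ℤ) ⧸ Gamma0 N) :
    parQ N (T • x) = ⟨(parQ N x).1, ((parQ N x).2 + (parQ N x).1) % (N / (parQ N x).1)⟩ := by
  induction x using QuotientGroup.induction_on with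
  | H g =>
    rw [MulAction.Quotient.smul_mk, smul_eq_mul, parQ_mk, parQ_mk, parG_T_mul]

theorem parQ_T_pow_smul (t : ℕ) (x : SL(2, ℤ) ⧸ Gamma0 N) :
    parQ N (T ^ t • x) =
      ⟨(parQ N x).1, ((parQ N x).2 + t * (parQ N x).1) % (N / (parQ N x).1)⟩ := by
  induction t with
  | zero =>
    have h := parQ_mem N x
    rw [mem_parSet] at h
    rw [pow_zero, one_smul, zero_mul, add_zero, Nat.mod_eq_of_lt h.2.1]
  | succ t ih =>
    rw [pow_succ', mul_smul, parQ_T_smul, ih]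
    simp only
    congr 1
    rw [Nat.mod_add_mod]
    congr 1
    ring

/-- The cusp invariant `(δ, b mod gcd(δ, N/δ))` of a coset. -/
noncomputable def cuspPar (x : SL(2, ℤ) ⧸ Gamma0 N) : Σ _ : ℕ, ℕ :=
  ⟨(parQ N x).1, (parQ N x).2 % Nat.gcd (parQ N x).1 (N / (parQ N x).1)⟩

/-- The set of cusp invariants. -/
def cuspSet (N : ℕ) : Finset (Σ _ : ℕ, ℕ) :=
  N.divisors.sigma fun δ =>
    (Finset.range (δ.gcd (N / δ))).filter fun r => r.Coprime (δ.gcd (N / δ))

theorem mem_cuspSet {N : ℕ} {p : Σ _ : ℕ, ℕ} :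
    p ∈ cuspSet N ↔ p.1 ∈ N.divisors ∧ p.2 < p.1.gcd (N / p.1) ∧
      p.2.Coprime (p.1.gcd (N / p.1)) := by
  simp [cuspSet, Finset.mem_sigma]

theorem card_cuspSet (N : ℕ) : (cuspSet N).card = ModularCurve.cuspCount N := by
  rw [cuspSet, Finset.card_sigma, ModularCurve.cuspCount]
  refine Finset.sum_congr rfl fun δ _ => ?_
  rw [Nat.totient_eq_card_coprime]
  congr 1
  refine Finset.filter_congr fun r _ => ?_
  exact Nat.coprime_comm

theorem cuspPar_mem (x : SL(2, ℤ) ⧸ Gamma0 N) : cuspPar N x ∈ cuspSet N := by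
  have h := parQ_mem N x
  rw [mem_parSet] at h
  rw [mem_cuspSet]
  obtain ⟨h1, h2, h3⟩ := h
  have hδN : (parQ N x).1 ∣ N := (Nat.mem_divisors.mp h1).1
  have hm0 : N / (parQ N x).1 ≠ 0 := by
    intro h0
    have := Nat.div_mul_cancel hδN
    rw [h0, zero_mul] at this
    exact (NeZero.ne N) this.symm
  have he : 0 < Nat.gcd (parQ N x).1 (N / (parQ N x).1) :=
    Nat.gcd_pos_of_pos_right _ (Nat.pos_of_ne_zero hm0)
  refine ⟨h1, Nat.mod_lt _ he, ?_⟩
  simp only [cuspPar]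
  rw [Nat.Coprime, ← Nat.gcd_rec, Nat.gcd_comm]
  exact h3

theorem cuspPar_T_smul (x : SL(2, ℤ) ⧸ Gamma0 N) : cuspPar N (T • x) = cuspPar N x := by
  unfold cuspPar
  rw [parQ_T_smul]
  simp only
  congr 1
  rw [Nat.mod_mod_of_dvd _ (Nat.gcd_dvd_right _ _), Nat.add_mod,
    Nat.mod_eq_zero_of_dvd (Nat.gcd_dvd_left _ _), add_zero, Nat.mod_mod]


/-- The subgroup of elements preserving the cusp invariant. -/
def cuspInvSubgroup : Subgroup SL(2, ℤ) where
  carrier := {h | ∀ x : SL(2, ℤ) ⧸ Gamma0 N, cuspPar N (h • x) = cuspPar N x}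
  one_mem' := fun x => by rw [one_smul]
  mul_mem' := fun {a b} ha hb x => by rw [mul_smul, ha, hb]
  inv_mem' := fun {a} ha x => by
    have := ha (a⁻¹ • x)
    rw [smul_inv_smul] at this
    exact this.symm

theorem zpowers_T_le_cuspInvSubgroup : Subgroup.zpowers T ≤ cuspInvSubgroup N := by
  rw [Subgroup.zpowers_le]
  exact fun x => cuspPar_T_smul N x

theorem cuspPar_smul_of_mem {h : SL(2, ℤ)} (hh : h ∈ Subgroup.zpowers T)
    (x : SL(2, ℤ) ⧸ Gamma0 N) : cuspPar N (h • x) = cuspPar N x :=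
  zpowers_T_le_cuspInvSubgroup N hh x

/-- The cusp invariant on `⟨T⟩`-orbits. -/
noncomputable def cuspParQ :
    MulAction.orbitRel.Quotient (Subgroup.zpowers T) (SL(2, ℤ) ⧸ Gamma0 N) → Σ _ : ℕ, ℕ :=
  Quotient.lift (cuspPar N) (fun x y hxy => by
    obtain ⟨⟨h, hh⟩, rfl⟩ := hxy
    exact cuspPar_smul_of_mem N hh y)

theorem cuspParQ_injective : Function.Injective (cuspParQ N) := by
  intro X Y
  induction X using Quotient.inductionOn with
  | h x =>
    induction Y using Quotient.inductionOn with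
    | h y =>
      intro hxy
      change cuspPar N x = cuspPar N y at hxy
      apply Quotient.sound
      -- find `t` with `T^t • y = x`
      have h1 : (parQ N x).1 = (parQ N y).1 := by
        have h1' : (cuspPar N x).1 = (cuspPar N y).1 := by rw [hxy]
        exact h1'
      have h2 : (parQ N x).2 % Nat.gcd (parQ N x).1 (N / (parQ N x).1) =
          (parQ N y).2 % Nat.gcd (parQ N y).1 (N / (parQ N y).1) := by
        have h2' : (cuspPar N x).2 = (cuspPar N y).2 := by rw [hxy]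
        exact h2'
      rw [h1] at h2
      have hy := parQ_mem N y
      have hx := parQ_mem N x
      rw [mem_parSet] at hx hy
      have hm0 : N / (parQ N y).1 ≠ 0 := by
        have := hy.2.1
        omega
      obtain ⟨t, ht⟩ := exists_shift (parQ N y).1 (N / (parQ N y).1) (parQ N y).2 (parQ N x).2
        hm0 h2.symm
      have hx2 : (parQ N x).2 % (N / (parQ N y).1) = (parQ N x).2 := by
        apply Nat.mod_eq_of_lt
        rw [← h1]; exact hx.2.1
      rw [hx2] at ht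
      have key : T ^ t • y = x := by
        apply parQ_injective N
        rw [parQ_T_pow_smul, ht]
        exact Sigma.ext h1.symm (by simp)
      refine ⟨⟨T ^ t, ?_⟩, ?_⟩
      · exact Subgroup.pow_mem _ (Subgroup.mem_zpowers T) t
      · exact key

theorem cuspParQ_mem (X : MulAction.orbitRel.Quotient (Subgroup.zpowers T)
    (SL(2, ℤ) ⧸ Gamma0 N)) : cuspParQ N X ∈ cuspSet N := by
  induction X using Quotient.inductionOn with
  | h x => exact cuspPar_mem N x

theorem cuspParQ_surj {p : Σ _ : ℕ, ℕ} (hp : p ∈ cuspSet N) : ∃ X, cuspParQ N X = p := by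
  obtain ⟨δ, r⟩ := p
  rw [mem_cuspSet] at hp
  obtain ⟨h1, h2, h3⟩ := hp
  simp only at h1 h2 h3
  have hδN : δ ∣ N := (Nat.mem_divisors.mp h1).1
  have hm0 : N / δ ≠ 0 := by
    intro h0
    have := Nat.div_mul_cancel hδN
    rw [h0, zero_mul] at this
    exact (NeZero.ne N) this.symm
  have hle : δ.gcd (N / δ) ≤ N / δ := Nat.le_of_dvd (Nat.pos_of_ne_zero hm0) (Nat.gcd_dvd_right _ _)
  have hmem : (⟨δ, r⟩ : Σ _ : ℕ, ℕ) ∈ parSet N := by
    rw [mem_parSet]
    exact ⟨h1, lt_of_lt_of_le h2 hle, h3⟩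
  obtain ⟨x, hx⟩ := parQ_surj N hmem
  refine ⟨Quotient.mk _ x, ?_⟩
  change cuspPar N x = _
  unfold cuspPar
  rw [hx]
  simp only
  rw [Nat.mod_eq_of_lt h2]

/-- **The `⟨T⟩`-orbits on the cosets of `Γ₀(N)` (the cusps) are parametrised by `cuspSet N`.** -/
noncomputable def cuspEquiv :
    MulAction.orbitRel.Quotient (Subgroup.zpowers T) (SL(2, ℤ) ⧸ Gamma0 N) ≃ cuspSet N :=
  Equiv.ofBijective (fun X => ⟨cuspParQ N X, cuspParQ_mem N X⟩)
    ⟨fun X Y h => cuspParQ_injective N (congrArg Subtype.val h),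
      fun ⟨p, hp⟩ => by
        obtain ⟨X, hX⟩ := cuspParQ_surj N hp
        exact ⟨X, Subtype.ext hX⟩⟩

/-- **The number of cusps of `Γ₀(N)` is `cuspCount N = Σ_{d ∣ N} φ(gcd(d, N/d))`.** -/
theorem card_cusps :
    Nat.card (MulAction.orbitRel.Quotient (Subgroup.zpowers T) (SL(2, ℤ) ⧸ Gamma0 N)) =
      ModularCurve.cuspCount N := by
  rw [Nat.card_congr (cuspEquiv N), Nat.card_eq_fintype_card, Fintype.card_coe, card_cuspSet]

end Fermat.Agent.X0N
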