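import Mathlib
import Fermat.Agent.RatStr.Laurent_helper1
import Fermat.Agent.X0N.Mer_helper6_Basic

/-!
# (CUSP) orders at `i∞` via limits

For `F` holomorphic on `ℍ`, `h`-periodic, meromorphic at `i∞` (`IsMeroInfty h F`) the order of the
Laurent expansion `laurent h F` is characterised by: `F · q_h^{-n}` tends to a nonzero limit.
-/

set_option autoImplicit false

namespace Fermat.Agent.X0N.Cusp

open UpperHalfPlane hiding I
open Complex Filter Function Fermat.Agent.RatStr
open scoped Manifold Topology MatrixGroups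

variable {h : ℝ}

/-- A bounded holomorphic periodic function tends to the constant term of its `q`-expansion. -/
theorem tendsto_of_isHolBdd (hh : 0 < h) {G : ℍ → ℂ} (hG : IsHolBdd h G) :
    Tendsto G atImInfty (𝓝 ((qExpansion h G).coeff 0)) := by
  have han := hG.analyticAt hh
  rw [qExpansion_coeff_zero hh han hG.per, ← cuspFunction_apply_zero hh han hG.per]
  have h1 : (cuspFunction h G ∘ fun τ : ℍ ↦ Periodic.qParam h τ : ℍ → ℂ) = G := by
    funext τ
    simpa using eq_cuspFunction τ hh.ne' hG.per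
  have h2 := han.continuousAt.tendsto.comp (qParam_tendsto_atImInfty hh)
  rwa [h1] at h2

/-- integer powers of the local parameter `q_h`. -/
noncomputable def qz (h : ℝ) (k : ℤ) : ℍ → ℂ := fun τ => qf h τ ^ k

theorem qz_apply (k : ℤ) (τ : ℍ) : qz h k τ = qf h τ ^ k := rfl

theorem qz_add (k l : ℤ) : qz h (k + l) = qz h k * qz h l := by
  funext τ
  simp only [qz_apply, Pi.mul_apply]
  exact zpow_add₀ (qf_ne_zero h τ) k l

theorem qz_zero : qz h 0 = 1 := by
  funext τ
  simp [qz_apply]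

theorem qz_natCast (n : ℕ) : qz h (n : ℤ) = qf h ^ n := by
  funext τ
  simp [qz_apply]

theorem qz_neg_mul (k : ℤ) : qz h (-k) * qz h k = 1 := by
  rw [← qz_add, neg_add_cancel, qz_zero]

theorem isMeroInfty_qz (hh : 0 < h) (k : ℤ) : IsMeroInfty h (qz h k) := by
  rcases le_total 0 k with hk | hk
  · obtain ⟨n, rfl⟩ := Int.eq_ofNat_of_zero_le hk
    rw [qz_natCast]
    exact (IsMeroInfty.qf hh).pow n
  · obtain ⟨n, hn⟩ := Int.eq_ofNat_of_zero_le (neg_nonneg.mpr hk)
    refine ⟨n, ?_⟩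
    have : qz h k * qf h ^ n = 1 := by
      rw [← qz_natCast, ← hn, mul_comm, qz_neg_mul]
    rw [this]
    exact IsHolBdd.one h

theorem laurent_qz (hh : 0 < h) (k : ℤ) : laurent h (qz h k) = HahnSeries.single k (1 : ℂ) := by
  rcases le_total 0 k with hk | hk
  · obtain ⟨n, rfl⟩ := Int.eq_ofNat_of_zero_le hk
    rw [qz_natCast, laurent_qf_pow hh]
  · obtain ⟨n, hn⟩ := Int.eq_ofNat_of_zero_le (neg_nonneg.mpr hk)
    have h1 : qz h k * qf h ^ n = 1 := by
      rw [← qz_natCast, ← hn, mul_comm, qz_neg_mul]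
    have h2 : IsHolBdd h (qz h k * qf h ^ n) := by
      rw [h1]
      exact IsHolBdd.one h
    rw [laurent_eq hh h2, h1, qExpansion_one]
    have e1 : (HahnSeries.ofPowerSeries ℤ ℂ) 1 = 1 := map_one _
    rw [e1, mul_one]
    have e2 : -(n : ℤ) = k := by omega
    rw [e2]

theorem tendsto_qz_of_pos (hh : 0 < h) {k : ℤ} (hk : 0 < k) :
    Tendsto (qz h k) atImInfty (𝓝 0) := by
  obtain ⟨n, rfl⟩ := Int.eq_ofNat_of_zero_le hk.le
  have hn : n ≠ 0 := by
    rintro rfl
    simp at hk
  rw [qz_natCast]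
  have h1 : Tendsto (qf h) atImInfty (𝓝 0) := qParam_tendsto_atImInfty hh
  have h2 := h1.pow n
  rw [zero_pow hn] at h2
  exact h2

/-- **order ⇒ limit**: `F · q^{-ord F}` tends to the leading coefficient. -/
theorem tendsto_mul_qz_order (hh : 0 < h) {F : ℍ → ℂ} (hF : IsMeroInfty h F) :
    Tendsto (F * qz h (-(laurent h F).order)) atImInfty
      (𝓝 ((laurent h F).coeff (laurent h F).order)) := by
  set n := (laurent h F).order with hn
  have hF' : IsMeroInfty h (F * qz h (-n)) := hF.mul (isMeroInfty_qz hh _)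
  have hL : laurent h (F * qz h (-n)) = laurent h F * HahnSeries.single (-n) (1 : ℂ) := by
    rw [laurent_mul hh hF (isMeroInfty_qz hh _), laurent_qz hh]
  have hcoeff : ∀ j : ℤ, (laurent h (F * qz h (-n))).coeff j = (laurent h F).coeff (j + n) := by
    intro j
    rw [hL]
    have := HahnSeries.coeff_mul_single_add (x := laurent h F) (a := j + n) (b := -n) (r := (1 : ℂ))
    rw [mul_one] at this
    rw [← this]
    congr 1
    ring
  have hbdd : IsHolBdd h (F * qz h (-n)) := by
    apply isHolBdd_of_laurent_coeff_neg hh hF'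
    intro j hj
    rw [hcoeff]
    exact HahnSeries.coeff_eq_zero_of_lt_order (by omega)
  have h1 := tendsto_of_isHolBdd hh hbdd
  have h2 : (qExpansion h (F * qz h (-n))).coeff 0 = (laurent h F).coeff n := by
    have := laurent_coeff_of_isHolBdd hh hbdd 0
    rw [← this]
    have := hcoeff 0
    simpa using this
  rwa [h2] at h1

/-- **limit ⇒ order**: if `F · q^{-n}` tends to `c ≠ 0` then `F` has order `n` and leading
coefficient `c`. -/
theorem order_eq_of_tendsto (hh : 0 < h) {F : ℍ → ℂ} (hF : IsMeroInfty h F) {n : ℤ} {c : ℂ}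
    (hc : c ≠ 0) (hlim : Tendsto (F * qz h (-n)) atImInfty (𝓝 c)) :
    (laurent h F).order = n ∧ (laurent h F).coeff n = c := by
  have hF0 : F ≠ 0 := by
    rintro rfl
    rw [zero_mul] at hlim
    exact hc (tendsto_nhds_unique hlim tendsto_const_nhds)
  have hL0 : laurent h F ≠ 0 := fun h0 => hF0 ((laurent_eq_zero_iff hh hF).mp h0)
  set n₀ := (laurent h F).order with hn₀
  have hc₀ : (laurent h F).coeff n₀ ≠ 0 := fun h0 => hL0 (HahnSeries.coeff_order_eq_zero.mp h0)
  have hB := tendsto_mul_qz_order hh hF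
  rw [← hn₀] at hB
  have key : n₀ = n := by
    rcases lt_trichotomy n₀ n with hlt | heq | hgt
    · exfalso
      -- F q^{-n₀} = F q^{-n} q^{n - n₀} → 0
      have e : F * qz h (-n₀) = F * qz h (-n) * qz h (n - n₀) := by
        rw [mul_assoc, ← qz_add]
        congr 2
        ring
      have h3 : Tendsto (F * qz h (-n) * qz h (n - n₀)) atImInfty (𝓝 (c * 0)) :=
        hlim.mul (tendsto_qz_of_pos hh (sub_pos.mpr hlt))
      rw [mul_zero, ← e] at h3
      exact hc₀ (tendsto_nhds_unique hB h3)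
    · exact heq
    · exfalso
      have e : F * qz h (-n) = F * qz h (-n₀) * qz h (n₀ - n) := by
        rw [mul_assoc, ← qz_add]
        congr 2
        ring
      have h3 : Tendsto (F * qz h (-n₀) * qz h (n₀ - n)) atImInfty
          (𝓝 ((laurent h F).coeff n₀ * 0)) :=
        hB.mul (tendsto_qz_of_pos hh (sub_pos.mpr hgt))
      rw [mul_zero, ← e] at h3
      exact hc (tendsto_nhds_unique hlim h3)
  refine ⟨key, ?_⟩
  rw [key] at hB
  exact tendsto_nhds_unique hB hlim

/-! ### Translations `τ ↦ τ + t` -/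

open ModularGroup

theorem tendsto_T_zpow_smul (t : ℤ) :
    Tendsto (fun τ : ℍ => T ^ t • τ) atImInfty atImInfty := by
  rw [atImInfty, tendsto_comap_iff]
  have : (UpperHalfPlane.im ∘ fun τ : ℍ => T ^ t • τ) = UpperHalfPlane.im := by
    funext τ
    exact im_T_zpow_smul τ t
  rw [this]
  exact tendsto_comap

/-- the root of unity `ζ_h^t = exp(2πi t / h)`. -/
noncomputable def zetaPow (h : ℝ) (t : ℤ) : ℂ := Complex.exp (2 * Real.pi * Complex.I * t / h)

theorem zetaPow_ne_zero (h : ℝ) (t : ℤ) : zetaPow h t ≠ 0 := Complex.exp_ne_zero _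

theorem qf_T_zpow_smul (t : ℤ) (τ : ℍ) : qf h (T ^ t • τ) = zetaPow h t * qf h τ := by
  rw [qf_apply, qf_apply, coe_T_zpow_smul_eq, zetaPow, Periodic.qParam, Periodic.qParam,
    ← Complex.exp_add]
  congr 1
  ring

theorem qz_T_zpow_smul (t k : ℤ) (τ : ℍ) :
    qz h k (T ^ t • τ) = zetaPow h t ^ k * qz h k τ := by
  rw [qz_apply, qz_apply, qf_T_zpow_smul, mul_zpow]

theorem T_zpow_smul_vadd (t : ℤ) (h : ℝ) (τ : ℍ) : T ^ t • (h +ᵥ τ) = h +ᵥ (T ^ t • τ) := by
  ext
  rw [coe_T_zpow_smul_eq, coe_vadd, coe_vadd, coe_T_zpow_smul_eq]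
  ring

theorem isHolBdd_comp_T_zpow {G : ℍ → ℂ} (hG : IsHolBdd h G) (t : ℤ) :
    IsHolBdd h (fun τ => G (T ^ t • τ)) where
  per := by
    apply periodic_comp_ofComplex_of_vadd
    intro τ
    show G (T ^ t • (h +ᵥ τ)) = G (T ^ t • τ)
    rw [T_zpow_smul_vadd]
    exact vadd_of_periodic_comp_ofComplex hG.per _
  hol := mdiff_comp_SL hG.hol (T ^ t)
  bdd := hG.bdd.comp_tendsto (tendsto_T_zpow_smul t)

theorem isMeroInfty_comp_T_zpow {F : ℍ → ℂ} (hF : IsMeroInfty h F) (t : ℤ) :
    IsMeroInfty h (fun τ => F (T ^ t • τ)) := by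
  obtain ⟨m, hm⟩ := hF
  refine ⟨m, ?_⟩
  have h1 := (isHolBdd_comp_T_zpow hm t).smul ((zetaPow h t ^ m)⁻¹)
  convert h1 using 1
  funext τ
  simp only [Pi.mul_apply, Pi.pow_apply, Pi.smul_apply, smul_eq_mul, qf_T_zpow_smul, mul_pow]
  have := pow_ne_zero m (zetaPow_ne_zero h t)
  field_simp

/-- **Translation**: `F ∘ T^t` has the same order at `i∞` as `F`, and its leading coefficient is
multiplied by `ζ_h^{t · ord}`. -/
theorem laurent_comp_T_zpow (hh : 0 < h) {F : ℍ → ℂ} (hF : IsMeroInfty h F) (t : ℤ) :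
    (laurent h (fun τ => F (T ^ t • τ))).order = (laurent h F).order ∧
      (laurent h (fun τ => F (T ^ t • τ))).coeff (laurent h F).order =
        zetaPow h t ^ (laurent h F).order * (laurent h F).coeff (laurent h F).order := by
  by_cases hF0 : F = 0
  · subst hF0
    have : (fun τ : ℍ => (0 : ℍ → ℂ) (T ^ t • τ)) = 0 := rfl
    rw [this]
    simp [laurent_zero]
  have hL0 : laurent h F ≠ 0 := fun h0 => hF0 ((laurent_eq_zero_iff hh hF).mp h0)
  set n := (laurent h F).order with hn
  have hc : (laurent h F).coeff n ≠ 0 := fun h0 => hL0 (HahnSeries.coeff_order_eq_zero.mp h0)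
  have hB := tendsto_mul_qz_order hh hF
  rw [← hn] at hB
  have h2 := hB.comp (tendsto_T_zpow_smul t)
  have h3 : Tendsto ((fun τ => F (T ^ t • τ)) * qz h (-n)) atImInfty
      (𝓝 (zetaPow h t ^ n * (laurent h F).coeff n)) := by
    have h4 := h2.const_mul (zetaPow h t ^ n)
    refine h4.congr fun τ => ?_
    simp only [comp_apply, Pi.mul_apply, qz_T_zpow_smul]
    rw [zpow_neg]
    have := zpow_ne_zero n (zetaPow_ne_zero h t)
    field_simp
  exact order_eq_of_tendsto hh (isMeroInfty_comp_T_zpow hF t)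
    (mul_ne_zero (zpow_ne_zero n (zetaPow_ne_zero h t)) hc) h3

end Fermat.Agent.X0N.Cusp
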