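import Mathlib
import Fermat.Agent.X0N.Cusp_helper9_Limit

/-!
# (CUSP) the field of functions meromorphic at `i∞` and the order at `i∞`

`MerInf h` is the subfield of `MerH` of ratios `a / b` of holomorphic functions on `ℍ` which are
`h`-periodic and meromorphic at `i∞`.  On it we have the Laurent expansion in
`q_h = exp(2πiτ/h)`, the order `ordInf h` and the leading coefficient `lcInf h`.
-/

set_option autoImplicit false
set_option linter.unusedSectionVars false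

namespace Fermat.Agent.X0N

open UpperHalfPlane hiding I
open Complex Filter Function Fermat.Agent.RatStr Cusp ModularGroup
open scoped Manifold Topology MatrixGroups

/-- `x ∈ MerH` is a ratio of two holomorphic `h`-periodic functions meromorphic at `i∞`. -/
def IsMerInf (h : ℕ) (x : MerH) : Prop :=
  ∃ a b : HolH, IsMeroInfty (h : ℝ) (a : ℍ → ℂ) ∧ IsMeroInfty (h : ℝ) (b : ℍ → ℂ) ∧ b ≠ 0 ∧
    x = MerH.ofHol a / MerH.ofHol b

variable {h : ℕ} [NeZero h] {x y : MerH}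

theorem Cusp.natCast_pos (h : ℕ) [NeZero h] : (0 : ℝ) < (h : ℝ) := Nat.cast_pos.mpr (NeZero.pos h)

theorem isMerInf_ofHol {a : HolH} (ha : IsMeroInfty (h : ℝ) (a : ℍ → ℂ)) :
    IsMerInf h (MerH.ofHol a) :=
  ⟨a, 1, ha, IsMeroInfty.one _, one_ne_zero, by rw [map_one, div_one]⟩

theorem isMerInf_const (c : ℂ) : IsMerInf h (MerH.const c) :=
  isMerInf_ofHol (a := HolH.const c) (IsMeroInfty.const _ c)

theorem isMerInf_zero : IsMerInf h 0 := by
  simpa using isMerInf_const (h := h) 0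

theorem isMerInf_one : IsMerInf h 1 := by
  simpa using isMerInf_const (h := h) 1

theorem IsMerInf.mul (hx : IsMerInf h x) (hy : IsMerInf h y) : IsMerInf h (x * y) := by
  obtain ⟨a, b, ha, hb, hb0, rfl⟩ := hx
  obtain ⟨c, d, hc, hd, hd0, rfl⟩ := hy
  refine ⟨a * c, b * d, ha.mul hc, hb.mul hd, mul_ne_zero hb0 hd0, ?_⟩
  rw [div_mul_div_comm, map_mul, map_mul]

theorem IsMerInf.add (hx : IsMerInf h x) (hy : IsMerInf h y) : IsMerInf h (x + y) := by
  obtain ⟨a, b, ha, hb, hb0, rfl⟩ := hx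
  obtain ⟨c, d, hc, hd, hd0, rfl⟩ := hy
  refine ⟨a * d + b * c, b * d, (ha.mul hd).add (natCast_pos h) (hb.mul hc), hb.mul hd,
    mul_ne_zero hb0 hd0, ?_⟩
  rw [div_add_div _ _ (MerH.ofHol_ne_zero hb0) (MerH.ofHol_ne_zero hd0)]
  simp only [map_add, map_mul]

theorem IsMerInf.neg (hx : IsMerInf h x) : IsMerInf h (-x) := by
  obtain ⟨a, b, ha, hb, hb0, rfl⟩ := hx
  refine ⟨-a, b, ha.neg, hb, hb0, ?_⟩
  rw [map_neg, neg_div]

theorem IsMerInf.inv (hx : IsMerInf h x) : IsMerInf h x⁻¹ := by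
  obtain ⟨a, b, ha, hb, hb0, rfl⟩ := hx
  by_cases ha0 : a = 0
  · subst ha0
    rw [map_zero, zero_div, inv_zero]
    exact isMerInf_zero
  · exact ⟨b, a, hb, ha, ha0, by rw [inv_div]⟩

variable (h) in
/-- The field of meromorphic functions on `ℍ` that are `h`-periodic and meromorphic at `i∞`. -/
def MerInf : Subfield MerH where
  carrier := {x | IsMerInf h x}
  mul_mem' := IsMerInf.mul
  one_mem' := isMerInf_one
  add_mem' := IsMerInf.add
  zero_mem' := isMerInf_zero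
  neg_mem' := IsMerInf.neg
  inv_mem' _ := IsMerInf.inv

theorem mem_MerInf : x ∈ MerInf h ↔ IsMerInf h x := Iff.rfl

/-! ### The Laurent expansion -/

variable (h) in
/-- The Laurent expansion in `q_h` of an element of `MerInf h` (zero outside). -/
noncomputable def laurentQ (x : MerH) : LaurentSeries ℂ :=
  open Classical in
  if hx : IsMerInf h x then
    laurent (h : ℝ) (hx.choose : ℍ → ℂ) / laurent (h : ℝ) (hx.choose_spec.choose : ℍ → ℂ)
  else 0

theorem Cusp.laurent_ne_zero {b : HolH} (hb : IsMeroInfty (h : ℝ) (b : ℍ → ℂ)) (hb0 : b ≠ 0) :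
    laurent (h : ℝ) (b : ℍ → ℂ) ≠ 0 := by
  intro h0
  apply hb0
  apply Subtype.ext
  exact (laurent_eq_zero_iff (natCast_pos h) hb).mp h0

theorem laurentQ_div {a b : HolH} (ha : IsMeroInfty (h : ℝ) (a : ℍ → ℂ))
    (hb : IsMeroInfty (h : ℝ) (b : ℍ → ℂ)) (hb0 : b ≠ 0) :
    laurentQ h (MerH.ofHol a / MerH.ofHol b) =
      laurent (h : ℝ) (a : ℍ → ℂ) / laurent (h : ℝ) (b : ℍ → ℂ) := by
  have hx : IsMerInf h (MerH.ofHol a / MerH.ofHol b) := ⟨a, b, ha, hb, hb0, rfl⟩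
  rw [laurentQ, dif_pos hx]
  obtain ⟨ha', hb', hb0', heq⟩ := hx.choose_spec.choose_spec
  set a' := hx.choose
  set b' := hx.choose_spec.choose
  rw [div_eq_div_iff (MerH.ofHol_ne_zero hb0) (MerH.ofHol_ne_zero hb0'), ← map_mul, ← map_mul]
    at heq
  have h2 : a * b' = a' * b := MerH.ofHol_injective heq
  have h3 : (a : ℍ → ℂ) * (b' : ℍ → ℂ) = (a' : ℍ → ℂ) * (b : ℍ → ℂ) :=
    congrArg Subtype.val h2
  have h4 := congrArg (laurent (h : ℝ)) h3
  rw [laurent_mul (natCast_pos h) ha hb', laurent_mul (natCast_pos h) ha' hb] at h4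
  rw [div_eq_div_iff (laurent_ne_zero hb' hb0') (laurent_ne_zero hb hb0), h4]

theorem laurentQ_ofHol {a : HolH} (ha : IsMeroInfty (h : ℝ) (a : ℍ → ℂ)) :
    laurentQ h (MerH.ofHol a) = laurent (h : ℝ) (a : ℍ → ℂ) := by
  have := laurentQ_div ha (IsMeroInfty.one (h : ℝ)) (b := 1) one_ne_zero
  rw [map_one, div_one] at this
  rw [this]
  have : laurent (h : ℝ) ((1 : HolH) : ℍ → ℂ) = 1 := laurent_one (natCast_pos h)
  rw [this, div_one]

theorem laurentQ_const (c : ℂ) : laurentQ h (MerH.const c) = HahnSeries.C c := by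
  have := laurentQ_ofHol (h := h) (a := HolH.const c) (IsMeroInfty.const _ c)
  rw [show MerH.const c = MerH.ofHol (HolH.const c) from rfl, this]
  exact laurent_const (natCast_pos h) c

theorem laurentQ_zero : laurentQ h 0 = 0 := by
  have := laurentQ_const (h := h) 0
  simpa using this

theorem laurentQ_one : laurentQ h 1 = 1 := by
  have := laurentQ_const (h := h) 1
  simpa using this

theorem laurentQ_mul (hx : IsMerInf h x) (hy : IsMerInf h y) :
    laurentQ h (x * y) = laurentQ h x * laurentQ h y := by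
  obtain ⟨a, b, ha, hb, hb0, rfl⟩ := hx
  obtain ⟨c, d, hc, hd, hd0, rfl⟩ := hy
  rw [div_mul_div_comm, ← map_mul, ← map_mul, laurentQ_div (ha.mul hc) (hb.mul hd)
    (mul_ne_zero hb0 hd0), laurentQ_div ha hb hb0, laurentQ_div hc hd hd0, div_mul_div_comm]
  congr 1
  · exact laurent_mul (natCast_pos h) ha hc
  · exact laurent_mul (natCast_pos h) hb hd

theorem laurentQ_add (hx : IsMerInf h x) (hy : IsMerInf h y) :
    laurentQ h (x + y) = laurentQ h x + laurentQ h y := by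
  obtain ⟨a, b, ha, hb, hb0, rfl⟩ := hx
  obtain ⟨c, d, hc, hd, hd0, rfl⟩ := hy
  have hsum : MerH.ofHol a / MerH.ofHol b + MerH.ofHol c / MerH.ofHol d =
      MerH.ofHol (a * d + b * c) / MerH.ofHol (b * d) := by
    rw [div_add_div _ _ (MerH.ofHol_ne_zero hb0) (MerH.ofHol_ne_zero hd0)]
    simp only [map_add, map_mul]
  have hp := natCast_pos h
  rw [hsum, laurentQ_div ((ha.mul hd).add hp (hb.mul hc)) (hb.mul hd) (mul_ne_zero hb0 hd0),
    laurentQ_div ha hb hb0, laurentQ_div hc hd hd0,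
    div_add_div _ _ (laurent_ne_zero hb hb0) (laurent_ne_zero hd hd0)]
  congr 1
  · show laurent (h : ℝ) ((a : ℍ → ℂ) * (d : ℍ → ℂ) + (b : ℍ → ℂ) * (c : ℍ → ℂ)) = _
    rw [laurent_add hp (ha.mul hd) (hb.mul hc), laurent_mul hp ha hd, laurent_mul hp hb hc]
  · exact laurent_mul hp hb hd

theorem laurentQ_eq_zero_iff (hx : IsMerInf h x) : laurentQ h x = 0 ↔ x = 0 := by
  obtain ⟨a, b, ha, hb, hb0, rfl⟩ := hx
  rw [laurentQ_div ha hb hb0, div_eq_zero_iff, div_eq_zero_iff]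
  constructor
  · rintro (h1 | h1)
    · left
      have : a = 0 := Subtype.ext ((laurent_eq_zero_iff (natCast_pos h) ha).mp h1)
      rw [this, map_zero]
    · exact absurd h1 (laurent_ne_zero hb hb0)
  · rintro (h1 | h1)
    · left
      have : a = 0 := MerH.ofHol_injective (by rw [h1, map_zero])
      rw [this]
      exact laurent_zero _
    · exact absurd h1 (MerH.ofHol_ne_zero hb0)

variable (h) in
/-- The Laurent expansion as a ring homomorphism on `MerInf h`. -/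
noncomputable def laurentM : ↥(MerInf h) →+* LaurentSeries ℂ where
  toFun x := laurentQ h x
  map_one' := laurentQ_one
  map_mul' x y := laurentQ_mul x.2 y.2
  map_zero' := laurentQ_zero
  map_add' x y := laurentQ_add x.2 y.2

@[simp] theorem laurentM_apply (x : ↥(MerInf h)) : laurentM h x = laurentQ h x := rfl

theorem laurentQ_inv (hx : IsMerInf h x) : laurentQ h x⁻¹ = (laurentQ h x)⁻¹ :=
  map_inv₀ (laurentM h) ⟨x, hx⟩

theorem laurentQ_neg (hx : IsMerInf h x) : laurentQ h (-x) = -laurentQ h x :=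
  map_neg (laurentM h) ⟨x, hx⟩

/-! ### Order and leading coefficient at `i∞` -/

variable (h) in
/-- The order at `i∞` in the local parameter `q_h = exp(2πiτ/h)` (`0` for `0`, junk outside
`MerInf h`). -/
noncomputable def MerH.ordInf (x : MerH) : ℤ := (laurentQ h x).order

variable (h) in
/-- The leading coefficient at `i∞` of the expansion in `q_h`. -/
noncomputable def MerH.lcInf (x : MerH) : ℂ := (laurentQ h x).leadingCoeff

open MerH

@[simp] theorem MerH.ordInf_zero : ordInf h 0 = 0 := by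
  rw [ordInf, laurentQ_zero, HahnSeries.order_zero]

theorem MerH.ordInf_one : ordInf h 1 = 0 := by
  rw [ordInf, laurentQ_one, HahnSeries.order_one]

theorem MerH.ordInf_mul (hx : IsMerInf h x) (hy : IsMerInf h y) (hx0 : x ≠ 0) (hy0 : y ≠ 0) :
    ordInf h (x * y) = ordInf h x + ordInf h y := by
  rw [ordInf, laurentQ_mul hx hy]
  exact HahnSeries.order_mul (mt (laurentQ_eq_zero_iff hx).mp hx0)
    (mt (laurentQ_eq_zero_iff hy).mp hy0)

theorem MerH.min_ordInf_le_ordInf_add (hx : IsMerInf h x) (hy : IsMerInf h y)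
    (hxy : x + y ≠ 0) : min (ordInf h x) (ordInf h y) ≤ ordInf h (x + y) := by
  rw [ordInf, ordInf, ordInf, laurentQ_add hx hy]
  apply HahnSeries.min_order_le_order_add
  rw [← laurentQ_add hx hy]
  exact mt (laurentQ_eq_zero_iff (hx.add hy)).mp hxy

theorem MerH.ordInf_inv (hx : IsMerInf h x) : ordInf h x⁻¹ = -ordInf h x := by
  by_cases hx0 : x = 0
  · simp [hx0]
  have h1 := ordInf_mul hx hx.inv hx0 (inv_ne_zero hx0)
  rw [mul_inv_cancel₀ hx0, ordInf_one] at h1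
  omega

theorem MerH.ordInf_div (hx : IsMerInf h x) (hy : IsMerInf h y) (hx0 : x ≠ 0) (hy0 : y ≠ 0) :
    ordInf h (x / y) = ordInf h x - ordInf h y := by
  rw [div_eq_mul_inv, ordInf_mul hx hy.inv hx0 (inv_ne_zero hy0), ordInf_inv hy]
  ring

theorem MerH.ordInf_neg (hx : IsMerInf h x) : ordInf h (-x) = ordInf h x := by
  rw [ordInf, laurentQ_neg hx, HahnSeries.order_neg]
  rfl

theorem MerH.ordInf_const {c : ℂ} (hc : c ≠ 0) : ordInf h (MerH.const c) = 0 := by
  rw [ordInf, laurentQ_const]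
  exact HahnSeries.order_single hc

theorem MerH.ordInf_ofHol {a : HolH} (ha : IsMeroInfty (h : ℝ) (a : ℍ → ℂ)) :
    ordInf h (MerH.ofHol a) = (laurent (h : ℝ) (a : ℍ → ℂ)).order := by
  rw [ordInf, laurentQ_ofHol ha]

theorem MerH.lcInf_ne_zero (hx : IsMerInf h x) (hx0 : x ≠ 0) : lcInf h x ≠ 0 := by
  rw [lcInf, HahnSeries.leadingCoeff_ne_zero]
  exact mt (laurentQ_eq_zero_iff hx).mp hx0

theorem MerH.lcInf_mul (hx : IsMerInf h x) (hy : IsMerInf h y) :
    lcInf h (x * y) = lcInf h x * lcInf h y := by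
  rw [lcInf, laurentQ_mul hx hy, HahnSeries.leadingCoeff_mul]
  rfl

theorem MerH.lcInf_ofHol {a : HolH} (ha : IsMeroInfty (h : ℝ) (a : ℍ → ℂ)) :
    lcInf h (MerH.ofHol a) =
      (laurent (h : ℝ) (a : ℍ → ℂ)).coeff (laurent (h : ℝ) (a : ℍ → ℂ)).order := by
  rw [lcInf, laurentQ_ofHol ha, HahnSeries.leadingCoeff_eq]

theorem MerH.lcInf_div_ofHol {a b : HolH} (ha : IsMeroInfty (h : ℝ) (a : ℍ → ℂ))
    (hb : IsMeroInfty (h : ℝ) (b : ℍ → ℂ)) (hb0 : b ≠ 0) :
    lcInf h (MerH.ofHol a / MerH.ofHol b) = lcInf h (MerH.ofHol a) / lcInf h (MerH.ofHol b) := by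
  have hB := isMerInf_ofHol hb
  have hB0 := lcInf_ne_zero hB (MerH.ofHol_ne_zero hb0)
  rw [eq_div_iff hB0, ← lcInf_mul ⟨a, b, ha, hb, hb0, rfl⟩ hB,
    div_mul_cancel₀ _ (MerH.ofHol_ne_zero hb0)]

/-! ### Translations -/

theorem Cusp.coe_comp_fun (γ : SL(2, ℤ)) (a : HolH) :
    ((HolH.comp γ a : HolH) : ℍ → ℂ) = fun τ => (a : ℍ → ℂ) (γ • τ) := rfl

theorem IsMerInf.comp_T_zpow (hx : IsMerInf h x) (t : ℤ) : IsMerInf h (MerH.comp (T ^ t) x) := by
  obtain ⟨a, b, ha, hb, hb0, rfl⟩ := hx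
  refine ⟨HolH.comp (T ^ t) a, HolH.comp (T ^ t) b, isMeroInfty_comp_T_zpow ha t,
    isMeroInfty_comp_T_zpow hb t, by simpa using hb0, ?_⟩
  rw [map_div₀, MerH.comp_algebraMap, MerH.comp_algebraMap]

theorem MerH.ordInf_comp_T_zpow_ofHol {a : HolH} (ha : IsMeroInfty (h : ℝ) (a : ℍ → ℂ)) (t : ℤ) :
    ordInf h (MerH.ofHol (HolH.comp (T ^ t) a)) = ordInf h (MerH.ofHol a) ∧
      lcInf h (MerH.ofHol (HolH.comp (T ^ t) a)) =
        zetaPow h t ^ (ordInf h (MerH.ofHol a)) * lcInf h (MerH.ofHol a) := by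
  have h1 := laurent_comp_T_zpow (natCast_pos h) ha t
  have ha' : IsMeroInfty (h : ℝ) ((HolH.comp (T ^ t) a : HolH) : ℍ → ℂ) :=
    isMeroInfty_comp_T_zpow ha t
  rw [ordInf_ofHol ha', ordInf_ofHol ha, lcInf_ofHol ha', lcInf_ofHol ha, Cusp.coe_comp_fun]
  refine ⟨h1.1, ?_⟩
  rw [h1.1]
  exact h1.2

/-- **`T`-invariance of the order at `i∞`.** -/
theorem MerH.ordInf_comp_T_zpow (hx : IsMerInf h x) (t : ℤ) :
    ordInf h (MerH.comp (T ^ t) x) = ordInf h x := by
  obtain ⟨a, b, ha, hb, hb0, rfl⟩ := hx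
  by_cases ha0 : a = 0
  · subst ha0
    simp
  have hcb0 : HolH.comp (T ^ t) b ≠ 0 := by simpa using hb0
  have hca0 : HolH.comp (T ^ t) a ≠ 0 := by simpa using ha0
  have ha' : IsMeroInfty (h : ℝ) ((HolH.comp (T ^ t) a : HolH) : ℍ → ℂ) :=
    isMeroInfty_comp_T_zpow ha t
  have hb' : IsMeroInfty (h : ℝ) ((HolH.comp (T ^ t) b : HolH) : ℍ → ℂ) :=
    isMeroInfty_comp_T_zpow hb t
  rw [map_div₀, MerH.comp_algebraMap, MerH.comp_algebraMap,
    ordInf_div (isMerInf_ofHol ha') (isMerInf_ofHol hb') (MerH.ofHol_ne_zero hca0)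
      (MerH.ofHol_ne_zero hcb0),
    ordInf_div (isMerInf_ofHol ha) (isMerInf_ofHol hb) (MerH.ofHol_ne_zero ha0)
      (MerH.ofHol_ne_zero hb0),
    (ordInf_comp_T_zpow_ofHol ha t).1, (ordInf_comp_T_zpow_ofHol hb t).1]

/-- The leading coefficient of a translate. -/
theorem MerH.lcInf_comp_T_zpow (hx : IsMerInf h x) (t : ℤ) :
    lcInf h (MerH.comp (T ^ t) x) = zetaPow h t ^ (ordInf h x) * lcInf h x := by
  obtain ⟨a, b, ha, hb, hb0, rfl⟩ := hx
  by_cases ha0 : a = 0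
  · subst ha0
    simp [lcInf, laurentQ_zero]
  have hcb0 : HolH.comp (T ^ t) b ≠ 0 := by simpa using hb0
  have ha' : IsMeroInfty (h : ℝ) ((HolH.comp (T ^ t) a : HolH) : ℍ → ℂ) :=
    isMeroInfty_comp_T_zpow ha t
  have hb' : IsMeroInfty (h : ℝ) ((HolH.comp (T ^ t) b : HolH) : ℍ → ℂ) :=
    isMeroInfty_comp_T_zpow hb t
  rw [map_div₀, MerH.comp_algebraMap, MerH.comp_algebraMap, lcInf_div_ofHol ha' hb' hcb0,
    lcInf_div_ofHol ha hb hb0,
    ordInf_div (isMerInf_ofHol ha) (isMerInf_ofHol hb) (MerH.ofHol_ne_zero ha0)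
      (MerH.ofHol_ne_zero hb0),
    (ordInf_comp_T_zpow_ofHol ha t).2, (ordInf_comp_T_zpow_ofHol hb t).2, zpow_sub₀
      (zetaPow_ne_zero _ _)]
  have h1 := zpow_ne_zero (ordInf h (MerH.ofHol b)) (zetaPow_ne_zero (h : ℝ) t)
  have h2 := lcInf_ne_zero (isMerInf_ofHol hb) (MerH.ofHol_ne_zero hb0)
  field_simp

/-- **Divisibility**: if `x` is invariant under `τ ↦ τ + w` then `h ∣ w · ord_∞ x`. -/
theorem MerH.dvd_mul_ordInf_of_comp_eq (hx : IsMerInf h x) (hx0 : x ≠ 0) {w : ℤ}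
    (hw : MerH.comp (T ^ w) x = x) : (h : ℤ) ∣ w * ordInf h x := by
  have h1 := lcInf_comp_T_zpow hx w
  rw [hw] at h1
  have h2 := lcInf_ne_zero hx hx0
  have h3 : zetaPow h w ^ (ordInf h x) = 1 := by
    have : (1 : ℂ) * lcInf h x = zetaPow h w ^ (ordInf h x) * lcInf h x := by rw [one_mul]; exact h1
    exact (mul_right_cancel₀ h2 this).symm
  rw [zetaPow, ← Complex.exp_int_mul, Complex.exp_eq_one_iff] at h3
  obtain ⟨m, hm⟩ := h3
  refine ⟨m, ?_⟩
  have hh : ((h : ℝ) : ℂ) ≠ 0 := by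
    have := (natCast_pos h).ne'
    exact_mod_cast this
  have hpi : (2 * (Real.pi : ℂ) * Complex.I) ≠ 0 := by
    simp [Real.pi_ne_zero]
  have h4 : ((w * ordInf h x : ℤ) : ℂ) = ((h * m : ℤ) : ℂ) := by
    push_cast
    field_simp at hm
    linear_combination hm
  exact_mod_cast h4

theorem MerH.dvd_ordInf_of_comp_eq (hx : IsMerInf h x) {w d : ℕ} (hwd : w * d = h)
    (hw : MerH.comp (T ^ w) x = x) : (d : ℤ) ∣ ordInf h x := by
  by_cases hx0 : x = 0
  · simp [hx0]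
  have hw0 : (w : ℤ) ≠ 0 := by
    have : w ≠ 0 := by
      rintro rfl
      rw [zero_mul] at hwd
      exact NeZero.ne h hwd.symm
    exact_mod_cast this
  have h1 := dvd_mul_ordInf_of_comp_eq (w := (w : ℤ)) hx hx0 (by rwa [zpow_natCast])
  have h2 : ((w : ℤ) * (d : ℤ)) ∣ (w : ℤ) * ordInf h x := by
    have : ((w : ℤ) * (d : ℤ)) = (h : ℤ) := by exact_mod_cast hwd
    rw [this]
    exact h1
  exact (mul_dvd_mul_iff_left hw0).mp h2

end Fermat.Agent.X0N
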