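import Mathlib
import Fermat.Agent.X0N.Cusp_helper9_MerInf
import Fermat.Agent.X0N.Mer_helper6_Conj
import Fermat.Agent.X0N.LD_helper1_Laurent
import Fermat.Agent.FF.OfOrd

/-!
# (CUSP) modular functions are meromorphic at `i∞`; the cusp valuations on the function field

* `IsModFun.isMerInf`: a modular function for `Γ ∋ T^h` lies in `MerInf h`;
* `ordInf_jM`: `j` has order `-h` in `q_h`;
* `cuspOrdFn ι N q`: for each coset `q : SL(2,ℤ) ⧸ Γ₀(N)` the order at `i∞` (in `q_N`) of the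
  conjugate `conjM (Γ₀(N)) (realN x) q`, as an `OrdFn` on the Prelude function field.
-/

set_option autoImplicit false
set_option linter.unusedSectionVars false

namespace Fermat.Agent.X0N

open UpperHalfPlane hiding I
open Complex Filter Function Fermat.Agent.RatStr Cusp ModularGroup ModularCurve
open CongruenceSubgroup
open scoped Manifold Topology MatrixGroups ModularForm

/-! ### (K2) modular functions -/

theorem Cusp.denom_T_zpow (t : ℤ) (τ : ℍ) : denom (T ^ t : SL(2, ℤ)) τ = 1 := by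
  rw [ModularGroup.denom_apply, coe_T_zpow]
  simp

theorem Cusp.T_zpow_smul_eq_vadd (t : ℤ) (τ : ℍ) : (T ^ t • τ : ℍ) = ((t : ℝ) +ᵥ τ) := by
  ext
  rw [coe_T_zpow_smul_eq, coe_vadd]
  push_cast
  ring

theorem Cusp.isHolBdd_of_isMF {Γ : Subgroup SL(2, ℤ)} {k : ℤ} {g : ℍ → ℂ} (hg : IsMF Γ k g)
    {h : ℕ} (hT : T ^ h ∈ Γ) : IsHolBdd (h : ℝ) g where
  per := by
    apply periodic_comp_ofComplex_of_vadd
    intro τ
    have h1 := congrFun (hg.inv _ hT) τ
    rw [ModularForm.SL_slash_apply] at h1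
    have h2 : denom ((T ^ h : SL(2, ℤ))) τ = 1 := by
      have := denom_T_zpow (h : ℤ) τ
      rwa [zpow_natCast] at this
    rw [h2, one_zpow, mul_one] at h1
    rw [← h1]
    congr 1
    have := T_zpow_smul_eq_vadd (h : ℤ) τ
    rw [zpow_natCast] at this
    rw [this]
    simp
  hol := hg.holo
  bdd := hg.bdd_one

theorem IsModFun.isMerInf {Γ : Subgroup SL(2, ℤ)} {x : MerH} (hx : IsModFun Γ x) {h : ℕ}
    (hT : T ^ h ∈ Γ) : IsMerInf h x := by
  obtain ⟨k, g, g', hg, hg', h0, rfl⟩ := hx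
  exact ⟨g, g', (isHolBdd_of_isMF hg hT).isMeroInfty, (isHolBdd_of_isMF hg' hT).isMeroInfty, h0,
    rfl⟩

theorem Cusp.T_pow_mem_Gamma (N : ℕ) : T ^ N ∈ CongruenceSubgroup.Gamma N := by
  have := ModularGroup_T_pow_mem_Gamma (N : ℤ) (N : ℤ) dvd_rfl
  rwa [zpow_natCast, Int.natAbs_natCast] at this

theorem Cusp.Gamma_le_Gamma0 (N : ℕ) : CongruenceSubgroup.Gamma N ≤ Gamma0 N := by
  intro γ hγ
  rw [Gamma_mem] at hγ
  rw [Gamma0_mem]
  exact hγ.2.2.1

theorem Cusp.T_pow_mem_normalCore (N : ℕ) : T ^ N ∈ (Gamma0 N).normalCore := by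
  intro b
  apply Gamma_le_Gamma0
  exact (Gamma_normal N).conj_mem _ (T_pow_mem_Gamma N) b

/-! ### (K4) the order of `j` and of polynomials in `j` -/

variable {h : ℕ} [NeZero h]

theorem Cusp.qf_nat_pow (h : ℕ) [NeZero h] (τ : ℍ) : qf (h : ℝ) τ ^ h = qf 1 τ := by
  rw [qf_apply, qf_apply, Periodic.qParam, Periodic.qParam, ← Complex.exp_nat_mul]
  congr 1
  have : ((h : ℝ) : ℂ) ≠ 0 := by
    have := (natCast_pos h).ne'
    exact_mod_cast this
  push_cast at this ⊢
  field_simp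

theorem Cusp.qz_nat_mul (h : ℕ) [NeZero h] (d : ℕ) (τ : ℍ) :
    qz (h : ℝ) ((h : ℤ) * (d : ℤ)) τ = qf 1 τ ^ d := by
  rw [qz_apply, ← qf_nat_pow h, ← pow_mul]
  have : ((h : ℤ) * (d : ℤ)) = ((h * d : ℕ) : ℤ) := by push_cast; ring
  rw [this, zpow_natCast]

theorem Cusp.isHolBdd_of_one {G : ℍ → ℂ} (hG : IsHolBdd 1 G) (h : ℕ) : IsHolBdd (h : ℝ) G where
  per := by
    have := hG.per.nat_mul h
    simpa using this
  hol := hG.hol
  bdd := hG.bdd

theorem Cusp.isMeroInfty_of_one {F : ℍ → ℂ} (hF : IsMeroInfty 1 F) (h : ℕ) [NeZero h] :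
    IsMeroInfty (h : ℝ) F := by
  obtain ⟨m, hm⟩ := hF
  refine ⟨h * m, ?_⟩
  have : F * qf (h : ℝ) ^ (h * m) = F * qf 1 ^ m := by
    funext τ
    simp only [Pi.mul_apply, Pi.pow_apply]
    rw [pow_mul, qf_nat_pow]
  rw [this]
  exact isHolBdd_of_one hm h

theorem Cusp.isMeroInfty_eval_jFun (h : ℕ) [NeZero h] (P : Polynomial ℂ) :
    IsMeroInfty (h : ℝ) (fun τ => P.eval (jFun τ)) := by
  have hj : IsMeroInfty (h : ℝ) jFun := isMeroInfty_of_one isMeroInfty_jFun h
  induction P using Polynomial.induction_on' with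
  | add p q hp hq =>
    have := hp.add (natCast_pos h) hq
    convert this using 1
    funext τ
    simp
  | monomial n a =>
    have := (hj.pow n).smul a
    convert this using 1
    funext τ
    simp [Polynomial.eval_monomial]

theorem Cusp.tendsto_eval_jFun_mul (P : Polynomial ℂ) :
    Tendsto (fun τ => P.eval (jFun τ) * qf 1 τ ^ P.natDegree) atImInfty (𝓝 P.leadingCoeff) := by
  set d := P.natDegree with hd
  have hq : Tendsto (qf 1) atImInfty (𝓝 0) := qParam_tendsto_atImInfty one_pos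
  have hjq : Tendsto (fun τ => jFun τ * qf 1 τ) atImInfty (𝓝 1) := tendsto_jFun_mul_qf
  have hterm : ∀ i ∈ Finset.range (d + 1),
      Tendsto (fun τ => P.coeff i * (jFun τ * qf 1 τ) ^ i * qf 1 τ ^ (d - i)) atImInfty
        (𝓝 (if i = d then P.coeff d else 0)) := by
    intro i hi
    have hi' : i ≤ d := Nat.lt_succ_iff.mp (Finset.mem_range.mp hi)
    have h1 : Tendsto (fun τ => P.coeff i * (jFun τ * qf 1 τ) ^ i) atImInfty
        (𝓝 (P.coeff i * 1 ^ i)) := (hjq.pow i).const_mul _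
    rw [one_pow, mul_one] at h1
    by_cases hid : i = d
    · subst hid
      simp only [Nat.sub_self, pow_zero, mul_one, if_true]
      exact h1
    · rw [if_neg hid]
      have h2 : Tendsto (fun τ => qf 1 τ ^ (d - i)) atImInfty (𝓝 0) := by
        have := hq.pow (d - i)
        rwa [zero_pow (by omega)] at this
      have := h1.mul h2
      rwa [mul_zero] at this
  have hsum := tendsto_finsetSum (Finset.range (d + 1)) hterm
  rw [Finset.sum_ite_eq' (Finset.range (d + 1)) d, if_pos (Finset.self_mem_range_succ d)] at hsum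
  refine hsum.congr fun τ => ?_
  rw [Polynomial.eval_eq_sum_range, Finset.sum_mul]
  refine Finset.sum_congr rfl fun i hi => ?_
  have hi' : i ≤ d := Nat.lt_succ_iff.mp (Finset.mem_range.mp hi)
  rw [mul_pow, mul_assoc, mul_assoc, ← pow_add, Nat.add_sub_cancel' hi', mul_assoc]

theorem Cusp.laurent_eval_jFun (h : ℕ) [NeZero h] {P : Polynomial ℂ} (hP : P ≠ 0) :
    (laurent (h : ℝ) (fun τ => P.eval (jFun τ))).order = -((h : ℤ) * (P.natDegree : ℤ)) ∧
      (laurent (h : ℝ) (fun τ => P.eval (jFun τ))).coeff (-((h : ℤ) * (P.natDegree : ℤ))) =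
        P.leadingCoeff := by
  apply order_eq_of_tendsto (natCast_pos h) (isMeroInfty_eval_jFun h P)
    (Polynomial.leadingCoeff_ne_zero.mpr hP)
  refine (tendsto_eval_jFun_mul P).congr fun τ => ?_
  simp only [Pi.mul_apply, neg_neg, qz_nat_mul]

theorem coe_aeval_jHol1_eq (P : Polynomial ℂ) :
    ((Polynomial.aeval jHol1 P : HolH) : ℍ → ℂ) = fun τ => P.eval (jFun τ) := by
  funext τ
  exact coe_aeval_jHol1 P τ

theorem isMerInf_aeval_jM (h : ℕ) [NeZero h] (P : Polynomial ℂ) :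
    IsMerInf h (Polynomial.aeval jM P) := by
  rw [aeval_jM]
  apply isMerInf_ofHol
  rw [coe_aeval_jHol1_eq]
  exact isMeroInfty_eval_jFun h P

/-- The order at `i∞` of a polynomial in `j`. -/
theorem ordInf_aeval_jM (h : ℕ) [NeZero h] {P : Polynomial ℂ} (hP : P ≠ 0) :
    MerH.ordInf h (Polynomial.aeval jM P) = -((h : ℤ) * (P.natDegree : ℤ)) := by
  rw [aeval_jM]
  have h1 : IsMeroInfty (h : ℝ) ((Polynomial.aeval jHol1 P : HolH) : ℍ → ℂ) := by
    rw [coe_aeval_jHol1_eq]
    exact isMeroInfty_eval_jFun h P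
  rw [MerH.ordInf_ofHol h1, coe_aeval_jHol1_eq]
  exact (laurent_eval_jFun h hP).1

theorem isMerInf_jM (h : ℕ) [NeZero h] : IsMerInf h jM := by
  have := isMerInf_aeval_jM h Polynomial.X
  rwa [Polynomial.aeval_X] at this

/-- **(K4)** `j` has a pole of order `h` in `q_h` at `i∞`. -/
theorem ordInf_jM (h : ℕ) [NeZero h] : MerH.ordInf h jM = -(h : ℤ) := by
  have := ordInf_aeval_jM h (P := Polynomial.X) Polynomial.X_ne_zero
  rw [Polynomial.aeval_X, Polynomial.natDegree_X] at this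
  simpa using this

theorem Cusp.jM_ne_zero : jM ≠ 0 := by
  have := aeval_jM_ne_zero (Q := Polynomial.X) Polynomial.X_ne_zero
  rwa [Polynomial.aeval_X] at this

/-! ### (K5) the cusp valuations on the Prelude function field -/

section K5

variable {k : Type*} [Field k] [Algebra ℚ k] (ι : k →+* ℂ) (N : ℕ) [NeZero N]

variable (k) in
/-- `j` as an element of the function field `k(j(q^d) : d ∣ N)`. -/
noncomputable def jK : ↥(laurentBaseChange k (modularFunctionFieldFull N)) :=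
  ⟨coeffEmb k jq, coeffEmb_mem_laurentBaseChange k (jq_mem_full N)⟩

theorem coe_jK : ((jK k N : ↥(laurentBaseChange k (modularFunctionFieldFull N))) :
    LaurentSeries k) = coeffEmb k jq := rfl

theorem jBar_eq_jK : jBar N = jK (AlgebraicClosure ℚ) N := rfl

theorem realN_jK : realN ι N (jK k N) = jM := by
  obtain ⟨hx, h⟩ := merSeries.real_of_laurent_eq ι (x := coeffEmb k jq)
    isMeroInfty_jFun (by rw [laurent_jFun, coeffMap_coeffEmb_eq])
  exact h

include ι in
theorem jK_ne_zero : jK k N ≠ 0 := by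
  intro h0
  have := realN_jK ι N
  rw [h0, map_zero] at this
  exact jM_ne_zero this.symm

/-- The conjugate embedding of the function field attached to the coset `q`. -/
noncomputable def cuspConj (q : SL(2, ℤ) ⧸ Gamma0 N) :
    ↥(laurentBaseChange k (modularFunctionFieldFull N)) →+* MerH :=
  ((MerH.comp (q.out)⁻¹ : MerH ≃+* MerH) : MerH →+* MerH).comp (realN ι N)

theorem cuspConj_apply (q : SL(2, ℤ) ⧸ Gamma0 N)
    (x : ↥(laurentBaseChange k (modularFunctionFieldFull N))) :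
    cuspConj ι N q x = conjM (Gamma0 N) (realN ι N x) q := rfl

theorem cuspConj_ne_zero (q : SL(2, ℤ) ⧸ Gamma0 N)
    {x : ↥(laurentBaseChange k (modularFunctionFieldFull N))} (hx : x ≠ 0) :
    cuspConj ι N q x ≠ 0 := by
  rwa [Ne, map_eq_zero_iff _ (cuspConj ι N q).injective]

theorem isMerInf_cuspConj (q : SL(2, ℤ) ⧸ Gamma0 N)
    (x : ↥(laurentBaseChange k (modularFunctionFieldFull N))) :
    IsMerInf N (cuspConj ι N q x) :=
  (isModFun_conjM (isModFun_realN ι N x) q).isMerInf (T_pow_mem_normalCore N)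

theorem cuspConj_algebraMap (q : SL(2, ℤ) ⧸ Gamma0 N) (a : k) :
    cuspConj ι N q (algebraMap k _ a) = MerH.const (ι a) := by
  rw [cuspConj_apply, realN_algebraMap]
  exact MerH.comp_const _ _

theorem cuspConj_jK (q : SL(2, ℤ) ⧸ Gamma0 N) : cuspConj ι N q (jK k N) = jM := by
  rw [cuspConj_apply, realN_jK]
  exact comp_jM _

/-- **The cusp valuation** attached to the coset `q`: the order at `i∞`, in the local parameter
`q_N = exp(2πiτ/N)`, of the `q`-th conjugate of `realN x`. -/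
noncomputable def cuspOrdFn (q : SL(2, ℤ) ⧸ Gamma0 N) :
    FF.OrdFn k ↥(laurentBaseChange k (modularFunctionFieldFull N)) where
  ord x := MerH.ordInf N (cuspConj ι N q x)
  ord_mul {x y} hx hy := by
    rw [map_mul]
    exact MerH.ordInf_mul (isMerInf_cuspConj ι N q x) (isMerInf_cuspConj ι N q y)
      (cuspConj_ne_zero ι N q hx) (cuspConj_ne_zero ι N q hy)
  ord_add {x y} _ _ hxy := by
    rw [map_add]
    apply MerH.min_ordInf_le_ordInf_add (isMerInf_cuspConj ι N q x) (isMerInf_cuspConj ι N q y)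
    rw [← map_add]
    exact cuspConj_ne_zero ι N q hxy
  ord_algebraMap a ha := by
    rw [cuspConj_algebraMap]
    exact MerH.ordInf_const (by rwa [Ne, map_eq_zero_iff _ ι.injective])
  nontrivial := ⟨jK k N, jK_ne_zero ι N, by
    rw [cuspConj_jK, ordInf_jM]
    have : (N : ℤ) ≠ 0 := by exact_mod_cast NeZero.ne N
    simpa using this⟩

theorem cuspOrdFn_ord (q : SL(2, ℤ) ⧸ Gamma0 N)
    (x : ↥(laurentBaseChange k (modularFunctionFieldFull N))) :
    (cuspOrdFn ι N q).ord x = MerH.ordInf N (conjM (Gamma0 N) (realN ι N x) q) := rfl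

/-- `j` has a pole of order `N` (in `q_N`) at every cusp. -/
theorem cuspOrdFn_ord_jK (q : SL(2, ℤ) ⧸ Gamma0 N) :
    (cuspOrdFn ι N q).ord (jK k N) = -(N : ℤ) := by
  show MerH.ordInf N (cuspConj ι N q (jK k N)) = _
  rw [cuspConj_jK, ordInf_jM]

theorem cuspOrdFn_ord_jK_inv (q : SL(2, ℤ) ⧸ Gamma0 N) :
    (cuspOrdFn ι N q).ord (jK k N)⁻¹ = (N : ℤ) := by
  rw [FF.OrdFn.ord_inv _ (jK_ne_zero ι N), cuspOrdFn_ord_jK, neg_neg]

/-- The cusp valuation only depends on the `⟨T⟩`-orbit of the coset. -/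
theorem cuspOrdFn_ord_T_zpow_smul (t : ℤ) (q : SL(2, ℤ) ⧸ Gamma0 N)
    (x : ↥(laurentBaseChange k (modularFunctionFieldFull N))) :
    (cuspOrdFn ι N (T ^ t • q)).ord x = (cuspOrdFn ι N q).ord x := by
  rw [cuspOrdFn_ord, cuspOrdFn_ord]
  have h1 := comp_conjM (isModFun_realN ι N x) (T ^ (-t)) q
  rw [zpow_neg, inv_inv] at h1
  rw [← h1, ← zpow_neg]
  exact MerH.ordInf_comp_T_zpow (isMerInf_cuspConj ι N q x) (-t)

theorem cuspOrdFn_ord_eq_of_orbitRel {q q' : SL(2, ℤ) ⧸ Gamma0 N}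
    (hr : MulAction.orbitRel (Subgroup.zpowers T) (SL(2, ℤ) ⧸ Gamma0 N) q q')
    (x : ↥(laurentBaseChange k (modularFunctionFieldFull N))) :
    (cuspOrdFn ι N q).ord x = (cuspOrdFn ι N q').ord x := by
  rw [MulAction.orbitRel_apply] at hr
  obtain ⟨⟨g, hg⟩, rfl⟩ := hr
  obtain ⟨t, rfl⟩ := Subgroup.mem_zpowers_iff.mp hg
  exact cuspOrdFn_ord_T_zpow_smul ι N t q' x

/-- **Divisibility**: if `T^w` fixes the coset `q` and `w * d = N` then all values of the cusp
valuation at `q` are divisible by `d`. -/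
theorem dvd_cuspOrdFn_ord {q : SL(2, ℤ) ⧸ Gamma0 N} {w d : ℕ} (hwd : w * d = N)
    (hw : T ^ w • q = q) (x : ↥(laurentBaseChange k (modularFunctionFieldFull N))) :
    (d : ℤ) ∣ (cuspOrdFn ι N q).ord x := by
  rw [cuspOrdFn_ord]
  apply MerH.dvd_ordInf_of_comp_eq (isMerInf_cuspConj ι N q x) hwd
  have h1 := comp_conjM (isModFun_realN ι N x) ((T ^ w)⁻¹) q
  rw [inv_inv, hw] at h1
  -- invariance under `T^{-w}` gives invariance under `T^w`
  have h2 := congrArg (MerH.comp (T ^ w)) h1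
  rw [← MerH.comp_mul, inv_mul_cancel, MerH.comp_one] at h2
  exact h2.symm

theorem T_pow_N_smul_coset (q : SL(2, ℤ) ⧸ Gamma0 N) : T ^ N • q = q := by
  induction q using QuotientGroup.induction_on with
  | H g =>
    rw [MulAction.Quotient.smul_mk, QuotientGroup.eq]
    have h1 : g⁻¹ * T ^ N * g ∈ Gamma0 N := by
      have := T_pow_mem_normalCore N g⁻¹
      rwa [inv_inv] at this
    have h2 : (T ^ N • g)⁻¹ * g = (g⁻¹ * T ^ N * g)⁻¹ := by
      rw [smul_eq_mul]
      group
    rw [h2]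
    exact (Gamma0 N).inv_mem h1

/-- The width of the cusp through `q`: the size of the `⟨T⟩`-orbit of `q`. -/
theorem card_orbit_T_eq_period (q : SL(2, ℤ) ⧸ Gamma0 N) :
    Nat.card {q' // MulAction.orbitRel (Subgroup.zpowers T) (SL(2, ℤ) ⧸ Gamma0 N) q' q} =
      MulAction.period T q := by
  have e := MulAction.orbitZPowersEquiv T q
  rw [MulAction.period_eq_minimalPeriod, ← Nat.card_zmod (Function.minimalPeriod (T • ·) q)]
  exact Nat.card_congr e

theorem period_T_dvd (q : SL(2, ℤ) ⧸ Gamma0 N) : MulAction.period T q ∣ N :=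
  MulAction.pow_smul_eq_iff_period_dvd.mp (T_pow_N_smul_coset N q)

/-- The width divides `N`. -/
theorem card_orbit_T_dvd (q : SL(2, ℤ) ⧸ Gamma0 N) :
    Nat.card {q' // MulAction.orbitRel (Subgroup.zpowers T) (SL(2, ℤ) ⧸ Gamma0 N) q' q} ∣ N := by
  rw [card_orbit_T_eq_period]
  exact period_T_dvd N q

/-- **Divisibility in the form needed for the squeeze**: the values of the cusp valuation at `q`
are divisible by `N / w`, `w` the width (= size of the `⟨T⟩`-orbit of `q`). -/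
theorem div_card_orbit_dvd_cuspOrdFn_ord (q : SL(2, ℤ) ⧸ Gamma0 N)
    (x : ↥(laurentBaseChange k (modularFunctionFieldFull N))) :
    ((N / Nat.card {q' // MulAction.orbitRel (Subgroup.zpowers T) (SL(2, ℤ) ⧸ Gamma0 N) q' q} : ℕ)
      : ℤ) ∣ (cuspOrdFn ι N q).ord x := by
  rw [card_orbit_T_eq_period]
  exact dvd_cuspOrdFn_ord ι N (Nat.mul_div_cancel' (period_T_dvd N q))
    (MulAction.pow_period_smul T q) x

end K5

end Fermat.Agent.X0N
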