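import Mathlib
import Fermat.Agent.X0N.Cusp_helper9_Val
import Fermat.Agent.X0N.SYM_helper2_Final
import Fermat.Agent.X0N.Cosets_helper9_Count
import Fermat.Agent.X0N.Cosets_helper9_Cusps

/-!
# (CUSP) (K6) integrality at `∞` and the number of places over `j = ∞`

* `regularInf h`: the subring of `MerH` of functions in `MerInf h` with nonnegative order at `i∞`;
* `isIntegral_inv_localSubring_of_cusp_regular`: an element of the function field all of whose
  conjugates are regular at `i∞` is integral over the local ring of `k(j)` at `j = ∞`;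
* `card_poles_eq_card_cusps`: the number of poles of `j` equals the number of `⟨T⟩`-orbits on
  `SL(2,ℤ) ⧸ Γ₀(N)`.
-/

set_option autoImplicit false
set_option linter.unusedSectionVars false

namespace Fermat.Agent.X0N

open UpperHalfPlane hiding I
open Complex Filter Function Fermat.Agent.RatStr Cusp ModularGroup ModularCurve Polynomial
open CongruenceSubgroup IntermediateField
open scoped Manifold Topology MatrixGroups ModularForm

/-- The subring of `MerH` of functions that are `h`-periodic, meromorphic at `i∞`, and regular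
at `i∞`. -/
def regularInf (h : ℕ) [NeZero h] : Subring MerH where
  carrier := {y | IsMerInf h y ∧ 0 ≤ MerH.ordInf h y}
  mul_mem' := by
    rintro a b ⟨ha, ha'⟩ ⟨hb, hb'⟩
    refine ⟨ha.mul hb, ?_⟩
    by_cases ha0 : a = 0
    · simp [ha0]
    by_cases hb0 : b = 0
    · simp [hb0]
    rw [MerH.ordInf_mul ha hb ha0 hb0]
    exact add_nonneg ha' hb'
  one_mem' := ⟨isMerInf_one, by rw [MerH.ordInf_one]⟩
  add_mem' := by
    rintro a b ⟨ha, ha'⟩ ⟨hb, hb'⟩
    refine ⟨ha.add hb, ?_⟩
    by_cases hab : a + b = 0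
    · simp [hab]
    exact le_trans (le_min ha' hb') (MerH.min_ordInf_le_ordInf_add ha hb hab)
  zero_mem' := ⟨isMerInf_zero, by simp⟩
  neg_mem' := by
    rintro a ⟨ha, ha'⟩
    exact ⟨ha.neg, by rwa [MerH.ordInf_neg ha]⟩

theorem mem_regularInf {h : ℕ} [NeZero h] {y : MerH} :
    y ∈ regularInf h ↔ IsMerInf h y ∧ 0 ≤ MerH.ordInf h y := Iff.rfl

/-- evaluation of the reflected polynomial at `x⁻¹`. -/
theorem Cusp.aeval_inv_reflect {k E : Type*} [Field k] [Field E] [Algebra k E] {x : E}
    (hx : x ≠ 0) (D : ℕ) (f : k[X]) (hf : f.natDegree ≤ D) :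
    Polynomial.aeval x⁻¹ (Polynomial.reflect D f) = (x⁻¹) ^ D * Polynomial.aeval x f := by
  let _ := invertibleOfNonzero hx
  have h1 := Polynomial.eval₂_reflect_mul_pow (algebraMap k E) x D f hf
  rw [invOf_eq_inv] at h1
  rw [Polynomial.aeval_def, Polynomial.aeval_def, ← h1, inv_pow]
  field_simp

theorem Cusp.eval_zero_reflect {k : Type*} [Field k] (f : k[X]) :
    (Polynomial.reflect f.natDegree f).eval 0 = f.leadingCoeff := by
  rw [← Polynomial.coeff_zero_eq_eval_zero, Polynomial.coeff_reflect,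
    Polynomial.revAt_le (Nat.zero_le _), Nat.sub_zero]
  rfl

section K6

open AlgebraicCurve Fermat.Agent.FF

variable {k : Type*} [Field k] [Algebra ℚ k] [Algebra k ℂ] (N : ℕ) [NeZero N]

local notation "FN" => FNk k N
local notation "φN" => realN (algebraMap k ℂ) N

theorem jB_eq_jK : jB (k := k) N = jK k N := by
  apply (realN (algebraMap k ℂ) N).injective
  rw [realN_jB, realN_jK]

theorem jB_ne_zero : jB (k := k) N ≠ 0 := by
  rw [jB_eq_jK]
  exact jK_ne_zero (algebraMap k ℂ) N

/-- an element of `k(j)` whose realisation is regular at `i∞` is a quotient `P(1/j)/Q(1/j)` with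
`Q(0) ≠ 0`. -/
theorem exists_rep_of_realN_regularInf (r : k⟮jB (k := k) N⟯)
    (hreg : φN (r : FN) ∈ regularInf N) :
    ∃ P Q : k[X], Q.eval 0 ≠ 0 ∧
      (r : FN) * Polynomial.aeval (jB (k := k) N)⁻¹ Q = Polynomial.aeval (jB (k := k) N)⁻¹ P := by
  have hφ := isLinDisjHom_realN (k := k) N
  obtain ⟨P, Q, -, hQj, hr'⟩ := exists_coprime_rep (jB (k := k) N) r
  have hQ0 : Q ≠ 0 := by
    intro h0
    rw [h0, map_zero] at hQj
    exact hQj rfl
  by_cases hP0 : P = 0
  · refine ⟨0, 1, by simp, ?_⟩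
    rw [hr', hP0, map_zero, zero_div, zero_mul, map_zero]
  have hinj := (algebraMap k ℂ).injective
  have hQc : Q.map (algebraMap k ℂ) ≠ 0 := (Polynomial.map_ne_zero_iff hinj).mpr hQ0
  have hPc : P.map (algebraMap k ℂ) ≠ 0 := (Polynomial.map_ne_zero_iff hinj).mpr hP0
  have hrel : φN (r : FN) * Polynomial.aeval jM (Q.map (algebraMap k ℂ)) =
      Polynomial.aeval jM (P.map (algebraMap k ℂ)) := by
    rw [hr', map_div₀, realN_aeval N hφ, realN_aeval N hφ, realN_jB,
      div_mul_cancel₀ _ (aeval_jM_ne_zero hQc)]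
  have hr0 : φN (r : FN) ≠ 0 := by
    intro h0
    rw [h0, zero_mul] at hrel
    exact aeval_jM_ne_zero hPc hrel.symm
  -- compare orders at `i∞`
  have hord := congrArg (MerH.ordInf N) hrel
  rw [MerH.ordInf_mul hreg.1 (isMerInf_aeval_jM N _) hr0 (aeval_jM_ne_zero hQc),
    ordInf_aeval_jM N hQc, ordInf_aeval_jM N hPc, Polynomial.natDegree_map_eq_of_injective hinj,
    Polynomial.natDegree_map_eq_of_injective hinj] at hord
  have hdeg : P.natDegree ≤ Q.natDegree := by
    have h1 := hreg.2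
    have hN : (0 : ℤ) < (N : ℤ) := by exact_mod_cast NeZero.pos N
    have h2 : (N : ℤ) * (P.natDegree : ℤ) ≤ (N : ℤ) * (Q.natDegree : ℤ) := by linarith
    exact_mod_cast le_of_mul_le_mul_left h2 hN
  -- reflect
  refine ⟨Polynomial.reflect Q.natDegree P, Polynomial.reflect Q.natDegree Q, ?_, ?_⟩
  · rw [eval_zero_reflect]
    exact Polynomial.leadingCoeff_ne_zero.mpr hQ0
  · rw [aeval_inv_reflect (jB_ne_zero N) _ Q le_rfl, aeval_inv_reflect (jB_ne_zero N) _ P hdeg,
      hr', mul_left_comm, div_mul_cancel₀ _ hQj]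

/-- **(K6) Integrality at `∞`**: if all conjugates of the realisation of `f` are regular at `i∞`
then `f` is integral over the local ring of `k(j)` at `j = ∞`. This is the hypothesis `hint` of
`FF.Coord.card_poles_eq_card_quotient_ordFn`. -/
theorem isIntegral_inv_localSubring_of_cusp_regular (c : Coord k FN) (hc : c.x = jB (k := k) N)
    {f : FN} (hf : ∀ q, 0 ≤ (cuspOrdFn (algebraMap k ℂ) N q).ord f) :
    IsIntegral (c.inv.localSubring 0) f := by
  have hint := isIntegral_jB' N f
  have hcoeff : ∀ i, (((minpoly k⟮jB (k := k) N⟯ f).coeff i : k⟮jB (k := k) N⟯) : FN) ∈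
      c.inv.localSubring 0 := by
    intro i
    rw [Coord.mem_localSubring, Coord.inv_x, hc]
    apply exists_rep_of_realN_regularInf N
    apply realN_coeff_minpoly_mem' N f (regularInf N)
    intro q
    exact ⟨isMerInf_cuspConj (algebraMap k ℂ) N q f, hf q⟩
  have hl : (minpoly k⟮jB (k := k) N⟯ f).map (algebraMap k⟮jB (k := k) N⟯ FN) ∈
      Polynomial.lifts (c.inv.localSubring 0).subtype := by
    rw [Polynomial.lifts_iff_coeff_lifts]
    intro i
    rw [coeff_map]
    exact ⟨⟨_, hcoeff i⟩, rfl⟩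
  obtain ⟨p, hp, -, hmon⟩ :=
    Polynomial.lifts_and_natDegree_eq_and_monic hl ((minpoly.monic hint).map _)
  refine ⟨p, hmon, ?_⟩
  have : Polynomial.eval₂ (algebraMap (c.inv.localSubring 0) FN) f p =
      (p.map (c.inv.localSubring 0).subtype).eval f := (Polynomial.eval_map _ _).symm
  rw [this, hp, Polynomial.eval_map, ← Polynomial.aeval_def, minpoly.aeval]

/-- **The places of the function field over `j = ∞` are the `⟨T⟩`-orbits of cosets (the cusps
of `Γ₀(N)`)**: number of poles of `j`, ramification index = width, injectivity and surjectivity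
of `orbit ↦ place`. -/
theorem poles_jB_squeeze [CharZero k] [IsAlgClosed k] (c : Coord k FN)
    (hc : c.x = jB (k := k) N) (hdeg : c.degree = Nat.card (SL(2, ℤ) ⧸ Gamma0 N)) :
    c.poles.card =
        Nat.card (MulAction.orbitRel.Quotient (Subgroup.zpowers T) (SL(2, ℤ) ⧸ Gamma0 N)) ∧
      (∀ q, -((cuspOrdFn (algebraMap k ℂ) N q).toPlace.ord c.x) =
        Nat.card {q' // MulAction.orbitRel (Subgroup.zpowers T) (SL(2, ℤ) ⧸ Gamma0 N) q' q}) ∧
      (∀ q q', (cuspOrdFn (algebraMap k ℂ) N q).toPlace = (cuspOrdFn (algebraMap k ℂ) N q').toPlace →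
        MulAction.orbitRel (Subgroup.zpowers T) (SL(2, ℤ) ⧸ Gamma0 N) q q') ∧
      (∀ v ∈ c.poles, ∃ q, (cuspOrdFn (algebraMap k ℂ) N q).toPlace = v) := by
  classical
  have : Fintype (SL(2, ℤ) ⧸ Gamma0 N) := Fintype.ofFinite _
  have hNpos : 0 < N := NeZero.pos N
  have hwpos : ∀ q : SL(2, ℤ) ⧸ Gamma0 N, 0 <
      Nat.card {q' // MulAction.orbitRel (Subgroup.zpowers T) (SL(2, ℤ) ⧸ Gamma0 N) q' q} :=
    fun q => Nat.pos_of_dvd_of_pos (card_orbit_T_dvd N q) hNpos
  refine c.card_poles_eq_card_quotient_ordFn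
    (MulAction.orbitRel (Subgroup.zpowers T) (SL(2, ℤ) ⧸ Gamma0 N))
    (by rw [hdeg, Nat.card_eq_fintype_card])
    (fun q => cuspOrdFn (algebraMap k ℂ) N q) (fun _ => (N : ℤ))
    (fun q => ((N / Nat.card {q' // MulAction.orbitRel (Subgroup.zpowers T)
      (SL(2, ℤ) ⧸ Gamma0 N) q' q} : ℕ) : ℤ)) ?_ ?_ ?_ ?_ ?_ ?_ ?_
  · intro q
    rw [hc, jB_eq_jK]
    exact cuspOrdFn_ord_jK (algebraMap k ℂ) N q
  · intro q
    exact_mod_cast hNpos
  · intro q
    have := Nat.div_pos (Nat.le_of_dvd hNpos (card_orbit_T_dvd N q)) (hwpos q)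
    exact_mod_cast this
  · intro q f _
    exact div_card_orbit_dvd_cuspOrdFn_ord (algebraMap k ℂ) N q f
  · intro q
    have := Nat.div_mul_cancel (card_orbit_T_dvd N q)
    have h2 : ((N / Nat.card {q' // MulAction.orbitRel (Subgroup.zpowers T)
      (SL(2, ℤ) ⧸ Gamma0 N) q' q} : ℕ) : ℤ) * (Nat.card {q' // MulAction.orbitRel
      (Subgroup.zpowers T) (SL(2, ℤ) ⧸ Gamma0 N) q' q} : ℤ) = (N : ℤ) := by exact_mod_cast this
    rw [h2]
  · intro q q' hr f _
    exact cuspOrdFn_ord_eq_of_orbitRel (algebraMap k ℂ) N hr f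
  · intro f _ hf
    exact isIntegral_inv_localSubring_of_cusp_regular N c hc hf

/-- The number of places over `j = ∞` is the number of cusps of `Γ₀(N)`. -/
theorem card_poles_eq_card_cusps [CharZero k] [IsAlgClosed k] (c : Coord k FN)
    (hc : c.x = jB (k := k) N) (hdeg : c.degree = Nat.card (SL(2, ℤ) ⧸ Gamma0 N)) :
    c.poles.card =
      Nat.card (MulAction.orbitRel.Quotient (Subgroup.zpowers T) (SL(2, ℤ) ⧸ Gamma0 N)) :=
  (poles_jB_squeeze N c hc hdeg).1

/-- variant with the degree given as `ψ(N)`. -/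
theorem card_poles_eq_card_cusps' [CharZero k] [IsAlgClosed k] (c : Coord k FN)
    (hc : c.x = jB (k := k) N) (hdeg : c.degree = ModularCurve.dedekindPsi N) :
    c.poles.card =
      Nat.card (MulAction.orbitRel.Quotient (Subgroup.zpowers T) (SL(2, ℤ) ⧸ Gamma0 N)) :=
  card_poles_eq_card_cusps N c hc (by rw [hdeg, card_cosets_eq_dedekindPsi])

/-- the number of places over `j = ∞` is `cuspCount N`. -/
theorem card_poles_eq_cuspCount [CharZero k] [IsAlgClosed k] (c : Coord k FN)
    (hc : c.x = jB (k := k) N) (hdeg : c.degree = ModularCurve.dedekindPsi N) :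
    c.poles.card = ModularCurve.cuspCount N := by
  rw [card_poles_eq_card_cusps' N c hc hdeg, card_cusps]

/-- variant for a coordinate given as `jK k N = ⟨coeffEmb k jq, _⟩` (for `k = ℚ̄` this is
`jBar N`, by `rfl`). -/
theorem card_poles_eq_card_cusps_jK [CharZero k] [IsAlgClosed k] (c : Coord k FN)
    (hc : c.x = jK k N) (hdeg : c.degree = ModularCurve.dedekindPsi N) :
    c.poles.card =
      Nat.card (MulAction.orbitRel.Quotient (Subgroup.zpowers T) (SL(2, ℤ) ⧸ Gamma0 N)) :=
  card_poles_eq_card_cusps' N c (hc.trans (jB_eq_jK N).symm) hdeg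

end K6

end Fermat.Agent.X0N
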