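import Mathlib
import Fermat.Agent.X0N.Mer_helper6_Conj
import Fermat.Agent.X0N.LD_helper1_Laurent
import Fermat.Agent.X0N.Cosets_helper9_Count
import Fermat.Prelude.Def_GaloisRep_ComplexConjugation

/-!
# The degree of the function field of `X₀(N)` over `ℚ̄(j)` is `ψ(N)`

We prove the two complex-analytic inputs of helper1's `finrank_modularFunctionFieldBar`:
* `hub`: at most `ψ(N)` elements of `ℂ(j_d : d ∣ N)` are `ℂ(j)`-linearly independent;
* `hlb`: `1, j_N, …, j_N^(ψ(N)-1)` are `ℂ(j)`-linearly independent.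
-/

set_option autoImplicit false

namespace Fermat.Agent.X0N

open UpperHalfPlane Complex Filter Topology ModularCurve IntermediateField ModularForm
open Fermat.Agent.RatStr Polynomial
open scoped MatrixGroups Manifold

/-- In characteristic zero: if all elements of `L/K` have degree at most `n` and `α ∈ L` has
degree at least `n`, then `L = K(α)`. -/
theorem eq_adjoin_simple_of_forall_natDegree_le
    {K E : Type*} [Field K] [Field E] [Algebra K E] [CharZero K] (L : IntermediateField K E)
    (n : ℕ) (hL : ∀ y ∈ L, IsIntegral K y ∧ (minpoly K y).natDegree ≤ n)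
    {α : E} (hα : α ∈ L) (hαn : n ≤ (minpoly K α).natDegree) : L = K⟮α⟯ := by
  apply le_antisymm
  · intro y hy
    set E' : IntermediateField K E := IntermediateField.adjoin K {α, y} with hE'
    have hE'L : E' ≤ L := by
      rw [hE', IntermediateField.adjoin_le_iff]
      rintro z (rfl | rfl)
      · exact hα
      · exact hy
    have : FiniteDimensional K E' := by
      apply IntermediateField.finiteDimensional_adjoin
      rintro z (rfl | rfl)
      · exact (hL _ hα).1
      · exact (hL _ hy).1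
    obtain ⟨z, hz⟩ := Field.exists_primitive_element K E'
    have h1 : (minpoly K z).natDegree = Module.finrank K E' :=
      (Field.primitive_element_iff_minpoly_natDegree_eq K z).mp hz
    have h2 : minpoly K z = minpoly K (z : E) := IntermediateField.minpoly_eq z
    have h3 : Module.finrank K E' ≤ n := by
      rw [← h1, h2]
      exact (hL _ (hE'L z.2)).2
    have hαE' : K⟮α⟯ ≤ E' := by
      rw [IntermediateField.adjoin_simple_le_iff]
      exact IntermediateField.subset_adjoin K _ (Set.mem_insert _ _)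
    have h4 : Module.finrank K K⟮α⟯ = (minpoly K α).natDegree :=
      IntermediateField.adjoin.finrank (hL _ hα).1
    have h5 : K⟮α⟯ = E' :=
      IntermediateField.eq_of_le_of_finrank_le hαE' (by rw [h4]; exact h3.trans hαn)
    rw [h5]
    exact IntermediateField.subset_adjoin K _ (Set.mem_insert_of_mem _ rfl)
  · rw [IntermediateField.adjoin_simple_le_iff]
    exact hα

/-! ### The field of modular functions for `Γ₀(N)` is `ℂ(j, j_N)` -/

section ModFun

variable (N : ℕ) [NeZero N]

theorem CjM_le_modFun (Γ : Subgroup SL(2, ℤ)) : CjM ≤ modFun Γ := by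
  rw [CjM, IntermediateField.adjoin_simple_le_iff]
  exact isModFun_jM Γ

instance : CharZero MerH := charZero_of_injective_algebraMap (algebraMap ℂ MerH).injective

/-- The field of modular functions for `Γ₀(N)` as an extension of `ℂ(j)`. -/
noncomputable def modFunOverCjM : IntermediateField CjM MerH :=
  IntermediateField.extendScalars (CjM_le_modFun (CongruenceSubgroup.Gamma0 N))

omit [NeZero N] in
theorem mem_modFunOverCjM {y : MerH} :
    y ∈ modFunOverCjM N ↔ IsModFun (CongruenceSubgroup.Gamma0 N) y := Iff.rfl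

theorem modFunOverCjM_eq : modFunOverCjM N = CjM⟮MerH.ofHol (jNHol N)⟯ := by
  apply eq_adjoin_simple_of_forall_natDegree_le (modFunOverCjM N)
    (CongruenceSubgroup.Gamma0 N).index
  · intro y hy
    exact ⟨isIntegral_CjM hy, natDegree_minpoly_le hy⟩
  · exact isModFun_jNHol N
  · exact (natDegree_minpoly_jN N).ge

instance : FiniteDimensional CjM (modFunOverCjM N) := by
  rw [modFunOverCjM_eq]
  exact IntermediateField.adjoin.finiteDimensional (isIntegral_CjM (isModFun_jNHol N))

/-- `[ℂ(X₀(N)) : ℂ(j)] = [SL(2, ℤ) : Γ₀(N)]` inside `MerH`. -/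
theorem finrank_modFunOverCjM :
    Module.finrank CjM (modFunOverCjM N) = (CongruenceSubgroup.Gamma0 N).index := by
  rw [modFunOverCjM_eq, IntermediateField.adjoin.finrank (isIntegral_CjM (isModFun_jNHol N)),
    natDegree_minpoly_jN]

/-- At most `index` modular functions for `Γ₀(N)` are linearly independent over `ℂ(j)`. -/
theorem card_le_index_of_linearIndependent {ι : Type*} [Fintype ι] {b : ι → MerH}
    (hb : ∀ i, IsModFun (CongruenceSubgroup.Gamma0 N) (b i)) (hli : LinearIndependent CjM b) :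
    Fintype.card ι ≤ (CongruenceSubgroup.Gamma0 N).index := by
  have h1 : LinearIndependent CjM (fun i => (⟨b i, hb i⟩ : modFunOverCjM N)) :=
    LinearIndependent.of_comp (modFunOverCjM N).val.toLinearMap hli
  rw [← finrank_modFunOverCjM]
  exact h1.fintype_card_le_finrank

/-- `1, j_N, …, j_N^(index - 1)` are linearly independent over `ℂ(j)`. -/
theorem linearIndependent_pow_jN :
    LinearIndependent CjM
      (fun i : Fin (CongruenceSubgroup.Gamma0 N).index => (MerH.ofHol (jNHol N)) ^ (i : ℕ)) := by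
  have h := linearIndependent_pow (K := CjM) (MerH.ofHol (jNHol N))
  have e := natDegree_minpoly_jN N
  exact h.comp (Fin.cast e.symm) (Fin.cast_injective e.symm)

end ModFun

/-! ### Transfer to `ℂ((q))` along the realisation -/

section Transfer

variable (N : ℕ) [NeZero N]

/-- The realisation over `ℂ` as a `ℂ`-algebra homomorphism. -/
noncomputable def realNC :
    ↥(laurentBaseChange ℂ (modularFunctionFieldFull N)) →ₐ[ℂ] MerH :=
  { realN (RingHom.id ℂ) N with
    commutes' := fun c => by
      show realN (RingHom.id ℂ) N (algebraMap ℂ _ c) = algebraMap ℂ MerH c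
      rw [realN_algebraMap, MerH.algebraMap_eq_const]
      rfl }

omit [NeZero N] in
theorem realNC_apply (x : ↥(laurentBaseChange ℂ (modularFunctionFieldFull N))) :
    realNC N x = realN (RingHom.id ℂ) N x := rfl

omit [NeZero N] in
theorem realNC_injective : Function.Injective (realNC N) := (realNC N).injective

/-- `j` as an element of `ℂ(j_d : d ∣ N)`. -/
noncomputable def jC : ↥(laurentBaseChange ℂ (modularFunctionFieldFull N)) :=
  ⟨coeffEmb ℂ jq, coeffEmb_mem_laurentBaseChange ℂ (jq_mem_full N)⟩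

/-- `j_N` as an element of `ℂ(j_d : d ∣ N)`. -/
noncomputable def jNC : ↥(laurentBaseChange ℂ (modularFunctionFieldFull N)) :=
  ⟨coeffEmb ℂ (jqN N), coeffEmb_mem_laurentBaseChange ℂ (jqN_mem_full N)⟩

theorem realNC_jC : realNC N (jC N) = jM := by
  obtain ⟨hx, h⟩ := merSeries.real_of_laurent_eq (RingHom.id ℂ) (x := coeffEmb ℂ jq)
    isMeroInfty_jFun (by rw [laurent_jFun, coeffMap_coeffEmb_eq])
  exact h

theorem realNC_jNC : realNC N (jNC N) = MerH.ofHol (jNHol N) :=
  realN_jdBar (RingHom.id ℂ) N (dvd_refl N)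

theorem coe_aeval_jC (p : ℂ[X]) :
    ((Polynomial.aeval (jC N) p : ↥(laurentBaseChange ℂ (modularFunctionFieldFull N))) :
      LaurentSeries ℂ) = Polynomial.aeval (coeffEmb ℂ jq) p :=
  (Subalgebra.aeval_coe (laurentBaseChange ℂ (modularFunctionFieldFull N)).toSubalgebra
    (jC N) p).symm

theorem realNC_aeval_div (r s : ℂ[X]) :
    realNC N (Polynomial.aeval (jC N) r / Polynomial.aeval (jC N) s) =
      Polynomial.aeval jM r / Polynomial.aeval jM s := by
  rw [map_div₀, ← Polynomial.aeval_algHom_apply, ← Polynomial.aeval_algHom_apply, realNC_jC]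

/-- The realisation maps `ℂ(j) ⊆ ℂ((q))` into `ℂ(j) ⊆ MerH`. -/
theorem realNC_mem_CjM {c : LaurentSeries ℂ} (hc : c ∈ ℂ⟮coeffEmb ℂ jq⟯) :
    ∃ hc' : c ∈ laurentBaseChange ℂ (modularFunctionFieldFull N), realNC N ⟨c, hc'⟩ ∈ CjM := by
  rw [IntermediateField.mem_adjoin_simple_iff] at hc
  obtain ⟨r, s, rfl⟩ := hc
  have h1 : Polynomial.aeval (coeffEmb ℂ jq) r / Polynomial.aeval (coeffEmb ℂ jq) s =
      ((Polynomial.aeval (jC N) r / Polynomial.aeval (jC N) s :
        ↥(laurentBaseChange ℂ (modularFunctionFieldFull N))) : LaurentSeries ℂ) := by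
    rw [IntermediateField.coe_div, coe_aeval_jC, coe_aeval_jC]
  refine ⟨h1 ▸ (Polynomial.aeval (jC N) r / Polynomial.aeval (jC N) s).2, ?_⟩
  have h2 : (⟨Polynomial.aeval (coeffEmb ℂ jq) r / Polynomial.aeval (coeffEmb ℂ jq) s,
      h1 ▸ (Polynomial.aeval (jC N) r / Polynomial.aeval (jC N) s).2⟩ :
      ↥(laurentBaseChange ℂ (modularFunctionFieldFull N))) =
      Polynomial.aeval (jC N) r / Polynomial.aeval (jC N) s := Subtype.ext h1
  rw [h2, realNC_aeval_div]
  exact CjM.div_mem (aeval_jM_mem_CjM r) (aeval_jM_mem_CjM s)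

/-- The realisation maps `ℂ(j) ⊆ ℂ((q))` onto `ℂ(j) ⊆ MerH`. -/
theorem exists_realNC_eq {c' : MerH} (hc' : c' ∈ CjM) :
    ∃ (c : LaurentSeries ℂ) (_ : c ∈ ℂ⟮coeffEmb ℂ jq⟯)
      (hc2 : c ∈ laurentBaseChange ℂ (modularFunctionFieldFull N)), realNC N ⟨c, hc2⟩ = c' := by
  rw [CjM, IntermediateField.mem_adjoin_simple_iff] at hc'
  obtain ⟨r, s, rfl⟩ := hc'
  refine ⟨((Polynomial.aeval (jC N) r / Polynomial.aeval (jC N) s :
        ↥(laurentBaseChange ℂ (modularFunctionFieldFull N))) : LaurentSeries ℂ), ?_,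
    (Polynomial.aeval (jC N) r / Polynomial.aeval (jC N) s).2, realNC_aeval_div N r s⟩
  rw [IntermediateField.coe_div, coe_aeval_jC, coe_aeval_jC,
    IntermediateField.mem_adjoin_simple_iff]
  exact ⟨r, s, rfl⟩

/-- Linear independence over `ℂ(j)` transfers from `ℂ((q))` to `MerH`. -/
theorem linearIndependent_realNC {ι : Type*} [Fintype ι] {b : ι → LaurentSeries ℂ}
    (hb : ∀ i, b i ∈ laurentBaseChange ℂ (modularFunctionFieldFull N))
    (hli : LinearIndependent ℂ⟮coeffEmb ℂ jq⟯ b) :
    LinearIndependent CjM (fun i => realNC N ⟨b i, hb i⟩) := by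
  rw [Fintype.linearIndependent_iff] at hli ⊢
  intro g' hg'
  have hex := fun i => exists_realNC_eq N (g' i).2
  choose g hg hg2 hρ using hex
  have h1 : ∑ i, realNC N ⟨g i, hg2 i⟩ * realNC N ⟨b i, hb i⟩ = 0 := by
    rw [← hg']
    refine Finset.sum_congr rfl fun i _ => ?_
    rw [hρ i]
    rfl
  have h2 : ∑ i, (⟨g i, hg2 i⟩ : ↥(laurentBaseChange ℂ (modularFunctionFieldFull N))) *
      ⟨b i, hb i⟩ = 0 := by
    apply realNC_injective N
    rw [map_sum, map_zero, ← h1]
    refine Finset.sum_congr rfl fun i _ => ?_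
    rw [map_mul]
  have h3 : ∑ i, (⟨g i, hg i⟩ : ℂ⟮coeffEmb ℂ jq⟯) • b i = 0 := by
    have := congrArg (fun x : ↥(laurentBaseChange ℂ (modularFunctionFieldFull N)) =>
      (x : LaurentSeries ℂ)) h2
    simp only [AddSubmonoidClass.coe_finsetSum, MulMemClass.coe_mul, ZeroMemClass.coe_zero] at this
    rw [← this]
    rfl
  intro i
  have h4 := hli _ h3 i
  have h5 : g i = 0 := congrArg Subtype.val h4
  apply Subtype.ext
  rw [← hρ i]
  have h6 : (⟨g i, hg2 i⟩ : ↥(laurentBaseChange ℂ (modularFunctionFieldFull N))) = 0 :=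
    Subtype.ext h5
  rw [h6, map_zero]
  rfl

/-- Linear independence over `ℂ(j)` transfers back from `MerH` to `ℂ((q))`. -/
theorem linearIndependent_of_realNC {ι : Type*} [Fintype ι] {b : ι → LaurentSeries ℂ}
    (hb : ∀ i, b i ∈ laurentBaseChange ℂ (modularFunctionFieldFull N))
    (hli : LinearIndependent CjM (fun i => realNC N ⟨b i, hb i⟩)) :
    LinearIndependent ℂ⟮coeffEmb ℂ jq⟯ b := by
  rw [Fintype.linearIndependent_iff] at hli ⊢
  intro g hg
  have hex := fun i => realNC_mem_CjM N (g i).2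
  choose hg2 hmem using hex
  have h1 : ∑ i, (⟨(g i : LaurentSeries ℂ), hg2 i⟩ :
      ↥(laurentBaseChange ℂ (modularFunctionFieldFull N))) * ⟨b i, hb i⟩ = 0 := by
    apply Subtype.ext
    simp only [AddSubmonoidClass.coe_finsetSum, MulMemClass.coe_mul, ZeroMemClass.coe_zero]
    rw [← hg]
    rfl
  have h2 : ∑ i, (⟨realNC N ⟨(g i : LaurentSeries ℂ), hg2 i⟩, hmem i⟩ : CjM) •
      realNC N ⟨b i, hb i⟩ = 0 := by
    have := congrArg (realNC N) h1
    rw [map_sum, map_zero] at this
    rw [← this]
    refine Finset.sum_congr rfl fun i _ => ?_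
    rw [map_mul]
    rfl
  intro i
  have h3 := hli _ h2 i
  have h4 : realNC N ⟨(g i : LaurentSeries ℂ), hg2 i⟩ = 0 := congrArg Subtype.val h3
  have h5 := (map_eq_zero_iff (realNC N) (realNC_injective N)).mp h4
  have h6 : (g i : LaurentSeries ℂ) = 0 := congrArg Subtype.val h5
  exact Subtype.ext h6

/-- **Upper bound**: at most `[SL(2,ℤ) : Γ₀(N)]` elements of `ℂ(j_d : d ∣ N) ⊆ ℂ((q))` are
linearly independent over `ℂ(j)`. -/
theorem card_le_index_of_linearIndependent_laurent (ι : Type) [Fintype ι]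
    (b : ι → LaurentSeries ℂ)
    (hb : ∀ i, b i ∈ laurentBaseChange ℂ (modularFunctionFieldFull N))
    (hli : LinearIndependent ℂ⟮coeffEmb ℂ jq⟯ b) :
    Fintype.card ι ≤ (CongruenceSubgroup.Gamma0 N).index :=
  card_le_index_of_linearIndependent N (fun i => isModFun_realN (RingHom.id ℂ) N ⟨b i, hb i⟩)
    (linearIndependent_realNC N hb hli)

/-- **Lower bound**: `1, j_N, …, j_N^(index-1)` are linearly independent over `ℂ(j)` in
`ℂ((q))`. -/
theorem linearIndependent_pow_jqN :
    LinearIndependent ℂ⟮coeffEmb ℂ jq⟯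
      (fun i : Fin (CongruenceSubgroup.Gamma0 N).index => (coeffEmb ℂ (jqN N)) ^ (i : ℕ)) := by
  apply linearIndependent_of_realNC N (fun i => pow_mem (jNC N).2 _)
  have h := linearIndependent_pow_jN N
  convert h using 2 with i
  show realNC N ((jNC N) ^ (i : ℕ)) = _
  rw [map_pow, realNC_jNC]

end Transfer

/-- **The degree of the function field of `X₀(N)` over `ℚ̄(j)` is `ψ(N)`.** -/
theorem finrank_modularFunctionFieldBar_eq (N : ℕ) [NeZero N] :
    Module.Finite (AlgebraicClosure ℚ)⟮jBar N⟯ (modularFunctionFieldBar N) ∧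
      Module.finrank (AlgebraicClosure ℚ)⟮jBar N⟯ (modularFunctionFieldBar N) =
        dedekindPsi N := by
  let _ : Algebra (AlgebraicClosure ℚ) ℂ := complexEmbedding.toRingHom.toAlgebra
  have : IsScalarTower ℚ (AlgebraicClosure ℚ) ℂ :=
    IsScalarTower.of_algebraMap_eq' (Subsingleton.elim _ _)
  rw [← index_Gamma0 N]
  exact finrank_modularFunctionFieldBar N _ (card_le_index_of_linearIndependent_laurent N)
    (linearIndependent_pow_jqN N)

end Fermat.Agent.X0N
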