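import Mathlib
import Fermat.Prelude.Def_ModularCurve_GenusNumerics
import Fermat.Agent.X0N.Cosets_helper9_Param

set_option autoImplicit false

namespace Fermat.Agent.X0N

open CongruenceSubgroup MatrixGroups ModularGroup Matrix

variable (N : ℕ)

/-- Criterion for `h` to fix the coset `g Γ₀(N)`. -/
theorem smul_mk_eq_iff (h g : SL(2, ℤ)) :
    h • (g : SL(2, ℤ) ⧸ Gamma0 N) = (g : SL(2, ℤ) ⧸ Gamma0 N) ↔
      (N : ℤ) ∣ (h * g) 0 0 * g 1 0 - (h * g) 1 0 * g 0 0 := by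
  rw [MulAction.Quotient.smul_mk, smul_eq_mul, QuotientGroup.eq, inv_mul_mem_Gamma0_iff]

theorem S_smul_mk_eq_iff (g : SL(2, ℤ)) :
    S • (g : SL(2, ℤ) ⧸ Gamma0 N) = (g : SL(2, ℤ) ⧸ Gamma0 N) ↔
      (N : ℤ) ∣ g 0 0 ^ 2 + g 1 0 ^ 2 := by
  rw [smul_mk_eq_iff, (S_mul_col g).1, (S_mul_col g).2]
  have : -g 1 0 * g 1 0 - g 0 0 * g 0 0 = -(g 0 0 ^ 2 + g 1 0 ^ 2) := by ring
  rw [this, dvd_neg]

theorem ST_smul_mk_eq_iff (g : SL(2, ℤ)) :
    (S * T) • (g : SL(2, ℤ) ⧸ Gamma0 N) = (g : SL(2, ℤ) ⧸ Gamma0 N) ↔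
      (N : ℤ) ∣ g 0 0 ^ 2 + g 0 0 * g 1 0 + g 1 0 ^ 2 := by
  rw [smul_mk_eq_iff, mul_assoc, (S_mul_col (T * g)).1, (S_mul_col (T * g)).2,
    (T_mul_col g).1, (T_mul_col g).2]
  have : -g 1 0 * g 1 0 - (g 0 0 + g 1 0) * g 0 0 =
      -(g 0 0 ^ 2 + g 0 0 * g 1 0 + g 1 0 ^ 2) := by ring
  rw [this, dvd_neg]

/-- The standard representative with first column `(a, 1)`. -/
def repr1 (a : ℤ) : SL(2, ℤ) := ⟨!![a, -1; 1, 0], by rw [Matrix.det_fin_two_of]; ring⟩

@[simp] theorem repr1_zero_zero (a : ℤ) : (repr1 a) 0 0 = a := by simp [repr1]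
@[simp] theorem repr1_one_zero (a : ℤ) : (repr1 a) 1 0 = 1 := by simp [repr1]

theorem repr1_mk_eq_iff (a : ℤ) (g : SL(2, ℤ)) :
    ((repr1 a : SL(2, ℤ)) : SL(2, ℤ) ⧸ Gamma0 N) = (g : SL(2, ℤ) ⧸ Gamma0 N) ↔
      (a : ZMod N) * (g 1 0 : ZMod N) = (g 0 0 : ZMod N) := by
  rw [QuotientGroup.eq, inv_mul_mem_Gamma0_iff, repr1_zero_zero, repr1_one_zero,
    ← ZMod.intCast_zmod_eq_zero_iff_dvd]
  push_cast
  rw [one_mul, sub_eq_zero]


theorem isUnit_of_dvd_quad {a c : ℤ} (h : IsCoprime a c) (r : ℤ)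
    (hq : (N : ℤ) ∣ a ^ 2 + c * r) : IsUnit (c : ZMod N) := by
  rw [ZMod.coe_int_isUnit_iff_isCoprime]
  have h1 : IsCoprime c (a ^ 2) := h.symm.pow_right
  have h2 : IsCoprime c (a ^ 2 + c * r) := h1.add_mul_left_right r
  exact (h2.of_isCoprime_of_dvd_right hq).symm

variable [NeZero N]

theorem cast_val_cast (x : ZMod N) : (((x.val : ℕ) : ℤ) : ZMod N) = x := by
  rw [Int.cast_natCast, ZMod.natCast_zmod_val]

/-- The cosets fixed by `S` correspond to the roots of `x² + 1` in `ℤ/N`. -/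
noncomputable def fixedByS_equiv :
    {x : ZMod N // x ^ 2 + 1 = 0} ≃ MulAction.fixedBy (SL(2, ℤ) ⧸ Gamma0 N) S :=
  Equiv.ofBijective
    (fun x => ⟨((repr1 ((x.1.val : ℕ) : ℤ) : SL(2, ℤ)) : SL(2, ℤ) ⧸ Gamma0 N), by
      rw [MulAction.mem_fixedBy, S_smul_mk_eq_iff, repr1_zero_zero, repr1_one_zero,
        ← ZMod.intCast_zmod_eq_zero_iff_dvd]
      push_cast
      rw [ZMod.natCast_zmod_val]
      simpa using x.2⟩)
    (by
      constructor
      · intro x y hxy
        have h1 := congrArg Subtype.val hxy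
        simp only at h1
        rw [repr1_mk_eq_iff, repr1_one_zero, repr1_zero_zero, cast_val_cast, cast_val_cast,
          Int.cast_one, mul_one] at h1
        exact Subtype.ext h1
      · rintro ⟨y, hy⟩
        induction y using QuotientGroup.induction_on with
        | H g =>
          rw [MulAction.mem_fixedBy, S_smul_mk_eq_iff] at hy
          have hu : IsUnit (g 1 0 : ZMod N) :=
            isUnit_of_dvd_quad N (isCoprime_col g) (g 1 0) (by rw [← sq]; exact hy)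
          have hy' : (g 0 0 : ZMod N) ^ 2 + (g 1 0 : ZMod N) ^ 2 = 0 := by
            have := (ZMod.intCast_zmod_eq_zero_iff_dvd _ N).mpr hy
            push_cast at this
            exact this
          refine ⟨⟨(g 0 0 : ZMod N) * (g 1 0 : ZMod N)⁻¹, ?_⟩, ?_⟩
          · have h1 : (g 1 0 : ZMod N)⁻¹ ^ 2 * (g 1 0 : ZMod N) ^ 2 = 1 := by
              rw [← mul_pow, ZMod.inv_mul_of_unit _ hu, one_pow]
            calc ((g 0 0 : ZMod N) * (g 1 0 : ZMod N)⁻¹) ^ 2 + 1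
                = (g 1 0 : ZMod N)⁻¹ ^ 2 * ((g 0 0 : ZMod N) ^ 2 + (g 1 0 : ZMod N) ^ 2) := by
                  rw [mul_add, h1]; ring
              _ = 0 := by rw [hy', mul_zero]
          · apply Subtype.ext
            simp only
            rw [repr1_mk_eq_iff, cast_val_cast, mul_assoc, ZMod.inv_mul_of_unit _ hu, mul_one])

theorem card_fixedBy_S :
    Nat.card (MulAction.fixedBy (SL(2, ℤ) ⧸ Gamma0 N) S) = ModularCurve.nuTwo N := by
  rw [ModularCurve.nuTwo]
  exact (Nat.card_congr (fixedByS_equiv N)).symm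

/-- The cosets fixed by `S * T` correspond to the roots of `x² + x + 1` in `ℤ/N`. -/
noncomputable def fixedByST_equiv :
    {x : ZMod N // x ^ 2 + x + 1 = 0} ≃ MulAction.fixedBy (SL(2, ℤ) ⧸ Gamma0 N) (S * T) :=
  Equiv.ofBijective
    (fun x => ⟨((repr1 ((x.1.val : ℕ) : ℤ) : SL(2, ℤ)) : SL(2, ℤ) ⧸ Gamma0 N), by
      rw [MulAction.mem_fixedBy, ST_smul_mk_eq_iff, repr1_zero_zero, repr1_one_zero,
        ← ZMod.intCast_zmod_eq_zero_iff_dvd]
      push_cast
      rw [ZMod.natCast_zmod_val]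
      simpa using x.2⟩)
    (by
      constructor
      · intro x y hxy
        have h1 := congrArg Subtype.val hxy
        simp only at h1
        rw [repr1_mk_eq_iff, repr1_one_zero, repr1_zero_zero, cast_val_cast, cast_val_cast,
          Int.cast_one, mul_one] at h1
        exact Subtype.ext h1
      · rintro ⟨y, hy⟩
        induction y using QuotientGroup.induction_on with
        | H g =>
          rw [MulAction.mem_fixedBy, ST_smul_mk_eq_iff] at hy
          have hu : IsUnit (g 1 0 : ZMod N) :=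
            isUnit_of_dvd_quad N (isCoprime_col g) (g 0 0 + g 1 0) (by
              have : g 0 0 ^ 2 + g 1 0 * (g 0 0 + g 1 0) =
                  g 0 0 ^ 2 + g 0 0 * g 1 0 + g 1 0 ^ 2 := by ring
              rw [this]; exact hy)
          have hy' : (g 0 0 : ZMod N) ^ 2 + (g 0 0 : ZMod N) * (g 1 0 : ZMod N) +
              (g 1 0 : ZMod N) ^ 2 = 0 := by
            have := (ZMod.intCast_zmod_eq_zero_iff_dvd _ N).mpr hy
            push_cast at this
            exact this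
          refine ⟨⟨(g 0 0 : ZMod N) * (g 1 0 : ZMod N)⁻¹, ?_⟩, ?_⟩
          · have h1 : (g 1 0 : ZMod N)⁻¹ * (g 1 0 : ZMod N) = 1 := ZMod.inv_mul_of_unit _ hu
            calc ((g 0 0 : ZMod N) * (g 1 0 : ZMod N)⁻¹) ^ 2 +
                  (g 0 0 : ZMod N) * (g 1 0 : ZMod N)⁻¹ + 1
                = (g 1 0 : ZMod N)⁻¹ ^ 2 * ((g 0 0 : ZMod N) ^ 2 +
                    (g 0 0 : ZMod N) * (g 1 0 : ZMod N) + (g 1 0 : ZMod N) ^ 2) +
                  ((g 0 0 : ZMod N) * (g 1 0 : ZMod N)⁻¹ + 1 +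
                    (g 1 0 : ZMod N)⁻¹ * (g 1 0 : ZMod N)) *
                    (1 - (g 1 0 : ZMod N)⁻¹ * (g 1 0 : ZMod N)) := by ring
              _ = 0 := by rw [hy', h1]; ring
          · apply Subtype.ext
            simp only
            rw [repr1_mk_eq_iff, cast_val_cast, mul_assoc, ZMod.inv_mul_of_unit _ hu, mul_one])

theorem card_fixedBy_ST :
    Nat.card (MulAction.fixedBy (SL(2, ℤ) ⧸ Gamma0 N) (S * T)) = ModularCurve.nuThree N := by
  rw [ModularCurve.nuThree]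
  exact (Nat.card_congr (fixedByST_equiv N)).symm

end Fermat.Agent.X0N
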