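import Mathlib
import Fermat.Prelude.Def_ModularCurve_GenusNumerics
import Fermat.Agent.X0N.Cosets_helper9_Elliptic
import Fermat.Agent.X0N.Cosets_helper9_Count

set_option autoImplicit false

namespace Fermat.Agent.X0N

open CongruenceSubgroup MatrixGroups ModularGroup Matrix

/-- Burnside for a cyclic group generated by an element of finite order. -/
theorem card_orbits_zpowers_mul {G X : Type*} [Group G] [MulAction G X] [Finite X] (h : G)
    (hh : IsOfFinOrder h) :
    Nat.card (MulAction.orbitRel.Quotient (Subgroup.zpowers h) X) * orderOf h =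
      ∑ i ∈ Finset.range (orderOf h), Nat.card (MulAction.fixedBy X (h ^ i)) := by
  classical
  have : Fintype X := Fintype.ofFinite X
  have : Fintype (Subgroup.zpowers h) := Fintype.ofEquiv _ (finEquivZPowers hh)
  have : Fintype (MulAction.orbitRel.Quotient (Subgroup.zpowers h) X) := Fintype.ofFinite _
  have hB := MulAction.sum_card_fixedBy_eq_card_orbits_mul_card_group (Subgroup.zpowers h) X
  have hcard : Fintype.card (Subgroup.zpowers h) = orderOf h := by
    rw [← Nat.card_eq_fintype_card, Nat.card_zpowers]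
  have key : ∑ g : Subgroup.zpowers h, Fintype.card (MulAction.fixedBy X g) =
      ∑ i ∈ Finset.range (orderOf h), Nat.card (MulAction.fixedBy X (h ^ i)) := by
    rw [← Fin.sum_univ_eq_sum_range (fun i => Nat.card (MulAction.fixedBy X (h ^ i))) (orderOf h)]
    rw [← Equiv.sum_comp (finEquivZPowers hh)]
    refine Finset.sum_congr rfl fun i _ => ?_
    rw [Nat.card_eq_fintype_card]
    rfl
  rw [Nat.card_eq_fintype_card, ← key, hB, hcard]


variable (N : ℕ)

theorem neg_one_smul_coset (x : SL(2, ℤ) ⧸ Gamma0 N) : (-1 : SL(2, ℤ)) • x = x := by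
  induction x using QuotientGroup.induction_on with
  | H g =>
    rw [smul_mk_eq_iff, neg_mul, one_mul, Matrix.SpecialLinearGroup.coe_neg, Matrix.neg_apply,
      Matrix.neg_apply]
    have : -g 0 0 * g 1 0 - -g 1 0 * g 0 0 = 0 := by ring
    rw [this]
    exact dvd_zero _

theorem fixedBy_neg (g : SL(2, ℤ)) :
    MulAction.fixedBy (SL(2, ℤ) ⧸ Gamma0 N) (-g) = MulAction.fixedBy (SL(2, ℤ) ⧸ Gamma0 N) g := by
  ext x
  rw [MulAction.mem_fixedBy, MulAction.mem_fixedBy]
  have : -g = g * (-1) := by rw [mul_neg, mul_one]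
  rw [this, mul_smul, neg_one_smul_coset]

theorem fixedBy_one_card [NeZero N] :
    Nat.card (MulAction.fixedBy (SL(2, ℤ) ⧸ Gamma0 N) (1 : SL(2, ℤ))) =
      ModularCurve.dedekindPsi N := by
  rw [MulAction.fixedBy_one_eq_univ, Nat.card_congr (Equiv.Set.univ _), card_cosets_eq_dedekindPsi]

theorem orderOf_S : orderOf S = 4 := by
  have h := orderOf_eq_prime_pow (x := S) (p := 2) (n := 1) (by decide) (by decide)
  simpa using h

theorem S_sq : S ^ 2 = -1 := by decide

theorem ST_cube : (S * T) ^ 3 = -1 := by decide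

theorem orderOf_ST : orderOf (S * T) = 6 := by
  rw [orderOf_eq_iff (by norm_num)]
  refine ⟨by decide, ?_⟩
  intro m hm hm0
  interval_cases m <;> decide

variable [NeZero N]

/-- `2 · #(⟨S⟩-orbits on the cosets) = ψ(N) + ν₂(N)`. -/
theorem card_orbits_S :
    2 * Nat.card (MulAction.orbitRel.Quotient (Subgroup.zpowers S) (SL(2, ℤ) ⧸ Gamma0 N)) =
      ModularCurve.dedekindPsi N + ModularCurve.nuTwo N := by
  have hfin : IsOfFinOrder S := by
    rw [← orderOf_pos_iff, orderOf_S]; norm_num
  have h := card_orbits_zpowers_mul (X := SL(2, ℤ) ⧸ Gamma0 N) S hfin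
  rw [orderOf_S] at h
  simp only [Finset.sum_range_succ, Finset.range_zero, Finset.sum_empty, zero_add] at h
  have h3 : S ^ 3 = -S := by decide
  rw [pow_zero, pow_one, S_sq, h3, fixedBy_neg, fixedBy_neg, fixedBy_one_card,
    card_fixedBy_S] at h
  have e : Nat.card (MulAction.orbitRel.Quotient (Subgroup.zpowers S) (SL(2, ℤ) ⧸ Gamma0 N)) =
      Nat.card (@MulAction.orbitRel.Quotient (Subgroup.zpowers S) (SL(2, ℤ) ⧸ Gamma0 N) _
        Subgroup.instMulAction) := rfl
  rw [e]
  omega

/-- `3 · #(⟨ST⟩-orbits on the cosets) = ψ(N) + 2 ν₃(N)`. -/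
theorem card_orbits_ST :
    3 * Nat.card (MulAction.orbitRel.Quotient (Subgroup.zpowers (S * T))
      (SL(2, ℤ) ⧸ Gamma0 N)) = ModularCurve.dedekindPsi N + 2 * ModularCurve.nuThree N := by
  have hfin : IsOfFinOrder (S * T) := by
    rw [← orderOf_pos_iff, orderOf_ST]; norm_num
  have h := card_orbits_zpowers_mul (X := SL(2, ℤ) ⧸ Gamma0 N) (S * T) hfin
  rw [orderOf_ST] at h
  simp only [Finset.sum_range_succ, Finset.range_zero, Finset.sum_empty, zero_add] at h
  have h2 : (S * T) ^ 2 = -(S * T)⁻¹ := by decide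
  have h4 : (S * T) ^ 4 = -(S * T) := by decide
  have h5 : (S * T) ^ 5 = (S * T)⁻¹ := by decide
  rw [pow_zero, pow_one, h2, ST_cube, h4, h5, fixedBy_neg, fixedBy_neg, fixedBy_neg,
    MulAction.fixedBy_inv, fixedBy_one_card, card_fixedBy_ST] at h
  have e : Nat.card (MulAction.orbitRel.Quotient (Subgroup.zpowers (S * T))
      (SL(2, ℤ) ⧸ Gamma0 N)) =
      Nat.card (@MulAction.orbitRel.Quotient (Subgroup.zpowers (S * T)) (SL(2, ℤ) ⧸ Gamma0 N) _
        Subgroup.instMulAction) := rfl
  rw [e]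
  omega

end Fermat.Agent.X0N
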