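import Mathlib

/-!
# (NAT) Ree's inequality and the parity of the Euler characteristic for a pair of permutations

For permutations `a b` of a finite nonempty type `X` generating a transitive group, with
`numOrbits σ` the number of cycles of `σ` (orbits of `⟨σ⟩`, fixed points included):

* `numOrbits_add_le` : `numOrbits a + numOrbits b + numOrbits (a * b) ≤ |X| + 2`
  (Ree's theorem, proved with Scott's linear-algebra lemma on `X → ℚ`);
* `sign_eq_neg_one_pow` : `sign σ = (-1) ^ (|X| + numOrbits σ)`;
* `numOrbits_parity` : `numOrbits a + numOrbits b + numOrbits (a * b) + |X|` is even.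

So `2 - 2g := numOrbits a + numOrbits b + numOrbits (a*b) - |X|` defines a natural number `g`.
-/

set_option linter.unusedSectionVars false

namespace Fermat.Agent.X0N

open Module Equiv Equiv.Perm

section Scott

variable {X : Type*} [Fintype X] [DecidableEq X]

/-- Precomposition with a permutation, as a linear endomorphism of `X → ℚ`. -/
noncomputable def permLin (σ : Equiv.Perm X) : (X → ℚ) →ₗ[ℚ] (X → ℚ) :=
  LinearMap.funLeft ℚ ℚ σ

@[simp] theorem permLin_apply (σ : Equiv.Perm X) (v : X → ℚ) (x : X) :
    permLin σ v x = v (σ x) := rfl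

theorem permLin_comp (σ τ : Equiv.Perm X) (v : X → ℚ) :
    permLin σ (permLin τ v) = permLin (τ * σ) v := by
  ext x; simp

/-- `1 - P_σ`. -/
noncomputable def defect (σ : Equiv.Perm X) : (X → ℚ) →ₗ[ℚ] (X → ℚ) :=
  LinearMap.id - permLin σ

@[simp] theorem defect_apply (σ : Equiv.Perm X) (v : X → ℚ) (x : X) :
    defect σ v x = v x - v (σ x) := rfl

theorem mem_ker_defect (σ : Equiv.Perm X) (v : X → ℚ) :
    v ∈ LinearMap.ker (defect σ) ↔ ∀ x, v (σ x) = v x := by
  rw [LinearMap.mem_ker]
  constructor
  · intro h x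
    have := congrFun h x
    simp only [defect_apply, Pi.zero_apply] at this
    linarith
  · intro h
    ext x
    simp [h x]

/-- The number of cycles (including fixed points) of a permutation: orbits of `⟨σ⟩`. -/
noncomputable def numOrbits (σ : Equiv.Perm X) : ℕ :=
  Nat.card (MulAction.orbitRel.Quotient (Subgroup.zpowers σ) X)

theorem invariant_zpow {σ : Equiv.Perm X} {v : X → ℚ} (h : ∀ x, v (σ x) = v x) (k : ℤ) (x : X) :
    v ((σ ^ k) x) = v x := by
  induction k using Int.induction_on generalizing x with
  | zero => simp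
  | succ n ih =>
    rw [zpow_add_one, Equiv.Perm.mul_apply, ih, h]
  | pred n ih =>
    rw [zpow_sub_one, Equiv.Perm.mul_apply, ih]
    have := h (σ⁻¹ x)
    rw [show σ (σ⁻¹ x) = x from by simp] at this
    exact this.symm

/-- The invariant functions have dimension the number of orbits. -/
theorem finrank_ker_defect (σ : Equiv.Perm X) :
    finrank ℚ (LinearMap.ker (defect σ)) = numOrbits σ := by
  classical
  let Q := MulAction.orbitRel.Quotient (Subgroup.zpowers σ) X
  let mk : X → Q := Quotient.mk''
  have hmk : Function.Surjective mk := Quotient.mk''_surjective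
  let Ψ : (Q → ℚ) →ₗ[ℚ] (X → ℚ) := LinearMap.funLeft ℚ ℚ mk
  have hΨ : Function.Injective Ψ := LinearMap.funLeft_injective_of_surjective ℚ ℚ mk hmk
  have hrange : LinearMap.range Ψ = LinearMap.ker (defect σ) := by
    ext v
    rw [mem_ker_defect, LinearMap.mem_range]
    constructor
    · rintro ⟨f, rfl⟩ x
      show f (mk (σ x)) = f (mk x)
      congr 1
      apply Quotient.sound'
      rw [MulAction.orbitRel_apply]
      exact ⟨⟨σ, Subgroup.mem_zpowers σ⟩, rfl⟩
    · intro h
      refine ⟨Quotient.lift v ?_, ?_⟩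
      · intro a b hab
        have hab' : a ∈ MulAction.orbit (Subgroup.zpowers σ) b := hab
        obtain ⟨⟨g, hg⟩, rfl⟩ := hab'
        obtain ⟨k, rfl⟩ := Subgroup.mem_zpowers_iff.mp hg
        exact invariant_zpow h k b
      · ext x
        rfl
  have h1 : finrank ℚ (LinearMap.range Ψ) = finrank ℚ (Q → ℚ) :=
    LinearMap.finrank_range_of_inj hΨ
  rw [← hrange, h1]
  have : Fintype Q := Fintype.ofFinite Q
  rw [Module.finrank_fintype_fun_eq_card, numOrbits, Nat.card_eq_fintype_card]

/-! ### Scott's lemma / Ree's inequality for two generators -/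

/-- The basis vector `e_x`. -/
noncomputable def eVec (x : X) : X → ℚ := Pi.single x 1

theorem defect_eVec (σ : Equiv.Perm X) (x : X) : defect σ (eVec (σ x)) = eVec (σ x) - eVec x := by
  ext y
  simp only [defect_apply, eVec, Pi.sub_apply, Pi.single_apply]
  by_cases h : y = x
  · subst h; simp
  · have : σ y ≠ σ x := fun h' => h (σ.injective h')
    simp [h, this]

/-- The map `(u, w) ↦ P_b (1 - P_a) u + (1 - P_b) w`. -/
noncomputable def scottMap (a b : Equiv.Perm X) : (X → ℚ) × (X → ℚ) →ₗ[ℚ] (X → ℚ) :=
  ((permLin b).comp (defect a)).coprod (defect b)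

theorem scottMap_apply (a b : Equiv.Perm X) (u w : X → ℚ) :
    scottMap a b (u, w) = permLin b (defect a u) + defect b w := by
  simp [scottMap]

theorem scottMap_diag (a b : Equiv.Perm X) (v : X → ℚ) :
    scottMap a b (v, v) = defect (a * b) v := by
  rw [scottMap_apply]
  ext x
  simp only [Pi.add_apply, permLin_apply, defect_apply, Equiv.Perm.mul_apply]
  ring

theorem range_defect_right_le (a b : Equiv.Perm X) :
    LinearMap.range (defect b) ≤ LinearMap.range (scottMap a b) := by
  rintro _ ⟨w, rfl⟩
  exact ⟨(0, w), by rw [scottMap_apply]; simp⟩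

theorem range_defect_left_le (a b : Equiv.Perm X) :
    LinearMap.range (defect a) ≤ LinearMap.range (scottMap a b) := by
  rintro _ ⟨u, rfl⟩
  refine ⟨(u, defect a u), ?_⟩
  rw [scottMap_apply]
  ext x
  simp only [Pi.add_apply, permLin_apply, defect_apply]
  ring

/-- Differences of basis vectors along the group generated by `a`, `b` lie in the range. -/
theorem eVec_sub_mem_range (a b : Equiv.Perm X) {g : Equiv.Perm X}
    (hg : g ∈ Subgroup.closure ({a, b} : Set (Equiv.Perm X))) (x : X) :
    eVec (g x) - eVec x ∈ LinearMap.range (scottMap a b) := by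
  induction hg using Subgroup.closure_induction generalizing x with
  | mem σ hσ =>
    rcases hσ with rfl | rfl
    · apply range_defect_left_le σ b
      exact ⟨eVec (σ x), defect_eVec σ x⟩
    · apply range_defect_right_le a σ
      exact ⟨eVec (σ x), defect_eVec σ x⟩
  | one => simp
  | mul g h _ _ ihg ihh =>
    have : eVec ((g * h) x) - eVec x = (eVec (g (h x)) - eVec (h x)) + (eVec (h x) - eVec x) := by
      rw [Equiv.Perm.mul_apply]; abel
    rw [this]
    exact Submodule.add_mem _ (ihg (h x)) (ihh x)
  | inv g _ ih =>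
    have h1 := ih (g⁻¹ x)
    have h2 : g (g⁻¹ x) = x := by simp
    rw [h2] at h1
    have : eVec (g⁻¹ x) - eVec x = -(eVec x - eVec (g⁻¹ x)) := by abel
    rw [this]
    exact Submodule.neg_mem _ h1

variable [Nonempty X]

theorem finrank_range_scottMap_ge (a b : Equiv.Perm X)
    (htrans : ∀ x y : X, ∃ g ∈ Subgroup.closure ({a, b} : Set (Equiv.Perm X)), g x = y) :
    Fintype.card X ≤ finrank ℚ (LinearMap.range (scottMap a b)) + 1 := by
  obtain ⟨x₀⟩ := ‹Nonempty X›
  have htop : (⊤ : Submodule ℚ (X → ℚ)) ≤
      LinearMap.range (scottMap a b) ⊔ Submodule.span ℚ {eVec x₀} := by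
    intro v _
    have hv : v = ∑ y, v y • eVec y := by
      ext z
      simp [eVec, Pi.single_apply, Finset.sum_apply]
    rw [hv]
    apply Submodule.sum_mem
    intro y _
    apply Submodule.smul_mem
    obtain ⟨g, hg, hgy⟩ := htrans x₀ y
    have h1 := eVec_sub_mem_range a b hg x₀
    rw [hgy] at h1
    have : eVec y = (eVec y - eVec x₀) + eVec x₀ := by abel
    rw [this]
    exact Submodule.add_mem _ (Submodule.mem_sup_left h1)
      (Submodule.mem_sup_right (Submodule.subset_span rfl))
  have h1 : finrank ℚ (X → ℚ) ≤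
      finrank ℚ ↥(LinearMap.range (scottMap a b) ⊔ Submodule.span ℚ {eVec x₀}) := by
    have := Submodule.finrank_mono htop
    rwa [finrank_top] at this
  have h2 := Submodule.finrank_add_le_finrank_add_finrank (LinearMap.range (scottMap a b))
    (Submodule.span ℚ {eVec x₀})
  have h3 : finrank ℚ ↥(Submodule.span ℚ {eVec x₀}) ≤ 1 := by
    have := finrank_span_le_card (R := ℚ) ({eVec x₀} : Set (X → ℚ))
    simpa using this
  rw [Module.finrank_fintype_fun_eq_card] at h1
  omega

/-- Functions invariant under `a` and `b` are constant when `⟨a, b⟩` is transitive. -/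
theorem invariant_closure {a b : Equiv.Perm X} {v : X → ℚ} (ha : ∀ x, v (a x) = v x)
    (hb : ∀ x, v (b x) = v x) {g : Equiv.Perm X}
    (hg : g ∈ Subgroup.closure ({a, b} : Set (Equiv.Perm X))) (x : X) : v (g x) = v x := by
  induction hg using Subgroup.closure_induction generalizing x with
  | mem σ hσ =>
    rcases hσ with rfl | rfl
    · exact ha x
    · exact hb x
  | one => simp
  | mul g h _ _ ihg ihh => rw [Equiv.Perm.mul_apply, ihg, ihh]
  | inv g _ ih =>
    have := ih (g⁻¹ x)
    rw [show g (g⁻¹ x) = x from by simp] at this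
    exact this.symm

/-- **Ree's inequality** (via Scott's lemma) for a transitive pair of permutations:
`cyc(a) + cyc(b) + cyc(ab) ≤ n + 2`. -/
theorem numOrbits_add_le (a b : Equiv.Perm X)
    (htrans : ∀ x y : X, ∃ g ∈ Subgroup.closure ({a, b} : Set (Equiv.Perm X)), g x = y) :
    numOrbits a + numOrbits b + numOrbits (a * b) ≤ Fintype.card X + 2 := by
  classical
  obtain ⟨x₀⟩ := ‹Nonempty X›
  -- the two subspaces of the kernel
  let ιK : (LinearMap.ker (defect a) × LinearMap.ker (defect b)) →ₗ[ℚ] (X → ℚ) × (X → ℚ) :=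
    (LinearMap.ker (defect a)).subtype.prodMap (LinearMap.ker (defect b)).subtype
  let ιC : LinearMap.ker (defect (a * b)) →ₗ[ℚ] (X → ℚ) × (X → ℚ) :=
    (LinearMap.ker (defect (a * b))).subtype.prod (LinearMap.ker (defect (a * b))).subtype
  have hιK_apply : ∀ p, ιK p = ((p.1 : X → ℚ), (p.2 : X → ℚ)) := fun p => rfl
  have hιC_apply : ∀ v, ιC v = ((v : X → ℚ), (v : X → ℚ)) := fun v => rfl
  have hιK : Function.Injective ιK := by
    rintro ⟨u, w⟩ ⟨u', w'⟩ h
    rw [hιK_apply, hιK_apply, Prod.mk.injEq] at h
    exact Prod.ext (Subtype.ext h.1) (Subtype.ext h.2)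
  have hιC : Function.Injective ιC := by
    intro v v' h
    rw [hιC_apply, hιC_apply, Prod.mk.injEq] at h
    exact Subtype.ext h.1
  have hK : finrank ℚ (LinearMap.range ιK) = numOrbits a + numOrbits b := by
    rw [LinearMap.finrank_range_of_inj hιK, Module.finrank_prod, finrank_ker_defect,
      finrank_ker_defect]
  have hC : finrank ℚ (LinearMap.range ιC) = numOrbits (a * b) := by
    rw [LinearMap.finrank_range_of_inj hιC, finrank_ker_defect]
  have hKker : LinearMap.range ιK ≤ LinearMap.ker (scottMap a b) := by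
    rintro _ ⟨⟨u, w⟩, rfl⟩
    rw [LinearMap.mem_ker, hιK_apply, scottMap_apply, LinearMap.mem_ker.mp u.2,
      LinearMap.mem_ker.mp w.2]
    simp
  have hCker : LinearMap.range ιC ≤ LinearMap.ker (scottMap a b) := by
    rintro _ ⟨v, rfl⟩
    rw [LinearMap.mem_ker, hιC_apply, scottMap_diag, LinearMap.mem_ker.mp v.2]
  have hinf : finrank ℚ ↥(LinearMap.range ιK ⊓ LinearMap.range ιC) ≤ 1 := by
    have hle : LinearMap.range ιK ⊓ LinearMap.range ιC ≤
        Submodule.span ℚ {((fun _ => 1 : X → ℚ), (fun _ => 1 : X → ℚ))} := by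
      rintro p ⟨⟨⟨u, w⟩, hp1⟩, ⟨v, hp2⟩⟩
      rw [hιK_apply] at hp1
      rw [hιC_apply] at hp2
      have hpu : p.1 = (u : X → ℚ) := by rw [← hp1]
      have hpw : p.2 = (w : X → ℚ) := by rw [← hp1]
      have hpv1 : p.1 = (v : X → ℚ) := by rw [← hp2]
      have hpv2 : p.2 = (v : X → ℚ) := by rw [← hp2]
      have hua : ∀ x, p.1 (a x) = p.1 x := by
        rw [hpu]; exact (mem_ker_defect a _).mp u.2
      have hwb : ∀ x, p.1 (b x) = p.1 x := by
        rw [hpv1, ← hpv2, hpw]; exact (mem_ker_defect b _).mp w.2
      have hconst : ∀ y, p.1 y = p.1 x₀ := by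
        intro y
        obtain ⟨g, hg, rfl⟩ := htrans x₀ y
        exact invariant_closure hua hwb hg x₀
      rw [Submodule.mem_span_singleton]
      refine ⟨p.1 x₀, ?_⟩
      have h21 : p.2 = p.1 := by rw [hpv2, hpv1]
      apply Prod.ext
      · ext y; simp [hconst y]
      · rw [h21]; ext y; simp [hconst y]
    have h1 := Submodule.finrank_mono hle
    have h2 := finrank_span_le_card (R := ℚ)
      ({((fun _ => 1 : X → ℚ), (fun _ => 1 : X → ℚ))} : Set ((X → ℚ) × (X → ℚ)))
    have h3 : finrank ℚ
        ↥(Submodule.span ℚ {((fun _ => 1 : X → ℚ), (fun _ => 1 : X → ℚ))}) ≤ 1 := by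
      simpa using h2
    exact h1.trans h3
  have hsup : finrank ℚ ↥(LinearMap.range ιK ⊔ LinearMap.range ιC) ≤
      finrank ℚ (LinearMap.ker (scottMap a b)) :=
    Submodule.finrank_mono (sup_le hKker hCker)
  have hsupinf := Submodule.finrank_sup_add_finrank_inf_eq (LinearMap.range ιK)
    (LinearMap.range ιC)
  have hrn := LinearMap.finrank_range_add_finrank_ker (scottMap a b)
  have hrange := finrank_range_scottMap_ge a b htrans
  have hVV : finrank ℚ ((X → ℚ) × (X → ℚ)) = 2 * Fintype.card X := by
    rw [Module.finrank_prod, Module.finrank_fintype_fun_eq_card]; ring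
  omega

end Scott


section Sign

variable {X : Type*} [Fintype X] [DecidableEq X]

theorem orbitRel_zpowers_iff (σ : Perm X) (x y : X) :
    MulAction.orbitRel (Subgroup.zpowers σ) X x y ↔ σ.SameCycle y x := by
  rw [MulAction.orbitRel_apply]
  constructor
  · rintro ⟨⟨g, hg⟩, rfl⟩
    obtain ⟨k, rfl⟩ := Subgroup.mem_zpowers_iff.mp hg
    exact ⟨k, rfl⟩
  · rintro ⟨k, rfl⟩
    exact ⟨⟨σ ^ k, Subgroup.zpow_mem_zpowers σ k⟩, rfl⟩

/-- Classifying map: a point goes to itself if fixed, to its cycle otherwise. -/
noncomputable def cycleClass (σ : Perm X) (x : X) :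
    {x // σ x = x} ⊕ {τ // τ ∈ σ.cycleFactorsFinset} :=
  if h : σ x = x then Sum.inl ⟨x, h⟩
  else Sum.inr ⟨σ.cycleOf x, cycleOf_mem_cycleFactorsFinset_iff.mpr (mem_support.mpr h)⟩

theorem cycleClass_eq_iff (σ : Perm X) (x y : X) :
    cycleClass σ x = cycleClass σ y ↔ σ.SameCycle x y := by
  unfold cycleClass
  by_cases hx : σ x = x
  · rw [dif_pos hx]
    constructor
    · intro h
      by_cases hy : σ y = y
      · rw [dif_pos hy] at h
        have : x = y := congrArg Subtype.val (Sum.inl.inj h)
        rw [this]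
      · rw [dif_neg hy] at h
        exact absurd h (by simp)
    · intro h
      have hxy : x = y := by
        obtain ⟨k, rfl⟩ := h
        exact ((zpow_apply_eq_self_of_apply_eq_self hx k)).symm
      subst hxy
      rw [dif_pos hx]
  · rw [dif_neg hx]
    constructor
    · intro h
      by_cases hy : σ y = y
      · rw [dif_pos hy] at h
        exact absurd h (by simp)
      · rw [dif_neg hy] at h
        have h' : σ.cycleOf x = σ.cycleOf y := congrArg Subtype.val (Sum.inr.inj h)
        exact (sameCycle_iff_cycleOf_eq_of_mem_support (mem_support.mpr hx)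
          (mem_support.mpr hy)).mpr h'
    · intro h
      have hy : σ y ≠ y := by
        intro hy
        apply hx
        exact (h.apply_eq_self_iff).mpr hy
      rw [dif_neg hy]
      congr 1
      exact Subtype.ext h.cycleOf_eq

theorem cycleClass_surjective (σ : Perm X) : Function.Surjective (cycleClass σ) := by
  rintro (⟨x, hx⟩ | ⟨τ, hτ⟩)
  · exact ⟨x, by unfold cycleClass; rw [dif_pos hx]⟩
  · obtain ⟨x, hx⟩ := IsCycle.nonempty_support (mem_cycleFactorsFinset_iff.mp hτ).1
    have hxσ : σ x ≠ x := by
      have := mem_cycleFactorsFinset_support_le hτ hx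
      exact mem_support.mp this
    refine ⟨x, ?_⟩
    unfold cycleClass
    rw [dif_neg hxσ]
    congr 1
    exact Subtype.ext (cycle_is_cycleOf hx hτ).symm

/-- Orbits of `⟨σ⟩` = fixed points + nontrivial cycles. -/
theorem numOrbits_eq (σ : Perm X) :
    numOrbits σ + σ.cycleType.sum = Fintype.card X + Multiset.card σ.cycleType := by
  classical
  let Q := MulAction.orbitRel.Quotient (Subgroup.zpowers σ) X
  let F : Q → {x // σ x = x} ⊕ {τ // τ ∈ σ.cycleFactorsFinset} :=
    Quotient.lift (cycleClass σ) (by
      intro a b hab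
      have : MulAction.orbitRel (Subgroup.zpowers σ) X a b := hab
      rw [orbitRel_zpowers_iff] at this
      exact ((cycleClass_eq_iff σ b a).mpr this).symm)
  have hF : Function.Bijective F := by
    constructor
    · intro q₁ q₂
      induction q₁ using Quotient.inductionOn with | _ a => ?_
      induction q₂ using Quotient.inductionOn with | _ b => ?_
      intro h
      apply Quotient.sound
      show MulAction.orbitRel (Subgroup.zpowers σ) X a b
      rw [orbitRel_zpowers_iff]
      exact (cycleClass_eq_iff σ b a).mp h.symm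
    · intro t
      obtain ⟨x, hx⟩ := cycleClass_surjective σ t
      exact ⟨Quotient.mk'' x, hx⟩
  have h1 : numOrbits σ =
      Nat.card ({x // σ x = x} ⊕ {τ // τ ∈ σ.cycleFactorsFinset}) :=
    Nat.card_eq_of_bijective F hF
  have h2 : Nat.card {x // σ x = x} = Fintype.card X - σ.cycleType.sum := by
    rw [← card_fixedPoints σ, ← Nat.card_eq_fintype_card]
    rfl
  have h3 : Nat.card {τ // τ ∈ σ.cycleFactorsFinset} = Multiset.card σ.cycleType := by
    rw [Nat.card_eq_fintype_card, Fintype.card_coe, cycleType_def, Multiset.card_map]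
    rfl
  have h4 := sum_cycleType_le σ
  rw [h1, Nat.card_sum, h2, h3]
  omega

/-- The sign of a permutation in terms of its number of orbits. -/
theorem sign_eq_neg_one_pow (σ : Perm X) :
    Perm.sign σ = (-1 : ℤˣ) ^ (Fintype.card X + numOrbits σ) := by
  rw [sign_of_cycleType]
  have h := numOrbits_eq σ
  have h4 := sum_cycleType_le σ
  -- exponents have the same parity
  have hpar : (σ.cycleType.sum + Multiset.card σ.cycleType) % 2 =
      (Fintype.card X + numOrbits σ) % 2 := by omega
  rw [← Nat.mod_add_div (σ.cycleType.sum + Multiset.card σ.cycleType) 2,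
    ← Nat.mod_add_div (Fintype.card X + numOrbits σ) 2, hpar]
  simp [pow_add, pow_mul]

end Sign


section Parity

variable {X : Type*} [Fintype X] [DecidableEq X]

/-- The Euler characteristic is even. -/
theorem numOrbits_parity (a b : Equiv.Perm X) :
    Even (numOrbits a + numOrbits b + numOrbits (a * b) + Fintype.card X) := by
  have h := Perm.sign_mul a b
  rw [sign_eq_neg_one_pow, sign_eq_neg_one_pow, sign_eq_neg_one_pow, ← pow_add] at h
  have h2 : ((-1 : ℤˣ)) ^ ((Fintype.card X + numOrbits (a * b)) +
      (Fintype.card X + numOrbits a + (Fintype.card X + numOrbits b))) = 1 := by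
    rw [pow_add, h, ← pow_add, ← two_mul, pow_mul]
    simp
  have h3 : Even ((Fintype.card X + numOrbits (a * b)) +
      (Fintype.card X + numOrbits a + (Fintype.card X + numOrbits b))) := by
    rw [← neg_one_pow_eq_one_iff_even (R := ℤˣ) (by decide)]
    exact h2
  obtain ⟨m, hm⟩ := h3
  exact ⟨m - Fintype.card X, by omega⟩

end Parity

end Fermat.Agent.X0N
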