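import Mathlib
import Fermat.Prelude.Def_ModularCurve_GenusNumerics
import Fermat.Agent.X0N.Cosets_helper9_Orbits
import Fermat.Agent.X0N.Cosets_helper9_Cusps
import Fermat.Agent.X0N.Nat_helper1_Ree

/-!
# (NAT) The genus formula of `X₀(N)` takes natural number values

With `r₂, r₃, c` the numbers of orbits of `⟨S⟩, ⟨ST⟩, ⟨T⟩` on `SL₂(ℤ)/Γ₀(N)` (helper9's counts):
`genusFormula N = (ψ + 2 - r₂ - r₃ - c)/2`, Ree's inequality gives `r₂ + r₃ + c ≤ ψ + 2` and the
sign homomorphism gives the parity.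

* `orbit_counts_ree` : the inequality and the parity;
* `exists_nat_genusFormula N : ∃ g : ℕ, genusFormula N = g`;
* `two_mul_genusFormula_sub_two` : `2 * genusFormula N - 2 = ψ - r₂ - r₃ - c`.
-/

set_option linter.unusedSectionVars false
set_option linter.style.haveILetI false

namespace Fermat.Agent.X0N

open CongruenceSubgroup MatrixGroups ModularGroup Matrix

/-- Orbits of the cyclic group generated by `g` only depend on the permutation induced by `g`. -/
theorem card_orbits_zpowers_eq_numOrbits {G X : Type*} [Group G] [MulAction G X] [Fintype X]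
    [DecidableEq X] (g : G) :
    Nat.card (MulAction.orbitRel.Quotient (Subgroup.zpowers g) X) =
      numOrbits (MulAction.toPerm g : Equiv.Perm X) := by
  have hpow : ∀ (k : ℤ) (y : X), ((MulAction.toPerm g : Equiv.Perm X) ^ k) y = (g ^ k) • y := by
    intro k y
    have : (MulAction.toPerm g : Equiv.Perm X) ^ k = MulAction.toPerm (g ^ k) :=
      (map_zpow (MulAction.toPermHom G X) g k).symm
    rw [this]
    rfl
  unfold numOrbits
  apply Nat.card_congr
  refine Quotient.congr (Equiv.refl X) ?_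
  intro x y
  show MulAction.orbitRel (Subgroup.zpowers g) X x y ↔
    MulAction.orbitRel (Subgroup.zpowers (MulAction.toPerm g : Equiv.Perm X)) X x y
  rw [MulAction.orbitRel_apply, MulAction.orbitRel_apply]
  constructor
  · rintro ⟨⟨h, hh⟩, rfl⟩
    obtain ⟨k, rfl⟩ := Subgroup.mem_zpowers_iff.mp hh
    refine ⟨⟨(MulAction.toPerm g : Equiv.Perm X) ^ k, Subgroup.zpow_mem_zpowers _ k⟩, ?_⟩
    exact hpow k y
  · rintro ⟨⟨h, hh⟩, rfl⟩
    obtain ⟨k, rfl⟩ := Subgroup.mem_zpowers_iff.mp hh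
    refine ⟨⟨g ^ k, Subgroup.zpow_mem_zpowers _ k⟩, ?_⟩
    exact (hpow k y).symm

section Gamma0

variable (N : ℕ) [NeZero N]

/-- Abbreviation for the coset space. -/
local notation "XN" => (SL(2, ℤ) ⧸ Gamma0 N)

theorem toPerm_S_mul_ST :
    (MulAction.toPerm S : Equiv.Perm (SL(2, ℤ) ⧸ Gamma0 N)) * MulAction.toPerm (S * T) =
      MulAction.toPerm T := by
  ext x
  show S • ((S * T) • x) = T • x
  rw [← mul_smul]
  have : S * (S * T) = (-1 : SL(2, ℤ)) * T := by decide
  rw [this, mul_smul, neg_one_smul_coset]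

theorem transitive_S_ST (x y : SL(2, ℤ) ⧸ Gamma0 N) :
    ∃ g ∈ Subgroup.closure ({(MulAction.toPerm S : Equiv.Perm (SL(2, ℤ) ⧸ Gamma0 N)),
      MulAction.toPerm (S * T)} : Set (Equiv.Perm (SL(2, ℤ) ⧸ Gamma0 N))), g x = y := by
  obtain ⟨γ, hγ⟩ := MulAction.exists_smul_eq (SL(2, ℤ)) x y
  refine ⟨MulAction.toPerm γ, ?_, hγ⟩
  have h1 : γ ∈ Subgroup.closure ({S, T} : Set (SL(2, ℤ))) := by
    rw [SpecialLinearGroup.SL2Z_generators]; trivial
  have h2 : Subgroup.closure ({S, T} : Set (SL(2, ℤ))) ≤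
      Subgroup.closure ({S, S * T} : Set (SL(2, ℤ))) := by
    rw [Subgroup.closure_le]
    rintro g (rfl | rfl)
    · exact Subgroup.subset_closure (Set.mem_insert _ _)
    · have hmem : S⁻¹ * (S * T) ∈ Subgroup.closure ({S, S * T} : Set (SL(2, ℤ))) :=
        Subgroup.mul_mem _
          (Subgroup.inv_mem _ (Subgroup.subset_closure (Set.mem_insert _ _)))
          (Subgroup.subset_closure (Set.mem_insert_of_mem _ rfl))
      have hT : S⁻¹ * (S * T) = (T : SL(2, ℤ)) := by group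
      rw [hT] at hmem
      exact hmem
  have h3 := Subgroup.mem_map_of_mem (MulAction.toPermHom (SL(2, ℤ)) (SL(2, ℤ) ⧸ Gamma0 N))
    (h2 h1)
  rw [MonoidHom.map_closure, Set.image_pair] at h3
  exact h3

/-- The three orbit counts satisfy Ree's inequality and the parity constraint. -/
theorem orbit_counts_ree :
    Nat.card (MulAction.orbitRel.Quotient (Subgroup.zpowers S) (SL(2, ℤ) ⧸ Gamma0 N)) +
      Nat.card (MulAction.orbitRel.Quotient (Subgroup.zpowers (S * T)) (SL(2, ℤ) ⧸ Gamma0 N)) +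
      Nat.card (MulAction.orbitRel.Quotient (Subgroup.zpowers T) (SL(2, ℤ) ⧸ Gamma0 N)) ≤
        ModularCurve.dedekindPsi N + 2 ∧
    Even (Nat.card (MulAction.orbitRel.Quotient (Subgroup.zpowers S) (SL(2, ℤ) ⧸ Gamma0 N)) +
      Nat.card (MulAction.orbitRel.Quotient (Subgroup.zpowers (S * T)) (SL(2, ℤ) ⧸ Gamma0 N)) +
      Nat.card (MulAction.orbitRel.Quotient (Subgroup.zpowers T) (SL(2, ℤ) ⧸ Gamma0 N)) +
        ModularCurve.dedekindPsi N) := by
  classical
  letI : Fintype (SL(2, ℤ) ⧸ Gamma0 N) := Fintype.ofFinite _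
  have : Nonempty (SL(2, ℤ) ⧸ Gamma0 N) := ⟨QuotientGroup.mk 1⟩
  have eS : Nat.card (MulAction.orbitRel.Quotient (Subgroup.zpowers S) (SL(2, ℤ) ⧸ Gamma0 N)) =
      numOrbits (MulAction.toPerm S : Equiv.Perm (SL(2, ℤ) ⧸ Gamma0 N)) :=
    card_orbits_zpowers_eq_numOrbits S
  have eST : Nat.card (MulAction.orbitRel.Quotient (Subgroup.zpowers (S * T))
      (SL(2, ℤ) ⧸ Gamma0 N)) =
      numOrbits (MulAction.toPerm (S * T) : Equiv.Perm (SL(2, ℤ) ⧸ Gamma0 N)) :=
    card_orbits_zpowers_eq_numOrbits (S * T)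
  have eT : Nat.card (MulAction.orbitRel.Quotient (Subgroup.zpowers T) (SL(2, ℤ) ⧸ Gamma0 N)) =
      numOrbits (MulAction.toPerm T : Equiv.Perm (SL(2, ℤ) ⧸ Gamma0 N)) :=
    card_orbits_zpowers_eq_numOrbits T
  rw [eS, eST, eT, ← toPerm_S_mul_ST N]
  have hcard : Fintype.card (SL(2, ℤ) ⧸ Gamma0 N) = ModularCurve.dedekindPsi N := by
    rw [← Nat.card_eq_fintype_card, card_cosets_eq_dedekindPsi]
  rw [← hcard]
  exact ⟨numOrbits_add_le _ _ (transitive_S_ST N), numOrbits_parity _ _⟩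

/-- **The genus formula takes natural number values.** -/
theorem exists_nat_genusFormula : ∃ g : ℕ, ModularCurve.genusFormula N = (g : ℚ) := by
  obtain ⟨hle, heven⟩ := orbit_counts_ree N
  have h2 := card_orbits_S N
  have h3 := card_orbits_ST N
  have hc := card_cusps N
  set r₂ := Nat.card (MulAction.orbitRel.Quotient (Subgroup.zpowers S) (SL(2, ℤ) ⧸ Gamma0 N))
  set r₃ := Nat.card (MulAction.orbitRel.Quotient (Subgroup.zpowers (S * T))
    (SL(2, ℤ) ⧸ Gamma0 N))
  set c := Nat.card (MulAction.orbitRel.Quotient (Subgroup.zpowers T) (SL(2, ℤ) ⧸ Gamma0 N))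
  obtain ⟨m, hm⟩ := heven
  -- `r₂ + r₃ + c + ψ = 2m`, `r₂ + r₃ + c ≤ ψ + 2`, so `g = ψ + 1 - m`
  refine ⟨ModularCurve.dedekindPsi N + 1 - m, ?_⟩
  have hmle : m ≤ ModularCurve.dedekindPsi N + 1 := by omega
  rw [Nat.cast_sub hmle]
  unfold ModularCurve.genusFormula
  have e2 : (ModularCurve.nuTwo N : ℚ) = 2 * r₂ - ModularCurve.dedekindPsi N := by
    have : (2 * r₂ : ℚ) = ModularCurve.dedekindPsi N + ModularCurve.nuTwo N := by
      exact_mod_cast h2
    linarith
  have e3 : (ModularCurve.nuThree N : ℚ) = (3 * r₃ - ModularCurve.dedekindPsi N) / 2 := by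
    have : (3 * r₃ : ℚ) = ModularCurve.dedekindPsi N + 2 * ModularCurve.nuThree N := by
      exact_mod_cast h3
    linarith
  have ec : (ModularCurve.cuspCount N : ℚ) = c := by exact_mod_cast hc.symm
  have em : (r₂ + r₃ + c + ModularCurve.dedekindPsi N : ℚ) = m + m := by exact_mod_cast hm
  rw [e2, e3, ec]
  push_cast
  linarith

/-- The Riemann–Hurwitz shape of the genus formula. -/
theorem two_mul_genusFormula_sub_two :
    2 * ModularCurve.genusFormula N - 2 = (ModularCurve.dedekindPsi N : ℚ) -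
      Nat.card (MulAction.orbitRel.Quotient (Subgroup.zpowers S) (SL(2, ℤ) ⧸ Gamma0 N)) -
      Nat.card (MulAction.orbitRel.Quotient (Subgroup.zpowers (S * T)) (SL(2, ℤ) ⧸ Gamma0 N)) -
      Nat.card (MulAction.orbitRel.Quotient (Subgroup.zpowers T) (SL(2, ℤ) ⧸ Gamma0 N)) := by
  have h2 := card_orbits_S N
  have h3 := card_orbits_ST N
  have hc := card_cusps N
  set r₂ := Nat.card (MulAction.orbitRel.Quotient (Subgroup.zpowers S) (SL(2, ℤ) ⧸ Gamma0 N))
  set r₃ := Nat.card (MulAction.orbitRel.Quotient (Subgroup.zpowers (S * T))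
    (SL(2, ℤ) ⧸ Gamma0 N))
  set c := Nat.card (MulAction.orbitRel.Quotient (Subgroup.zpowers T) (SL(2, ℤ) ⧸ Gamma0 N))
  unfold ModularCurve.genusFormula
  have e2 : (ModularCurve.nuTwo N : ℚ) = 2 * r₂ - ModularCurve.dedekindPsi N := by
    have : (2 * r₂ : ℚ) = ModularCurve.dedekindPsi N + ModularCurve.nuTwo N := by
      exact_mod_cast h2
    linarith
  have e3 : (ModularCurve.nuThree N : ℚ) = (3 * r₃ - ModularCurve.dedekindPsi N) / 2 := by
    have : (3 * r₃ : ℚ) = ModularCurve.dedekindPsi N + 2 * ModularCurve.nuThree N := by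
      exact_mod_cast h3
    linarith
  have ec : (ModularCurve.cuspCount N : ℚ) = c := by exact_mod_cast hc.symm
  rw [e2, e3, ec]
  ring

end Gamma0

end Fermat.Agent.X0N
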