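/-
X0N project (helper7): final numerics for S24. From the place counts of `X₀(N) → X(1)` over
`j = 0, 1728, ∞` and the generic fibres to `genus = genusFormula N`.
-/
import Mathlib
import Fermat.Agent.FF.RiemannHurwitz
import Fermat.Agent.X0N.Nat_helper1_Genus

set_option autoImplicit false

open AlgebraicCurve CongruenceSubgroup MatrixGroups ModularGroup

namespace Fermat.Agent.X0N

open Fermat.Agent.FF

/-- **Numerics of S24.** Let `F / k` be a function field (`k` algebraically closed of
characteristic zero) with a coordinate `c` of degree `ψ(N)` such that the fibres over `a ≠ 0, 1728`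
have `ψ(N)` points, and the numbers of points over `1728`, `0`, `∞` are the numbers of orbits of
`S`, `S T`, `T` on `SL(2,ℤ) ⧸ Γ₀(N)`. Then the genus of `F` is `genusFormula N`. -/
theorem genus_eq_genusFormula_of_counts {k F : Type*} [Field k] [Field F] [Algebra k F]
    [CharZero k] [IsAlgClosed k] [HasCanonicalDivisor (K := k) (F := F)]
    (N : ℕ) [NeZero N] (c : Coord k F)
    (hdeg : c.degree = ModularCurve.dedekindPsi N)
    (hgen : ∀ a : k, a ≠ 0 → a ≠ 1728 → (c.zeros a).card = c.degree)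
    (h1728 : (c.zeros 1728).card =
      Nat.card (MulAction.orbitRel.Quotient (Subgroup.zpowers S) (SL(2, ℤ) ⧸ Gamma0 N)))
    (h0 : (c.zeros 0).card =
      Nat.card (MulAction.orbitRel.Quotient (Subgroup.zpowers (S * T)) (SL(2, ℤ) ⧸ Gamma0 N)))
    (hinf : c.poles.card =
      Nat.card (MulAction.orbitRel.Quotient (Subgroup.zpowers T) (SL(2, ℤ) ⧸ Gamma0 N))) :
    (genus k F : ℚ) = ModularCurve.genusFormula N := by
  classical
  obtain ⟨g, hg⟩ := exists_nat_genusFormula N
  have hRH := two_mul_genusFormula_sub_two N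
  rw [hg] at hRH ⊢
  have h01 : (0 : k) ≠ 1728 := by norm_num
  have hB : ∀ a : k, a ∉ ({0, 1728} : Finset k) → (c.zeros a).card = c.degree := by
    intro a ha
    simp only [Finset.mem_insert, Finset.mem_singleton, not_or] at ha
    exact hgen a ha.1 ha.2
  have h2 : (ModularCurve.dedekindPsi N : ℤ)
      - (Nat.card (MulAction.orbitRel.Quotient (Subgroup.zpowers S) (SL(2, ℤ) ⧸ Gamma0 N)) : ℤ)
      - (Nat.card (MulAction.orbitRel.Quotient (Subgroup.zpowers (S * T))
          (SL(2, ℤ) ⧸ Gamma0 N)) : ℤ)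
      - (Nat.card (MulAction.orbitRel.Quotient (Subgroup.zpowers T) (SL(2, ℤ) ⧸ Gamma0 N)) : ℤ)
      = 2 * (g : ℤ) - 2 := by
    have : ((ModularCurve.dedekindPsi N : ℤ) : ℚ)
        - (Nat.card (MulAction.orbitRel.Quotient (Subgroup.zpowers S) (SL(2, ℤ) ⧸ Gamma0 N)) : ℤ)
        - (Nat.card (MulAction.orbitRel.Quotient (Subgroup.zpowers (S * T))
            (SL(2, ℤ) ⧸ Gamma0 N)) : ℤ)
        - (Nat.card (MulAction.orbitRel.Quotient (Subgroup.zpowers T) (SL(2, ℤ) ⧸ Gamma0 N)) : ℤ)
        = ((2 * (g : ℤ) - 2 : ℤ) : ℚ) := by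
      push_cast
      linarith
    exact_mod_cast this
  have hm : ∑ a ∈ ({0, 1728} : Finset k), ((c.degree : ℤ) - (c.zeros a).card) - c.degree
      - c.poles.card + 2 = 2 * g := by
    rw [Finset.sum_pair h01, h0, h1728, hinf, hdeg]
    linarith
  rw [c.genus_eq ({0, 1728} : Finset k) hB g hm]

end Fermat.Agent.X0N
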