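import Mathlib
import Fermat.Agent.X0N.Mer_helper6_Basic

/-!
# Trailing coefficients and orders at elliptic points

If `x ∈ MerH` is invariant under `s ∈ SL(2, ℤ)` fixing `τ`, and `ζ = (denom s τ)⁻²` (the derivative
of `s` at `τ`), then `ζ ^ (ordAt τ x) = 1`.  Hence at an elliptic point of order `e` the order of an
invariant function is divisible by `e`.
-/

set_option autoImplicit false

namespace Fermat.Agent.X0N

open UpperHalfPlane Complex Filter Topology
open scoped MatrixGroups Manifold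

/-- The trailing coefficient of `G - G x` at `x` is `G' x` when the latter is nonzero. -/
theorem meromorphicTrailingCoeffAt_sub_self {G : ℂ → ℂ} {x : ℂ} (hG : AnalyticAt ℂ G x)
    (hd : deriv G x ≠ 0) :
    meromorphicTrailingCoeffAt (fun z => G z - G x) x = deriv G x := by
  obtain ⟨p, hp⟩ := hG
  have hds : AnalyticAt ℂ (dslope G x) x := ⟨_, hp.has_fpower_series_dslope_fslope⟩
  have h := hds.meromorphicTrailingCoeffAt_of_ne_zero_of_eq_nhdsNE (n := 1)
    (f := fun z => G z - G x) (by rwa [dslope_same])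
    (Eventually.of_forall fun z => by
      simp only [zpow_one]
      exact (sub_smul_dslope G x z).symm)
  rw [h, dslope_same]

theorem not_eventuallyConst_of_deriv_ne_zero {G : ℂ → ℂ} {x : ℂ}
    (hd : deriv G x ≠ 0) : ¬ EventuallyConst G (𝓝 x) := by
  intro h
  apply hd
  have h2 : G =ᶠ[𝓝 x] fun _ => G x := by
    rw [eventuallyConst_iff_exists_eventuallyEq] at h
    obtain ⟨c, hc⟩ := h
    have hcx : G x = c := hc.eq_of_nhds
    rw [hcx]
    exact hc
  rw [h2.deriv_eq]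
  simp

namespace HolH

/-- The trailing coefficient of a holomorphic function at `τ`. -/
noncomputable def lc (τ : ℍ) (f : HolH) : ℂ :=
  meromorphicTrailingCoeffAt ((f : ℍ → ℂ) ∘ ofComplex) (τ : ℂ)

theorem lc_ne_zero {f : HolH} (hf : f ≠ 0) (τ : ℍ) : lc τ f ≠ 0 := by
  apply MeromorphicAt.meromorphicTrailingCoeffAt_ne_zero (analyticAt f τ).meromorphicAt
  rw [(analyticAt f τ).meromorphicOrderAt_eq]
  have := order_ne_top hf τ
  simpa using this

theorem lc_mul (f g : HolH) (τ : ℍ) : lc τ (f * g) = lc τ f * lc τ g :=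
  MeromorphicAt.meromorphicTrailingCoeffAt_mul (analyticAt f τ).meromorphicAt
    (analyticAt g τ).meromorphicAt

theorem meromorphicOrderAt_eq_ord {f : HolH} (hf : f ≠ 0) (τ : ℍ) :
    meromorphicOrderAt ((f : ℍ → ℂ) ∘ ofComplex) (τ : ℂ) = ((ord τ f : ℕ) : ℤ) := by
  rw [(analyticAt f τ).meromorphicOrderAt_eq, ← cast_ord hf]
  simp

/-- Transformation of the trailing coefficient under `s ∈ SL(2, ℤ)` fixing `τ`. -/
theorem lc_comp_of_smul_eq {s : SL(2, ℤ)} {τ : ℍ} (hs : s • τ = τ) {f : HolH} (hf : f ≠ 0) :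
    lc τ (HolH.comp s f) = ((denom s τ) ^ 2)⁻¹ ^ (ord τ f) * lc τ f := by
  have hdet : 0 < (s : GL (Fin 2) ℝ).val.det := by
    have h : ((s : GL (Fin 2) ℝ).det : ℝ) = 1 := by simp
    rw [Matrix.GeneralLinearGroup.val_det_apply] at h
    rw [h]; exact one_pos
  have hdet1 : (s : GL (Fin 2) ℝ).val.det = 1 := by
    have h : ((s : GL (Fin 2) ℝ).det : ℝ) = 1 := by simp
    rwa [Matrix.GeneralLinearGroup.val_det_apply] at h
  set G : ℂ → ℂ := fun z => (((s : GL (Fin 2) ℝ) • ofComplex z : ℍ) : ℂ) with hG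
  have hGτ : G τ = τ := by
    simp only [hG, ofComplex_apply]
    exact congrArg (fun w : ℍ => (w : ℂ)) hs
  have hGan : AnalyticAt ℂ G τ := τ.analyticAt_smul hdet
  have hGd : deriv G τ = ((denom s τ) ^ 2)⁻¹ := by
    rw [hG, UpperHalfPlane.deriv_smul hdet, hdet1]
    simp
  have hGd0 : deriv G τ ≠ 0 := τ.deriv_smul_ne_zero hdet
  have e1 : ((HolH.comp s f : HolH) : ℍ → ℂ) ∘ ofComplex = ((f : ℍ → ℂ) ∘ ofComplex) ∘ G := by
    ext z
    simp only [Function.comp_apply, HolH.comp_apply, hG, ofComplex_apply]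
    rfl
  have hmer : MeromorphicAt ((f : ℍ → ℂ) ∘ ofComplex) (G τ) := by
    rw [hGτ]; exact (analyticAt f τ).meromorphicAt
  have h := hmer.meromorphicTrailingCoeffAt_comp hGan
    (not_eventuallyConst_of_deriv_ne_zero hGd0)
  rw [meromorphicTrailingCoeffAt_sub_self hGan hGd0, hGτ, meromorphicOrderAt_eq_ord hf, hGd] at h
  rw [lc, e1, h]
  simp [lc]

end HolH

namespace MerH

/-- **Elliptic points**: if `x` is invariant under `s` fixing `τ`, then `ζ ^ ordAt τ x = 1` for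
`ζ = (denom s τ)⁻²`. -/
theorem zpow_ordAt_eq_one_of_comp_eq {s : SL(2, ℤ)} {τ : ℍ} (hs : s • τ = τ) {x : MerH}
    (hx : MerH.comp s x = x) : (((denom s τ) ^ 2)⁻¹ : ℂ) ^ (ordAt τ x) = 1 := by
  by_cases hx0 : x = 0
  · simp [hx0]
  obtain ⟨a, b, hb, rfl⟩ := exists_div x
  have ha : a ≠ 0 := by
    rintro rfl
    simp at hx0
  have hca : HolH.comp s a ≠ 0 := by simpa using ha
  have hcb : HolH.comp s b ≠ 0 := by simpa using hb
  rw [map_div₀, MerH.comp_algebraMap, MerH.comp_algebraMap,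
    div_eq_div_iff (ofHol_ne_zero hcb) (ofHol_ne_zero hb), ← map_mul, ← map_mul] at hx
  have h1 := ofHol_injective hx
  have h2 := congrArg (HolH.lc τ) h1
  rw [HolH.lc_mul, HolH.lc_mul, HolH.lc_comp_of_smul_eq hs ha, HolH.lc_comp_of_smul_eq hs hb] at h2
  have hla := HolH.lc_ne_zero ha τ
  have hlb := HolH.lc_ne_zero hb τ
  set ζ : ℂ := ((denom s τ) ^ 2)⁻¹ with hζ
  have hζ0 : ζ ≠ 0 := inv_ne_zero (pow_ne_zero _ (denom_ne_zero s τ))
  have h3 : ζ ^ (HolH.ord τ a) = ζ ^ (HolH.ord τ b) := by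
    have : ζ ^ (HolH.ord τ a) * (HolH.lc τ a * HolH.lc τ b) =
        ζ ^ (HolH.ord τ b) * (HolH.lc τ a * HolH.lc τ b) := by
      linear_combination h2
    exact mul_right_cancel₀ (mul_ne_zero hla hlb) this
  rw [ordAt_div_ofHol ha hb, zpow_sub₀ hζ0, zpow_natCast, zpow_natCast, h3,
    div_self (pow_ne_zero _ hζ0)]

end MerH

end Fermat.Agent.X0N
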