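import Mathlib
import Fermat.Agent.X0N.Mer_helper6_Conj
import Fermat.Agent.X0N.Mer_helper6_Elliptic
import Fermat.Agent.X0N.J_helper8_Ord
import Fermat.Agent.X0N.LD_helper1_Laurent
import Fermat.Agent.X0N.Cosets_helper9_Orbits
import Fermat.Agent.FF.Squeeze
import Fermat.Agent.X0N.J_helper8_Surj

/-!
# (FIN) The finite-point valuations on the function field of `X₀(N)`

For `τ₀ ∈ ℍ` with `j(τ₀) = ι a`, `a ∈ k`, and a coset `q ∈ SL(2,ℤ) ⧸ Γ₀(N)`, the order at `τ₀` of
the `q`-th conjugate of the realisation is a `ℤ`-valued valuation `finOrdFn` of the function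
field `k(j_d : d ∣ N)`.  We prove the inputs of helper4's squeeze theorem
`Coord.card_zeros_eq_card_quotient_ordFn`.
-/

set_option autoImplicit false
set_option linter.unusedSectionVars false

namespace Fermat.Agent.X0N

open UpperHalfPlane Complex Filter Topology ModularCurve IntermediateField ModularForm
open Fermat.Agent.RatStr Fermat.Agent.FF
open scoped MatrixGroups Manifold

section Fin

variable (k : Type*) [Field k] [Algebra ℚ k] (N : ℕ) [NeZero N]

/-- `j` as an element of the function field of `X₀(N)` over `k`. -/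
noncomputable def jGen : ↥(laurentBaseChange k (modularFunctionFieldFull N)) :=
  ⟨coeffEmb k jq, coeffEmb_mem_laurentBaseChange k (jq_mem_full N)⟩

variable {k} (ι : k →+* ℂ)

theorem realN_jGen : realN ι N (jGen k N) = MerH.ofHol jHol := by
  obtain ⟨hx, h⟩ := merSeries.real_of_laurent_eq ι (x := coeffEmb k jq)
    isMeroInfty_jFun (by rw [laurent_jFun, coeffMap_coeffEmb_eq])
  exact h

/-- the conjugate of the realisation of `x` indexed by the coset `q`, as a ring hom in `x`. -/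
noncomputable def conjRealN (q : SL(2, ℤ) ⧸ CongruenceSubgroup.Gamma0 N) :
    ↥(laurentBaseChange k (modularFunctionFieldFull N)) →+* MerH :=
  ((MerH.comp (q.out)⁻¹ : MerH ≃+* MerH) : MerH →+* MerH).comp (realN ι N)

theorem conjRealN_apply (q : SL(2, ℤ) ⧸ CongruenceSubgroup.Gamma0 N)
    (x : ↥(laurentBaseChange k (modularFunctionFieldFull N))) :
    conjRealN N ι q x = conjM (CongruenceSubgroup.Gamma0 N) (realN ι N x) q := rfl

theorem conjRealN_injective (q : SL(2, ℤ) ⧸ CongruenceSubgroup.Gamma0 N) :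
    Function.Injective (conjRealN N ι q) := (conjRealN N ι q).injective

theorem conjRealN_algebraMap (q : SL(2, ℤ) ⧸ CongruenceSubgroup.Gamma0 N) (a : k) :
    conjRealN N ι q (algebraMap k _ a) = MerH.const (ι a) := by
  rw [conjRealN_apply, realN_algebraMap]
  exact MerH.comp_const _ _

theorem conjRealN_jGen (q : SL(2, ℤ) ⧸ CongruenceSubgroup.Gamma0 N) :
    conjRealN N ι q (jGen k N) = MerH.ofHol jHol := by
  rw [conjRealN_apply, realN_jGen]
  exact comp_jM _

/-- `s • q` corresponds to composing with `s⁻¹`. -/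
theorem conjRealN_smul (s : SL(2, ℤ)) (q : SL(2, ℤ) ⧸ CongruenceSubgroup.Gamma0 N)
    (x : ↥(laurentBaseChange k (modularFunctionFieldFull N))) :
    conjRealN N ι (s • q) x = MerH.comp s⁻¹ (conjRealN N ι q x) := by
  rw [conjRealN_apply, conjRealN_apply, comp_conjM (isModFun_realN ι N x), inv_inv]

/-- The `ℤ`-valued valuation "order at `τ₀` of the `q`-th conjugate" on the function field of
`X₀(N)` over `k`; it is non-trivial because `j(τ₀) = ι a` is in the image of `k`. -/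
noncomputable def finOrdFn (τ₀ : ℍ) (a : k) (ha : jFun τ₀ = ι a)
    (q : SL(2, ℤ) ⧸ CongruenceSubgroup.Gamma0 N) :
    OrdFn k ↥(laurentBaseChange k (modularFunctionFieldFull N)) where
  ord x := MerH.ordAt τ₀ (conjRealN N ι q x)
  ord_mul := by
    intro x y hx hy
    rw [map_mul]
    exact MerH.ordAt_mul ((map_ne_zero_iff _ (conjRealN_injective N ι q)).mpr hx)
      ((map_ne_zero_iff _ (conjRealN_injective N ι q)).mpr hy) τ₀
  ord_add := by
    intro x y hx hy hxy
    rw [map_add]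
    apply MerH.min_ordAt_le_ordAt_add ((map_ne_zero_iff _ (conjRealN_injective N ι q)).mpr hx)
      ((map_ne_zero_iff _ (conjRealN_injective N ι q)).mpr hy)
    rw [← map_add]
    exact (map_ne_zero_iff _ (conjRealN_injective N ι q)).mpr hxy
  ord_algebraMap := by
    intro c hc
    rw [conjRealN_algebraMap]
    exact MerH.ordAt_const ((map_ne_zero_iff _ ι.injective).mpr hc) τ₀
  nontrivial := by
    have hne : jHol - HolH.const (jFun τ₀) ≠ 0 := by
      intro h
      have h1 : jFun UpperHalfPlane.I - jFun τ₀ = 0 :=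
        congrFun (congrArg Subtype.val h) UpperHalfPlane.I
      have h2 : jFun rhoH - jFun τ₀ = 0 := congrFun (congrArg Subtype.val h) rhoH
      rw [jFun_I] at h1
      rw [jFun_rhoH] at h2
      have : (1728 : ℂ) = 0 := by linear_combination h1 - h2
      norm_num at this
    have himg : conjRealN N ι q (jGen k N - algebraMap k _ a) =
        MerH.ofHol (jHol - HolH.const (jFun τ₀)) := by
      rw [map_sub, conjRealN_jGen, conjRealN_algebraMap, ha, map_sub]
      rfl
    refine ⟨jGen k N - algebraMap k _ a, ?_, ?_⟩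
    · intro h
      rw [h, map_zero] at himg
      exact hne (MerH.ofHol_injective (by rw [← himg, map_zero]))
    · show MerH.ordAt τ₀ (conjRealN N ι q (jGen k N - algebraMap k _ a)) ≠ 0
      rw [himg, MerH.ordAt_ofHol hne, ord_jHol_sub_const]
      split_ifs <;> norm_num

variable {N ι}

theorem finOrdFn_ord (τ₀ : ℍ) (a : k) (ha : jFun τ₀ = ι a)
    (q : SL(2, ℤ) ⧸ CongruenceSubgroup.Gamma0 N)
    (x : ↥(laurentBaseChange k (modularFunctionFieldFull N))) :
    (finOrdFn N ι τ₀ a ha q).ord x =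
      MerH.ordAt τ₀ (conjM (CongruenceSubgroup.Gamma0 N) (realN ι N x) q) := rfl

theorem finOrdFn_ord' (τ₀ : ℍ) (a : k) (ha : jFun τ₀ = ι a)
    (q : SL(2, ℤ) ⧸ CongruenceSubgroup.Gamma0 N)
    (x : ↥(laurentBaseChange k (modularFunctionFieldFull N))) :
    (finOrdFn N ι τ₀ a ha q).ord x = MerH.ordAt ((q.out)⁻¹ • τ₀) (realN ι N x) := by
  rw [finOrdFn_ord, ordAt_conjM]

/-- **(hE)** the order of `j - a` at the valuation attached to `τ₀` with `j(τ₀) = ι a`. -/
theorem finOrdFn_ord_jGen_sub (τ₀ : ℍ) (a : k) (ha : jFun τ₀ = ι a)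
    (q : SL(2, ℤ) ⧸ CongruenceSubgroup.Gamma0 N) :
    (finOrdFn N ι τ₀ a ha q).ord (jGen k N - algebraMap k _ a) =
      if ι a = 0 then 3 else if ι a = 1728 then 2 else 1 := by
  have hne : jHol - HolH.const (jFun τ₀) ≠ 0 := by
    intro h
    have h1 : jFun UpperHalfPlane.I - jFun τ₀ = 0 :=
      congrFun (congrArg Subtype.val h) UpperHalfPlane.I
    have h2 : jFun rhoH - jFun τ₀ = 0 := congrFun (congrArg Subtype.val h) rhoH
    rw [jFun_I] at h1
    rw [jFun_rhoH] at h2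
    have : (1728 : ℂ) = 0 := by linear_combination h1 - h2
    norm_num at this
  have himg : conjRealN N ι q (jGen k N - algebraMap k _ a) =
      MerH.ofHol (jHol - HolH.const (jFun τ₀)) := by
    rw [map_sub, conjRealN_jGen, conjRealN_algebraMap, ha, map_sub]
    rfl
  show MerH.ordAt τ₀ (conjRealN N ι q (jGen k N - algebraMap k _ a)) = _
  rw [himg, MerH.ordAt_ofHol hne, ord_jHol_sub_const, ha]
  split_ifs <;> norm_num

/-- **(hr)** the valuation only depends on the orbit of `q` under the stabiliser of `τ₀`. -/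
theorem finOrdFn_ord_smul {τ₀ : ℍ} (a : k) (ha : jFun τ₀ = ι a) {s : SL(2, ℤ)}
    (hs : s • τ₀ = τ₀) (q : SL(2, ℤ) ⧸ CongruenceSubgroup.Gamma0 N)
    (x : ↥(laurentBaseChange k (modularFunctionFieldFull N))) :
    (finOrdFn N ι τ₀ a ha (s • q)).ord x = (finOrdFn N ι τ₀ a ha q).ord x := by
  show MerH.ordAt τ₀ (conjRealN N ι (s • q) x) = MerH.ordAt τ₀ (conjRealN N ι q x)
  rw [conjRealN_smul, MerH.ordAt_comp]
  have : s⁻¹ • τ₀ = τ₀ := by
    conv_lhs => rw [← hs]
    rw [inv_smul_smul]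
  rw [this]

theorem finOrdFn_ord_of_orbitRel {τ₀ : ℍ} (a : k) (ha : jFun τ₀ = ι a) {s : SL(2, ℤ)}
    (hs : s • τ₀ = τ₀) {q q' : SL(2, ℤ) ⧸ CongruenceSubgroup.Gamma0 N}
    (h : MulAction.orbitRel (Subgroup.zpowers s) (SL(2, ℤ) ⧸ CongruenceSubgroup.Gamma0 N) q q')
    (x : ↥(laurentBaseChange k (modularFunctionFieldFull N))) :
    (finOrdFn N ι τ₀ a ha q).ord x = (finOrdFn N ι τ₀ a ha q').ord x := by
  rw [MulAction.orbitRel_apply] at h
  obtain ⟨⟨g, hg⟩, rfl⟩ := h
  obtain ⟨n, rfl⟩ := Subgroup.mem_zpowers_iff.mp hg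
  have hn : (s ^ n) • τ₀ = τ₀ := by
    have : s ∈ MulAction.stabilizer SL(2, ℤ) τ₀ := hs
    exact (MulAction.stabilizer SL(2, ℤ) τ₀).zpow_mem this n
  exact finOrdFn_ord_smul a ha hn q' x

/-- the conjugate indexed by a coset fixed by `s` is `s`-invariant. -/
theorem comp_conjRealN_of_smul_eq {s : SL(2, ℤ)} {q : SL(2, ℤ) ⧸ CongruenceSubgroup.Gamma0 N}
    (hq : s • q = q) (x : ↥(laurentBaseChange k (modularFunctionFieldFull N))) :
    MerH.comp s (conjRealN N ι q x) = conjRealN N ι q x := by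
  have h1 := conjRealN_smul N ι s q x
  rw [hq] at h1
  conv_lhs => rw [h1]
  rw [← MerH.comp_mul, inv_mul_cancel, MerH.comp_one]

theorem dvd_of_zpow_eq_one_of_prime {ζ : ℂ} {p : ℕ} [hp : Fact p.Prime] (h3 : ζ ^ p = 1)
    (h1 : ζ ≠ 1) {n : ℤ} (h : ζ ^ n = 1) : (p : ℤ) ∣ n := by
  have ho : orderOf ζ = p := orderOf_eq_prime h3 h1
  have hprim : IsPrimitiveRoot ζ p := ho ▸ IsPrimitiveRoot.orderOf ζ
  exact (hprim.zpow_eq_one_iff_dvd n).mp h

/-- **(hdiv)** at a coset fixed by the stabiliser `s` of `τ₀` all orders are divisible by the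
(prime) order `p` of the multiplier `(denom s τ₀)⁻²`. -/
theorem finOrdFn_dvd_of_fixed {τ₀ : ℍ} (a : k) (ha : jFun τ₀ = ι a) {s : SL(2, ℤ)}
    (hs : s • τ₀ = τ₀) {p : ℕ} [Fact p.Prime] (hζp : (((denom s τ₀) ^ 2)⁻¹ : ℂ) ^ p = 1)
    (hζ1 : (((denom s τ₀) ^ 2)⁻¹ : ℂ) ≠ 1) {q : SL(2, ℤ) ⧸ CongruenceSubgroup.Gamma0 N}
    (hq : s • q = q) (f : ↥(laurentBaseChange k (modularFunctionFieldFull N))) :
    (p : ℤ) ∣ (finOrdFn N ι τ₀ a ha q).ord f := by
  have h := MerH.zpow_ordAt_eq_one_of_comp_eq hs (comp_conjRealN_of_smul_eq (ι := ι) hq f)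
  exact dvd_of_zpow_eq_one_of_prime hζp hζ1 h

open ModularGroup in
theorem finOrdFn_two_dvd (a : k) (ha : jFun UpperHalfPlane.I = ι a)
    {q : SL(2, ℤ) ⧸ CongruenceSubgroup.Gamma0 N} (hq : S • q = q)
    (f : ↥(laurentBaseChange k (modularFunctionFieldFull N))) :
    (2 : ℤ) ∣ (finOrdFn N ι UpperHalfPlane.I a ha q).ord f := by
  have : Fact (Nat.Prime 2) := ⟨Nat.prime_two⟩
  have := finOrdFn_dvd_of_fixed (N := N) (ι := ι) a ha S_smul_I (p := 2)
    (by rw [inv_denom_S_I_sq]; norm_num) (by rw [inv_denom_S_I_sq]; norm_num) hq f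
  exact_mod_cast this

open ModularGroup in
theorem finOrdFn_three_dvd (a : k) (ha : jFun rhoH = ι a)
    {q : SL(2, ℤ) ⧸ CongruenceSubgroup.Gamma0 N} (hq : (S * T) • q = q)
    (f : ↥(laurentBaseChange k (modularFunctionFieldFull N))) :
    (3 : ℤ) ∣ (finOrdFn N ι rhoH a ha q).ord f := by
  have : Fact (Nat.Prime 3) := ⟨Nat.prime_three⟩
  have := finOrdFn_dvd_of_fixed (N := N) (ι := ι) a ha ST_smul_rhoH (p := 3)
    (by rw [inv_denom_ST_rhoH_sq]; exact rhoH_sq_pow_three)
    (by rw [inv_denom_ST_rhoH_sq]; exact rhoH_sq_ne_one) hq f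
  exact_mod_cast this

end Fin

section Count

open ModularGroup CongruenceSubgroup

variable {k : Type*} [Field k] [Algebra ℚ k] {N : ℕ} [NeZero N] (ι : k →+* ℂ)

theorem finPt_one_le_card_class {X : Type*} [Finite X] (r : Setoid X) (γ : X) :
    1 ≤ Nat.card {γ' // r γ' γ} := by
  have : Nonempty {γ' // r γ' γ} := ⟨⟨γ, r.refl γ⟩⟩
  exact Nat.card_pos

theorem finPt_two_le_card_class {X : Type*} [Finite X] (r : Setoid X) {γ γ₁ : X} (h1 : r γ₁ γ)
    (hne : γ₁ ≠ γ) : 2 ≤ Nat.card {γ' // r γ' γ} := by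
  have : Fintype {γ' // r γ' γ} := Fintype.ofFinite _
  rw [Nat.card_eq_fintype_card]
  have : 1 < Fintype.card {γ' // r γ' γ} := by
    rw [Fintype.one_lt_card_iff]
    exact ⟨⟨γ₁, h1⟩, ⟨γ, r.refl γ⟩, fun h => hne (congrArg Subtype.val h)⟩
  omega

theorem finPt_three_le_card_class {X : Type*} [Finite X] (r : Setoid X) {γ γ₁ γ₂ : X} (h1 : r γ₁ γ)
    (h2 : r γ₂ γ) (hne1 : γ₁ ≠ γ) (hne2 : γ₂ ≠ γ) (hne12 : γ₁ ≠ γ₂) :
    3 ≤ Nat.card {γ' // r γ' γ} := by
  have : Fintype {γ' // r γ' γ} := Fintype.ofFinite _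
  rw [Nat.card_eq_fintype_card]
  have : 2 < Fintype.card {γ' // r γ' γ} := by
    rw [Fintype.two_lt_card_iff]
    exact ⟨⟨γ₁, h1⟩, ⟨γ₂, h2⟩, ⟨γ, r.refl γ⟩, fun h => hne12 (congrArg Subtype.val h),
      fun h => hne1 (congrArg Subtype.val h), fun h => hne2 (congrArg Subtype.val h)⟩
  omega

theorem smul_orbitRel_zpowers {G X : Type*} [Group G] [MulAction G X] (s : G) (n : ℤ) (x : X) :
    MulAction.orbitRel (Subgroup.zpowers s) X ((s ^ n) • x) x := by
  rw [MulAction.orbitRel_apply]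
  exact ⟨⟨s ^ n, Subgroup.zpow_mem_zpowers s n⟩, rfl⟩

end Count

section Count2

open ModularGroup CongruenceSubgroup

variable {k : Type*} [Field k] [Algebra ℚ k] {N : ℕ} [NeZero N] (ι : k →+* ℂ)
variable [CharZero k] [IsAlgClosed k]
variable (c : Coord k ↥(laurentBaseChange k (modularFunctionFieldFull N)))

theorem finPt_card_quotient_bot (X : Type*) : Nat.card (Quotient (⊥ : Setoid X)) = Nat.card X := by
  refine (Nat.card_congr (Equiv.ofBijective (Quotient.mk (⊥ : Setoid X))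
    ⟨?_, Quotient.mk_surjective⟩)).symm
  intro x y h
  exact Quotient.exact h

/-- **Generic fibres**: over `a ≠ 0, 1728` there are exactly `[F : k(j)]` places, all simple zeros
of `j - a`. -/
theorem fin_squeeze_generic (hc : c.x = jGen k N)
    (hX : Nat.card (SL(2, ℤ) ⧸ Gamma0 N) = c.degree) (a : k) (h0 : a ≠ 0) (h1 : a ≠ 1728)
    (τ₀ : ℍ) (hτ : jFun τ₀ = ι a)
    (hint : ∀ (f : ↥(laurentBaseChange k (modularFunctionFieldFull N))), f ≠ 0 →
      (∀ q, 0 ≤ (finOrdFn N ι τ₀ a hτ q).ord f) → IsIntegral (c.localSubring a) f) :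
    (c.zeros a).card = c.degree ∧
      (∀ q, (finOrdFn N ι τ₀ a hτ q).toPlace.ord (c.x - algebraMap k _ a) = 1) ∧
      (∀ q q', (finOrdFn N ι τ₀ a hτ q).toPlace = (finOrdFn N ι τ₀ a hτ q').toPlace → q = q') ∧
      (∀ v ∈ c.zeros a, ∃ q, (finOrdFn N ι τ₀ a hτ q).toPlace = v) := by
  classical
  have hι0 : ι a ≠ 0 := (map_ne_zero_iff _ ι.injective).mpr h0
  have hι1 : ι a ≠ 1728 := by
    intro h
    apply h1
    apply ι.injective
    rw [h, map_ofNat]
  let _ : Fintype (SL(2, ℤ) ⧸ Gamma0 N) := Fintype.ofFinite _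
  have hX' : Fintype.card (SL(2, ℤ) ⧸ Gamma0 N) = c.degree := by
    rw [← Nat.card_eq_fintype_card, hX]
  have key := c.card_zeros_eq_card_quotient_ordFn a (⊥ : Setoid (SL(2, ℤ) ⧸ Gamma0 N)) hX'
    (fun q => finOrdFn N ι τ₀ a hτ q) (fun _ => 1) (fun _ => 1)
    (by
      intro q
      rw [hc, finOrdFn_ord_jGen_sub, if_neg hι0, if_neg hι1])
    (fun _ => one_pos) (fun _ => one_pos) (fun _ _ _ => one_dvd _)
    (by
      intro q
      have := finPt_one_le_card_class (⊥ : Setoid (SL(2, ℤ) ⧸ Gamma0 N)) q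
      simp only [one_mul]
      exact_mod_cast this)
    (by
      intro q q' h f _
      have : q = q' := h
      rw [this])
    hint
  obtain ⟨h1', h2', h3', h4'⟩ := key
  have hsub : ∀ q : SL(2, ℤ) ⧸ Gamma0 N,
      Nat.card {γ' // (⊥ : Setoid (SL(2, ℤ) ⧸ Gamma0 N)) γ' q} = 1 := by
    intro q
    have : Subsingleton {γ' // (⊥ : Setoid (SL(2, ℤ) ⧸ Gamma0 N)) γ' q} := by
      refine ⟨fun x y => Subtype.ext ?_⟩
      have hx : x.1 = q := x.2
      have hy : y.1 = q := y.2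
      rw [hx, hy]
    have : Nonempty {γ' // (⊥ : Setoid (SL(2, ℤ) ⧸ Gamma0 N)) γ' q} := ⟨⟨q, rfl⟩⟩
    exact Nat.card_unique
  refine ⟨?_, ?_, ?_, h4'⟩
  · rw [h1', ← hX, finPt_card_quotient_bot]
  · intro q
    rw [h2' q, hsub q]
    rfl
  · intro q q' h
    exact h3' q q' h

/-- **Generic fibres**: over `a ≠ 0, 1728` there are exactly `[F : k(j)]` places, all simple zeros
of `j - a`. -/
theorem finPt_card_zeros_generic (hc : c.x = jGen k N)
    (hX : Nat.card (SL(2, ℤ) ⧸ Gamma0 N) = c.degree) (a : k) (h0 : a ≠ 0) (h1 : a ≠ 1728)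
    (hint : ∀ (τ₀ : ℍ) (ha : jFun τ₀ = ι a)
      (f : ↥(laurentBaseChange k (modularFunctionFieldFull N))), f ≠ 0 →
      (∀ q, 0 ≤ (finOrdFn N ι τ₀ a ha q).ord f) → IsIntegral (c.localSubring a) f) :
    (c.zeros a).card = c.degree ∧
      ∀ v ∈ c.zeros a, v.ord (c.x - algebraMap k _ a) = 1 := by
  obtain ⟨τ₀, hτ⟩ := exists_jFun_eq (ι a)
  obtain ⟨h1', h2', -, h4'⟩ := fin_squeeze_generic ι c hc hX a h0 h1 τ₀ hτ (hint τ₀ hτ)
  refine ⟨h1', fun v hv => ?_⟩
  obtain ⟨q, rfl⟩ := h4' v hv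
  exact h2' q

theorem jFun_I_eq_map : jFun UpperHalfPlane.I = ι 1728 := by rw [jFun_I, map_ofNat]

theorem jFun_rhoH_eq_map : jFun rhoH = ι 0 := by rw [jFun_rhoH, map_zero]

theorem fin_squeeze_1728 (hc : c.x = jGen k N)
    (hX : Nat.card (SL(2, ℤ) ⧸ Gamma0 N) = c.degree)
    (hint : ∀ (f : ↥(laurentBaseChange k (modularFunctionFieldFull N))), f ≠ 0 →
      (∀ q, 0 ≤ (finOrdFn N ι UpperHalfPlane.I 1728 (jFun_I_eq_map ι) q).ord f) →
      IsIntegral (c.localSubring 1728) f) :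
    (c.zeros 1728).card =
        Nat.card (MulAction.orbitRel.Quotient (Subgroup.zpowers S) (SL(2, ℤ) ⧸ Gamma0 N)) ∧
      (∀ q, (finOrdFn N ι UpperHalfPlane.I 1728 (jFun_I_eq_map ι) q).toPlace.ord
        (c.x - algebraMap k _ 1728) = Nat.card {q' // MulAction.orbitRel (Subgroup.zpowers S)
          (SL(2, ℤ) ⧸ Gamma0 N) q' q}) ∧
      (∀ q q', (finOrdFn N ι UpperHalfPlane.I 1728 (jFun_I_eq_map ι) q).toPlace =
        (finOrdFn N ι UpperHalfPlane.I 1728 (jFun_I_eq_map ι) q').toPlace →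
        MulAction.orbitRel (Subgroup.zpowers S) (SL(2, ℤ) ⧸ Gamma0 N) q q') ∧
      (∀ v ∈ c.zeros 1728, ∃ q,
        (finOrdFn N ι UpperHalfPlane.I 1728 (jFun_I_eq_map ι) q).toPlace = v) := by
  classical
  have hτ : jFun UpperHalfPlane.I = ι 1728 := jFun_I_eq_map ι
  have hι0 : ι 1728 ≠ 0 := by rw [map_ofNat]; norm_num
  have hι1 : ι 1728 = 1728 := map_ofNat ι 1728
  let _ : Fintype (SL(2, ℤ) ⧸ Gamma0 N) := Fintype.ofFinite _
  have hX' : Fintype.card (SL(2, ℤ) ⧸ Gamma0 N) = c.degree := by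
    rw [← Nat.card_eq_fintype_card, hX]
  have key := c.card_zeros_eq_card_quotient_ordFn (1728 : k)
    (MulAction.orbitRel (Subgroup.zpowers S) (SL(2, ℤ) ⧸ Gamma0 N)) hX'
    (fun q => finOrdFn N ι UpperHalfPlane.I 1728 hτ q) (fun _ => 2)
    (fun q => if S • q = q then 2 else 1)
    (by
      intro q
      rw [hc, finOrdFn_ord_jGen_sub, if_neg hι0, if_pos hι1])
    (fun _ => two_pos) (fun q => by split_ifs <;> norm_num)
    (by
      intro q f _
      split_ifs with hq
      · exact finOrdFn_two_dvd 1728 hτ hq f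
      · exact one_dvd _)
    (by
      intro q
      split_ifs with hq
      · have := finPt_one_le_card_class
          (MulAction.orbitRel (Subgroup.zpowers S) (SL(2, ℤ) ⧸ Gamma0 N)) q
        have : (1 : ℤ) ≤ Nat.card {γ' // MulAction.orbitRel (Subgroup.zpowers S)
          (SL(2, ℤ) ⧸ Gamma0 N) γ' q} := by exact_mod_cast this
        linarith
      · have h1 := smul_orbitRel_zpowers (X := SL(2, ℤ) ⧸ Gamma0 N) S 1 q
        rw [zpow_one] at h1
        have := finPt_two_le_card_class _ h1 hq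
        have : (2 : ℤ) ≤ Nat.card {γ' // MulAction.orbitRel (Subgroup.zpowers S)
          (SL(2, ℤ) ⧸ Gamma0 N) γ' q} := by exact_mod_cast this
        linarith)
    (by
      intro q q' h f _
      exact finOrdFn_ord_of_orbitRel 1728 hτ S_smul_I h f)
    hint
  exact key

/-- **The fibre over `1728`**: its places correspond to the `⟨S⟩`-orbits on the cosets. -/
theorem finPt_card_zeros_1728 (hc : c.x = jGen k N)
    (hX : Nat.card (SL(2, ℤ) ⧸ Gamma0 N) = c.degree)
    (hint : ∀ (ha : jFun UpperHalfPlane.I = ι 1728)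
      (f : ↥(laurentBaseChange k (modularFunctionFieldFull N))), f ≠ 0 →
      (∀ q, 0 ≤ (finOrdFn N ι UpperHalfPlane.I 1728 ha q).ord f) →
      IsIntegral (c.localSubring 1728) f) :
    (c.zeros 1728).card =
      Nat.card (MulAction.orbitRel.Quotient (Subgroup.zpowers S) (SL(2, ℤ) ⧸ Gamma0 N)) :=
  (fin_squeeze_1728 ι c hc hX (hint _)).1

theorem fin_squeeze_zero (hc : c.x = jGen k N)
    (hX : Nat.card (SL(2, ℤ) ⧸ Gamma0 N) = c.degree)
    (hint : ∀ (f : ↥(laurentBaseChange k (modularFunctionFieldFull N))), f ≠ 0 →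
      (∀ q, 0 ≤ (finOrdFn N ι rhoH 0 (jFun_rhoH_eq_map ι) q).ord f) →
      IsIntegral (c.localSubring 0) f) :
    (c.zeros 0).card =
        Nat.card (MulAction.orbitRel.Quotient (Subgroup.zpowers (S * T))
          (SL(2, ℤ) ⧸ Gamma0 N)) ∧
      (∀ q, (finOrdFn N ι rhoH 0 (jFun_rhoH_eq_map ι) q).toPlace.ord
        (c.x - algebraMap k _ 0) = Nat.card {q' // MulAction.orbitRel (Subgroup.zpowers (S * T))
          (SL(2, ℤ) ⧸ Gamma0 N) q' q}) ∧
      (∀ q q', (finOrdFn N ι rhoH 0 (jFun_rhoH_eq_map ι) q).toPlace =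
        (finOrdFn N ι rhoH 0 (jFun_rhoH_eq_map ι) q').toPlace →
        MulAction.orbitRel (Subgroup.zpowers (S * T)) (SL(2, ℤ) ⧸ Gamma0 N) q q') ∧
      (∀ v ∈ c.zeros 0, ∃ q, (finOrdFn N ι rhoH 0 (jFun_rhoH_eq_map ι) q).toPlace = v) := by
  classical
  have hτ : jFun rhoH = ι 0 := jFun_rhoH_eq_map ι
  have hι0 : ι 0 = 0 := map_zero ι
  let _ : Fintype (SL(2, ℤ) ⧸ Gamma0 N) := Fintype.ofFinite _
  have hX' : Fintype.card (SL(2, ℤ) ⧸ Gamma0 N) = c.degree := by
    rw [← Nat.card_eq_fintype_card, hX]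
  have key := c.card_zeros_eq_card_quotient_ordFn (0 : k)
    (MulAction.orbitRel (Subgroup.zpowers (S * T)) (SL(2, ℤ) ⧸ Gamma0 N)) hX'
    (fun q => finOrdFn N ι rhoH 0 hτ q) (fun _ => 3)
    (fun q => if (S * T) • q = q then 3 else 1)
    (by
      intro q
      rw [hc, finOrdFn_ord_jGen_sub, if_pos hι0])
    (fun _ => by norm_num) (fun q => by split_ifs <;> norm_num)
    (by
      intro q f _
      split_ifs with hq
      · exact finOrdFn_three_dvd 0 hτ hq f
      · exact one_dvd _)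
    (by
      intro q
      split_ifs with hq
      · have := finPt_one_le_card_class
          (MulAction.orbitRel (Subgroup.zpowers (S * T)) (SL(2, ℤ) ⧸ Gamma0 N)) q
        have : (1 : ℤ) ≤ Nat.card {γ' // MulAction.orbitRel (Subgroup.zpowers (S * T))
          (SL(2, ℤ) ⧸ Gamma0 N) γ' q} := by exact_mod_cast this
        linarith
      · have h1 := smul_orbitRel_zpowers (X := SL(2, ℤ) ⧸ Gamma0 N) (S * T) 1 q
        have h2 := smul_orbitRel_zpowers (X := SL(2, ℤ) ⧸ Gamma0 N) (S * T) 2 q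
        rw [zpow_one] at h1
        have h2' : ((S * T) ^ (2 : ℤ)) • q = (S * T) • (S * T) • q := by
          rw [← mul_smul]; congr 1
          exact zpow_two (S * T)
        rw [h2'] at h2
        have hne2 : (S * T) • (S * T) • q ≠ q := by
          intro h
          apply hq
          have h3 : ((S * T) ^ 3) • q = (S * T) • q := by
            have e : (S * T) ^ 3 = (S * T) * ((S * T) * (S * T)) := by
              rw [pow_succ', pow_two]
            rw [e, mul_smul (S * T) ((S * T) * (S * T)), mul_smul (S * T) (S * T), h]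
          rw [ST_cube, neg_one_smul_coset] at h3
          exact h3.symm
        have hne12 : (S * T) • q ≠ (S * T) • (S * T) • q := by
          intro h
          exact hq (smul_left_cancel _ h).symm
        have := finPt_three_le_card_class _ h1 h2 hq hne2 hne12
        have : (3 : ℤ) ≤ Nat.card {γ' // MulAction.orbitRel (Subgroup.zpowers (S * T))
          (SL(2, ℤ) ⧸ Gamma0 N) γ' q} := by exact_mod_cast this
        linarith)
    (by
      intro q q' h f _
      exact finOrdFn_ord_of_orbitRel 0 hτ ST_smul_rhoH h f)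
    hint
  exact key

/-- **The fibre over `0`**: its places correspond to the `⟨ST⟩`-orbits on the cosets. -/
theorem finPt_card_zeros_zero (hc : c.x = jGen k N)
    (hX : Nat.card (SL(2, ℤ) ⧸ Gamma0 N) = c.degree)
    (hint : ∀ (ha : jFun rhoH = ι 0)
      (f : ↥(laurentBaseChange k (modularFunctionFieldFull N))), f ≠ 0 →
      (∀ q, 0 ≤ (finOrdFn N ι rhoH 0 ha q).ord f) →
      IsIntegral (c.localSubring 0) f) :
    (c.zeros 0).card =
      Nat.card (MulAction.orbitRel.Quotient (Subgroup.zpowers (S * T))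
        (SL(2, ℤ) ⧸ Gamma0 N)) :=
  (fin_squeeze_zero ι c hc hX (hint _)).1

/-- helper1's `jBar N` is `jGen ℚ̄ N`. -/
theorem jBar_eq_jGen (N : ℕ) [NeZero N] : jBar N = jGen (AlgebraicClosure ℚ) N := rfl

end Count2

end Fermat.Agent.X0N
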