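/-
X0N project (helper7): the fibres of `j : X₀(N) → X(1)` over the finite points, unconditional.
helper8's squeeze instantiations (`FinPt_helper8`) with the integrality input discharged by
helper2's descent (`SYM_helper2_Final`).
-/
import Mathlib
import Fermat.Agent.X0N.FinPt_helper8
import Fermat.Agent.X0N.SYM_helper2_Final

set_option autoImplicit false

open AlgebraicCurve CongruenceSubgroup MatrixGroups ModularGroup ModularCurve UpperHalfPlane

namespace Fermat.Agent.X0N

open Fermat.Agent.FF

section FinitePoints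

variable {k : Type*} [Field k] [Algebra ℚ k] [Algebra k ℂ] {N : ℕ} [NeZero N]

/-- The generator `j` of the function field of `X₀(N)` over `k` is realised by `j`. -/
theorem realN_jGen_algebraMap_eq_jM : realN (algebraMap k ℂ) N (jGen k N) = jM :=
  realN_jGen N (algebraMap k ℂ)

variable [CharZero k] [IsAlgClosed k]
  (c : Coord k ↥(laurentBaseChange k (modularFunctionFieldFull N)))

/-- **Generic fibres** of `j` on `X₀(N)`: `ψ(N)` points. -/
theorem card_zeros_generic_of_coord (hc : c.x = jGen k N)
    (hX : Nat.card (SL(2, ℤ) ⧸ Gamma0 N) = c.degree) (a : k) (h0 : a ≠ 0) (h1 : a ≠ 1728) :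
    (c.zeros a).card = c.degree :=
  (finPt_card_zeros_generic (algebraMap k ℂ) c hc hX a h0 h1
    (fun _τ₀ ha _f _ hf =>
      isIntegral_localSubring_of_regular' N c (hc ▸ realN_jGen_algebraMap_eq_jM) ha
        (fun q => hf q))).1

/-- **The fibre over `1728`**: the `⟨S⟩`-orbits on the cosets. -/
theorem card_zeros_1728_of_coord (hc : c.x = jGen k N)
    (hX : Nat.card (SL(2, ℤ) ⧸ Gamma0 N) = c.degree) :
    (c.zeros 1728).card =
      Nat.card (MulAction.orbitRel.Quotient (Subgroup.zpowers S) (SL(2, ℤ) ⧸ Gamma0 N)) :=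
  finPt_card_zeros_1728 (algebraMap k ℂ) c hc hX
    (fun ha _f _ hf =>
      isIntegral_localSubring_of_regular' N c (hc ▸ realN_jGen_algebraMap_eq_jM) ha
        (fun q => hf q))

/-- **The fibre over `0`**: the `⟨ST⟩`-orbits on the cosets. -/
theorem card_zeros_zero_of_coord (hc : c.x = jGen k N)
    (hX : Nat.card (SL(2, ℤ) ⧸ Gamma0 N) = c.degree) :
    (c.zeros 0).card =
      Nat.card (MulAction.orbitRel.Quotient (Subgroup.zpowers (S * T)) (SL(2, ℤ) ⧸ Gamma0 N)) :=
  finPt_card_zeros_zero (algebraMap k ℂ) c hc hX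
    (fun ha _f _ hf =>
      isIntegral_localSubring_of_regular' N c (hc ▸ realN_jGen_algebraMap_eq_jM) ha
        (fun q => hf q))

end FinitePoints

end Fermat.Agent.X0N
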