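/-
X0N project (helper7): the genus of the function field of `X₀(N)` over ANY algebraically closed
subfield `k ⊆ ℂ` (in particular over `ℂ` itself, for S20), unconditional.
-/
import Mathlib
import Fermat.Agent.X0N.S24_helper7_Assembly
import Fermat.Agent.X0N.S24_helper7_Finite
import Fermat.Agent.X0N.Cusp_helper9_Int
import Fermat.Agent.X0N.Mer_helper6_Degree
import Fermat.Agent.FF.Canonical

set_option autoImplicit false
set_option linter.unusedSectionVars false

open AlgebraicCurve CongruenceSubgroup MatrixGroups ModularGroup ModularCurve IntermediateField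

namespace Fermat.Agent.X0N

open Fermat.Agent.FF

section Generic

variable (k : Type*) [Field k] [Algebra ℚ k] [Algebra k ℂ] [IsScalarTower ℚ k ℂ]
  (N : ℕ) [NeZero N]

/-- **The degree of the function field of `X₀(N)` over `k(j)` is `ψ(N)`**, for every field
`ℚ ⊆ k ⊆ ℂ`. -/
theorem finrank_laurentBaseChange_full_eq :
    Module.Finite k⟮jGen k N⟯ ↥(laurentBaseChange k (modularFunctionFieldFull N)) ∧
      Module.finrank k⟮jGen k N⟯ ↥(laurentBaseChange k (modularFunctionFieldFull N)) =
        dedekindPsi N := by
  rw [← index_Gamma0 N]
  exact finrank_laurentBaseChange_eq (K := k) (L := ℂ) (modularFunctionFieldFull N)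
    (jq_mem_full N) transcendental_jq (jqN_mem_full N) _
    (card_le_index_of_linearIndependent_laurent N) (linearIndependent_pow_jqN N)

/-- The `j`-coordinate on the function field of `X₀(N)` over `k`. -/
noncomputable def jCoordK : Coord k ↥(laurentBaseChange k (modularFunctionFieldFull N)) where
  x := jGen k N
  trans := by
    have h := transcendental_coeffEmb_jq k
    exact (transcendental_algebraMap_iff
      (algebraMap ↥(laurentBaseChange k (modularFunctionFieldFull N))
        (LaurentSeries k)).injective).mp h
  fin := (finrank_laurentBaseChange_full_eq k N).1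

@[simp] theorem jCoordK_x : (jCoordK k N).x = jGen k N := rfl

theorem jCoordK_degree : (jCoordK k N).degree = dedekindPsi N :=
  (finrank_laurentBaseChange_full_eq k N).2

variable [CharZero k] [IsAlgClosed k]

/-- **Genus of `X₀(N)` over any algebraically closed `k ⊆ ℂ`** (for any canonical-divisor
instance). -/
theorem genus_laurentBaseChange_full_eq
    [HasCanonicalDivisor (K := k) (F := ↥(laurentBaseChange k (modularFunctionFieldFull N)))] :
    (genus k ↥(laurentBaseChange k (modularFunctionFieldFull N)) : ℚ) = genusFormula N := by
  have hX : Nat.card (SL(2, ℤ) ⧸ Gamma0 N) = (jCoordK k N).degree := by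
    rw [jCoordK_degree, card_cosets_eq_dedekindPsi]
  exact genus_eq_genusFormula_of_counts N (jCoordK k N) (jCoordK_degree k N)
    (fun a h0 h1 => card_zeros_generic_of_coord (jCoordK k N) rfl hX a h0 h1)
    (card_zeros_1728_of_coord (jCoordK k N) rfl hX)
    (card_zeros_zero_of_coord (jCoordK k N) rfl hX)
    (card_poles_eq_card_cusps_jK N (jCoordK k N) rfl (jCoordK_degree k N))

/-- The function field of `X₀(N)` over `k` has canonical divisors. -/
theorem hasCanonicalDivisor_laurentBaseChange_full :
    HasCanonicalDivisor (K := k) (F := ↥(laurentBaseChange k (modularFunctionFieldFull N))) :=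
  (jCoordK k N).hasCanonicalDivisor

end Generic

/-- **Genus of `X₀(N)` over `ℂ`**: the function field `ℂ(j(q^d) : d ∣ N) ⊆ ℂ((q))` has genus
`genusFormula N` (with respect to the canonical-divisor instance provided by
`hasCanonicalDivisor_laurentBaseChange_full`). -/
theorem genus_complex_eq_genusFormula (N : ℕ) [NeZero N] :
    (@genus ℂ ↥(laurentBaseChange ℂ (modularFunctionFieldFull N)) _ _ _
      (hasCanonicalDivisor_laurentBaseChange_full ℂ N) : ℚ) = genusFormula N :=
  @genus_laurentBaseChange_full_eq ℂ _ _ _ _ N _ _ _
    (hasCanonicalDivisor_laurentBaseChange_full ℂ N)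

end Fermat.Agent.X0N
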