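/-
helper5: S21 (Eichler–Shimura), part 1: the canonical equivariant primitive of a weight 2 cusp
form, uniqueness, the explicit period map and its linearity.
-/
import Mathlib
import Fermat.Prelude.Def_ModularCurve_PeriodHomPair
import Fermat.Agent.S22.Prim
import Fermat.Agent.S22.Decay

set_option autoImplicit false
set_option linter.unusedSectionVars false

open Complex Filter Topology Set ModularForm CongruenceSubgroup
open UpperHalfPlane hiding I
open scoped MatrixGroups
open Fermat.Agent.S22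

namespace Fermat.Agent.X0N.ES

/-- Exponential decay at `i∞`, uniformly in the real part. -/
def UDecay (h : ℍ → ℂ) : Prop :=
  ∃ C c A : ℝ, 0 < c ∧ ∀ τ : ℍ, A ≤ τ.im → ‖h τ‖ ≤ C * Real.exp (-c * τ.im)

theorem UDecay.stripDecay {h : ℍ → ℂ} (hd : UDecay h) : StripDecay h := by
  obtain ⟨C, c, A, hc, hb⟩ := hd
  exact fun _ => ⟨C, c, A, hc, fun τ _ h2 => hb τ h2⟩

/-- A primitive of a uniformly exponentially decaying function converges at `i∞`, uniformly in
the real part. -/
theorem exists_tendsto_atImInfty_of_isPrim {G h : ℍ → ℂ} (hG : IsPrim G h) (hd : UDecay h) :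
    ∃ L : ℂ, Tendsto G atImInfty (𝓝 L) := by
  obtain ⟨L, hL⟩ := hG.exists_hasVLim hd.stripDecay
  obtain ⟨C, c, A, hc, hb⟩ := hd
  refine ⟨L, ?_⟩
  rw [tendsto_iff_norm_sub_tendsto_zero]
  have hbd : Tendsto (fun τ : ℍ => C / c * Real.exp (-c * τ.im)) atImInfty (𝓝 0) := by
    have h1 : Tendsto (fun τ : ℍ => τ.im) atImInfty atTop := tendsto_comap
    have h2 : Tendsto (fun t : ℝ => Real.exp (-c * t)) atTop (𝓝 0) := by
      have : Tendsto (fun t : ℝ => -c * t) atTop atBot :=
        (tendsto_id.const_mul_atTop_of_neg (by linarith : -c < 0))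
      exact Real.tendsto_exp_atBot.comp this
    simpa using ((h2.comp h1).const_mul (C / c))
  refine squeeze_zero' (Eventually.of_forall fun _ => norm_nonneg _) ?_ hbd
  have hev : ∀ᶠ τ : ℍ in atImInfty, A ≤ τ.im := by
    rw [Filter.Eventually, UpperHalfPlane.atImInfty_mem]
    exact ⟨A, fun τ hτ => hτ⟩
  filter_upwards [hev] with τ hτ
  exact hG.norm_sub_le_of_hasVLim hL (A := |τ.re|) hc (fun τ' _ h2 => hb τ' h2) τ le_rfl hτ


/-- Chain rule for the action of `SL(2, ℤ)` in terms of the weight 2 slash action. -/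
theorem isPrim_comp_SL {G h : ℍ → ℂ} (hG : IsPrim G h) (δ : SL(2, ℤ)) :
    IsPrim (fun τ => G (δ • τ)) (h ∣[(2 : ℤ)] δ) := by
  have hdet : ((δ : GL (Fin 2) ℝ) : Matrix (Fin 2) (Fin 2) ℝ).det = 1 := by
    have h := Matrix.SpecialLinearGroup.det_mapGL (S := ℝ) δ
    have h2 := congrArg Units.val h
    rwa [Matrix.GeneralLinearGroup.val_det_apply] at h2
  have h1 := hG.comp_smul (g := (δ : GL (Fin 2) ℝ)) (by rw [hdet]; exact one_pos)
  refine (h1.congr fun τ => ?_)
  rw [hdet, SL_slash_apply]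
  have hd : denom δ τ ≠ 0 := denom_ne_zero δ τ
  show h ((δ : GL (Fin 2) ℝ) • τ) * (((1 : ℝ) : ℂ) / denom (δ : GL (Fin 2) ℝ) τ ^ 2)
      = h (δ • τ) * denom δ τ ^ (-2 : ℤ)
  rw [ofReal_one, zpow_neg, one_div]
  rfl

variable {N : ℕ} [NeZero N]

theorem exists_isPrim_cuspForm (f : CuspForm (Gamma0 N) 2) : ∃ G : ℍ → ℂ, IsPrim G ⇑f :=
  exists_isPrim (UpperHalfPlane.mdifferentiable_iff.mp (CuspFormClass.holo f))

theorem uDecay_slash (f : CuspForm (Gamma0 N) 2) (δ : SL(2, ℤ)) : UDecay (⇑f ∣[(2 : ℤ)] δ) :=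
  exists_exp_decay_slash_of_mem f (coe_SL_mem_ratSubgroup δ)

theorem uDecay_cuspForm (f : CuspForm (Gamma0 N) 2) : UDecay ⇑f := by
  have := uDecay_slash f 1
  simpa using this

theorem exists_canonPrim (f : CuspForm (Gamma0 N) 2) :
    ∃ F : ℍ → ℂ, IsPrim F ⇑f ∧ Tendsto F atImInfty (𝓝 0) := by
  obtain ⟨G, hG⟩ := exists_isPrim_cuspForm f
  obtain ⟨L, hL⟩ := exists_tendsto_atImInfty_of_isPrim hG (uDecay_cuspForm f)
  refine ⟨fun τ => G τ + (-L), hG.add_const (-L), ?_⟩
  have := hL.add_const (-L)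
  rwa [add_neg_cancel] at this

/-- The canonical primitive of a weight 2 cusp form: `F' = f` and `F → 0` at `i∞`. -/
noncomputable def canonPrim (f : CuspForm (Gamma0 N) 2) : ℍ → ℂ := (exists_canonPrim f).choose

theorem canonPrim_isPrim (f : CuspForm (Gamma0 N) 2) : IsPrim (canonPrim f) ⇑f :=
  (exists_canonPrim f).choose_spec.1

theorem canonPrim_tendsto (f : CuspForm (Gamma0 N) 2) :
    Tendsto (canonPrim f) atImInfty (𝓝 0) :=
  (exists_canonPrim f).choose_spec.2

/-- Uniqueness of the primitive vanishing at `i∞`. -/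
theorem eq_canonPrim (f : CuspForm (Gamma0 N) 2) {F : ℍ → ℂ} (hF : IsPrim F ⇑f)
    (h0 : Tendsto F atImInfty (𝓝 0)) : F = canonPrim f := by
  obtain ⟨c, hc⟩ := hF.exists_eq_add_const (canonPrim_isPrim f)
  have h1 : Tendsto (fun τ => F τ - canonPrim f τ) atImInfty (𝓝 (0 - 0)) :=
    h0.sub (canonPrim_tendsto f)
  have h2 : (fun τ => F τ - canonPrim f τ) = fun _ => c := by
    ext τ; rw [hc τ]; ring
  rw [h2, sub_zero] at h1
  have hc0 : c = 0 := tendsto_nhds_unique tendsto_const_nhds h1
  ext τ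
  rw [hc τ, hc0, add_zero]

/-- Equivariance of the canonical primitive under `Γ₀(N)`. -/
theorem canonPrim_equivariant (f : CuspForm (Gamma0 N) 2) :
    ModularCurve.Period.IsEquivariantPrimitive (Gamma0 N) (canonPrim f) := by
  intro γ
  have h1 := isPrim_comp_SL (canonPrim_isPrim f) (γ : SL(2, ℤ))
  have hinv : (⇑f ∣[(2 : ℤ)] (γ : SL(2, ℤ))) = ⇑f := by
    have := SlashInvariantFormClass.slash_action_eq f ((γ : SL(2, ℤ)) : GL (Fin 2) ℝ)
      (Subgroup.mem_map_of_mem _ γ.2)
    exact this
  rw [hinv] at h1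
  obtain ⟨c, hc⟩ := h1.exists_eq_add_const (canonPrim_isPrim f)
  exact ⟨c, fun z => by rw [hc z]; ring⟩

/-- The canonical primitive has a limit at every cusp. -/
theorem canonPrim_cusp_limit (f : CuspForm (Gamma0 N) 2) (δ : SL(2, ℤ)) :
    ∃ L : ℂ, Tendsto (fun w : ℍ => canonPrim f (δ • w)) atImInfty (𝓝 L) :=
  exists_tendsto_atImInfty_of_isPrim (isPrim_comp_SL (canonPrim_isPrim f) δ) (uDecay_slash f δ)

theorem hasEquivariantPrimitive_canonPrim (f : CuspForm (Gamma0 N) 2) :
    ModularCurve.HasEquivariantPrimitive N f (canonPrim f) :=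
  ⟨canonPrim_isPrim f, canonPrim_tendsto f, canonPrim_equivariant f, canonPrim_cusp_limit f⟩

theorem eq_canonPrim_of_hasEquivariantPrimitive (f : CuspForm (Gamma0 N) 2) {F : ℍ → ℂ}
    (hF : ModularCurve.HasEquivariantPrimitive N f F) : F = canonPrim f :=
  eq_canonPrim f hF.1 hF.2.1

/-- Explicit formula for the period map. -/
theorem periodMap_apply (f : CuspForm (Gamma0 N) 2) (γ : Gamma0 N) :
    ModularCurve.periodMap N f (Additive.ofMul γ) =
      canonPrim f ((γ : SL(2, ℤ)) • UpperHalfPlane.I) - canonPrim f UpperHalfPlane.I := by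
  obtain ⟨F₀, h₀, hP⟩ := ModularCurve.periodMap_def N f (hasEquivariantPrimitive_canonPrim f)
  rw [hP, ModularCurve.Period.IsEquivariantPrimitive.periodHom_apply,
    ModularCurve.Period.IsEquivariantPrimitive.period]
  rw [eq_canonPrim_of_hasEquivariantPrimitive f h₀]

/-- The period map evaluated via any base point. -/
theorem periodMap_apply' (f : CuspForm (Gamma0 N) 2) (γ : Gamma0 N) (z : ℍ) :
    ModularCurve.periodMap N f (Additive.ofMul γ) =
      canonPrim f ((γ : SL(2, ℤ)) • z) - canonPrim f z := by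
  rw [periodMap_apply]
  have h := canonPrim_equivariant f
  rw [h.sub_eq_period γ z]
  rfl


/-! ### Linearity -/

theorem canonPrim_add (f g : CuspForm (Gamma0 N) 2) :
    canonPrim (f + g) = canonPrim f + canonPrim g := by
  symm
  apply eq_canonPrim
  · have := (canonPrim_isPrim f).add (canonPrim_isPrim g)
    exact this
  · have := (canonPrim_tendsto f).add (canonPrim_tendsto g)
    rw [add_zero] at this
    exact this

theorem canonPrim_smul (c : ℂ) (f : CuspForm (Gamma0 N) 2) :
    canonPrim (c • f) = c • canonPrim f := by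
  symm
  apply eq_canonPrim
  · have := (canonPrim_isPrim f).const_smul c
    exact this
  · have := (canonPrim_tendsto f).const_smul c
    rw [smul_zero] at this
    exact this

theorem periodMap_add (f g : CuspForm (Gamma0 N) 2) :
    ModularCurve.periodMap N (f + g) = ModularCurve.periodMap N f + ModularCurve.periodMap N g := by
  refine AddMonoidHom.ext fun γ => ?_
  obtain ⟨γ, rfl⟩ := Additive.ofMul.surjective γ
  rw [AddMonoidHom.add_apply, periodMap_apply, periodMap_apply, periodMap_apply, canonPrim_add]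
  simp only [Pi.add_apply]
  ring

theorem periodMap_smul (c : ℂ) (f : CuspForm (Gamma0 N) 2) :
    ModularCurve.periodMap N (c • f) = c • ModularCurve.periodMap N f := by
  refine AddMonoidHom.ext fun γ => ?_
  obtain ⟨γ, rfl⟩ := Additive.ofMul.surjective γ
  rw [AddMonoidHom.smul_apply, periodMap_apply, periodMap_apply, canonPrim_smul]
  simp only [Pi.smul_apply, smul_eq_mul]
  ring

/-- The period map as a `ℂ`-linear map. -/
noncomputable def periodMapLinear (N : ℕ) [NeZero N] :
    CuspForm (Gamma0 N) 2 →ₗ[ℂ] (Additive (Gamma0 N) →+ ℂ) where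
  toFun := ModularCurve.periodMap N
  map_add' := periodMap_add
  map_smul' := periodMap_smul

theorem existsPeriodMapLinear (N : ℕ) [NeZero N] : ModularCurve.ExistsPeriodMapLinear N :=
  ⟨periodMapLinear N, fun _ => rfl⟩

/-- Explicit description of the Prelude's `periodHomPair`. -/
theorem periodHomPair_apply (N : ℕ) [NeZero N] (f g : CuspForm (Gamma0 N) 2) :
    ModularCurve.periodHomPair N (f, g) =
      (ModularCurve.periodMap N f +
          ModularCurve.Period.charInvolution N ℂ ℂ (ModularCurve.periodMap N f)) +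
        (ModularCurve.periodMap N g -
          ModularCurve.Period.charInvolution N ℂ ℂ (ModularCurve.periodMap N g)) := by
  obtain ⟨pml, hpml, hP⟩ := ModularCurve.periodHomPair_def N (existsPeriodMapLinear N)
  rw [hP]
  simp [LinearMap.coprod_apply, hpml]

end Fermat.Agent.X0N.ES
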