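/-
helper5: S21 (Eichler–Shimura), part 2: periods of cusp forms vanish on parabolic elements;
the image of the period map consists of parabolic homomorphisms.
-/
import Mathlib
import Fermat.Agent.X0N.ES_helper5_Prim

set_option autoImplicit false
set_option linter.unusedSectionVars false

open Complex Filter Topology Set ModularForm CongruenceSubgroup Matrix
open UpperHalfPlane hiding I
open scoped MatrixGroups
open Fermat.Agent.S22

namespace Fermat.Agent.X0N.ES

/-- An element of `SL(2, ℤ)` fixing (up to sign) a primitive integral vector is conjugate to an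
upper triangular matrix. -/
theorem exists_conj_upper_of_eigenvector (γ : SL(2, ℤ)) {p q ε : ℤ} (hpq : IsCoprime p q)
    (h1 : γ 0 0 * p + γ 0 1 * q = ε * p) (h2 : γ 1 0 * p + γ 1 1 * q = ε * q) :
    ∃ δ : SL(2, ℤ), (δ⁻¹ * γ * δ) 1 0 = 0 := by
  obtain ⟨δ, hδ0, hδ1⟩ := hpq.exists_SL2_col 0
  refine ⟨δ, ?_⟩
  rw [Matrix.SpecialLinearGroup.SL2_inv_expl δ]
  simp only [Matrix.SpecialLinearGroup.coe_mul, Matrix.mul_apply, Fin.sum_univ_two]
  simp only [Matrix.cons_val_zero, Matrix.cons_val_one,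
    Matrix.cons_val', Matrix.cons_val_fin_one]
  rw [hδ0, hδ1]
  linear_combination (-q) * h1 + p * h2

/-- An element of `SL(2, ℤ)` with `trace ^ 2 = 4` is, as a transformation of `ℍ`, conjugate to a
translation. -/
theorem exists_conj_translation (γ : SL(2, ℤ))
    (htr : (γ : Matrix (Fin 2) (Fin 2) ℤ).trace ^ 2 = 4) :
    ∃ (δ : SL(2, ℤ)) (n : ℤ), ∀ w : ℍ, γ • (δ • w) = δ • (ModularGroup.T ^ n • w) := by
  have hdet : γ 0 0 * γ 1 1 - γ 0 1 * γ 1 0 = 1 := by
    have := γ.det_coe
    rwa [Matrix.det_fin_two] at this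
  rw [Matrix.trace_fin_two] at htr
  -- the sign
  obtain ⟨ε, hε, htrε⟩ : ∃ ε : ℤ, ε ^ 2 = 1 ∧ γ 0 0 + γ 1 1 = 2 * ε := by
    have h4 : (γ 0 0 + γ 1 1 - 2) * (γ 0 0 + γ 1 1 + 2) = 0 := by linear_combination htr
    rcases mul_eq_zero.mp h4 with h | h
    · exact ⟨1, by norm_num, by linarith⟩
    · exact ⟨-1, by norm_num, by linarith⟩
  -- existence of the upper triangular conjugate
  have hconj : ∃ δ : SL(2, ℤ), (δ⁻¹ * γ * δ) 1 0 = 0 := by
    by_cases hv1 : γ 0 1 = 0 ∧ ε - γ 0 0 = 0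
    · by_cases hv2 : ε - γ 1 1 = 0 ∧ γ 1 0 = 0
      · -- `γ = ε`
        refine ⟨1, ?_⟩
        simp only [inv_one, one_mul, mul_one]
        exact hv2.2
      · -- the vector `(ε - d, c)`
        set g := Int.gcd (ε - γ 1 1) (γ 1 0) with hg
        have hgpos : 0 < g := by
          rw [hg, Int.gcd_pos_iff]
          by_contra hcon
          push Not at hcon
          exact hv2 ⟨hcon.1, hcon.2⟩
        have hg0 : (g : ℤ) ≠ 0 := by exact_mod_cast hgpos.ne'
        obtain ⟨p, hp⟩ : (g : ℤ) ∣ ε - γ 1 1 := Int.gcd_dvd_left _ _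
        obtain ⟨q, hq⟩ : (g : ℤ) ∣ γ 1 0 := Int.gcd_dvd_right _ _
        have hcop : IsCoprime p q := by
          rw [Int.isCoprime_iff_gcd_eq_one]
          have := Int.gcd_div_gcd_div_gcd (i := ε - γ 1 1) (j := γ 1 0) hgpos
          rw [← hg] at this
          have hp' : (ε - γ 1 1) / (g : ℤ) = p := by rw [hp, Int.mul_ediv_cancel_left _ hg0]
          have hq' : γ 1 0 / (g : ℤ) = q := by rw [hq, Int.mul_ediv_cancel_left _ hg0]
          rwa [hp', hq'] at this
        refine exists_conj_upper_of_eigenvector γ (ε := ε) hcop ?_ ?_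
        · apply mul_left_cancel₀ hg0
          have e1 : (g : ℤ) * p = ε - γ 1 1 := hp.symm
          have e2 : (g : ℤ) * q = γ 1 0 := hq.symm
          have : (g : ℤ) * (γ 0 0 * p + γ 0 1 * q) = γ 0 0 * ((g : ℤ) * p) + γ 0 1 * ((g : ℤ) * q) := by
            ring
          rw [this, e1, e2]
          have : (g : ℤ) * (ε * p) = ε * ((g : ℤ) * p) := by ring
          rw [this, e1]
          nlinarith [hdet, htrε, hε]
        · apply mul_left_cancel₀ hg0
          have e1 : (g : ℤ) * p = ε - γ 1 1 := hp.symm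
          have e2 : (g : ℤ) * q = γ 1 0 := hq.symm
          have : (g : ℤ) * (γ 1 0 * p + γ 1 1 * q) = γ 1 0 * ((g : ℤ) * p) + γ 1 1 * ((g : ℤ) * q) := by
            ring
          rw [this, e1, e2]
          have : (g : ℤ) * (ε * q) = ε * ((g : ℤ) * q) := by ring
          rw [this, e2]
          ring
    · -- the vector `(b, ε - a)`
      set g := Int.gcd (γ 0 1) (ε - γ 0 0) with hg
      have hgpos : 0 < g := by
        rw [hg, Int.gcd_pos_iff]
        by_contra hcon
        push Not at hcon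
        exact hv1 ⟨hcon.1, hcon.2⟩
      have hg0 : (g : ℤ) ≠ 0 := by exact_mod_cast hgpos.ne'
      obtain ⟨p, hp⟩ : (g : ℤ) ∣ γ 0 1 := Int.gcd_dvd_left _ _
      obtain ⟨q, hq⟩ : (g : ℤ) ∣ ε - γ 0 0 := Int.gcd_dvd_right _ _
      have hcop : IsCoprime p q := by
        rw [Int.isCoprime_iff_gcd_eq_one]
        have := Int.gcd_div_gcd_div_gcd (i := γ 0 1) (j := ε - γ 0 0) hgpos
        rw [← hg] at this
        have hp' : γ 0 1 / (g : ℤ) = p := by rw [hp, Int.mul_ediv_cancel_left _ hg0]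
        have hq' : (ε - γ 0 0) / (g : ℤ) = q := by rw [hq, Int.mul_ediv_cancel_left _ hg0]
        rwa [hp', hq'] at this
      refine exists_conj_upper_of_eigenvector γ (ε := ε) hcop ?_ ?_
      · apply mul_left_cancel₀ hg0
        have e1 : (g : ℤ) * p = γ 0 1 := hp.symm
        have e2 : (g : ℤ) * q = ε - γ 0 0 := hq.symm
        have : (g : ℤ) * (γ 0 0 * p + γ 0 1 * q) = γ 0 0 * ((g : ℤ) * p) + γ 0 1 * ((g : ℤ) * q) := by
          ring
        rw [this, e1, e2]
        have : (g : ℤ) * (ε * p) = ε * ((g : ℤ) * p) := by ring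
        rw [this, e1]
        ring
      · apply mul_left_cancel₀ hg0
        have e1 : (g : ℤ) * p = γ 0 1 := hp.symm
        have e2 : (g : ℤ) * q = ε - γ 0 0 := hq.symm
        have : (g : ℤ) * (γ 1 0 * p + γ 1 1 * q) = γ 1 0 * ((g : ℤ) * p) + γ 1 1 * ((g : ℤ) * q) := by
          ring
        rw [this, e1, e2]
        have : (g : ℤ) * (ε * q) = ε * ((g : ℤ) * q) := by ring
        rw [this, e2]
        nlinarith [hdet, htrε, hε]
  obtain ⟨δ, hδ⟩ := hconj
  obtain ⟨n, hn⟩ := ModularGroup.exists_eq_T_zpow_of_c_eq_zero hδ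
  refine ⟨δ, n, fun w => ?_⟩
  rw [← hn w, ← mul_smul, ← mul_smul]
  congr 1
  group


theorem tendsto_T_zpow_smul_atImInfty (n : ℤ) :
    Tendsto (fun w : ℍ => ModularGroup.T ^ n • w) atImInfty atImInfty := by
  rw [atImInfty, tendsto_comap_iff]
  have : (UpperHalfPlane.im ∘ fun w : ℍ => ModularGroup.T ^ n • w) = UpperHalfPlane.im := by
    ext w
    show (ModularGroup.T ^ n • w).im = w.im
    rw [UpperHalfPlane.modular_T_zpow_smul, UpperHalfPlane.vadd_im]
  rw [this]
  exact tendsto_comap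

variable {N : ℕ} [NeZero N]

/-- Periods of weight 2 cusp forms vanish on parabolic elements (and on `± 1`). -/
theorem periodMap_parabolic (f : CuspForm (Gamma0 N) 2) (γ : Gamma0 N)
    (htr : (((γ : SL(2, ℤ)) : Matrix (Fin 2) (Fin 2) ℤ)).trace ^ 2 = 4) :
    ModularCurve.periodMap N f (Additive.ofMul γ) = 0 := by
  obtain ⟨δ, n, hδ⟩ := exists_conj_translation (γ : SL(2, ℤ)) htr
  obtain ⟨L, hL⟩ := canonPrim_cusp_limit f δ
  set c := ModularCurve.periodMap N f (Additive.ofMul γ) with hc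
  have h1 : ∀ w : ℍ, c = canonPrim f (δ • (ModularGroup.T ^ n • w)) - canonPrim f (δ • w) := by
    intro w
    rw [hc, periodMap_apply' f γ (δ • w), hδ w]
  have h2 : Tendsto (fun w : ℍ => canonPrim f (δ • (ModularGroup.T ^ n • w)) - canonPrim f (δ • w))
      atImInfty (𝓝 (L - L)) :=
    (hL.comp (tendsto_T_zpow_smul_atImInfty n)).sub hL
  have h3 : Tendsto (fun _ : ℍ => c) atImInfty (𝓝 (L - L)) := by
    refine h2.congr fun w => (h1 w).symm
  have := tendsto_nhds_unique tendsto_const_nhds h3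
  rw [this, sub_self]

theorem periodMap_mem_parabolicHoms (f : CuspForm (Gamma0 N) 2) :
    ModularCurve.periodMap N f ∈ ModularCurve.Period.parabolicHoms ℂ (Gamma0 N) ℂ := by
  rw [ModularCurve.Period.mem_parabolicHoms_iff]
  intro γ hγ
  exact periodMap_parabolic f γ hγ

/-- The range of `periodHomPair` consists of parabolic homomorphisms. -/
theorem range_periodHomPair_le (N : ℕ) [NeZero N] :
    LinearMap.range (ModularCurve.periodHomPair N) ≤
      ModularCurve.Period.parabolicHoms ℂ (Gamma0 N) ℂ := by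
  rintro _ ⟨⟨f, g⟩, rfl⟩
  rw [periodHomPair_apply]
  have hf := periodMap_mem_parabolicHoms f
  have hg := periodMap_mem_parabolicHoms g
  have hf' := ModularCurve.Period.charInvolution_mem_parabolicHoms N ℂ ℂ hf
  have hg' := ModularCurve.Period.charInvolution_mem_parabolicHoms N ℂ ℂ hg
  exact Submodule.add_mem _ (Submodule.add_mem _ hf hf') (Submodule.sub_mem _ hg hg')

end Fermat.Agent.X0N.ES
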