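/- helper5: (DICT) for S20: regular differentials of the function field of X0(N) over the complex numbers give weight two cusp forms. -/
import Mathlib
import Fermat.Agent.X0N.Mer_helper6_Basic

set_option autoImplicit false

open Complex Filter Topology Set
open UpperHalfPlane hiding I
open scoped MatrixGroups Manifold

namespace Fermat.Agent.X0N.Dict

open Fermat.Agent.X0N

/-- Division of holomorphic functions on `ℍ`: if `ord τ b ≤ ord τ a` for all `τ`, then `a = f * b`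
with `f` holomorphic. -/
theorem exists_mul_eq_of_ord_le {a b : HolH} (hb : b ≠ 0)
    (h : ∀ τ : ℍ, HolH.ord τ b ≤ HolH.ord τ a) : ∃ f : HolH, f * b = a := by
  by_cases ha : a = 0
  · exact ⟨0, by rw [ha, zero_mul]⟩
  set U : Set ℂ := {z : ℂ | 0 < z.im} with hU
  have hUo : IsOpen U := isOpen_upperHalfPlaneSet
  set af : ℂ → ℂ := (a : ℍ → ℂ) ∘ ofComplex with haf
  set bf : ℂ → ℂ := (b : ℍ → ℂ) ∘ ofComplex with hbf
  have haA : ∀ z ∈ U, AnalyticAt ℂ af z := fun z hz => HolH.analyticAt a ⟨z, hz⟩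
  have hbA : ∀ z ∈ U, AnalyticAt ℂ bf z := fun z hz => HolH.analyticAt b ⟨z, hz⟩
  set g : ℂ → ℂ := af / bf with hg
  have hgM : MeromorphicOn g U := fun z hz => (haA z hz).meromorphicAt.div (hbA z hz).meromorphicAt
  set G : ℂ → ℂ := toMeromorphicNFOn g U with hG
  have hGA : ∀ z ∈ U, AnalyticAt ℂ G z := by
    intro z hz
    have hNF : MeromorphicNFAt G z := meromorphicNFOn_toMeromorphicNFOn g U hz
    rw [← hNF.meromorphicOrderAt_nonneg_iff_analyticAt, hG,
      meromorphicOrderAt_toMeromorphicNFOn hgM hz, hg,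
      meromorphicOrderAt_div (haA z hz).meromorphicAt (hbA z hz).meromorphicAt,
      (haA z hz).meromorphicOrderAt_eq, (hbA z hz).meromorphicOrderAt_eq]
    have h1 := HolH.cast_ord ha ⟨z, hz⟩
    have h2 := HolH.cast_ord hb ⟨z, hz⟩
    have h3 := h ⟨z, hz⟩
    rw [← h1, ← h2]
    simp only [ENat.map_natCast]
    have : ((HolH.ord ⟨z, hz⟩ b : ℕ) : ℤ) ≤ ((HolH.ord ⟨z, hz⟩ a : ℕ) : ℤ) := by exact_mod_cast h3
    have h4 : (((HolH.ord ⟨z, hz⟩ a : ℕ) : ℤ) : WithTop ℤ) - (((HolH.ord ⟨z, hz⟩ b : ℕ) : ℤ) : WithTop ℤ)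
        = ((((HolH.ord ⟨z, hz⟩ a : ℕ) : ℤ) - ((HolH.ord ⟨z, hz⟩ b : ℕ) : ℤ) : ℤ) : WithTop ℤ) := by
      norm_cast
    rw [h4]
    exact_mod_cast sub_nonneg.mpr this
  -- the holomorphic quotient
  have hf : MDifferentiable 𝓘(ℂ) 𝓘(ℂ) (fun τ : ℍ => G (τ : ℂ)) := by
    rw [UpperHalfPlane.mdifferentiable_iff]
    have : DifferentiableOn ℂ G U := fun z hz => (hGA z hz).differentiableAt.differentiableWithinAt
    refine this.congr fun z hz => ?_
    simp only [Function.comp_apply, ofComplex_apply_of_im_pos hz, UpperHalfPlane.coe_mk]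
  refine ⟨⟨fun τ : ℍ => G (τ : ℂ), hf⟩, ?_⟩
  apply Subtype.ext
  funext τ
  show G (τ : ℂ) * (b : ℍ → ℂ) τ = (a : ℍ → ℂ) τ
  have hτ : (τ : ℂ) ∈ U := τ.im_pos
  -- the identity holds on a punctured neighbourhood
  have hb0 : ∀ᶠ z in 𝓝[≠] (τ : ℂ), bf z ≠ 0 := by
    have := (hbA _ hτ).eventually_eq_zero_or_eventually_ne_zero
    rcases this with h0 | h0
    · exfalso
      have := HolH.order_ne_top hb τ
      apply this
      rw [analyticOrderAt_eq_top]
      exact h0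
    · exact h0
  have hev : ∀ᶠ z in 𝓝[≠] (τ : ℂ), G z * bf z - af z = 0 := by
    filter_upwards [hb0, hgM.toMeromorphicNFOn_eq_self_on_nhdsNE hτ] with z hz1 hz2
    have hz3 : G z = g z := hz2
    rw [hz3, hg, Pi.div_apply, div_mul_cancel₀ _ hz1, sub_self]
  have hcont : ContinuousAt (fun z => G z * bf z - af z) (τ : ℂ) :=
    (((hGA _ hτ).continuousAt).mul (hbA _ hτ).continuousAt).sub (haA _ hτ).continuousAt
  have hlim : Tendsto (fun z => G z * bf z - af z) (𝓝[≠] (τ : ℂ)) (𝓝 0) :=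
    (tendsto_const_nhds (x := (0 : ℂ))).congr' (hev.mono fun z hz => hz.symm)
  have hval := tendsto_nhds_unique (hcont.tendsto.mono_left nhdsWithin_le_nhds) hlim
  have h5 : G (τ : ℂ) * bf (τ : ℂ) - af (τ : ℂ) = 0 := hval
  have h6 : bf (τ : ℂ) = (b : ℍ → ℂ) τ := by simp [hbf]
  have h7 : af (τ : ℂ) = (a : ℍ → ℂ) τ := by simp [haf]
  rw [h6, h7] at h5
  exact sub_eq_zero.mp h5

/-- A meromorphic function on `ℍ` all of whose orders are nonnegative is holomorphic. -/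
theorem exists_ofHol_eq_of_ordAt_nonneg {x : MerH} (h : ∀ τ : ℍ, 0 ≤ MerH.ordAt τ x) :
    ∃ f : HolH, MerH.ofHol f = x := by
  by_cases hx : x = 0
  · exact ⟨0, by rw [hx, map_zero]⟩
  obtain ⟨a, b, hb, rfl⟩ := MerH.exists_div x
  have ha : a ≠ 0 := by
    rintro rfl
    apply hx
    rw [map_zero, zero_div]
  obtain ⟨f, hf⟩ := exists_mul_eq_of_ord_le (a := a) hb (fun τ => by
    have := h τ
    rw [MerH.ordAt_div_ofHol ha hb] at this
    omega)
  refine ⟨f, ?_⟩
  rw [eq_div_iff (MerH.ofHol_ne_zero hb), ← map_mul, hf]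

end Fermat.Agent.X0N.Dict
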