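/- helper5: (DICT) for S20: regular differentials of the function field of X0(N) over the complex numbers give weight two cusp forms. -/
import Mathlib
import Fermat.Agent.X0N.J_helper8_Ord

set_option autoImplicit false

open Complex Filter Topology Set ModularForm EisensteinSeries Derivative
open UpperHalfPlane hiding I
open Fermat.Agent.RatStr
open scoped MatrixGroups Manifold Real

namespace Fermat.Agent.X0N.Dict

open Fermat.Agent.X0N

local notation "Δ" => ModularForm.discriminant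

/-- The normalised derivative `(2πi)⁻¹ dj/dτ = -E₄² E₆ / Δ` of the `j`-function. -/
noncomputable def jD (z : ℍ) : ℂ := -(E₄ z ^ 2 * E₆ z) / Δ z

theorem jD_eq_D_jFun (z : ℍ) : jD z = D jFun z := by
  unfold jD
  rw [← D_jFun_mul_discriminant z, mul_div_cancel_right₀ _ (discriminant_ne_zero z)]

theorem mdiff_jD : MDiff jD := by
  have hE4 : MDiff (⇑E₄) := ModularFormClass.holo E₄
  have hE6 : MDiff (⇑E₆) := ModularFormClass.holo E₆
  have h1 : MDiff (fun z : ℍ => -(E₄ z ^ 2 * E₆ z)) := ((hE4.pow 2).mul hE6).neg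
  have h2 : MDiff (fun z : ℍ => (Δ z)⁻¹) := by
    have := mdiff_discriminant
    rw [UpperHalfPlane.mdifferentiable_iff] at this ⊢
    intro w hw
    have hne : (Δ ∘ ofComplex) w ≠ 0 := discriminant_ne_zero _
    exact ((this w hw).inv hne)
  exact h1.mul h2

/-- `jD` is a (meromorphic at the cusp) modular form of weight `2` for `SL(2, ℤ)`. -/
theorem jD_smul (γ : SL(2, ℤ)) (z : ℍ) : jD (γ • z) = denom γ z ^ (2 : ℤ) * jD z := by
  unfold jD
  rw [modularForm_SL_smul, modularForm_SL_smul, discriminant_SL_smul']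
  have h1 : denom γ z ≠ 0 := denom_ne_zero _ _
  have h2 := discriminant_ne_zero z
  have e4 : denom γ z ^ (4 : ℤ) = denom γ z ^ 4 := by norm_cast
  have e6 : denom γ z ^ (6 : ℤ) = denom γ z ^ 6 := by norm_cast
  have e12 : denom γ z ^ (12 : ℤ) = denom γ z ^ 12 := by norm_cast
  have e2 : denom γ z ^ (2 : ℤ) = denom γ z ^ 2 := by norm_cast
  rw [e4, e6, e12, e2]
  field_simp

theorem jD_slash (γ : SL(2, ℤ)) : jD ∣[(2 : ℤ)] γ = jD := by
  ext z
  rw [ModularForm.SL_slash_apply, jD_smul, zpow_neg]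
  have h1 : denom γ z ^ (2 : ℤ) ≠ 0 := zpow_ne_zero _ (denom_ne_zero _ _)
  field_simp

/-- `jD` as an element of `HolH`. -/
noncomputable def jDHol : HolH := ⟨jD, mdiff_jD⟩

@[simp] theorem jDHol_apply (z : ℍ) : (jDHol : ℍ → ℂ) z = jD z := rfl


theorem jHol_sub_const_ne_zero (c : ℂ) : jHol - HolH.const c ≠ 0 := by
  intro h
  -- `j` is not constant: it has a simple value at a generic point, or: `j(i) = 1728 ≠ 0 = j(ρ)`
  have h1 : (jHol : ℍ → ℂ) UpperHalfPlane.I = c := by
    have := congrArg (fun f : HolH => (f : ℍ → ℂ) UpperHalfPlane.I) h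
    simpa [sub_eq_zero] using this
  have h2 : (jHol : ℍ → ℂ) rhoH = c := by
    have := congrArg (fun f : HolH => (f : ℍ → ℂ) rhoH) h
    simpa [sub_eq_zero] using this
  have h3 : jFun UpperHalfPlane.I = jFun rhoH := h1.trans h2.symm
  rw [jFun_I, jFun_rhoH] at h3
  norm_num at h3

/-- The order of `dj/dτ` is one less than the order of `j - j(z₀)`. -/
theorem ord_jDHol_add_one (z₀ : ℍ) :
    HolH.ord z₀ jDHol + 1 = HolH.ord z₀ (jHol - HolH.const (jFun z₀)) := by
  have hA : AnalyticAt ℂ (jFun ∘ ofComplex) (z₀ : ℂ) := analyticAt_comp_ofComplex mdiff_jFun z₀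
  have h1 := hA.analyticOrderAt_deriv_add_one
  -- the derivative is `2πi · jD`
  have h2 : deriv (jFun ∘ ofComplex) =ᶠ[𝓝 (z₀ : ℂ)]
      fun w => (2 * π * I : ℂ) * ((jDHol : ℍ → ℂ) ∘ ofComplex) w := by
    filter_upwards [isOpen_upperHalfPlaneSet.mem_nhds z₀.im_pos] with w hw
    have := deriv_comp_ofComplex jFun ⟨w, hw⟩
    rw [this, Function.comp_apply, ofComplex_apply_of_im_pos hw, jDHol_apply, jD_eq_D_jFun]
  have h3 : analyticOrderAt (deriv (jFun ∘ ofComplex)) (z₀ : ℂ) =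
      analyticOrderAt ((jDHol : ℍ → ℂ) ∘ ofComplex) (z₀ : ℂ) := by
    rw [analyticOrderAt_congr h2]
    have hc : AnalyticAt ℂ (fun _ : ℂ => (2 * π * I : ℂ)) (z₀ : ℂ) := analyticAt_const
    have := analyticOrderAt_mul hc (HolH.analyticAt jDHol z₀)
    have h0 : analyticOrderAt (fun _ : ℂ => (2 * π * I : ℂ)) (z₀ : ℂ) = 0 := by
      rw [hc.analyticOrderAt_eq_zero]
      exact two_pi_I_ne_zero'
    rw [h0, zero_add] at this
    exact this
  have h4 : (fun w => (jFun ∘ ofComplex) w - (jFun ∘ ofComplex) (z₀ : ℂ)) =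
      (((jHol - HolH.const (jFun z₀) : HolH) : ℍ → ℂ) ∘ ofComplex) := by
    ext w
    simp [jHol]
  rw [h3, h4] at h1
  have hne : jHol - HolH.const (jFun z₀) ≠ 0 := jHol_sub_const_ne_zero _
  rw [← HolH.cast_ord hne z₀] at h1
  -- `jDHol ≠ 0`
  have hD : analyticOrderAt ((jDHol : ℍ → ℂ) ∘ ofComplex) (z₀ : ℂ) ≠ ⊤ := by
    intro htop
    rw [htop] at h1
    simp at h1
  unfold HolH.ord
  rw [← Nat.cast_analyticOrderNatAt hD] at h1
  exact_mod_cast h1

theorem jDHol_ne_zero : jDHol ≠ 0 := by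
  intro h
  have h1 := ord_jDHol_add_one UpperHalfPlane.I
  rw [h, HolH.ord_zero, jFun_I, ord_jHol_sub_const_of_eq_1728 jFun_I] at h1
  norm_num at h1

end Fermat.Agent.X0N.Dict
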