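/- helper5: (DICT) for S20: regular differentials of the function field of X0(N) over the complex numbers give weight two cusp forms. -/
import Mathlib
import Fermat.Agent.RatStr.Laurent_helper1

set_option autoImplicit false

open Complex Filter Topology Set Function
open UpperHalfPlane hiding I
open Fermat.Agent.RatStr HahnSeries
open scoped MatrixGroups Manifold Real

namespace Fermat.Agent.X0N.Dict

local notation "𝕢" => Periodic.qParam

/-- Coefficients of the Laurent expansion in terms of the `q`-expansion of `F q^m`. -/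
theorem laurent_coeff_sub {h : ℝ} (hh : 0 < h) {F : ℍ → ℂ} {m : ℕ}
    (hF : IsHolBdd h (F * qf h ^ m)) (i : ℕ) :
    (laurent h F).coeff ((i : ℤ) - m) = (qExpansion h (F * qf h ^ m)).coeff i := by
  rw [laurent_eq hh hF]
  have : ((i : ℤ) - m) = (i : ℤ) + (-(m : ℤ)) := by ring
  rw [this, HahnSeries.coeff_single_mul_add, one_mul, ofPowerSeries_apply_coeff]

theorem laurent_coeff_eq_zero_of_lt {h : ℝ} (hh : 0 < h) {F : ℍ → ℂ} {m : ℕ}
    (hF : IsHolBdd h (F * qf h ^ m)) {i : ℤ} (hi : i < -(m : ℤ)) :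
    (laurent h F).coeff i = 0 := by
  rw [laurent_eq hh hF]
  have : i = (i + m) + (-(m : ℤ)) := by ring
  rw [this, HahnSeries.coeff_single_mul_add, one_mul]
  have hneg : i + m < 0 := by omega
  rw [ofPowerSeries_apply, HahnSeries.embDomain_of_notMem_range]
  simp only [Set.mem_range, not_exists]
  intro n hn
  have : (n : ℤ) = i + m := hn
  omega

/-- **Leading term at `i∞`**: a nonzero function meromorphic at `i∞` behaves like
`c q^n`, `n` the order of its Laurent expansion, `c ≠ 0`. -/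
theorem exists_tendsto_mul_qf_zpow {h : ℝ} (hh : 0 < h) {F : ℍ → ℂ} (hF : IsMeroInfty h F)
    (hF0 : F ≠ 0) :
    ∃ c : ℂ, c ≠ 0 ∧
      Tendsto (fun τ : ℍ => F τ * qf h τ ^ (-(laurent h F).order)) atImInfty (𝓝 c) := by
  obtain ⟨m, hm⟩ := hF
  set L := laurent h F with hL
  have hL0 : L ≠ 0 := fun h0 => hF0 ((laurent_eq_zero_iff hh ⟨m, hm⟩).mp h0)
  set n := L.order with hn
  have hcn : L.coeff n ≠ 0 := fun h0 => hL0 (HahnSeries.coeff_order_eq_zero.mp h0)
  have hnm : -(m : ℤ) ≤ n := by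
    by_contra hlt
    exact hcn (laurent_coeff_eq_zero_of_lt hh hm (not_le.mp hlt))
  obtain ⟨r, hr⟩ : ∃ r : ℕ, (r : ℤ) = n + m := ⟨(n + m).toNat, Int.toNat_of_nonneg (by omega)⟩
  set F' := F * qf h ^ m with hF'
  set C := cuspFunction h F' with hC
  have hCA : AnalyticAt ℂ C 0 := hm.analyticAt hh
  -- the order of the cusp function at `0` is `r`
  have hord : analyticOrderAt C 0 = r := by
    rw [analyticOrderAt_eq_nat_iff_iteratedDeriv_eq_zero hCA]
    constructor
    · intro i hi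
      have h1 := laurent_coeff_sub hh hm i
      have h2 : (laurent h F).coeff ((i : ℤ) - m) = 0 :=
        HahnSeries.coeff_eq_zero_of_lt_order (by rw [← hL, ← hn]; omega)
      rw [h2, qExpansion_coeff] at h1
      have hfac : ((i.factorial : ℂ))⁻¹ ≠ 0 := inv_ne_zero (Nat.cast_ne_zero.mpr i.factorial_ne_zero)
      exact (mul_eq_zero.mp h1.symm).resolve_left hfac
    · have h1 := laurent_coeff_sub hh hm r
      have h2 : ((r : ℤ) - m) = n := by omega
      rw [h2, qExpansion_coeff] at h1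
      intro h0
      apply hcn
      rw [← hL] at h1
      rw [h1, h0, mul_zero]
  obtain ⟨g, hgA, hg0, hgev⟩ := hCA.analyticOrderAt_eq_natCast.mp hord
  refine ⟨g 0, hg0, ?_⟩
  -- `F q^{-n} = g ∘ q` for `im τ` large
  have hq : Tendsto (fun τ : ℍ => 𝕢 h τ) atImInfty (𝓝 0) := qParam_tendsto_atImInfty hh
  have hev : ∀ᶠ τ : ℍ in atImInfty, F τ * qf h τ ^ (-n) = g (𝕢 h τ) := by
    filter_upwards [hq.eventually hgev] with τ hτ
    simp only [sub_zero, smul_eq_mul] at hτ
    have h1 : C (𝕢 h τ) = F' τ := (eq_cuspFunction τ hh.ne' hm.per).symm ▸ rfl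
    rw [h1] at hτ
    have hq0 : qf h τ ≠ 0 := qf_ne_zero h τ
    have h2 : F τ * qf h τ ^ m = qf h τ ^ r * g (𝕢 h τ) := hτ
    have h3 : qf h τ ^ (-n) = qf h τ ^ (m : ℤ) * (qf h τ ^ (r : ℤ))⁻¹ := by
      rw [← zpow_neg, ← zpow_add₀ hq0]
      congr 1
      omega
    rw [h3, zpow_natCast, zpow_natCast, ← mul_assoc, h2]
    field_simp
  have hlim : Tendsto (fun τ : ℍ => g (𝕢 h τ)) atImInfty (𝓝 (g 0)) :=
    hgA.continuousAt.tendsto.comp hq
  exact hlim.congr' (hev.mono fun τ hτ => hτ.symm)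


theorem tendsto_qf_zpow_of_pos {h : ℝ} (hh : 0 < h) {e : ℤ} (he : 0 < e) :
    Tendsto (fun τ : ℍ => qf h τ ^ e) atImInfty (𝓝 0) := by
  obtain ⟨r, rfl⟩ : ∃ r : ℕ, e = r := ⟨e.toNat, (Int.toNat_of_nonneg he.le).symm⟩
  have hr : r ≠ 0 := by
    rintro rfl
    simp at he
  have hq : Tendsto (fun τ : ℍ => qf h τ) atImInfty (𝓝 0) := qParam_tendsto_atImInfty hh
  have := hq.pow r
  rw [zero_pow hr] at this
  simpa [zpow_natCast] using this

/-- A quotient of functions meromorphic at `i∞` whose order at `i∞` is positive vanishes at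
`i∞`. -/
theorem isZeroAtImInfty_of_mul_eq {h : ℝ} (hh : 0 < h) {a b φ : ℍ → ℂ} (ha : IsMeroInfty h a)
    (hb : IsMeroInfty h b) (hb0 : b ≠ 0) (hmul : φ * b = a)
    (hord : a = 0 ∨ (laurent h b).order < (laurent h a).order) : IsZeroAtImInfty φ := by
  obtain ⟨cb, hcb, hbt⟩ := exists_tendsto_mul_qf_zpow hh hb hb0
  have hbne : ∀ᶠ τ : ℍ in atImInfty, b τ * qf h τ ^ (-(laurent h b).order) ≠ 0 :=
    hbt.eventually_ne hcb
  show Tendsto φ atImInfty (𝓝 0)
  by_cases ha0 : a = 0
  · have hev : ∀ᶠ τ : ℍ in atImInfty, φ τ = 0 := by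
      filter_upwards [hbne] with τ hτ
      have h1 : φ τ * b τ = 0 := by
        have := congrFun hmul τ
        rw [ha0] at this
        exact this
      have h2 : b τ ≠ 0 := left_ne_zero_of_mul hτ
      exact (mul_eq_zero.mp h1).resolve_right h2
    exact (tendsto_const_nhds (x := (0 : ℂ))).congr' (hev.mono fun τ hτ => hτ.symm)
  · have hlt := hord.resolve_left ha0
    obtain ⟨ca, hca, hat⟩ := exists_tendsto_mul_qf_zpow hh ha ha0
    set na := (laurent h a).order with hna
    set nb := (laurent h b).order with hnb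
    have hquot : Tendsto (fun τ : ℍ => (a τ * qf h τ ^ (-na)) / (b τ * qf h τ ^ (-nb)))
        atImInfty (𝓝 (ca / cb)) := hat.div hbt hcb
    have hpow := tendsto_qf_zpow_of_pos hh (e := na - nb) (by omega)
    have hprod := hquot.mul hpow
    rw [mul_zero] at hprod
    refine hprod.congr' ?_
    filter_upwards [hbne] with τ hτ
    have hq0 : qf h τ ≠ 0 := qf_ne_zero h τ
    have h2 : b τ ≠ 0 := left_ne_zero_of_mul hτ
    have h1 : φ τ * b τ = a τ := congrFun hmul τ
    rw [← h1, zpow_sub₀ hq0, zpow_neg, zpow_neg]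
    have h3 : qf h τ ^ na ≠ 0 := zpow_ne_zero _ hq0
    have h4 : qf h τ ^ nb ≠ 0 := zpow_ne_zero _ hq0
    field_simp

end Fermat.Agent.X0N.Dict
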