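/- helper5: (DICT) for S20, part 2: the cusp condition (vanishing at all cusps) from helper9's cusp valuations; final inequality dim L(div dj) <= dim S_2(Gamma0 N). -/
import Mathlib
import Fermat.Agent.X0N.Dict_helper5_Main
import Fermat.Agent.X0N.Dict_helper5_Asymp
import Fermat.Agent.X0N.Cusp_helper9_Val

set_option autoImplicit false
set_option linter.unusedSectionVars false

open Complex Filter Topology Set ModularForm CongruenceSubgroup EisensteinSeries
open UpperHalfPlane hiding I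
open Fermat.Agent.RatStr ModularCurve AlgebraicCurve KaehlerDifferential
open scoped MatrixGroups Manifold Real

namespace Fermat.Agent.X0N.Dict

open Fermat.Agent.X0N Fermat.Agent.FF Fermat.Agent.X0N.Cusp

local notation "Δ" => ModularForm.discriminant

/-! ### The expansion of `dj/dτ` at `i∞` -/

theorem jD_mul_qf : jD * qf 1 = -((⇑E₄) ^ 2 * ⇑E₆ * etaInv24) := by
  ext z
  simp only [Pi.mul_apply, Pi.neg_apply, Pi.pow_apply, jD, etaInv24]
  rw [discriminant_eq_qf_mul]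
  have h1 := qf_ne_zero 1 z
  have h2 := etaProdFun_ne_zero z
  field_simp

theorem isHolBdd_E₆ : IsHolBdd 1 (⇑E₆) := isHolBdd_of_modularForm E₆ one_pos (by simp)

theorem isHolBdd_jD_mul_qf : IsHolBdd 1 (jD * qf 1 ^ 1) := by
  rw [pow_one, jD_mul_qf]
  exact (((isHolBdd_E₄.pow 2).mul isHolBdd_E₆).mul isHolBdd_etaInv24).neg

theorem isMeroInfty_jD : IsMeroInfty 1 jD := ⟨1, isHolBdd_jD_mul_qf⟩

theorem tendsto_etaInv24 : Tendsto etaInv24 atImInfty (𝓝 1) := by
  have h := (tendsto_etaProdFun.pow 24).inv₀ (by norm_num)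
  rw [one_pow, inv_one] at h
  exact h

theorem tendsto_jD_mul_qf : Tendsto (jD * qf 1) atImInfty (𝓝 (-1)) := by
  rw [jD_mul_qf]
  have h4 : Tendsto (⇑E₄) atImInfty (𝓝 1) := tendsto_E 4 (by norm_num) ⟨2, rfl⟩
  have h6 : Tendsto (⇑E₆) atImInfty (𝓝 1) := tendsto_E 6 (by norm_num) ⟨3, rfl⟩
  have := (((h4.pow 2).mul h6).mul tendsto_etaInv24).neg
  rw [one_pow, one_mul, one_mul] at this
  exact this

variable (N : ℕ) [NeZero N]

theorem isMeroInfty_jD_nat : IsMeroInfty (N : ℝ) jD := Cusp.isMeroInfty_of_one isMeroInfty_jD N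

/-- `dj/dτ` has a pole of order `N` in `q_N` at `i∞`. -/
theorem laurent_jD_order : (laurent (N : ℝ) jD).order = -(N : ℤ) := by
  have hlim : Tendsto (jD * qz (N : ℝ) (-(-(N : ℤ)))) atImInfty (𝓝 (-1)) := by
    have : jD * qz (N : ℝ) (-(-(N : ℤ))) = jD * qf 1 := by
      funext τ
      rw [Pi.mul_apply, Pi.mul_apply, neg_neg, qz_apply, zpow_natCast, Cusp.qf_nat_pow]
    rw [this]
    exact tendsto_jD_mul_qf
  exact (order_eq_of_tendsto (Cusp.natCast_pos N) (isMeroInfty_jD_nat N) (by norm_num) hlim).1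

theorem isMerInf_jDHol : IsMerInf N (MerH.ofHol jDHol) := isMerInf_ofHol (isMeroInfty_jD_nat N)

theorem ordInf_jDHol : MerH.ordInf N (MerH.ofHol jDHol) = -(N : ℤ) := by
  rw [MerH.ordInf_ofHol (isMeroInfty_jD_nat N)]
  exact laurent_jD_order N

/-- Positive order at `i∞` of a holomorphic function means vanishing at `i∞`. -/
theorem isZeroAtImInfty_of_ordInf_pos {φ : HolH} (hφ : IsMerInf N (MerH.ofHol φ))
    (hpos : 0 < MerH.ordInf N (MerH.ofHol φ)) : IsZeroAtImInfty (φ : ℍ → ℂ) := by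
  obtain ⟨a, b, ha, hb, hb0, heq⟩ := hφ
  have hmul : φ * b = a := by
    apply MerH.ofHol_injective
    rw [map_mul, heq, div_mul_cancel₀ _ (MerH.ofHol_ne_zero hb0)]
  have hmul' : (φ : ℍ → ℂ) * (b : ℍ → ℂ) = (a : ℍ → ℂ) := congrArg Subtype.val hmul
  have hb0' : (b : ℍ → ℂ) ≠ 0 := fun h0 => hb0 (Subtype.ext h0)
  refine isZeroAtImInfty_of_mul_eq (Cusp.natCast_pos N) ha hb hb0' hmul' ?_
  by_cases ha0 : a = 0
  · left
    rw [ha0]
    rfl
  · right
    rw [heq, MerH.ordInf_div (isMerInf_ofHol ha) (isMerInf_ofHol hb) (MerH.ofHol_ne_zero ha0)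
      (MerH.ofHol_ne_zero hb0), MerH.ordInf_ofHol ha, MerH.ordInf_ofHol hb] at hpos
    omega


theorem ofHol_jHol_eq_jM : MerH.ofHol jHol = jM := rfl

theorem jBarN_eq_jK : jBarN (k := ℂ) N = jK ℂ N := by
  apply (realN (RingHom.id ℂ) N).injective
  rw [realN_jBarN, realN_jK, ofHol_jHol_eq_jM]

/-- **The cusp condition holds**: the weight two form attached to a regular differential vanishes
at all cusps. -/
theorem cuspCond (c : Coord ℂ ↥(laurentBaseChange ℂ (modularFunctionFieldFull N)))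
    (hcx : c.x = jBarN N)
    (W : Divisor ℂ ↥(laurentBaseChange ℂ (modularFunctionFieldFull N)))
    (hW : ∀ v : Place ℂ ↥(laurentBaseChange ℂ (modularFunctionFieldFull N)),
      W v = v.ordDifferential (D ℂ _ c.x)) : CuspCond N W := by
  intro δ h hh φ hφ
  by_cases h0 : h = 0
  · rw [h0, map_zero, map_zero, zero_mul] at hφ
    have : φ = 0 := MerH.ofHol_injective (hφ.trans (map_zero _).symm)
    rw [this]
    show Tendsto (fun _ : ℍ => (0 : ℂ)) atImInfty (𝓝 0)
    exact tendsto_const_nhds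
  set q : SL(2, ℤ) ⧸ Gamma0 N := ((δ⁻¹ : SL(2, ℤ)) : SL(2, ℤ) ⧸ Gamma0 N) with hq
  have hconj : cuspConj (RingHom.id ℂ) N q h = MerH.comp δ (realN (RingHom.id ℂ) N h) := by
    rw [cuspConj_apply, conjM_mk (isModFun_realN _ N h), inv_inv]
  set oc := cuspOrdFn (RingHom.id ℂ) N q with hoc
  set v := oc.toPlace with hv
  obtain ⟨m, hm, hmul⟩ := oc.exists_ord_eq_mul
  have hj : oc.ord (jK ℂ N) = -(N : ℤ) := cuspOrdFn_ord_jK _ N q
  have hjx : c.x = jK ℂ N := hcx.trans (jBarN_eq_jK N)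
  have hj0 : jK ℂ N ≠ 0 := jK_ne_zero (RingHom.id ℂ) N
  have hN : (0 : ℤ) < N := by exact_mod_cast NeZero.pos N
  have hvj := hmul (jK ℂ N) hj0
  have hvj0 : v.ord (jK ℂ N) ≠ 0 := by
    intro h1
    rw [h1, mul_zero, hj] at hvj
    omega
  obtain ⟨-, hord⟩ := c.ordDifferential_D v hvj0
  rw [← hjx] at hord
  rw [mem_riemannRochSpace_iff] at hh
  have hWv := (hh v).resolve_left h0
  rw [hW v, hord, hjx] at hWv
  have hoh := hmul h h0
  -- the order at the cusp of `ρ(h) ∘ δ`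
  have hord_h : (N : ℤ) + 1 ≤ MerH.ordInf N (MerH.comp δ (realN (RingHom.id ℂ) N h)) := by
    rw [← hconj]
    have : oc.ord h = MerH.ordInf N (cuspConj (RingHom.id ℂ) N q h) := rfl
    rw [← this, hoh]
    nlinarith
  have hmer : IsMerInf N (MerH.comp δ (realN (RingHom.id ℂ) N h)) := by
    rw [← hconj]
    exact isMerInf_cuspConj _ N q h
  have hne : MerH.comp δ (realN (RingHom.id ℂ) N h) ≠ 0 := by
    rw [← hconj]
    exact cuspConj_ne_zero _ N q h0
  apply isZeroAtImInfty_of_ordInf_pos N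
  · rw [hφ]
    exact hmer.mul (isMerInf_jDHol N)
  · rw [hφ, MerH.ordInf_mul hmer (isMerInf_jDHol N) hne (MerH.ofHol_ne_zero jDHol_ne_zero),
      ordInf_jDHol]
    omega

/-- **(DICT)**: `dim L(div dj) ≤ dim S₂(Γ₀(N))`, unconditionally. -/
theorem finrank_riemannRochSpace_le_finrank_cuspForm
    (c : Coord ℂ ↥(laurentBaseChange ℂ (modularFunctionFieldFull N)))
    (hcx : c.x = jBarN N)
    (W : Divisor ℂ ↥(laurentBaseChange ℂ (modularFunctionFieldFull N)))
    (hW : ∀ v : Place ℂ ↥(laurentBaseChange ℂ (modularFunctionFieldFull N)),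
      W v = v.ordDifferential (D ℂ _ c.x)) :
    Module.finrank ℂ ↥(riemannRochSpace W) ≤ Module.finrank ℂ (CuspForm (Gamma0 N) 2) :=
  finrank_riemannRochSpace_le N c hcx W hW (cuspCond N c hcx W hW)

end Fermat.Agent.X0N.Dict
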