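/-
X0N project (helper7): the `j`-coordinate on the function field of `X₀(N)` over `ℚ̄` and the
reduction of S24 to the four place counts.
-/
import Mathlib
import Fermat.Agent.X0N.S24_helper7_Assembly
import Fermat.Agent.X0N.Mer_helper6_Degree

set_option autoImplicit false

open AlgebraicCurve CongruenceSubgroup MatrixGroups ModularGroup ModularCurve

namespace Fermat.Agent.X0N

open Fermat.Agent.FF

/-- The `j`-coordinate on the function field of `X₀(N)` over `ℚ̄`. -/
noncomputable def jCoordBar (N : ℕ) [NeZero N] :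
    Coord (AlgebraicClosure ℚ) ↥(modularFunctionFieldBar N) where
  x := jBar N
  trans := transcendental_jBar N
  fin := (finrank_modularFunctionFieldBar_eq N).1

@[simp] theorem jCoordBar_x (N : ℕ) [NeZero N] : (jCoordBar N).x = jBar N := rfl

theorem jCoordBar_degree (N : ℕ) [NeZero N] : (jCoordBar N).degree = dedekindPsi N :=
  (finrank_modularFunctionFieldBar_eq N).2

theorem card_cosets_eq_jCoordBar_degree (N : ℕ) [NeZero N] :
    Nat.card (SL(2, ℤ) ⧸ Gamma0 N) = (jCoordBar N).degree := by
  rw [jCoordBar_degree, card_cosets_eq_dedekindPsi]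

/-- **S24 from the four place counts** of the `j`-coordinate of `X₀(N)` over `ℚ̄`. -/
theorem genus_modularFunctionFieldBar_of_counts (N : ℕ) [NeZero N]
    [HasCanonicalDivisor (K := AlgebraicClosure ℚ) (F := ↥(modularFunctionFieldBar N))]
    (hgen : ∀ a : AlgebraicClosure ℚ, a ≠ 0 → a ≠ 1728 →
      ((jCoordBar N).zeros a).card = (jCoordBar N).degree)
    (h1728 : ((jCoordBar N).zeros 1728).card =
      Nat.card (MulAction.orbitRel.Quotient (Subgroup.zpowers S) (SL(2, ℤ) ⧸ Gamma0 N)))
    (h0 : ((jCoordBar N).zeros 0).card =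
      Nat.card (MulAction.orbitRel.Quotient (Subgroup.zpowers (S * T)) (SL(2, ℤ) ⧸ Gamma0 N)))
    (hinf : (jCoordBar N).poles.card =
      Nat.card (MulAction.orbitRel.Quotient (Subgroup.zpowers T) (SL(2, ℤ) ⧸ Gamma0 N))) :
    (genus (AlgebraicClosure ℚ) ↥(modularFunctionFieldBar N) : ℚ) = genusFormula N :=
  genus_eq_genusFormula_of_counts N (jCoordBar N) (jCoordBar_degree N) hgen h1728 h0 hinf

end Fermat.Agent.X0N
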