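import Mathlib
import Fermat.Agent.X0N.S24_helper7_Wiring
import Fermat.Agent.X0N.S24_helper7_Finite
import Fermat.Agent.X0N.Cusp_helper9_Int
import Fermat.Agent.X0N.Dict_helper5_Cusp

set_option autoImplicit false

open AlgebraicCurve CongruenceSubgroup MatrixGroups ModularGroup ModularCurve
open Fermat.Agent.RatStr KaehlerDifferential IntermediateField

namespace Fermat.Agent.X0N.Dict

open Fermat.Agent.X0N Fermat.Agent.FF Fermat.Agent.X0N.Cusp

variable (N : ℕ) [NeZero N]

theorem finrank_laurentBaseChange_complex :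
    Module.Finite ℂ⟮jK ℂ N⟯ ↥(laurentBaseChange ℂ (modularFunctionFieldFull N)) ∧
      Module.finrank ℂ⟮jK ℂ N⟯ ↥(laurentBaseChange ℂ (modularFunctionFieldFull N)) =
        dedekindPsi N := by
  rw [← index_Gamma0 N]
  exact finrank_laurentBaseChange_eq (K := ℂ) (L := ℂ) (modularFunctionFieldFull N)
    (jq_mem_full N) transcendental_jq (jqN_mem_full N) _
    (card_le_index_of_linearIndependent_laurent N) (linearIndependent_pow_jqN N)

end Fermat.Agent.X0N.Dict

namespace Fermat.Agent.X0N.Dict

open Fermat.Agent.X0N Fermat.Agent.FF Fermat.Agent.X0N.Cusp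

variable (N : ℕ) [NeZero N]

/-- The `j`-coordinate on the function field of `X₀(N)` over `ℂ`. -/
noncomputable def jCoordC : Coord ℂ ↥(laurentBaseChange ℂ (modularFunctionFieldFull N)) where
  x := jK ℂ N
  trans := by
    have h := transcendental_coeffEmb_jq ℂ
    rw [← coe_jK (k := ℂ) N] at h
    exact (transcendental_algebraMap_iff
      (algebraMap ↥(laurentBaseChange ℂ (modularFunctionFieldFull N)) (LaurentSeries ℂ)).injective).mp h
  fin := (finrank_laurentBaseChange_complex N).1

@[simp] theorem jCoordC_x : (jCoordC N).x = jK ℂ N := rfl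

theorem jCoordC_x_eq_jBarN : (jCoordC N).x = jBarN N := (jBarN_eq_jK N).symm

theorem jCoordC_degree : (jCoordC N).degree = dedekindPsi N :=
  (finrank_laurentBaseChange_complex N).2

theorem card_cosets_eq_jCoordC_degree :
    Nat.card (SL(2, ℤ) ⧸ Gamma0 N) = (jCoordC N).degree := by
  rw [jCoordC_degree, card_cosets_eq_dedekindPsi]

/-- **Riemann–Hurwitz for `X₀(N) → X(1)` over `ℂ`**: the divisor of `dj` has degree
`2 g - 2` with `g = genusFormula N`. -/
theorem degree_divisor_D_jCoordC
    (W : Divisor ℂ ↥(laurentBaseChange ℂ (modularFunctionFieldFull N)))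
    (hW : ∀ v : Place ℂ ↥(laurentBaseChange ℂ (modularFunctionFieldFull N)),
      W v = v.ordDifferential (D ℂ _ (jCoordC N).x)) :
    ((Divisor.degree W : ℤ) : ℚ) + 2 = 2 * genusFormula N := by
  classical
  set c := jCoordC N with hc
  have hX := card_cosets_eq_jCoordC_degree N
  have hdeg := jCoordC_degree N
  have hgen : ∀ a : ℂ, a ≠ 0 → a ≠ 1728 → (c.zeros a).card = c.degree :=
    fun a h0 h1 => card_zeros_generic_of_coord c rfl hX a h0 h1
  have h1728 := card_zeros_1728_of_coord c rfl hX
  have h0 := card_zeros_zero_of_coord c rfl hX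
  have hinf := card_poles_eq_card_cusps_jK N c rfl hdeg
  have hRH := two_mul_genusFormula_sub_two N
  have h01 : (0 : ℂ) ≠ 1728 := by norm_num
  have hB : ∀ a : ℂ, a ∉ ({0, 1728} : Finset ℂ) →
      ∀ v ∈ c.zeros a, v.ord (c.x - algebraMap ℂ _ a) = 1 := by
    intro a ha v hv
    simp only [Finset.mem_insert, Finset.mem_singleton, not_or] at ha
    exact c.ord_eq_one_of_card_zeros_eq (hgen a ha.1 ha.2) hv
  have h := c.degree_of_forall_eq_ordDifferential_D_x W hW ({0, 1728} : Finset ℂ) hB
  rw [h, Finset.sum_pair h01, h0, h1728, hinf, hdeg]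
  push_cast
  linarith

end Fermat.Agent.X0N.Dict
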