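import Fermat.Agent.X0N.FinPt_helper8
import Fermat.Agent.X0N.SYM_helper2_Final

/-!
# (FIN) the fibres of `j` on `X₀(N)` over finite points, unconditionally

We discharge the integrality hypothesis of `FinPt_helper8` by helper2's descent
`isIntegral_localSubring_of_regular'`.  Setting: `k` algebraically closed of characteristic `0` with
`[Algebra k ℂ]`; `c` a coordinate of the function field with `c.x = j` and degree `[SL₂(ℤ) : Γ₀(N)]`.
-/

set_option autoImplicit false
set_option linter.unusedSectionVars false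

namespace Fermat.Agent.X0N

open UpperHalfPlane Complex Filter Topology ModularCurve IntermediateField ModularForm
open Fermat.Agent.RatStr Fermat.Agent.FF
open ModularGroup CongruenceSubgroup
open scoped MatrixGroups Manifold

variable {k : Type*} [Field k] [Algebra ℚ k] [Algebra k ℂ] (N : ℕ) [NeZero N]
variable (c : Coord k ↥(laurentBaseChange k (modularFunctionFieldFull N)))

theorem realN_jGen_eq_jM (ι : k →+* ℂ) : realN ι N (jGen k N) = jM := by
  rw [realN_jGen]; rfl

/-- the integrality input of the squeeze at a finite point. -/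
theorem finPt_isIntegral (hc : c.x = jGen k N) (a : k) (τ₀ : ℍ)
    (hτ : jFun τ₀ = algebraMap k ℂ a)
    (f : ↥(laurentBaseChange k (modularFunctionFieldFull N))) (_hf0 : f ≠ 0)
    (hf : ∀ q, 0 ≤ (finOrdFn N (algebraMap k ℂ) τ₀ a hτ q).ord f) :
    IsIntegral (c.localSubring a) f :=
  isIntegral_localSubring_of_regular' N c (by rw [hc, realN_jGen_eq_jM]) hτ hf

variable [CharZero k] [IsAlgClosed k]

/-- **Generic fibres of `j`**: `ψ(N)` simple points. -/
theorem finPt_card_zeros_of_ne (hc : c.x = jGen k N)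
    (hX : Nat.card (SL(2, ℤ) ⧸ Gamma0 N) = c.degree) (a : k) (h0 : a ≠ 0) (h1 : a ≠ 1728) :
    (c.zeros a).card = c.degree ∧ ∀ v ∈ c.zeros a, v.ord (c.x - algebraMap k _ a) = 1 :=
  finPt_card_zeros_generic (algebraMap k ℂ) c hc hX a h0 h1
    (fun τ₀ hτ f hf0 hf => finPt_isIntegral N c hc a τ₀ hτ f hf0 hf)

/-- **The fibre of `j` over `1728`** is in bijection with the `⟨S⟩`-orbits on the cosets. -/
theorem finPt_card_zeros_1728_eq (hc : c.x = jGen k N)
    (hX : Nat.card (SL(2, ℤ) ⧸ Gamma0 N) = c.degree) :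
    (c.zeros 1728).card =
      Nat.card (MulAction.orbitRel.Quotient (Subgroup.zpowers S) (SL(2, ℤ) ⧸ Gamma0 N)) :=
  finPt_card_zeros_1728 (algebraMap k ℂ) c hc hX
    (fun hτ f hf0 hf => finPt_isIntegral N c hc 1728 UpperHalfPlane.I hτ f hf0 hf)

/-- **The fibre of `j` over `0`** is in bijection with the `⟨ST⟩`-orbits on the cosets. -/
theorem finPt_card_zeros_zero_eq (hc : c.x = jGen k N)
    (hX : Nat.card (SL(2, ℤ) ⧸ Gamma0 N) = c.degree) :
    (c.zeros 0).card =
      Nat.card (MulAction.orbitRel.Quotient (Subgroup.zpowers (S * T))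
        (SL(2, ℤ) ⧸ Gamma0 N)) :=
  finPt_card_zeros_zero (algebraMap k ℂ) c hc hX
    (fun hτ f hf0 hf => finPt_isIntegral N c hc 0 rhoH hτ f hf0 hf)

end Fermat.Agent.X0N
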