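/-
helper5: S21 (Eichler–Shimura), part 3a: a maximum modulus principle on `Γ \ ℍ*`.
A holomorphic function on `ℍ` whose absolute value is invariant under a finite index subgroup
`Γ ≤ SL(2, ℤ)` and which is periodic and bounded at every cusp is constant.
-/
import Mathlib

set_option autoImplicit false
set_option linter.unusedSectionVars false

open Complex Filter Topology Set Function Metric
open UpperHalfPlane hiding I
open scoped MatrixGroups Manifold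

namespace Fermat.Agent.X0N.ES

local notation "𝕢" => Periodic.qParam

/-- Periodicity on `ℍ` gives periodicity of the extension by `ofComplex`. -/
theorem periodic_comp_ofComplex_of_vadd {f : ℍ → ℂ} {h : ℝ}
    (hf : ∀ w : ℍ, f (h +ᵥ w) = f w) : Periodic (f ∘ ofComplex) h := by
  intro w
  by_cases hw : 0 < im w
  · have hw' : 0 < im (w + h) := by simpa using hw
    simp only [comp_apply, ofComplex_apply_of_im_pos hw', ofComplex_apply_of_im_pos hw]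
    rw [← hf ⟨w, hw⟩]
    congr 1
    ext
    simp [add_comm]
  · have hw0 : im w ≤ 0 := not_lt.mp hw
    have : im (w + h) ≤ 0 := by simpa using hw0
    simp [ofComplex_apply_of_im_nonpos this, ofComplex_apply_of_im_nonpos hw0]

theorem det_val_coe_SL_pos (g : SL(2, ℤ)) : 0 < (g : GL (Fin 2) ℝ).det.val := by
  have h1 := Matrix.SpecialLinearGroup.det_mapGL (S := ℝ) g
  have h2 := congrArg Units.val h1
  have h3 : (g : GL (Fin 2) ℝ).det.val = 1 := h2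
  rw [h3]; exact one_pos

theorem mdifferentiable_comp_SL {Φ : ℍ → ℂ} (hΦ : MDifferentiable 𝓘(ℂ) 𝓘(ℂ) Φ) (g : SL(2, ℤ)) :
    MDifferentiable 𝓘(ℂ) 𝓘(ℂ) (fun w : ℍ => Φ (g • w)) :=
  hΦ.comp (UpperHalfPlane.mdifferentiable_smul (g := (g : GL (Fin 2) ℝ)) (det_val_coe_SL_pos g))

/-- Coset representatives: every `g` is `γ * δ` with `γ ∈ Γ` and `δ` in a fixed family indexed by
`SL(2, ℤ) ⧸ Γ`. -/
theorem exists_mem_mul_rep (Γ : Subgroup SL(2, ℤ)) (g : SL(2, ℤ)) :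
    ∃ γ ∈ Γ, g = γ * ((QuotientGroup.mk g⁻¹ : SL(2, ℤ) ⧸ Γ).out)⁻¹ := by
  obtain ⟨h, hh⟩ := QuotientGroup.mk_out_eq_mul Γ g⁻¹
  refine ⟨(h : SL(2, ℤ)), h.2, ?_⟩
  rw [hh]
  group

/-- Maximum modulus principle for a finite family of functions on the unit disc. -/
theorem exists_eqOn_const_of_family {ι : Type*} [Fintype ι] [Nonempty ι] (F : ι → ℂ → ℂ)
    (hF : ∀ i, DifferentiableOn ℂ (F i) (ball 0 1)) {r : ℝ} (hr0 : 0 ≤ r) (hr1 : r < 1)
    (hle : ∀ i, ∀ q ∈ ball (0 : ℂ) 1, ∃ j, ∃ q' ∈ closedBall (0 : ℂ) r, ‖F i q‖ ≤ ‖F j q'‖) :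
    ∃ i, EqOn (F i) (Function.const ℂ (F i 0)) (ball 0 1) := by
  -- maxima on the closed ball
  have hmax : ∀ i, ∃ x ∈ closedBall (0 : ℂ) r, IsMaxOn (norm ∘ F i) (closedBall 0 r) x := fun i =>
    (isCompact_closedBall (0 : ℂ) r).exists_isMaxOn (nonempty_closedBall.mpr hr0)
      ((hF i).continuousOn.mono (closedBall_subset_ball hr1)).norm
  choose x hx hxmax using hmax
  obtain ⟨i0, hi0⟩ := Finite.exists_max (fun i => ‖F i (x i)‖)
  refine ⟨i0, ?_⟩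
  have hx0 : x i0 ∈ ball (0 : ℂ) 1 := closedBall_subset_ball hr1 (hx i0)
  have hmax0 : IsMaxOn (norm ∘ F i0) (ball 0 1) (x i0) := by
    intro q hq
    obtain ⟨j, q', hq', hle'⟩ := hle i0 q hq
    calc ‖F i0 q‖ ≤ ‖F j q'‖ := hle'
      _ ≤ ‖F j (x j)‖ := hxmax j hq'
      _ ≤ ‖F i0 (x i0)‖ := hi0 j
  have h1 := Complex.eq_const_of_exists_max (hF i0) hx0 hmax0
  intro q hq
  rw [h1 hq, Function.const_apply, Function.const_apply, h1 (mem_ball_self one_pos)]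
  rfl

/-- **Maximum modulus principle on `Γ \ ℍ*`.** -/
theorem eq_const_of_norm_invariant (Γ : Subgroup SL(2, ℤ)) [Γ.FiniteIndex] {h : ℝ} (hh : 0 < h)
    (Φ : ℍ → ℂ) (hΦ : MDifferentiable 𝓘(ℂ) 𝓘(ℂ) Φ)
    (hinv : ∀ γ ∈ Γ, ∀ z : ℍ, ‖Φ (γ • z)‖ = ‖Φ z‖)
    (hper : ∀ δ : SL(2, ℤ), ∀ w : ℍ, Φ (δ • (h +ᵥ w)) = Φ (δ • w))
    (hbdd : ∀ δ : SL(2, ℤ), IsBoundedAtImInfty (fun w : ℍ => Φ (δ • w))) :
    ∃ c : ℂ, ∀ z : ℍ, Φ z = c := by
  classical
  let _ : Fintype (SL(2, ℤ) ⧸ Γ) := Subgroup.fintypeQuotientOfFiniteIndex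
  have : Nonempty (SL(2, ℤ) ⧸ Γ) := ⟨QuotientGroup.mk 1⟩
  -- the family of translates
  let δ : SL(2, ℤ) ⧸ Γ → SL(2, ℤ) := fun q => (q.out)⁻¹
  let Φt : SL(2, ℤ) ⧸ Γ → ℍ → ℂ := fun q w => Φ (δ q • w)
  have hΦt_hol : ∀ q, MDifferentiable 𝓘(ℂ) 𝓘(ℂ) (Φt q) := fun q =>
    mdifferentiable_comp_SL hΦ (δ q)
  have hΦt_per : ∀ q, Periodic (Φt q ∘ ofComplex) h := fun q =>
    periodic_comp_ofComplex_of_vadd (hper (δ q))
  have hΦt_bdd : ∀ q, IsBoundedAtImInfty (Φt q) := fun q => hbdd (δ q)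
  let F : SL(2, ℤ) ⧸ Γ → ℂ → ℂ := fun q => UpperHalfPlane.cuspFunction h (Φt q)
  have hF : ∀ q, DifferentiableOn ℂ (F q) (ball 0 1) := fun q =>
    UpperHalfPlane.differentiableOn_cuspFunction_ball hh (hΦt_per q) (hΦt_hol q) (hΦt_bdd q)
  have hFeq : ∀ q (w : ℍ), F q (𝕢 h w) = Φ (δ q • w) := fun q w =>
    UpperHalfPlane.eq_cuspFunction w hh.ne' (hΦt_per q)
  set r : ℝ := Real.exp (-2 * Real.pi * (1 / 2) / h) with hr
  have hr0 : 0 ≤ r := (Real.exp_pos _).le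
  have hr1 : r < 1 := by
    rw [hr, Real.exp_lt_one_iff]
    have : 0 < 2 * Real.pi * (1 / 2) / h := by positivity
    have h2 : -2 * Real.pi * (1 / 2) / h = -(2 * Real.pi * (1 / 2) / h) := by ring
    rw [h2]; linarith
  have hle : ∀ i, ∀ q ∈ ball (0 : ℂ) 1, ∃ j, ∃ q' ∈ closedBall (0 : ℂ) r, ‖F i q‖ ≤ ‖F j q'‖ := by
    intro i q hq
    rcases eq_or_ne q 0 with rfl | hq0
    · exact ⟨i, 0, by simpa using hr0, le_rfl⟩
    · -- `q = 𝕢 h w`
      have hqn : ‖q‖ < 1 := by simpa using hq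
      set w : ℍ := ⟨Periodic.invQParam h q, Periodic.im_invQParam_pos_of_norm_lt_one hh hqn hq0⟩
        with hw
      have hqw : 𝕢 h w = q := Periodic.qParam_right_inv hh.ne' hq0
      obtain ⟨g, hg⟩ := ModularGroup.exists_one_half_le_im_smul (δ i • w)
      -- `g⁻¹ = γ * δ j`
      obtain ⟨γ, hγ, hgγ⟩ := exists_mem_mul_rep Γ g⁻¹
      set j : SL(2, ℤ) ⧸ Γ := QuotientGroup.mk (g⁻¹)⁻¹ with hj
      set z' : ℍ := g • (δ i • w) with hz'
      refine ⟨j, 𝕢 h z', ?_, ?_⟩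
      · rw [mem_closedBall_zero_iff, Periodic.norm_qParam, hr]
        apply Real.exp_le_exp.mpr
        have him : (1 : ℝ) / 2 ≤ (z' : ℂ).im := hg
        have h1 : -2 * Real.pi * (z' : ℂ).im / h = -(2 * Real.pi / h) * (z' : ℂ).im := by ring
        have h2 : -2 * Real.pi * (1 / 2) / h = -(2 * Real.pi / h) * (1 / 2) := by ring
        rw [h1, h2]
        have hpos : 0 < 2 * Real.pi / h := by positivity
        nlinarith
      · rw [← hqw, hFeq i w, hFeq j z']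
        have h1 : δ i • w = g⁻¹ • z' := by rw [hz', ← mul_smul, inv_mul_cancel, one_smul]
        rw [h1, hgγ, mul_smul, hinv γ hγ]
  obtain ⟨i, hi⟩ := exists_eqOn_const_of_family F hF hr0 hr1 hle
  refine ⟨F i 0, fun z => ?_⟩
  -- `z = δ i • w`
  have hz : z = δ i • ((δ i)⁻¹ • z) := by rw [← mul_smul, mul_inv_cancel, one_smul]
  rw [hz, ← hFeq i]
  have hmem : 𝕢 h (((δ i)⁻¹ • z : ℍ) : ℂ) ∈ ball (0 : ℂ) 1 := by
    rw [mem_ball_zero_iff, Periodic.norm_qParam, Real.exp_lt_one_iff]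
    have : 0 < 2 * Real.pi * (((δ i)⁻¹ • z : ℍ) : ℂ).im / h := by
      have := ((δ i)⁻¹ • z : ℍ).im_pos
      positivity
    have h2 : -2 * Real.pi * (((δ i)⁻¹ • z : ℍ) : ℂ).im / h
        = -(2 * Real.pi * (((δ i)⁻¹ • z : ℍ) : ℂ).im / h) := by ring
    rw [h2]; linarith
  exact hi hmem

/-- A holomorphic function on `ℍ` whose real part is `Γ`-invariant, which is periodic at every
cusp and has a limit at every cusp, is constant. -/
theorem eq_const_of_re_invariant (Γ : Subgroup SL(2, ℤ)) [Γ.FiniteIndex] {h : ℝ} (hh : 0 < h)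
    (U : ℍ → ℂ) (hU : MDifferentiable 𝓘(ℂ) 𝓘(ℂ) U)
    (hinv : ∀ γ ∈ Γ, ∀ z : ℍ, (U (γ • z)).re = (U z).re)
    (hper : ∀ δ : SL(2, ℤ), ∀ w : ℍ, U (δ • (h +ᵥ w)) = U (δ • w))
    (hlim : ∀ δ : SL(2, ℤ), ∃ L : ℂ, Tendsto (fun w : ℍ => U (δ • w)) atImInfty (𝓝 L)) :
    ∃ c : ℂ, ∀ z : ℍ, U z = c := by
  have hdiff : DifferentiableOn ℂ (U ∘ ofComplex) {z : ℂ | 0 < z.im} :=
    UpperHalfPlane.mdifferentiable_iff.mp hU
  obtain ⟨c, hc⟩ := eq_const_of_norm_invariant Γ hh (fun z => cexp (U z))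
    (UpperHalfPlane.mdifferentiable_iff.mpr hdiff.cexp)
    (fun γ hγ z => by rw [Complex.norm_exp, Complex.norm_exp, hinv γ hγ z])
    (fun δ w => by rw [hper δ w])
    (fun δ => by
      obtain ⟨L, hL⟩ := hlim δ
      have h1 : Tendsto (fun w : ℍ => cexp (U (δ • w))) atImInfty (𝓝 (cexp L)) :=
        (Complex.continuous_exp.tendsto L).comp hL
      exact h1.isBigO_one ℝ)
  have hderiv : {z : ℂ | 0 < z.im}.EqOn (deriv (U ∘ ofComplex)) 0 := by
    intro z hz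
    have hd : DifferentiableAt ℂ (U ∘ ofComplex) z :=
      hdiff.differentiableAt (isOpen_upperHalfPlaneSet.mem_nhds hz)
    have h1 : HasDerivAt (fun w => cexp ((U ∘ ofComplex) w))
        (cexp ((U ∘ ofComplex) z) * deriv (U ∘ ofComplex) z) z := hd.hasDerivAt.cexp
    have h2 : (fun w => cexp ((U ∘ ofComplex) w)) =ᶠ[𝓝 z] fun _ => c := by
      filter_upwards [isOpen_upperHalfPlaneSet.mem_nhds hz] with w _
      exact hc (ofComplex w)
    have h3 : HasDerivAt (fun w => cexp ((U ∘ ofComplex) w)) 0 z :=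
      (hasDerivAt_const z c).congr_of_eventuallyEq h2
    have h4 := h1.unique h3
    exact (mul_eq_zero.mp h4).resolve_left (exp_ne_zero _)
  refine ⟨U UpperHalfPlane.I, fun z => ?_⟩
  have h5 := isOpen_upperHalfPlaneSet.is_const_of_deriv_eq_zero
    (convex_halfSpace_im_gt 0).isPreconnected hdiff hderiv z.im_pos UpperHalfPlane.I.im_pos
  have hz : (U ∘ ofComplex) (z : ℂ) = U z := by rw [comp_apply, ofComplex_apply]
  have hI : (U ∘ ofComplex) ((UpperHalfPlane.I : ℍ) : ℂ) = U UpperHalfPlane.I := by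
    rw [comp_apply, ofComplex_apply]
  rw [← hz, ← hI]
  exact h5

end Fermat.Agent.X0N.ES
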