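/-
helper5: S21 (Eichler–Shimura), part 3b: injectivity of the Eichler–Shimura map `periodHomPair`.
If `P(a) + ι P(c) = 0` then `A + conj ∘ C ∘ J` (`A`, `C` the canonical primitives) is
`Γ₀(N)`-invariant; the holomorphic functions `exp (A + D)` and `exp (-i (A - D))`,
`D z = conj (C (-conj z))`, have `Γ₀(N)`-invariant absolute values, so they are constant by the
maximum modulus principle on the compactified modular curve; hence `a = c = 0`.
-/
import Mathlib
import Fermat.Agent.X0N.ES_helper5_Parabolic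
import Fermat.Agent.X0N.ES_helper5_MaxMod

set_option autoImplicit false
set_option linter.unusedSectionVars false

open Complex Filter Topology Set ModularForm CongruenceSubgroup Matrix
open UpperHalfPlane hiding I
open scoped MatrixGroups Manifold ComplexConjugate
open ModularCurve.Period
open Fermat.Agent.S22

namespace Fermat.Agent.X0N.ES

theorem J_mul_coe_SL (γ : SL(2, ℤ)) :
    UpperHalfPlane.J * (γ : GL (Fin 2) ℝ) = (jConjSL γ : GL (Fin 2) ℝ) * UpperHalfPlane.J := by
  ext i j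
  fin_cases i <;> fin_cases j <;>
    simp [Matrix.mul_apply, Fin.sum_univ_two, jConjMat]

theorem J_smul_SL (γ : SL(2, ℤ)) (z : ℍ) :
    UpperHalfPlane.J • (γ • z) = (jConjSL γ) • (UpperHalfPlane.J • z) := by
  show UpperHalfPlane.J • ((γ : GL (Fin 2) ℝ) • z)
    = (jConjSL γ : GL (Fin 2) ℝ) • (UpperHalfPlane.J • z)
  rw [← mul_smul, ← mul_smul, J_mul_coe_SL]

theorem J_smul_J_smul (z : ℍ) : UpperHalfPlane.J • (UpperHalfPlane.J • z) = z := by
  rw [← mul_smul, ← sq, UpperHalfPlane.J_sq, one_smul]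

theorem im_J_smul (z : ℍ) : (UpperHalfPlane.J • z).im = z.im := by
  show ((UpperHalfPlane.J • z : ℍ) : ℂ).im = (z : ℂ).im
  rw [UpperHalfPlane.coe_J_smul]
  simp

theorem tendsto_J_smul_atImInfty :
    Tendsto (fun w : ℍ => UpperHalfPlane.J • w) atImInfty atImInfty := by
  rw [atImInfty, tendsto_comap_iff]
  have : (UpperHalfPlane.im ∘ fun w : ℍ => UpperHalfPlane.J • w) = UpperHalfPlane.im := by
    ext w
    exact im_J_smul w
  rw [this]
  exact tendsto_comap

theorem Gamma_le_Gamma0 (N : ℕ) : CongruenceSubgroup.Gamma N ≤ Gamma0 N := by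
  intro x hx
  rw [Gamma_mem] at hx
  rw [Gamma0_mem]
  exact hx.2.2.1

theorem conj_T_pow_mem_Gamma0 (N : ℕ) (δ : SL(2, ℤ)) :
    δ * ModularGroup.T ^ (N : ℤ) * δ⁻¹ ∈ Gamma0 N := by
  apply Gamma_le_Gamma0
  have h1 : ModularGroup.T ^ (N : ℤ) ∈ CongruenceSubgroup.Gamma N := by
    have := ModularGroup_T_pow_mem_Gamma (N : ℤ) (N : ℤ) dvd_rfl
    rwa [Int.natAbs_natCast] at this
  exact (Gamma_normal N).conj_mem _ h1 δ

theorem trace_conj_T_pow (δ : SL(2, ℤ)) (n : ℤ) :
    ((δ * ModularGroup.T ^ n * δ⁻¹ : SL(2, ℤ)) : Matrix (Fin 2) (Fin 2) ℤ).trace = 2 := by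
  rw [Matrix.SpecialLinearGroup.coe_mul, Matrix.trace_mul_comm, ← Matrix.SpecialLinearGroup.coe_mul,
    ← mul_assoc, inv_mul_cancel, one_mul, ModularGroup.coe_T_zpow, Matrix.trace_fin_two_of]
  norm_num

theorem smul_natCast_vadd (N : ℕ) (δ : SL(2, ℤ)) (w : ℍ) :
    δ • ((N : ℝ) +ᵥ w) = (δ * ModularGroup.T ^ (N : ℤ) * δ⁻¹) • (δ • w) := by
  rw [← mul_smul, mul_assoc, mul_assoc, inv_mul_cancel, mul_one, mul_smul,
    UpperHalfPlane.modular_T_zpow_smul]
  push_cast
  rfl

variable {N : ℕ} [NeZero N]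

theorem mdifferentiable_canonPrim (f : CuspForm (Gamma0 N) 2) :
    MDifferentiable 𝓘(ℂ) 𝓘(ℂ) (canonPrim f) :=
  UpperHalfPlane.mdifferentiable_iff.mpr (canonPrim_isPrim f).differentiableOn

/-- The holomorphic function `z ↦ conj (F (-conj z))` attached to the canonical primitive `F`. -/
noncomputable def reflPrim (c : CuspForm (Gamma0 N) 2) : ℍ → ℂ :=
  fun z => conj (canonPrim c (UpperHalfPlane.J • z))

theorem reflPrim_eq_slash (c : CuspForm (Gamma0 N) 2) :
    reflPrim c = (canonPrim c) ∣[(0 : ℤ)] UpperHalfPlane.J := by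
  ext z
  simp [reflPrim, ModularForm.slash_apply]

theorem mdifferentiable_reflPrim (c : CuspForm (Gamma0 N) 2) :
    MDifferentiable 𝓘(ℂ) 𝓘(ℂ) (reflPrim c) := by
  rw [reflPrim_eq_slash]
  exact (mdifferentiable_canonPrim c).slash 0 _

theorem canonPrim_smul_Gamma0 (f : CuspForm (Gamma0 N) 2) (γ : Gamma0 N) (z : ℍ) :
    canonPrim f ((γ : SL(2, ℤ)) • z) =
      canonPrim f z + ModularCurve.periodMap N f (Additive.ofMul γ) := by
  rw [periodMap_apply' f γ z]; ring

theorem reflPrim_smul_Gamma0 (c : CuspForm (Gamma0 N) 2) (γ : Gamma0 N) (z : ℍ) :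
    reflPrim c ((γ : SL(2, ℤ)) • z) =
      reflPrim c z + conj (ModularCurve.periodMap N c (Additive.ofMul (jConjGamma0 N γ))) := by
  unfold reflPrim
  rw [J_smul_SL, ← jConjGamma0_coe, canonPrim_smul_Gamma0, map_add]

/-- Periodicity at the cusps of the canonical primitive. -/
theorem canonPrim_cusp_periodic (f : CuspForm (Gamma0 N) 2) (δ : SL(2, ℤ)) (w : ℍ) :
    canonPrim f (δ • ((N : ℝ) +ᵥ w)) = canonPrim f (δ • w) := by
  rw [smul_natCast_vadd]
  have hmem := conj_T_pow_mem_Gamma0 N δ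
  have := canonPrim_smul_Gamma0 f ⟨_, hmem⟩ (δ • w)
  rw [periodMap_parabolic f ⟨_, hmem⟩ (by rw [trace_conj_T_pow]; norm_num), add_zero] at this
  exact this

theorem reflPrim_cusp_periodic (c : CuspForm (Gamma0 N) 2) (δ : SL(2, ℤ)) (w : ℍ) :
    reflPrim c (δ • ((N : ℝ) +ᵥ w)) = reflPrim c (δ • w) := by
  rw [smul_natCast_vadd]
  have hmem := conj_T_pow_mem_Gamma0 N δ
  have := reflPrim_smul_Gamma0 c ⟨_, hmem⟩ (δ • w)
  rw [periodMap_parabolic c (jConjGamma0 N ⟨_, hmem⟩)
    (by rw [jConjGamma0_coe, jConjSL_coe, jConjMat_trace, trace_conj_T_pow]; norm_num),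
    map_zero, add_zero] at this
  exact this

theorem reflPrim_cusp_limit (c : CuspForm (Gamma0 N) 2) (δ : SL(2, ℤ)) :
    ∃ L : ℂ, Tendsto (fun w : ℍ => reflPrim c (δ • w)) atImInfty (𝓝 L) := by
  obtain ⟨L, hL⟩ := canonPrim_cusp_limit c (jConjSL δ)
  refine ⟨conj L, ?_⟩
  have h1 : Tendsto (fun w : ℍ => canonPrim c (jConjSL δ • (UpperHalfPlane.J • w)))
      atImInfty (𝓝 L) := hL.comp tendsto_J_smul_atImInfty
  have h2 := (Complex.continuous_conj.tendsto L).comp h1
  refine h2.congr fun w => ?_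
  simp only [Function.comp_apply, reflPrim, J_smul_SL]

theorem eq_zero_of_const_canonPrim (f : CuspForm (Gamma0 N) 2) {k : ℂ}
    (hk : ∀ z, canonPrim f z = k) : f = 0 := by
  apply DFunLike.ext
  intro τ
  have h1 := canonPrim_isPrim f τ
  have h2 : (canonPrim f ∘ ofComplex) = fun _ => k := by
    ext w
    exact hk _
  rw [h2] at h1
  have := h1.unique (hasDerivAt_const (τ : ℂ) k)
  rw [this]
  rfl


/-- The key vanishing statement behind the injectivity of the Eichler–Shimura map. -/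
theorem eq_zero_of_periodMap_add_eq_zero (a c : CuspForm (Gamma0 N) 2)
    (hrel : ∀ γ : Gamma0 N, ModularCurve.periodMap N a (Additive.ofMul γ) +
      ModularCurve.periodMap N c (Additive.ofMul (jConjGamma0 N γ)) = 0) :
    a = 0 ∧ c = 0 := by
  have hN : (0 : ℝ) < N := Nat.cast_pos.mpr (NeZero.pos N)
  have hQ : ∀ γ : Gamma0 N, ModularCurve.periodMap N c (Additive.ofMul (jConjGamma0 N γ)) =
      -ModularCurve.periodMap N a (Additive.ofMul γ) := fun γ => by
    linear_combination hrel γ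
  obtain ⟨c1, hc1⟩ := eq_const_of_re_invariant (Gamma0 N) hN
    (fun z => canonPrim a z + reflPrim c z)
    ((mdifferentiable_canonPrim a).add (mdifferentiable_reflPrim c))
    (fun γ hγ z => by
      have h1 := canonPrim_smul_Gamma0 a ⟨γ, hγ⟩ z
      have h2 := reflPrim_smul_Gamma0 c ⟨γ, hγ⟩ z
      simp only at h1 h2
      rw [h1, h2, hQ]
      simp
      ring)
    (fun δ w => by simp only [canonPrim_cusp_periodic, reflPrim_cusp_periodic])
    (fun δ => by
      obtain ⟨L1, hL1⟩ := canonPrim_cusp_limit a δ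
      obtain ⟨L2, hL2⟩ := reflPrim_cusp_limit c δ
      exact ⟨L1 + L2, hL1.add hL2⟩)
  obtain ⟨c2, hc2⟩ := eq_const_of_re_invariant (Gamma0 N) hN
    (fun z => -I * (canonPrim a z - reflPrim c z))
    (((mdifferentiable_canonPrim a).sub (mdifferentiable_reflPrim c)).const_smul (-I))
    (fun γ hγ z => by
      have h1 := canonPrim_smul_Gamma0 a ⟨γ, hγ⟩ z
      have h2 := reflPrim_smul_Gamma0 c ⟨γ, hγ⟩ z
      simp only at h1 h2
      rw [h1, h2, hQ]
      simp)
    (fun δ w => by simp only [canonPrim_cusp_periodic, reflPrim_cusp_periodic])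
    (fun δ => by
      obtain ⟨L1, hL1⟩ := canonPrim_cusp_limit a δ
      obtain ⟨L2, hL2⟩ := reflPrim_cusp_limit c δ
      exact ⟨-I * (L1 - L2), (hL1.sub hL2).const_mul (-I)⟩)
  have hA : ∀ z, canonPrim a z = (c1 + I * c2) / 2 := by
    intro z
    have h1 : canonPrim a z + reflPrim c z = c1 := hc1 z
    have h2 : -I * (canonPrim a z - reflPrim c z) = c2 := hc2 z
    rw [← h1, ← h2]
    have : I * (-I * (canonPrim a z - reflPrim c z)) = canonPrim a z - reflPrim c z := by
      rw [← mul_assoc, mul_neg, I_mul_I, neg_neg, one_mul]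
    rw [this]; ring
  have hD : ∀ z, reflPrim c z = (c1 - I * c2) / 2 := by
    intro z
    have h1 : canonPrim a z + reflPrim c z = c1 := hc1 z
    rw [hA z] at h1
    linear_combination h1
  have hC : ∀ z, canonPrim c z = conj ((c1 - I * c2) / 2) := by
    intro z
    have h1 := hD (UpperHalfPlane.J • z)
    unfold reflPrim at h1
    rw [J_smul_J_smul] at h1
    rw [← h1, Complex.conj_conj]
  exact ⟨eq_zero_of_const_canonPrim a hA, eq_zero_of_const_canonPrim c hC⟩


theorem periodMap_sub (f g : CuspForm (Gamma0 N) 2) :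
    ModularCurve.periodMap N (f - g) = ModularCurve.periodMap N f - ModularCurve.periodMap N g :=
  (periodMapLinear N).map_sub f g

/-- **Injectivity of the Eichler–Shimura map** `(f, g) ↦ (P f + ι P f) + (P g - ι P g)`. -/
theorem periodHomPair_injective (N : ℕ) [NeZero N] :
    Function.Injective (ModularCurve.periodHomPair N) := by
  rw [← LinearMap.ker_eq_bot, LinearMap.ker_eq_bot']
  rintro ⟨f, g⟩ h
  rw [periodHomPair_apply] at h
  have hrel : ∀ γ : Gamma0 N, ModularCurve.periodMap N (f + g) (Additive.ofMul γ) +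
      ModularCurve.periodMap N (f - g) (Additive.ofMul (jConjGamma0 N γ)) = 0 := by
    intro γ
    have h1 := DFunLike.congr_fun h (Additive.ofMul γ)
    rw [periodMap_add, periodMap_sub]
    simp only [AddMonoidHom.add_apply, AddMonoidHom.sub_apply, charInvolution_apply,
      toMul_ofMul, AddMonoidHom.zero_apply] at h1 ⊢
    linear_combination h1
  obtain ⟨h1, h2⟩ := eq_zero_of_periodMap_add_eq_zero (f + g) (f - g) hrel
  have hf : (2 : ℂ) • f = 0 := by
    have : (2 : ℂ) • f = (f + g) + (f - g) := by rw [two_smul]; abel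
    rw [this, h1, h2, add_zero]
  have hg : (2 : ℂ) • g = 0 := by
    have : (2 : ℂ) • g = (f + g) - (f - g) := by rw [two_smul]; abel
    rw [this, h1, h2, sub_zero]
  have hf' : f = 0 := (smul_eq_zero.mp hf).resolve_left two_ne_zero
  have hg' : g = 0 := (smul_eq_zero.mp hg).resolve_left two_ne_zero
  rw [hf', hg']
  rfl

end Fermat.Agent.X0N.ES
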