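/-
helper5: S21 (Eichler–Shimura), part 4: the final assembly, conditional on the two dimension
inputs (`S20`: `dim S₂(Γ₀(N)) = g`, and the group-theoretic bound
`dim parabolicHoms ≤ 2 g`).
-/
import Mathlib
import Fermat.Agent.X0N.ES_helper5_Injective
import Fermat.Agent.Helper2.CuspLattice
import Fermat.Prelude.Def_ModularCurve_GenusNumerics

set_option autoImplicit false

open CongruenceSubgroup ModularCurve.Period
open scoped MatrixGroups

namespace Fermat.Agent.X0N.ES

/-- **Eichler–Shimura for `Γ₀(N)`**, assuming the dimension formula for `S₂(Γ₀(N))` and the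
bound `dim Hom_par(Γ₀(N), ℂ) ≤ 2 g`. -/
theorem eichlerShimura_of_dims (N : ℕ) [NeZero N]
    (hS20 : (Module.finrank ℂ (CuspForm (Gamma0 N) 2) : ℚ) = ModularCurve.genusFormula N)
    (hfin : Module.Finite ℂ ↥(parabolicHoms ℂ (Gamma0 N) ℂ))
    (hC4 : (Module.finrank ℂ ↥(parabolicHoms ℂ (Gamma0 N) ℂ) : ℚ)
      ≤ 2 * ModularCurve.genusFormula N) :
    Function.Injective (ModularCurve.periodHomPair N)
      ∧ LinearMap.range (ModularCurve.periodHomPair N)
          = parabolicHoms ℂ (Gamma0 N) ℂ := by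
  refine ⟨periodHomPair_injective N, ?_⟩
  apply Submodule.eq_of_le_of_finrank_le (range_periodHomPair_le N)
  rw [LinearMap.finrank_range_of_inj (periodHomPair_injective N), Module.finrank_prod]
  have h : (Module.finrank ℂ ↥(parabolicHoms ℂ (Gamma0 N) ℂ) : ℚ) ≤
      ((Module.finrank ℂ (CuspForm (Gamma0 N) 2) + Module.finrank ℂ (CuspForm (Gamma0 N) 2) : ℕ) : ℚ) := by
    push_cast
    rw [hS20]
    linarith
  exact_mod_cast h

end Fermat.Agent.X0N.ES
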