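import Mathlib

set_option autoImplicit false

namespace Fermat.Agent.X0N.ParHom

variable {G : Type*} [Group G] (Γ : Subgroup G)

/-- A set-theoretic section of `G → G ⧸ Γ`. -/
noncomputable def rep (x : G ⧸ Γ) : G := Quotient.out x

theorem mk_rep (x : G ⧸ Γ) : ((rep Γ x : G) : G ⧸ Γ) = x := QuotientGroup.out_eq' x

theorem kappa_mem (g : G) (x : G ⧸ Γ) : (rep Γ (g • x))⁻¹ * g * rep Γ x ∈ Γ := by
  rw [mul_assoc, ← QuotientGroup.eq, mk_rep, ← smul_eq_mul, ← MulAction.Quotient.smul_mk, mk_rep]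

/-- The `Γ`-valued cocycle `κ(g, x) = r(gx)⁻¹ g r(x)`. -/
noncomputable def kappa (g : G) (x : G ⧸ Γ) : Γ := ⟨(rep Γ (g • x))⁻¹ * g * rep Γ x, kappa_mem Γ g x⟩

theorem kappa_mul (g h : G) (x : G ⧸ Γ) :
    kappa Γ (g * h) x = kappa Γ g (h • x) * kappa Γ h x := by
  apply Subtype.ext
  simp only [kappa, mul_smul, Subgroup.coe_mul]
  group

theorem kappa_one (x : G ⧸ Γ) : kappa Γ 1 x = 1 := by
  apply Subtype.ext
  simp [kappa]

/-- A function `c : G → (G ⧸ Γ) → A` is a cocycle if `c (g h) x = c g (h x) + c h x`. -/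
def IsCoc {A : Type*} [AddCommGroup A] (c : G → G ⧸ Γ → A) : Prop :=
  ∀ g h x, c (g * h) x = c g (h • x) + c h x

variable {Γ}

theorem IsCoc.one {A : Type*} [AddCommGroup A] {c : G → G ⧸ Γ → A} (hc : IsCoc Γ c)
    (x : G ⧸ Γ) : c 1 x = 0 := by
  have := hc 1 1 x
  rw [mul_one, one_smul] at this
  have h2 : c 1 x + c 1 x = c 1 x + 0 := by rw [add_zero]; exact this.symm
  exact add_left_cancel h2

/-- The elements on which a cocycle vanishes form a subgroup. -/
def IsCoc.vanishing {A : Type*} [AddCommGroup A] {c : G → G ⧸ Γ → A} (hc : IsCoc Γ c) :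
    Subgroup G where
  carrier := {g | ∀ x, c g x = 0}
  one_mem' := fun x => hc.one x
  mul_mem' := fun {g h} hg hh x => by rw [hc g h x, hg, hh, add_zero]
  inv_mem' := fun {g} hg x => by
    have h1 := hc g⁻¹ g (g⁻¹ • x)
    rw [inv_mul_cancel, hc.one, smul_inv_smul, hg, add_zero] at h1
    exact h1.symm

theorem IsCoc.eq_zero_of_closure {A : Type*} [AddCommGroup A] {c : G → G ⧸ Γ → A}
    (hc : IsCoc Γ c) {s : Set G} (hs : Subgroup.closure s = ⊤) (h : ∀ g ∈ s, ∀ x, c g x = 0)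
    (g : G) (x : G ⧸ Γ) : c g x = 0 := by
  have : Subgroup.closure s ≤ hc.vanishing := (Subgroup.closure_le _).mpr h
  rw [hs] at this
  exact this (Subgroup.mem_top g) x

theorem IsCoc.add {A : Type*} [AddCommGroup A] {c c' : G → G ⧸ Γ → A} (hc : IsCoc Γ c)
    (hc' : IsCoc Γ c') : IsCoc Γ (fun g x => c g x + c' g x) := by
  intro g h x
  simp only [hc g h x, hc' g h x]
  abel

/-- The coboundary of a function `v` on the cosets. -/
theorem isCoc_cobound {A : Type*} [AddCommGroup A] (v : G ⧸ Γ → A) :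
    IsCoc Γ (fun g x => v (g • x) - v x) := by
  intro g h x
  simp only [mul_smul]
  abel

variable (Γ)
variable {A : Type*} [AddCommGroup A] (ψ : Additive Γ →+ A)

/-- The cocycle induced by a homomorphism `ψ : Γ → A`. -/
noncomputable def coc (g : G) (x : G ⧸ Γ) : A := ψ (Additive.ofMul (kappa Γ g x))

theorem isCoc_coc : IsCoc Γ (coc Γ ψ) := by
  intro g h x
  simp only [coc, kappa_mul, ofMul_mul, map_add]

theorem rep_one_mem : rep Γ ((1 : G) : G ⧸ Γ) ∈ Γ := by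
  have := mk_rep Γ ((1 : G) : G ⧸ Γ)
  rw [QuotientGroup.eq] at this
  have h2 := Γ.inv_mem this
  simpa using h2

theorem smul_one_coset (γ : Γ) : (γ : G) • ((1 : G) : G ⧸ Γ) = ((1 : G) : G ⧸ Γ) := by
  rw [MulAction.Quotient.smul_mk, smul_eq_mul, mul_one, QuotientGroup.eq, mul_one]
  exact Γ.inv_mem γ.2

/-- On `Γ` and at the base coset the induced cocycle is `ψ` itself. -/
theorem coc_of_mem (γ : Γ) : coc Γ ψ (γ : G) ((1 : G) : G ⧸ Γ) = ψ (Additive.ofMul γ) := by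
  set r₀ : Γ := ⟨rep Γ ((1 : G) : G ⧸ Γ), rep_one_mem Γ⟩ with hr₀
  have hk : kappa Γ (γ : G) ((1 : G) : G ⧸ Γ) = r₀⁻¹ * γ * r₀ := by
    apply Subtype.ext
    simp only [kappa, smul_one_coset, Subgroup.coe_mul, Subgroup.coe_inv, hr₀]
  rw [coc, hk, ofMul_mul, ofMul_mul, ofMul_inv, map_add, map_add, map_neg]
  abel


variable {Γ}

theorem IsCoc.pow {c : G → G ⧸ Γ → A} (hc : IsCoc Γ c) (g : G) (n : ℕ) (x : G ⧸ Γ) :
    c (g ^ n) x = ∑ i ∈ Finset.range n, c g (g ^ i • x) := by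
  induction n generalizing x with
  | zero => simp [hc.one]
  | succ n ih =>
    rw [pow_succ, hc (g ^ n) g x, ih (g • x), Finset.sum_range_succ']
    simp only [pow_zero, one_smul, pow_succ, mul_smul]

variable (Γ)

theorem kappa_coe_of_smul_eq {g : G} {x : G ⧸ Γ} (h : g • x = x) :
    (kappa Γ g x : G) = (rep Γ x)⁻¹ * g * rep Γ x := by
  simp only [kappa, h]

end Fermat.Agent.X0N.ParHom
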