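import Mathlib

set_option autoImplicit false
set_option linter.unusedSectionVars false

namespace Fermat.Agent.X0N.ParHom

open Matrix

section Abstract

variable {X Ω₂ Ω₃ Ω₄ : Type*} [Fintype X] [Fintype Ω₂] [Fintype Ω₃] [Fintype Ω₄]
  [DecidableEq X] [DecidableEq Ω₂] [DecidableEq Ω₃] [DecidableEq Ω₄]
  (π₂ : X → Ω₂) (π₃ : X → Ω₃) (π₄ : X → Ω₄)

/-- The constraint matrix: rows = orbits of the three kinds, columns = two copies of `X`. -/
def conMatrix : Matrix (Ω₂ ⊕ Ω₃ ⊕ Ω₄) (X ⊕ X) ℂ :=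
  Matrix.of fun j i =>
    match j, i with
    | Sum.inl ω, Sum.inl x => if π₂ x = ω then 1 else 0
    | Sum.inl _, Sum.inr _ => 0
    | Sum.inr (Sum.inl _), Sum.inl _ => 0
    | Sum.inr (Sum.inl ω), Sum.inr x => if π₃ x = ω then 1 else 0
    | Sum.inr (Sum.inr ω), Sum.inl x => if π₄ x = ω then -1 else 0
    | Sum.inr (Sum.inr ω), Sum.inr x => if π₄ x = ω then 1 else 0

theorem conMatrix_mulVec_inl (u : X ⊕ X → ℂ) (ω : Ω₂) :
    (conMatrix π₂ π₃ π₄).mulVec u (Sum.inl ω) =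
      ∑ x, if π₂ x = ω then u (Sum.inl x) else 0 := by
  simp [Matrix.mulVec, dotProduct, conMatrix, Fintype.sum_sum_type]

theorem conMatrix_mulVec_inr_inl (u : X ⊕ X → ℂ) (ω : Ω₃) :
    (conMatrix π₂ π₃ π₄).mulVec u (Sum.inr (Sum.inl ω)) =
      ∑ x, if π₃ x = ω then u (Sum.inr x) else 0 := by
  simp [Matrix.mulVec, dotProduct, conMatrix, Fintype.sum_sum_type]

theorem conMatrix_mulVec_inr_inr (u : X ⊕ X → ℂ) (ω : Ω₄) :
    (conMatrix π₂ π₃ π₄).mulVec u (Sum.inr (Sum.inr ω)) =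
      ∑ x, if π₄ x = ω then u (Sum.inr x) - u (Sum.inl x) else 0 := by
  simp only [Matrix.mulVec, dotProduct, conMatrix, Fintype.sum_sum_type, Matrix.of_apply]
  rw [← Finset.sum_add_distrib]
  refine Finset.sum_congr rfl fun x _ => ?_
  split_ifs <;> ring

theorem conMatrix_transpose_mulVec_inl (y : Ω₂ ⊕ Ω₃ ⊕ Ω₄ → ℂ) (x : X) :
    (conMatrix π₂ π₃ π₄)ᵀ.mulVec y (Sum.inl x) =
      y (Sum.inl (π₂ x)) - y (Sum.inr (Sum.inr (π₄ x))) := by
  simp [Matrix.mulVec, dotProduct, conMatrix, Fintype.sum_sum_type, Matrix.transpose_apply,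
    sub_eq_add_neg]

theorem conMatrix_transpose_mulVec_inr (y : Ω₂ ⊕ Ω₃ ⊕ Ω₄ → ℂ) (x : X) :
    (conMatrix π₂ π₃ π₄)ᵀ.mulVec y (Sum.inr x) =
      y (Sum.inr (Sum.inl (π₃ x))) + y (Sum.inr (Sum.inr (π₄ x))) := by
  simp [Matrix.mulVec, dotProduct, conMatrix, Fintype.sum_sum_type, Matrix.transpose_apply]


open Module in
theorem finrank_ker_conMatrix_transpose_le [Nonempty X]
    (hconn : ∀ f : X → ℂ, (∀ x y, π₂ x = π₂ y → f x = f y) →
      (∀ x y, π₄ x = π₄ y → f x = f y) → ∀ x y, f x = f y)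
    (h₂ : Function.Surjective π₂) (h₃ : Function.Surjective π₃) (h₄ : Function.Surjective π₄) :
    finrank ℂ (LinearMap.ker (conMatrix π₂ π₃ π₄)ᵀ.mulVecLin) ≤ 1 := by
  obtain ⟨x₀⟩ := ‹Nonempty X›
  let ev : LinearMap.ker (conMatrix π₂ π₃ π₄)ᵀ.mulVecLin →ₗ[ℂ] ℂ :=
    (LinearMap.proj (Sum.inr (Sum.inr (π₄ x₀)))).comp (Submodule.subtype _)
  have hinj : Function.Injective ev := by
    rw [← LinearMap.ker_eq_bot, LinearMap.ker_eq_bot']
    rintro ⟨y, hy⟩ hev
    have hev' : y (Sum.inr (Sum.inr (π₄ x₀))) = 0 := hev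
    rw [LinearMap.mem_ker, Matrix.mulVecLin_apply] at hy
    have e1 : ∀ x, y (Sum.inl (π₂ x)) = y (Sum.inr (Sum.inr (π₄ x))) := by
      intro x
      have := congrFun hy (Sum.inl x)
      rw [conMatrix_transpose_mulVec_inl] at this
      exact sub_eq_zero.mp this
    have e2 : ∀ x, y (Sum.inr (Sum.inl (π₃ x))) = -y (Sum.inr (Sum.inr (π₄ x))) := by
      intro x
      have := congrFun hy (Sum.inr x)
      rw [conMatrix_transpose_mulVec_inr] at this
      exact eq_neg_of_add_eq_zero_left this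
    have hf : ∀ x, y (Sum.inr (Sum.inr (π₄ x))) = 0 := by
      intro x
      have := hconn (fun x => y (Sum.inr (Sum.inr (π₄ x))))
        (fun x y' hxy => by rw [← e1 x, ← e1 y', hxy])
        (fun x y' hxy => by rw [hxy]) x x₀
      rw [this, hev']
    apply Subtype.ext
    ext j
    simp only [ZeroMemClass.coe_zero, Pi.zero_apply]
    rcases j with ω | ω | ω
    · obtain ⟨x, rfl⟩ := h₂ ω
      rw [e1, hf]
    · obtain ⟨x, rfl⟩ := h₃ ω
      rw [e2, hf, neg_zero]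
    · obtain ⟨x, rfl⟩ := h₄ ω
      exact hf x
  have := LinearMap.finrank_le_finrank_of_injective hinj
  simpa using this

open Module in
/-- **Dimension bound for the space of constrained pairs.** -/
theorem finrank_ker_conMatrix_le [Nonempty X]
    (hconn : ∀ f : X → ℂ, (∀ x y, π₂ x = π₂ y → f x = f y) →
      (∀ x y, π₄ x = π₄ y → f x = f y) → ∀ x y, f x = f y)
    (h₂ : Function.Surjective π₂) (h₃ : Function.Surjective π₃) (h₄ : Function.Surjective π₄) :
    finrank ℂ (LinearMap.ker (conMatrix π₂ π₃ π₄).mulVecLin) +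
      (Fintype.card Ω₂ + Fintype.card Ω₃ + Fintype.card Ω₄) ≤ 2 * Fintype.card X + 1 := by
  have h1 := LinearMap.finrank_range_add_finrank_ker (conMatrix π₂ π₃ π₄).mulVecLin
  have h2 := LinearMap.finrank_range_add_finrank_ker (conMatrix π₂ π₃ π₄)ᵀ.mulVecLin
  have h3 : finrank ℂ (LinearMap.range (conMatrix π₂ π₃ π₄)ᵀ.mulVecLin) =
      finrank ℂ (LinearMap.range (conMatrix π₂ π₃ π₄).mulVecLin) :=
    Matrix.rank_transpose (conMatrix π₂ π₃ π₄)
  have h4 := finrank_ker_conMatrix_transpose_le π₂ π₃ π₄ hconn h₂ h₃ h₄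
  rw [Module.finrank_fintype_fun_eq_card, Fintype.card_sum] at h1
  rw [Module.finrank_fintype_fun_eq_card, Fintype.card_sum, Fintype.card_sum] at h2
  omega

end Abstract

end Fermat.Agent.X0N.ParHom
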