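import Mathlib
import Fermat.Prelude.Def_ModularCurve_PeriodMap
import Fermat.Prelude.Def_ModularCurve_GenusNumerics
import Fermat.Agent.X0N.Cosets_helper9_Orbits
import Fermat.Agent.X0N.Cosets_helper9_Cusps
import Fermat.Agent.X0N.ParHom_helper9_Cocycle
import Fermat.Agent.X0N.ParHom_helper9_Linear

set_option autoImplicit false
set_option linter.unusedSectionVars false

namespace Fermat.Agent.X0N.ParHom

open CongruenceSubgroup MatrixGroups ModularGroup Matrix ModularCurve.Period

variable (N : ℕ) [NeZero N]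

local notation "XN" => (SL(2, ℤ) ⧸ Gamma0 N)

theorem closure_S_ST : Subgroup.closure ({S, S * T} : Set SL(2, ℤ)) = ⊤ := by
  rw [eq_top_iff, ← SpecialLinearGroup.SL2Z_generators, Subgroup.closure_le]
  rintro g (rfl | rfl)
  · exact Subgroup.subset_closure (Set.mem_insert _ _)
  · have h1 : S ∈ Subgroup.closure ({S, S * T} : Set SL(2, ℤ)) :=
      Subgroup.subset_closure (Set.mem_insert _ _)
    have h2 : S * T ∈ Subgroup.closure ({S, S * T} : Set SL(2, ℤ)) :=
      Subgroup.subset_closure (Set.mem_insert_of_mem _ rfl)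
    have h3 := Subgroup.mul_mem _ (Subgroup.inv_mem _ h1) h2
    have : S⁻¹ * (S * T) = T := by group
    rw [this] at h3
    exact h3

/-- A function on the cosets invariant under `S` and `T` is constant. -/
theorem const_of_S_T_invariant (f : XN → ℂ) (hS : ∀ x, f (S • x) = f x)
    (hT : ∀ x, f (T • x) = f x) (x y : XN) : f x = f y := by
  let H : Subgroup SL(2, ℤ) :=
    { carrier := {g | ∀ x, f (g • x) = f x}
      one_mem' := fun x => by rw [one_smul]
      mul_mem' := fun {a b} ha hb x => by rw [mul_smul, ha, hb]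
      inv_mem' := fun {a} ha x => by
        have := ha (a⁻¹ • x)
        rw [smul_inv_smul] at this
        exact this.symm }
  have hH : H = ⊤ := by
    rw [eq_top_iff, ← SpecialLinearGroup.SL2Z_generators, Subgroup.closure_le]
    rintro g (rfl | rfl)
    · exact hS
    · exact hT
  obtain ⟨g, rfl⟩ := MulAction.exists_smul_eq SL(2, ℤ) x y
  have : g ∈ H := by rw [hH]; exact Subgroup.mem_top g
  exact (this x).symm


/-- The total cocycle `c'(g)(x) = c_ψ(g)(x) + v(gx) - v(x)`. -/
noncomputable def tcoc (ψ : Additive (Gamma0 N) →+ ℂ) (v : XN → ℂ) (g : SL(2, ℤ)) (x : XN) : ℂ :=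
  coc (Gamma0 N) ψ g x + (v (g • x) - v x)

theorem isCoc_tcoc (ψ : Additive (Gamma0 N) →+ ℂ) (v : XN → ℂ) :
    IsCoc (Gamma0 N) (tcoc N ψ v) :=
  (isCoc_coc _ ψ).add (isCoc_cobound v)

theorem neg_one_mem_Gamma0 : (-1 : SL(2, ℤ)) ∈ Gamma0 N := by
  rw [Gamma0_mem]
  simp

theorem coc_neg_one (ψ : Additive (Gamma0 N) →+ ℂ) (x : XN) :
    coc (Gamma0 N) ψ (-1) x = 0 := by
  have hk : kappa (Gamma0 N) (-1) x = ⟨-1, neg_one_mem_Gamma0 N⟩ := by
    apply Subtype.ext
    rw [kappa_coe_of_smul_eq _ (neg_one_smul_coset N x)]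
    simp
  rw [coc, hk]
  set m : Gamma0 N := ⟨-1, neg_one_mem_Gamma0 N⟩
  have hmm : m * m = 1 := by
    apply Subtype.ext
    simp [m]
  have h1 : ψ (Additive.ofMul m) + ψ (Additive.ofMul m) = 0 := by
    rw [← map_add, ← ofMul_mul, hmm, ofMul_one, map_zero]
  have h2 : (2 : ℂ) * ψ (Additive.ofMul m) = 0 := by rw [two_mul]; exact h1
  exact (mul_eq_zero.mp h2).resolve_left two_ne_zero

theorem tcoc_neg_one (ψ : Additive (Gamma0 N) →+ ℂ) (v : XN → ℂ) (x : XN) :
    tcoc N ψ v (-1) x = 0 := by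
  rw [tcoc, coc_neg_one, neg_one_smul_coset, sub_self, add_zero]

theorem tcoc_S_add (ψ : Additive (Gamma0 N) →+ ℂ) (v : XN → ℂ) (x : XN) :
    tcoc N ψ v S x + tcoc N ψ v S (S • x) = 0 := by
  have h := isCoc_tcoc N ψ v S S x
  have hS : S * S = -1 := by decide
  rw [hS, tcoc_neg_one] at h
  rw [add_comm]; exact h.symm

theorem tcoc_ST_add (ψ : Additive (Gamma0 N) →+ ℂ) (v : XN → ℂ) (x : XN) :
    tcoc N ψ v (S * T) x + tcoc N ψ v (S * T) ((S * T) • x) +
      tcoc N ψ v (S * T) ((S * T) ^ 2 • x) = 0 := by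
  have h := (isCoc_tcoc N ψ v).pow (S * T) 3 x
  rw [ST_cube, tcoc_neg_one] at h
  simp only [Finset.sum_range_succ, Finset.range_zero, Finset.sum_empty, zero_add, pow_zero,
    one_smul, pow_one] at h
  exact h.symm

theorem tcoc_T (ψ : Additive (Gamma0 N) →+ ℂ) (v : XN → ℂ) (x : XN) :
    tcoc N ψ v T x = tcoc N ψ v (S * T) x - tcoc N ψ v S (T • x) := by
  rw [isCoc_tcoc N ψ v S T x]
  ring


theorem T_pow_mul_col (n : ℕ) (g : SL(2, ℤ)) :
    (T ^ n * g) 0 0 = g 0 0 + n * g 1 0 ∧ (T ^ n * g) 1 0 = g 1 0 := by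
  induction n with
  | zero => simp
  | succ n ih =>
    rw [pow_succ', mul_assoc]
    obtain ⟨h1, h2⟩ := T_mul_col (T ^ n * g)
    rw [h1, h2, ih.1, ih.2]
    constructor
    · push_cast; ring
    · rfl

theorem T_pow_N_smul (x : XN) : (T ^ N) • x = x := by
  induction x using QuotientGroup.induction_on with
  | H g =>
    rw [smul_mk_eq_iff, (T_pow_mul_col N g).1, (T_pow_mul_col N g).2]
    refine ⟨g 1 0 * g 1 0, ?_⟩
    ring

theorem trace_conj_T_pow (r : SL(2, ℤ)) (n : ℕ) :
    ((r⁻¹ * T ^ n * r : SL(2, ℤ)) : Matrix (Fin 2) (Fin 2) ℤ).trace = 2 := by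
  have h1 : ((r⁻¹ * T ^ n * r : SL(2, ℤ)) : Matrix (Fin 2) (Fin 2) ℤ) =
      (r⁻¹ : SL(2, ℤ)).1 * (T ^ n : SL(2, ℤ)).1 * r.1 := by
    simp [Matrix.SpecialLinearGroup.coe_mul]
  rw [h1, Matrix.trace_mul_cycle, ← Matrix.SpecialLinearGroup.coe_mul, mul_inv_cancel,
    Matrix.SpecialLinearGroup.coe_one, one_mul]
  have h2 : (T ^ n : SL(2, ℤ)).1 = !![1, (n : ℤ); 0, 1] := by
    have := coe_T_zpow (n : ℤ)
    rwa [zpow_natCast] at this
  rw [h2, Matrix.trace_fin_two_of]
  norm_num

theorem coc_T_pow_N {ψ : Additive (Gamma0 N) →+ ℂ} (hψ : ψ ∈ parabolicHoms ℂ (Gamma0 N) ℂ)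
    (x : XN) : coc (Gamma0 N) ψ (T ^ N) x = 0 := by
  rw [coc]
  apply hψ
  rw [kappa_coe_of_smul_eq _ (T_pow_N_smul N x), trace_conj_T_pow]
  norm_num

theorem sum_tcoc_T {ψ : Additive (Gamma0 N) →+ ℂ} (hψ : ψ ∈ parabolicHoms ℂ (Gamma0 N) ℂ)
    (v : XN → ℂ) (x : XN) :
    ∑ i ∈ Finset.range N, tcoc N ψ v T (T ^ i • x) = 0 := by
  rw [← (isCoc_tcoc N ψ v).pow T N x, tcoc, coc_T_pow_N N hψ, T_pow_N_smul, sub_self, add_zero]


/-- Projection to the orbits of the cyclic group generated by `h`. -/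
def proj (h : SL(2, ℤ)) : XN → MulAction.orbitRel.Quotient (Subgroup.zpowers h) XN :=
  Quotient.mk _

theorem proj_smul (h : SL(2, ℤ)) (x : XN) : proj N h (h • x) = proj N h x := by
  apply Quotient.sound
  exact ⟨⟨h, Subgroup.mem_zpowers h⟩, rfl⟩

theorem proj_pow_smul (h : SL(2, ℤ)) (n : ℕ) (x : XN) : proj N h (h ^ n • x) = proj N h x := by
  induction n with
  | zero => simp
  | succ n ih => rw [pow_succ', mul_smul, proj_smul, ih]

theorem proj_surjective (h : SL(2, ℤ)) : Function.Surjective (proj N h) :=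
  Quotient.mk_surjective

/-- Fibre sums are invariant under a permutation preserving the fibres. -/
theorem fibre_sum_smul [Fintype XN] {Ω : Type*} [DecidableEq Ω] (π : XN → Ω) (g : SL(2, ℤ))
    (hπ : ∀ x, π (g • x) = π x) (f : XN → ℂ) (ω : Ω) :
    ∑ x, (if π x = ω then f (g • x) else 0) = ∑ x, (if π x = ω then f x else 0) := by
  have := Equiv.sum_comp (MulAction.toPerm g : Equiv.Perm XN)
    (fun x => if π x = ω then f x else 0)
  simp only [MulAction.toPerm_apply, hπ] at this
  exact this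


section Main

open Classical

noncomputable local instance instFintypeXN : Fintype XN := Fintype.ofFinite _

noncomputable local instance instFintypeOrb (h : SL(2, ℤ)) :
    Fintype (MulAction.orbitRel.Quotient (Subgroup.zpowers h) XN) := Fintype.ofFinite _

/-- The constraint matrix for `Γ₀(N)`. -/
noncomputable def conM : Matrix
    (MulAction.orbitRel.Quotient (Subgroup.zpowers S) XN ⊕
      MulAction.orbitRel.Quotient (Subgroup.zpowers (S * T)) XN ⊕
      MulAction.orbitRel.Quotient (Subgroup.zpowers T) XN) (XN ⊕ XN) ℂ :=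
  conMatrix (proj N S) (proj N (S * T)) (proj N T)

/-- The pair of values of the total cocycle on the generators `S`, `ST`. -/
noncomputable def Dfun (ψ : Additive (Gamma0 N) →+ ℂ) (v : XN → ℂ) : XN ⊕ XN → ℂ :=
  Sum.elim (tcoc N ψ v S) (tcoc N ψ v (S * T))

theorem Dfun_mem_ker {ψ : Additive (Gamma0 N) →+ ℂ} (hψ : ψ ∈ parabolicHoms ℂ (Gamma0 N) ℂ)
    (v : XN → ℂ) : (conM N).mulVec (Dfun N ψ v) = 0 := by
  ext j
  rcases j with ω | ω | ω
  · -- `S`-orbit sums
    rw [conM, conMatrix_mulVec_inl, Pi.zero_apply]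
    simp only [Dfun, Sum.elim_inl]
    have h1 := fibre_sum_smul N (proj N S) S (proj_smul N S) (tcoc N ψ v S) ω
    have h2 : ∑ x, (if proj N S x = ω then tcoc N ψ v S x else 0) +
        ∑ x, (if proj N S x = ω then tcoc N ψ v S (S • x) else 0) = 0 := by
      rw [← Finset.sum_add_distrib]
      refine Finset.sum_eq_zero fun x _ => ?_
      split_ifs
      · exact tcoc_S_add N ψ v x
      · simp
    rw [h1] at h2
    have h3 : (2 : ℂ) * ∑ x, (if proj N S x = ω then tcoc N ψ v S x else 0) = 0 := by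
      rw [two_mul]; exact h2
    exact (mul_eq_zero.mp h3).resolve_left two_ne_zero
  · -- `ST`-orbit sums
    rw [conM, conMatrix_mulVec_inr_inl, Pi.zero_apply]
    simp only [Dfun, Sum.elim_inr]
    have h1 := fibre_sum_smul N (proj N (S * T)) (S * T) (proj_smul N (S * T))
      (tcoc N ψ v (S * T)) ω
    have h1' := fibre_sum_smul N (proj N (S * T)) ((S * T) ^ 2) (proj_pow_smul N (S * T) 2)
      (tcoc N ψ v (S * T)) ω
    have h2 : ∑ x, (if proj N (S * T) x = ω then tcoc N ψ v (S * T) x else 0) +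
        ∑ x, (if proj N (S * T) x = ω then tcoc N ψ v (S * T) ((S * T) • x) else 0) +
        ∑ x, (if proj N (S * T) x = ω then tcoc N ψ v (S * T) ((S * T) ^ 2 • x) else 0) = 0 := by
      rw [← Finset.sum_add_distrib, ← Finset.sum_add_distrib]
      refine Finset.sum_eq_zero fun x _ => ?_
      split_ifs
      · exact tcoc_ST_add N ψ v x
      · simp
    rw [h1, h1'] at h2
    have h3 : (3 : ℂ) * ∑ x, (if proj N (S * T) x = ω then tcoc N ψ v (S * T) x else 0) = 0 := by
      linear_combination h2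
    exact (mul_eq_zero.mp h3).resolve_left (by norm_num)
  · -- `T`-orbit sums
    rw [conM, conMatrix_mulVec_inr_inr, Pi.zero_apply]
    simp only [Dfun, Sum.elim_inl, Sum.elim_inr]
    have h1 := fibre_sum_smul N (proj N T) T (proj_smul N T) (tcoc N ψ v S) ω
    -- rewrite the summand as `c'(T)` up to a `T`-shift
    have h2 : ∑ x, (if proj N T x = ω then tcoc N ψ v (S * T) x - tcoc N ψ v S x else 0) =
        ∑ x, (if proj N T x = ω then tcoc N ψ v T x else 0) := by
      have e1 : ∀ x, (if proj N T x = ω then tcoc N ψ v (S * T) x - tcoc N ψ v S x else 0) =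
          (if proj N T x = ω then tcoc N ψ v (S * T) x else 0) -
            (if proj N T x = ω then tcoc N ψ v S x else 0) := by
        intro x; split_ifs <;> simp
      have e2 : ∀ x, (if proj N T x = ω then tcoc N ψ v T x else 0) =
          (if proj N T x = ω then tcoc N ψ v (S * T) x else 0) -
            (if proj N T x = ω then tcoc N ψ v S (T • x) else 0) := by
        intro x; rw [tcoc_T]; split_ifs <;> simp
      simp only [e1, e2, Finset.sum_sub_distrib, h1]
    rw [h2]
    -- `N` times the fibre sum of `c'(T)` vanishes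
    have h3 : ∀ i : ℕ, ∑ x, (if proj N T x = ω then tcoc N ψ v T (T ^ i • x) else 0) =
        ∑ x, (if proj N T x = ω then tcoc N ψ v T x else 0) :=
      fun i => fibre_sum_smul N (proj N T) (T ^ i) (proj_pow_smul N T i) (tcoc N ψ v T) ω
    have h4 : ∑ i ∈ Finset.range N,
        ∑ x, (if proj N T x = ω then tcoc N ψ v T (T ^ i • x) else 0) = 0 := by
      rw [Finset.sum_comm]
      refine Finset.sum_eq_zero fun x _ => ?_
      split_ifs
      · exact sum_tcoc_T N hψ v x
      · simp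
    simp only [h3, Finset.sum_const, Finset.card_range, nsmul_eq_mul] at h4
    exact (mul_eq_zero.mp h4).resolve_left (by exact_mod_cast NeZero.ne N)


theorem eq_zero_of_Dfun_eq_zero (ψ : Additive (Gamma0 N) →+ ℂ) (v : XN → ℂ)
    (h : Dfun N ψ v = 0) : ψ = 0 ∧ ∀ x y, v x = v y := by
  have hc := isCoc_tcoc N ψ v
  have hall : ∀ g x, tcoc N ψ v g x = 0 := by
    refine hc.eq_zero_of_closure closure_S_ST ?_
    rintro g (rfl | rfl) x
    · exact congrFun h (Sum.inl x)
    · exact congrFun h (Sum.inr x)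
  have hψ : ψ = 0 := by
    refine AddMonoidHom.ext fun a => ?_
    have := hall ((Additive.toMul a : Gamma0 N) : SL(2, ℤ)) ((1 : SL(2, ℤ)) : XN)
    rw [tcoc, coc_of_mem, smul_one_coset, sub_self, add_zero, ofMul_toMul] at this
    rw [this, AddMonoidHom.zero_apply]
  refine ⟨hψ, ?_⟩
  have hv : ∀ (g : SL(2, ℤ)) x, v (g • x) = v x := by
    intro g x
    have := hall g x
    rw [tcoc, hψ] at this
    simp only [coc, AddMonoidHom.zero_apply, zero_add] at this
    exact sub_eq_zero.mp this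
  exact const_of_S_T_invariant N v (hv S) (hv T)

/-- `Dfun` as a linear map. -/
noncomputable def Dlin : ((Additive (Gamma0 N) →+ ℂ) × (XN → ℂ)) →ₗ[ℂ] (XN ⊕ XN → ℂ) where
  toFun p := Dfun N p.1 p.2
  map_add' p q := by
    ext (x | x)
    · simp only [Dfun, tcoc, coc, Prod.fst_add, Prod.snd_add, AddMonoidHom.add_apply,
        Pi.add_apply, Sum.elim_inl]
      ring
    · simp only [Dfun, tcoc, coc, Prod.fst_add, Prod.snd_add, AddMonoidHom.add_apply,
        Pi.add_apply, Sum.elim_inr]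
      ring
  map_smul' c p := by
    ext (x | x)
    · simp only [Dfun, tcoc, coc, Prod.smul_fst, Prod.smul_snd, AddMonoidHom.smul_apply,
        Pi.smul_apply, Sum.elim_inl, smul_eq_mul, RingHom.id_apply]
      ring
    · simp only [Dfun, tcoc, coc, Prod.smul_fst, Prod.smul_snd, AddMonoidHom.smul_apply,
        Pi.smul_apply, Sum.elim_inr, smul_eq_mul, RingHom.id_apply]
      ring

theorem Dlin_apply (ψ : Additive (Gamma0 N) →+ ℂ) (v : XN → ℂ) :
    Dlin N (ψ, v) = Dfun N ψ v := rfl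

/-- `Hom(Γ₀(N), ℂ)` is finite dimensional. -/
theorem finite_hom : Module.Finite ℂ (Additive (Gamma0 N) →+ ℂ) := by
  let f : (Additive (Gamma0 N) →+ ℂ) →ₗ[ℂ] (XN ⊕ XN → ℂ) :=
    (Dlin N).comp (LinearMap.inl ℂ _ _)
  refine Module.Finite.of_injective f ?_
  rw [← LinearMap.ker_eq_bot, LinearMap.ker_eq_bot']
  intro ψ hψ
  exact (eq_zero_of_Dfun_eq_zero N ψ 0 hψ).1


/-- `Dlin` restricted to parabolic homomorphisms. -/
noncomputable def DPlin : ((parabolicHoms ℂ (Gamma0 N) ℂ) × (XN → ℂ)) →ₗ[ℂ] (XN ⊕ XN → ℂ) :=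
  (Dlin N).comp (LinearMap.prodMap (parabolicHoms ℂ (Gamma0 N) ℂ).subtype LinearMap.id)

theorem DPlin_apply (p : (parabolicHoms ℂ (Gamma0 N) ℂ) × (XN → ℂ)) :
    DPlin N p = Dfun N (p.1 : Additive (Gamma0 N) →+ ℂ) p.2 := rfl

open Module in
theorem finrank_ker_DPlin_le : finrank ℂ (LinearMap.ker (DPlin N)) ≤ 1 := by
  have hkey : ∀ p : (parabolicHoms ℂ (Gamma0 N) ℂ) × (XN → ℂ), DPlin N p = 0 →
      p.2 ((1 : SL(2, ℤ)) : XN) = 0 → p = 0 := by
    intro p hp hev
    rw [DPlin_apply] at hp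
    obtain ⟨h1, h2⟩ := eq_zero_of_Dfun_eq_zero N _ _ hp
    apply Prod.ext
    · exact Subtype.ext h1
    · funext x
      rw [h2 x ((1 : SL(2, ℤ)) : XN), hev]
      rfl
  let ev : LinearMap.ker (DPlin N) →ₗ[ℂ] ℂ :=
    ((LinearMap.proj ((1 : SL(2, ℤ)) : XN)).comp
      (LinearMap.snd ℂ (parabolicHoms ℂ (Gamma0 N) ℂ) (XN → ℂ))).comp (Submodule.subtype _)
  have hinj : Function.Injective ev := by
    intro a b hab
    have h0 : ev (a - b) = 0 := by
      have := LinearMap.map_sub ev a b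
      rw [this, hab, sub_self]
    have h1 : DPlin N ((a - b : LinearMap.ker (DPlin N)) : _ × _) = 0 := (a - b).2
    have h2 := hkey _ h1 h0
    exact sub_eq_zero.mp (Subtype.ext h2)
  have := LinearMap.finrank_le_finrank_of_injective hinj
  simpa using this

open Module in
/-- The combinatorial bound: `dim Hom_par + #orbits(S) + #orbits(ST) + #orbits(T) ≤ ψ + 2`. -/
theorem finrank_parabolicHoms_add_le :
    finrank ℂ (parabolicHoms ℂ (Gamma0 N) ℂ) +
      (Nat.card (MulAction.orbitRel.Quotient (Subgroup.zpowers S) XN) +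
        Nat.card (MulAction.orbitRel.Quotient (Subgroup.zpowers (S * T)) XN) +
        Nat.card (MulAction.orbitRel.Quotient (Subgroup.zpowers T) XN)) ≤ Nat.card XN + 2 := by
  have := finite_hom N
  have hrange : LinearMap.range (DPlin N) ≤ LinearMap.ker (conM N).mulVecLin := by
    rintro _ ⟨p, rfl⟩
    rw [LinearMap.mem_ker, Matrix.mulVecLin_apply, DPlin_apply]
    exact Dfun_mem_ker N p.1.2 p.2
  have hker := finrank_ker_DPlin_le N
  have h1 := LinearMap.finrank_range_add_finrank_ker (DPlin N)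
  have h2 : finrank ℂ (LinearMap.range (DPlin N)) ≤ finrank ℂ (LinearMap.ker (conM N).mulVecLin) :=
    Submodule.finrank_mono hrange
  have h3 := finrank_ker_conMatrix_le (proj N S) (proj N (S * T)) (proj N T)
    (fun f hf2 hf4 => const_of_S_T_invariant N f
      (fun x => hf2 _ _ (proj_smul N S x)) (fun x => hf4 _ _ (proj_smul N T x)))
    (proj_surjective N S) (proj_surjective N (S * T)) (proj_surjective N T)
  rw [Module.finrank_prod, Module.finrank_fintype_fun_eq_card] at h1
  simp only [Nat.card_eq_fintype_card]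
  change finrank ℂ (LinearMap.ker (conM N).mulVecLin) + _ ≤ _ at h3
  omega

/-- **(C4)** `Hom_par(Γ₀(N), ℂ)` is finite dimensional of dimension at most `2 g(X₀(N))`. -/
theorem parabolicHoms_finite_and_finrank_le :
    Module.Finite ℂ (parabolicHoms ℂ (Gamma0 N) ℂ) ∧
      (Module.finrank ℂ (parabolicHoms ℂ (Gamma0 N) ℂ) : ℚ) ≤ 2 * ModularCurve.genusFormula N := by
  have := finite_hom N
  refine ⟨inferInstance, ?_⟩
  have h := finrank_parabolicHoms_add_le N
  have h2 := card_orbits_S N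
  have h3 := card_orbits_ST N
  rw [card_cusps, card_cosets_eq_dedekindPsi] at h
  unfold ModularCurve.genusFormula
  have h' : (Module.finrank ℂ (parabolicHoms ℂ (Gamma0 N) ℂ) : ℚ) +
      ((Nat.card (MulAction.orbitRel.Quotient (Subgroup.zpowers S) XN) : ℚ) +
        (Nat.card (MulAction.orbitRel.Quotient (Subgroup.zpowers (S * T)) XN) : ℚ) +
        (ModularCurve.cuspCount N : ℚ)) ≤ (ModularCurve.dedekindPsi N : ℚ) + 2 := by
    exact_mod_cast h
  have h2' : (2 : ℚ) * (Nat.card (MulAction.orbitRel.Quotient (Subgroup.zpowers S) XN) : ℚ) =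
      (ModularCurve.dedekindPsi N : ℚ) + (ModularCurve.nuTwo N : ℚ) := by exact_mod_cast h2
  have h3' : (3 : ℚ) *
      (Nat.card (MulAction.orbitRel.Quotient (Subgroup.zpowers (S * T)) XN) : ℚ) =
      (ModularCurve.dedekindPsi N : ℚ) + 2 * (ModularCurve.nuThree N : ℚ) := by exact_mod_cast h3
  linarith

end Main

end Fermat.Agent.X0N.ParHom
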