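import Mathlib
import Fermat.Agent.X0N.S20_helper5_Coord
import Fermat.Agent.X0N.ES_helper5_Final
import Fermat.Agent.FF.Canonical
import Fermat.Agent.X0N.ParHom_helper9_Main
import Fermat.Agent.Helper2.CuspLattice

set_option autoImplicit false

open AlgebraicCurve CongruenceSubgroup MatrixGroups ModularGroup ModularCurve
open Fermat.Agent.RatStr KaehlerDifferential IntermediateField

namespace Fermat.Agent.X0N.Dict

open Fermat.Agent.X0N Fermat.Agent.FF Fermat.Agent.X0N.Cusp

variable (N : ℕ) [NeZero N]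

/-- Upper bound `dim S₂(Γ₀(N)) ≤ g` from Eichler–Shimura injectivity and the bound on parabolic
cohomology. -/
theorem finrank_cuspForm_le_genusFormula :
    (Module.finrank ℂ (CuspForm (Gamma0 N) 2) : ℚ) ≤ genusFormula N := by
  obtain ⟨hfin, hC4⟩ := Fermat.Agent.X0N.ParHom.parabolicHoms_finite_and_finrank_le N
  have hinj := ES.periodHomPair_injective N
  have hle := ES.range_periodHomPair_le N
  have h1 : Module.finrank ℂ ↥(LinearMap.range (ModularCurve.periodHomPair N)) ≤
      Module.finrank ℂ ↥(Period.parabolicHoms ℂ (Gamma0 N) ℂ) :=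
    Submodule.finrank_mono hle
  rw [LinearMap.finrank_range_of_inj hinj, Module.finrank_prod] at h1
  have h2 : ((Module.finrank ℂ (CuspForm (Gamma0 N) 2) + Module.finrank ℂ (CuspForm (Gamma0 N) 2) : ℕ) : ℚ)
      ≤ (Module.finrank ℂ ↥(Period.parabolicHoms ℂ (Gamma0 N) ℂ) : ℚ) := by exact_mod_cast h1
  push_cast at h2
  linarith

/-- **S20 from Riemann–Roch for the divisor of `dj`.** -/
theorem finrank_cuspForm_eq_genusFormula_of_RR
    (hRR : ∀ W : Divisor ℂ ↥(laurentBaseChange ℂ (modularFunctionFieldFull N)),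
      (∀ v : Place ℂ ↥(laurentBaseChange ℂ (modularFunctionFieldFull N)),
        W v = v.ordDifferential (D ℂ _ (jCoordC N).x)) →
      2 * (Module.finrank ℂ ↥(riemannRochSpace W) : ℤ) = Divisor.degree W + 2) :
    (Module.finrank ℂ (CuspForm (Gamma0 N) 2) : ℚ) = genusFormula N := by
  obtain ⟨W, hW⟩ := (jCoordC N).exists_divisor_D_x
  have hlow := finrank_riemannRochSpace_le_finrank_cuspForm N (jCoordC N)
    (jCoordC_x_eq_jBarN N) W hW
  have hdeg := degree_divisor_D_jCoordC N W hW
  have h := hRR W hW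
  have h' : (2 : ℚ) * (Module.finrank ℂ ↥(riemannRochSpace W) : ℚ) =
      ((Divisor.degree W : ℤ) : ℚ) + 2 := by exact_mod_cast h
  have hlow' : (Module.finrank ℂ ↥(riemannRochSpace W) : ℚ) ≤
      (Module.finrank ℂ (CuspForm (Gamma0 N) 2) : ℚ) := by exact_mod_cast hlow
  apply le_antisymm (finrank_cuspForm_le_genusFormula N)
  linarith

end Fermat.Agent.X0N.Dict
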