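import Fermat.Agent.RatStr.Structure
import Fermat.Agent.RatStr.LevelOne

set_option autoImplicit false

/-!
# (SYM) core: level one forms of weight `12 m` are `Δ^m · P(j)`; invariant ratios lie in `ℂ(j)`
-/

namespace Fermat.Agent.X0N

open UpperHalfPlane ModularForm Filter Function EisensteinSeries Polynomial
open scoped MatrixGroups ModularForm Manifold Topology
open Fermat.Agent.RatStr

noncomputable section

local notation "Δ" => ModularForm.discriminant

/-- The modular `j`-function `E₄³/Δ` on `ℍ` (normalised as in the Prelude's `jq`). -/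
def jH (τ : ℍ) : ℂ := E₄ τ ^ 3 / Δ τ

theorem E4_cube_eq (τ : ℍ) : E₄ τ ^ 3 = Δ τ * jH τ := by
  rw [jH, mul_div_cancel₀ _ (discriminant_ne_zero τ)]

theorem E4_tendsto_one : Tendsto (E₄ : ℍ → ℂ) atImInfty (𝓝 1) := by
  have h := (isNice_modularForm (E₄ : ModularForm 𝒮ℒ 4)).tendsto_coeff_zero
  rwa [E_qExpansion_coeff_zero (by norm_num) ⟨2, rfl⟩] at h

theorem discriminant_tendsto_zero : Tendsto (Δ : ℍ → ℂ) atImInfty (𝓝 0) :=
  discriminant_isZeroAtImInfty

theorem isMF_E4 : IsMF ⊤ 4 (E₄ : ℍ → ℂ) := IsMF.of_modularForm E₄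

theorem isMF_discriminant : IsMF ⊤ 12 (Δ : ℍ → ℂ) :=
  IsMF.of_modularForm (CuspForm.discriminant : ModularForm 𝒮ℒ 12)

theorem isMF_E4_pow (m : ℕ) : IsMF ⊤ (12 * m) ((E₄ : ℍ → ℂ) ^ (3 * m)) :=
  (isMF_E4.pow (3 * m)).weight_cast (by push_cast; ring)

/-- A level one form vanishing at `i∞` is `Δ` times a level one form. -/
theorem exists_eq_discriminant_mul {k : ℤ} {A : ℍ → ℂ} (hA : IsMF ⊤ k A)
    (h0 : Tendsto A atImInfty (𝓝 0)) :
    ∃ B : ℍ → ℂ, IsMF ⊤ (k - 12) B ∧ ∀ τ, A τ = Δ τ * B τ := by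
  have hc : (qExpansion 1 (hA.toModularForm : ℍ → ℂ)).coeff 0 = 0 := by
    have hn : IsNice A := hA.isNice T_mem_top
    show (qExpansion 1 A).coeff 0 = 0
    rw [hn.qExpansion_coeff_zero]
    exact IsZeroAtImInfty.valueAtInfty_eq_zero h0
  refine ⟨CuspForm.discriminantEquiv (toCuspForm hA.toModularForm hc),
    IsMF.of_modularForm _, fun τ => ?_⟩
  rw [discriminant_mul_discriminantEquiv_apply]
  rfl

/-- **Level one forms of weight `12 m` are `Δ^m · P(j)` with `deg P ≤ m`.** -/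
theorem exists_poly_j : ∀ (m : ℕ) {A : ℍ → ℂ}, IsMF ⊤ (12 * m) A →
    ∃ P : ℂ[X], P.natDegree ≤ m ∧ ∀ τ, A τ = Δ τ ^ m * P.eval (jH τ) := by
  intro m
  induction m with
  | zero =>
    intro A hA
    have hA' : IsMF ⊤ 0 A := hA.weight_cast (by simp)
    obtain ⟨c, hc⟩ := ModularFormClass.levelOne_weight_zero_const hA'.toModularForm
    refine ⟨C c, by simp, fun τ => ?_⟩
    have : A τ = c := congrFun hc τ
    simp [this]
  | succ m ih =>
    intro A hA
    have hn : IsNice A := hA.isNice T_mem_top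
    set a₀ := valueAtInfty A with ha₀
    have hE := isMF_E4_pow (m + 1)
    have hA₁ : IsMF ⊤ (12 * ((m + 1 : ℕ) : ℤ)) (A - a₀ • (E₄ : ℍ → ℂ) ^ (3 * (m + 1))) :=
      hA.sub (hE.smul a₀)
    have hlim : Tendsto (A - a₀ • (E₄ : ℍ → ℂ) ^ (3 * (m + 1))) atImInfty (𝓝 0) := by
      have h1 := hn.tendsto_valueAtInfty
      have h2 : Tendsto (fun τ : ℍ => E₄ τ ^ (3 * (m + 1))) atImInfty (𝓝 1) := by
        simpa using E4_tendsto_one.pow (3 * (m + 1))
      have h3 := h1.sub (h2.const_mul a₀)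
      rw [← ha₀, mul_one, sub_self] at h3
      exact h3
    obtain ⟨B, hB, hAB⟩ := exists_eq_discriminant_mul hA₁ hlim
    have hB' : IsMF ⊤ (12 * (m : ℤ)) B := hB.weight_cast (by push_cast; ring)
    obtain ⟨P, hPdeg, hP⟩ := ih hB'
    refine ⟨P + C a₀ * X ^ (m + 1), ?_, fun τ => ?_⟩
    · refine (natDegree_add_le _ _).trans (max_le (hPdeg.trans (Nat.le_succ m)) ?_)
      exact (natDegree_C_mul_le _ _).trans (natDegree_X_pow_le _)
    · have h4 := hAB τ
      simp only [Pi.sub_apply, Pi.smul_apply, Pi.pow_apply, smul_eq_mul] at h4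
      have h5 : E₄ τ ^ (3 * (m + 1)) = Δ τ ^ (m + 1) * jH τ ^ (m + 1) := by
        rw [pow_mul, E4_cube_eq, mul_pow]
      rw [hP τ, h5] at h4
      simp only [eval_add, eval_mul, eval_C, eval_pow, eval_X]
      linear_combination h4

/-- `j` is transcendental over `ℂ` (as a function on `ℍ`). -/
theorem eq_zero_of_eval_jH_eq_zero {P : ℂ[X]} (h : ∀ τ, P.eval (jH τ) = 0) : P = 0 := by
  by_contra hP
  set d := P.natDegree with hd
  -- `Δ^d · P(j) = Σ_{i ≤ d} P_i E₄^{3i} Δ^{d-i}` tends to the leading coefficient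
  have hsum : ∀ τ, Δ τ ^ d * P.eval (jH τ) =
      ∑ i ∈ Finset.range (d + 1), P.coeff i * (E₄ τ ^ (3 * i) * Δ τ ^ (d - i)) := by
    intro τ
    rw [eval_eq_sum_range, Finset.mul_sum]
    refine Finset.sum_congr rfl fun i hi => ?_
    have hi' : i ≤ d := Nat.lt_succ_iff.mp (Finset.mem_range.mp hi)
    have : Δ τ ^ d = Δ τ ^ (d - i) * Δ τ ^ i := by rw [← pow_add, Nat.sub_add_cancel hi']
    rw [this, pow_mul, E4_cube_eq, mul_pow]
    ring
  have hlim : Tendsto (fun τ : ℍ => ∑ i ∈ Finset.range (d + 1),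
      P.coeff i * (E₄ τ ^ (3 * i) * Δ τ ^ (d - i))) atImInfty (𝓝 (P.coeff d)) := by
    have : P.coeff d = ∑ i ∈ Finset.range (d + 1),
        P.coeff i * ((1 : ℂ) ^ (3 * i) * (0 : ℂ) ^ (d - i)) := by
      rw [Finset.sum_range_succ, Finset.sum_eq_zero, zero_add]
      · simp
      · intro i hi
        have : d - i ≠ 0 := Nat.sub_ne_zero_of_lt (Finset.mem_range.mp hi)
        simp [this]
    rw [this]
    refine tendsto_finsetSum _ fun i _ => ?_
    exact ((E4_tendsto_one.pow (3 * i)).mul (discriminant_tendsto_zero.pow (d - i))).const_mul _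
  have hzero : (fun τ : ℍ => ∑ i ∈ Finset.range (d + 1),
      P.coeff i * (E₄ τ ^ (3 * i) * Δ τ ^ (d - i))) = fun _ => 0 := by
    funext τ
    rw [← hsum τ, h τ, mul_zero]
  rw [hzero] at hlim
  have := tendsto_nhds_unique hlim tendsto_const_nhds
  exact hP (leadingCoeff_eq_zero.mp this)

/-- **Ratios of level one forms of equal weight are rational functions of `j`.** -/
theorem levelOne_ratio {k : ℤ} {A B : ℍ → ℂ} (hA : IsMF ⊤ k A) (hB : IsMF ⊤ k B) (hB0 : B ≠ 0) :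
    ∃ P Q : ℂ[X], Q ≠ 0 ∧ ∀ τ, A τ * Q.eval (jH τ) = B τ * P.eval (jH τ) := by
  have hk : 0 ≤ k := by
    by_contra hneg
    push Not at hneg
    have : (hB.toModularForm : ℍ → ℂ) = 0 :=
      ModularFormClass.levelOne_neg_weight_eq_zero hneg hB.toModularForm
    exact hB0 this
  lift k to ℕ using hk
  have h1 : IsMF ⊤ (12 * (k : ℤ)) (A * B ^ 11) :=
    (hA.mul (hB.pow 11)).weight_cast (by push_cast; ring)
  have h2 : IsMF ⊤ (12 * (k : ℤ)) (B ^ 12) := (hB.pow 12).weight_cast (by push_cast; ring)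
  obtain ⟨P, -, hP⟩ := exists_poly_j k h1
  obtain ⟨Q, -, hQ⟩ := exists_poly_j k h2
  refine ⟨P, Q, ?_, fun τ => ?_⟩
  · rintro rfl
    apply hB0
    funext τ
    have := hQ τ
    simp only [Pi.pow_apply, eval_zero, mul_zero] at this
    exact pow_eq_zero_iff (by norm_num) |>.mp this
  · have hP' := hP τ
    have hQ' := hQ τ
    simp only [Pi.mul_apply, Pi.pow_apply] at hP' hQ'
    have hΔ : Δ τ ^ k ≠ 0 := pow_ne_zero _ (discriminant_ne_zero τ)
    apply mul_left_cancel₀ hΔ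
    calc Δ τ ^ k * (A τ * Q.eval (jH τ)) = A τ * (Δ τ ^ k * Q.eval (jH τ)) := by ring
      _ = A τ * B τ ^ 12 := by rw [hQ']
      _ = B τ * (A τ * B τ ^ 11) := by ring
      _ = B τ * (Δ τ ^ k * P.eval (jH τ)) := by rw [hP']
      _ = Δ τ ^ k * (B τ * P.eval (jH τ)) := by ring

end

end Fermat.Agent.X0N
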