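import Mathlib

/-!
# (AN0) part 4: a lattice is determined by its Eisenstein sums `G_k` (via Weierstrass `℘`)
-/

namespace Fermat.Agent.X0N

open Filter Topology Complex UpperHalfPlane ModularForm EisensteinSeries
open scoped PeriodPair MatrixGroups

/-- If all `G_k`, `k ≥ 3`, of two period pairs agree then `℘[L₁ - 0]` and `℘[L₂ - 0]` agree near 0. -/
theorem weierstrassPExcept_zero_eventuallyEq (L₁ L₂ : PeriodPair)
    (h : ∀ k : ℕ, 3 ≤ k → L₁.G k = L₂.G k) :
    (L₁.weierstrassPExcept 0) =ᶠ[𝓝 0] (L₂.weierstrassPExcept 0) := by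
  have h1 := L₁.hasFPowerSeriesAt_weierstrassPExcept 0
  have h2 := L₂.hasFPowerSeriesAt_weierstrassPExcept 0
  have hcoef : (fun i : ℕ => if i = 0 then L₁.weierstrassPExcept 0 0
        else ((i : ℂ) + 1) * L₁.sumInvPow 0 (i + 2)) =
      (fun i : ℕ => if i = 0 then L₂.weierstrassPExcept 0 0
        else ((i : ℂ) + 1) * L₂.sumInvPow 0 (i + 2)) := by
    funext i
    by_cases hi : i = 0
    · simp [hi]
    · simp only [hi, if_false, PeriodPair.sumInvPow_zero]
      rw [h (i + 2) (by omega)]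
  rw [hcoef] at h1
  filter_upwards [h1.eventually_hasSum_sub, h2.eventually_hasSum_sub] with z hz1 hz2
  exact hz1.unique hz2

/-- If all `G_k`, `k ≥ 3`, of two period pairs agree then `℘[L₁] = ℘[L₂]` near 0. -/
theorem weierstrassP_eventuallyEq (L₁ L₂ : PeriodPair)
    (h : ∀ k : ℕ, 3 ≤ k → L₁.G k = L₂.G k) :
    (L₁.weierstrassP) =ᶠ[𝓝 0] (L₂.weierstrassP) := by
  filter_upwards [weierstrassPExcept_zero_eventuallyEq L₁ L₂ h] with z hz
  have e1 := L₁.weierstrassPExcept_add (0 : L₁.lattice) z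
  have e2 := L₂.weierstrassPExcept_add (0 : L₂.lattice) z
  simp only [ZeroMemClass.coe_zero] at e1 e2
  rw [← e1, ← e2, hz]

theorem countable_lattice (L : PeriodPair) : (L.lattice : Set ℂ).Countable := by
  have : Countable L.lattice := L.latticeEquivProd.toEquiv.countable_iff.mpr inferInstance
  exact Set.countable_coe_iff.mp this

theorem isPreconnected_compl_lattices (L₁ L₂ : PeriodPair) :
    IsPreconnected ((L₁.lattice : Set ℂ) ∪ (L₂.lattice : Set ℂ))ᶜ := by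
  have hc : ((L₁.lattice : Set ℂ) ∪ (L₂.lattice : Set ℂ)).Countable :=
    (countable_lattice L₁).union (countable_lattice L₂)
  have h1 : 1 < Module.rank ℝ ℂ := by
    rw [Complex.rank_real_complex]
    norm_num
  exact (hc.isPathConnected_compl_of_one_lt_rank h1).isConnected.isPreconnected

theorem weierstrassP_eqOn (L₁ L₂ : PeriodPair) (h : ∀ k : ℕ, 3 ≤ k → L₁.G k = L₂.G k) :
    Set.EqOn L₁.weierstrassP L₂.weierstrassP ((L₁.lattice : Set ℂ) ∪ (L₂.lattice : Set ℂ))ᶜ := by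
  have hev := weierstrassP_eventuallyEq L₁ L₂ h
  have hev2 : ∀ᶠ y in 𝓝 (0 : ℂ), ∀ᶠ z in 𝓝 y, L₁.weierstrassP z = L₂.weierstrassP z :=
    eventually_eventually_nhds.mpr hev
  have hU1 := L₁.compl_lattice_sdiff_singleton_mem_nhds 0
  have hU2 := L₂.compl_lattice_sdiff_singleton_mem_nhds 0
  have hne : ∀ᶠ y in 𝓝[≠] (0 : ℂ), y ≠ 0 := eventually_mem_nhdsWithin
  obtain ⟨z₀, ⟨hz1, hz2⟩, hz0⟩ :=
    (((hev2.and (Filter.Eventually.and hU1 hU2)).filter_mono nhdsWithin_le_nhds).and hne).exists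
  have hz₀U : z₀ ∈ ((L₁.lattice : Set ℂ) ∪ (L₂.lattice : Set ℂ))ᶜ := by
    simp only [Set.mem_compl_iff, Set.mem_union, not_or]
    refine ⟨fun hm => hz2.1 ⟨hm, hz0⟩, fun hm => hz2.2 ⟨hm, hz0⟩⟩
  refine AnalyticOnNhd.eqOn_of_preconnected_of_eventuallyEq (𝕜 := ℂ) ?_ ?_
    (isPreconnected_compl_lattices L₁ L₂) hz₀U hz1
  · exact L₁.analyticOnNhd_weierstrassP.mono (Set.compl_subset_compl.mpr Set.subset_union_left)
  · exact L₂.analyticOnNhd_weierstrassP.mono (Set.compl_subset_compl.mpr Set.subset_union_right)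

theorem lattice_le_of_G_eq (L₁ L₂ : PeriodPair) (h : ∀ k : ℕ, 3 ≤ k → L₁.G k = L₂.G k) :
    L₁.lattice ≤ L₂.lattice := by
  intro ω hω
  by_contra hω2
  have heq := weierstrassP_eqOn L₁ L₂ h
  have h1 : (L₁.lattice \ {ω} : Set ℂ)ᶜ ∈ 𝓝 ω := L₁.compl_lattice_sdiff_singleton_mem_nhds ω
  have h2 : (L₂.lattice : Set ℂ)ᶜ ∈ 𝓝 ω := L₂.isClosed_lattice.isOpen_compl.mem_nhds hω2
  have hcongr : L₁.weierstrassP =ᶠ[𝓝[≠] ω] L₂.weierstrassP := by
    have hne : ∀ᶠ y in 𝓝[≠] ω, y ≠ ω := eventually_mem_nhdsWithin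
    filter_upwards [nhdsWithin_le_nhds h1, nhdsWithin_le_nhds h2, hne] with z hz1 hz2 hz3
    apply heq
    simp only [Set.mem_compl_iff, Set.mem_union, not_or]
    exact ⟨fun hm => hz1 ⟨hm, hz3⟩, hz2⟩
  have ho1 := L₁.order_weierstrassP ω hω
  have ho2 : (0 : WithTop ℤ) ≤ meromorphicOrderAt L₂.weierstrassP ω :=
    (L₂.analyticOnNhd_weierstrassP ω hω2).meromorphicOrderAt_nonneg
  rw [meromorphicOrderAt_congr hcongr] at ho1
  rw [ho1] at ho2
  exact absurd ho2 (by decide)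

theorem lattice_eq_of_G_eq (L₁ L₂ : PeriodPair) (h : ∀ k : ℕ, 3 ≤ k → L₁.G k = L₂.G k) :
    L₁.lattice = L₂.lattice :=
  le_antisymm (lattice_le_of_G_eq L₁ L₂ h) (lattice_le_of_G_eq L₂ L₁ fun k hk => (h k hk).symm)


theorem PeriodPair_G_eq_tsum_prod (L : PeriodPair) (k : ℕ) :
    L.G k = ∑' p : ℤ × ℤ, (((p.1 : ℂ) * L.ω₁ + (p.2 : ℂ) * L.ω₂) ^ k)⁻¹ := by
  rw [PeriodPair.G, ← L.latticeEquivProd.symm.toEquiv.tsum_eq]
  refine tsum_congr fun p => ?_
  simp only [LinearEquiv.coe_toEquiv]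
  rw [L.latticeEquiv_symm_apply]

/-- The period pair `(μ τ, μ)`. -/
noncomputable def pairOf (μ : ℂ) (hμ : μ ≠ 0) (τ : ℍ) : PeriodPair where
  ω₁ := μ * τ
  ω₂ := μ
  indep := by
    rw [LinearIndependent.pair_iff]
    intro s t h
    have h1 : μ * ((s : ℂ) * τ + t) = 0 := by
      simp only [Complex.real_smul] at h
      linear_combination h
    have h2 : (s : ℂ) * τ + t = 0 := by
      rcases mul_eq_zero.mp h1 with h | h
      · exact absurd h hμ
      · exact h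
    have h3 := congrArg Complex.im h2
    simp only [Complex.add_im, Complex.mul_im, Complex.ofReal_re, Complex.ofReal_im, zero_mul,
      add_zero, Complex.zero_im, UpperHalfPlane.coe_im] at h3
    have hs : s = 0 := by
      rcases mul_eq_zero.mp h3 with h | h
      · exact h
      · exact absurd h τ.im_pos.ne'
    refine ⟨hs, ?_⟩
    rw [hs] at h2
    simpa using h2

@[simp] theorem pairOf_ω₁ (μ : ℂ) (hμ : μ ≠ 0) (τ : ℍ) : (pairOf μ hμ τ).ω₁ = μ * τ := rfl
@[simp] theorem pairOf_ω₂ (μ : ℂ) (hμ : μ ≠ 0) (τ : ℍ) : (pairOf μ hμ τ).ω₂ = μ := rfl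

theorem pairOf_G (μ : ℂ) (hμ : μ ≠ 0) (τ : ℍ) {k : ℕ} (hk : 3 ≤ k) :
    (pairOf μ hμ τ).G k = (μ ^ k)⁻¹ * (2 * riemannZeta k * E hk τ) := by
  rw [PeriodPair_G_eq_tsum_prod]
  have h1 : ∀ p : ℤ × ℤ, (((p.1 : ℂ) * (pairOf μ hμ τ).ω₁ + (p.2 : ℂ) * (pairOf μ hμ τ).ω₂) ^ k)⁻¹ =
      (μ ^ k)⁻¹ * eisSummand k ![p.1, p.2] τ := by
    intro p
    simp only [pairOf_ω₁, pairOf_ω₂, eisSummand, Matrix.cons_val_zero, Matrix.cons_val_one,
      zpow_neg, zpow_natCast]
    rw [← mul_inv, ← mul_pow]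
    congr 2
    ring
  simp_rw [h1]
  rw [tsum_mul_left]
  congr 1
  have h2 : ∑' p : ℤ × ℤ, eisSummand k ![p.1, p.2] τ = ∑' v : Fin 2 → ℤ, eisSummand k v τ := by
    rw [← (finTwoArrowEquiv ℤ).symm.tsum_eq]
    simp [finTwoArrowEquiv_symm_apply]
  rw [h2, tsum_eisSummand_eq_riemannZeta_mul_eisensteinSeries hk]
  rw [show E hk τ = (1 / 2 : ℂ) • eisensteinSeriesSIF (N := 1) 0 k τ from rfl,
    eisensteinSeriesSIF_apply 0 k τ]
  simp only [smul_eq_mul]
  ring


theorem int_mul_add_eq_zero {z : ℍ} {m n : ℤ} (h : (m : ℂ) * z + n = 0) : m = 0 ∧ n = 0 := by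
  have h3 := congrArg Complex.im h
  simp only [Complex.add_im, Complex.mul_im, Complex.intCast_re, Complex.intCast_im, zero_mul,
    add_zero, Complex.zero_im, UpperHalfPlane.coe_im] at h3
  have hm : m = 0 := by
    rcases mul_eq_zero.mp h3 with h | h
    · exact_mod_cast h
    · exact absurd h z.im_pos.ne'
  refine ⟨hm, ?_⟩
  rw [hm] at h
  simpa using h

theorem exists_SL2_smul_eq_of_lattice_eq {μ : ℂ} (hμ : μ ≠ 0) {z w : ℍ}
    (h : (pairOf 1 one_ne_zero w).lattice = (pairOf μ hμ z).lattice) :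
    ∃ γ : SL(2, ℤ), γ • z = w := by
  have hw : (w : ℂ) ∈ (pairOf μ hμ z).lattice := by
    rw [← h]; simpa using (pairOf 1 one_ne_zero w).ω₁_mem_lattice
  have h1 : (1 : ℂ) ∈ (pairOf μ hμ z).lattice := by
    rw [← h]; simpa using (pairOf 1 one_ne_zero w).ω₂_mem_lattice
  have hμz : μ * (z : ℂ) ∈ (pairOf 1 one_ne_zero w).lattice := by
    rw [h]; simpa using (pairOf μ hμ z).ω₁_mem_lattice
  have hμ1 : μ ∈ (pairOf 1 one_ne_zero w).lattice := by
    rw [h]; simpa using (pairOf μ hμ z).ω₂_mem_lattice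
  rw [PeriodPair.mem_lattice] at hw h1 hμz hμ1
  obtain ⟨a, b, hab⟩ := hw
  obtain ⟨c, d, hcd⟩ := h1
  obtain ⟨a', b', hab'⟩ := hμz
  obtain ⟨c', d', hcd'⟩ := hμ1
  simp only [pairOf_ω₁, pairOf_ω₂, one_mul, mul_one] at hab hcd hab' hcd'
  -- hab : a * (μ z) + b μ = w ; hcd : c (μ z) + d μ = 1 ; hab' : a' w + b' = μ z ; hcd' : c' w + d' = μ
  have e1 : ((a' * a + b' * c - 1 : ℤ) : ℂ) * z + ((a' * b + b' * d : ℤ) : ℂ) = 0 := by
    have : μ * ((((a' * a + b' * c - 1 : ℤ) : ℂ)) * z + ((a' * b + b' * d : ℤ) : ℂ)) = 0 := by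
      push_cast
      have t1 : μ * (z : ℂ) = a' * (a * (μ * z) + b * μ) + b' * (c * (μ * z) + d * μ) := by
        rw [hab, hcd, mul_one]; exact hab'.symm
      linear_combination -t1
    rcases mul_eq_zero.mp this with h | h
    · exact absurd h hμ
    · exact h
  have e2 : ((c' * a + d' * c : ℤ) : ℂ) * z + ((c' * b + d' * d - 1 : ℤ) : ℂ) = 0 := by
    have : μ * ((((c' * a + d' * c : ℤ) : ℂ)) * z + ((c' * b + d' * d - 1 : ℤ) : ℂ)) = 0 := by
      push_cast
      have t1 : μ = c' * (a * (μ * z) + b * μ) + d' * (c * (μ * z) + d * μ) := by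
        rw [hab, hcd, mul_one]; exact hcd'.symm
      linear_combination -t1
    rcases mul_eq_zero.mp this with h | h
    · exact absurd h hμ
    · exact h
  obtain ⟨f1, f2⟩ := int_mul_add_eq_zero e1
  obtain ⟨f3, f4⟩ := int_mul_add_eq_zero e2
  have hdet : (a' * d' - b' * c') * (a * d - b * c) = 1 := by
    linear_combination (c' * b + d' * d) * f1 + f4 - (c' * a + d' * c) * f2
  -- the denominator
  have hden : (c : ℂ) * z + d ≠ 0 := by
    intro h0
    have : (1 : ℂ) = μ * ((c : ℂ) * z + d) := by rw [← hcd]; ring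
    rw [h0, mul_zero] at this
    exact one_ne_zero this
  have hμeq : μ = ((c : ℂ) * z + d)⁻¹ := by
    have : μ * ((c : ℂ) * z + d) = 1 := by rw [← hcd]; ring
    exact eq_inv_of_mul_eq_one_left this
  have hweq : (w : ℂ) = ((a : ℂ) * z + b) / ((c : ℂ) * z + d) := by
    rw [← hab, hμeq]
    field_simp
  -- sign of the determinant
  have hIm : w.im * Complex.normSq ((c : ℂ) * z + d) = ((a * d - b * c : ℤ) : ℝ) * z.im := by
    have h1 : (w : ℂ) * ((c : ℂ) * z + d) = (a : ℂ) * z + b := by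
      rw [hweq]; exact div_mul_cancel₀ _ hden
    have h2 : (w : ℂ) * (Complex.normSq ((c : ℂ) * z + d) : ℂ) =
        ((a : ℂ) * z + b) * (starRingEnd ℂ) ((c : ℂ) * z + d) := by
      rw [← h1, Complex.normSq_eq_conj_mul_self]; ring
    have h3 := congrArg Complex.im h2
    simp only [Complex.mul_im, Complex.ofReal_re, Complex.ofReal_im, mul_zero, zero_add,
      Complex.add_im, Complex.add_re, Complex.mul_re, Complex.intCast_re, Complex.intCast_im,
      Complex.conj_re, Complex.conj_im, UpperHalfPlane.coe_im, UpperHalfPlane.coe_re, zero_mul,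
      sub_zero, add_zero, map_add, map_mul, map_intCast] at h3
    push_cast
    linear_combination h3
  have hpos : 0 < a * d - b * c := by
    have h1 : 0 < w.im * Complex.normSq ((c : ℂ) * z + d) :=
      mul_pos w.im_pos (Complex.normSq_pos.mpr hden)
    rw [hIm] at h1
    have h2 : (0 : ℝ) < ((a * d - b * c : ℤ) : ℝ) := by
      by_contra hneg
      rw [not_lt] at hneg
      have := mul_nonpos_of_nonpos_of_nonneg hneg z.im_pos.le
      linarith
    exact_mod_cast h2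
  have hdet1 : a * d - b * c = 1 := by
    have hdvd : (a * d - b * c) ∣ 1 := ⟨a' * d' - b' * c', by rw [← hdet]; ring⟩
    have := Int.eq_one_or_neg_one_of_mul_eq_one' (by rw [mul_comm]; exact hdet)
    rcases this with ⟨h1, _⟩ | ⟨h1, _⟩
    · exact h1
    · omega
  let γ : SL(2, ℤ) := ⟨!![a, b; c, d], by rw [Matrix.det_fin_two_of]; exact hdet1⟩
  refine ⟨γ, ?_⟩
  apply UpperHalfPlane.ext
  rw [UpperHalfPlane.coe_specialLinearGroup_apply, hweq]
  simp [γ]


end Fermat.Agent.X0N
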