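import Fermat.Agent.X0N.J_helper8_Dilate

/-!
# (AN0) part 6 (J4): derivative of `j`, Ramanujan-type identities, local orders of `j`
-/

namespace Fermat.Agent.X0N

open UpperHalfPlane hiding I
open Complex Filter Function Topology ModularForm EisensteinSeries Derivative
open Fermat.Agent.RatStr
open scoped Manifold MatrixGroups Real

local notation "𝕢" => Periodic.qParam
local notation "Δ" => ModularForm.discriminant

/-- A holomorphic periodic bounded function tends to its constant `q`-coefficient at `i∞`. -/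
theorem tendsto_of_isHolBdd {F : ℍ → ℂ} (hF : IsHolBdd 1 F) :
    Tendsto F atImInfty (𝓝 ((qExpansion 1 F).coeff 0)) := by
  have h1 : ContinuousAt (cuspFunction 1 F) 0 := (hF.analyticAt one_pos).continuousAt
  have h2 : Tendsto (fun z : ℍ => 𝕢 1 (z : ℂ)) atImInfty (𝓝 0) :=
    UpperHalfPlane.qParam_tendsto_atImInfty one_pos
  have h3 := h1.tendsto.comp h2
  have h4 : (qExpansion 1 F).coeff 0 = cuspFunction 1 F 0 := by
    rw [qExpansion_coeff]; simp
  rw [h4]
  refine h3.congr fun z => ?_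
  simp only [comp_apply]
  exact eq_cuspFunction z one_ne_zero hF.per

theorem hasDerivAt_qParam_one (z : ℂ) : HasDerivAt (𝕢 1) (2 * π * I * 𝕢 1 z) z := by
  have h1 : HasDerivAt (fun w : ℂ => 2 * π * I * w / (1 : ℝ)) (2 * π * I) z := by
    have : HasDerivAt (fun w : ℂ => 2 * π * I * w) (2 * π * I * 1) z :=
      (hasDerivAt_id z).const_mul _
    simpa using this
  have h2 := h1.cexp
  unfold Periodic.qParam
  rw [mul_comm (2 * (π : ℂ) * I) (cexp _)]
  exact h2

/-- `D F = q * g'(q)` where `g` is the cusp function of `F`. -/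
theorem D_eq_of_isHolBdd {F : ℍ → ℂ} (hF : IsHolBdd 1 F) (z : ℍ) :
    D F z = 𝕢 1 (z : ℂ) * deriv (cuspFunction 1 F) (𝕢 1 (z : ℂ)) := by
  have hev : (F ∘ ofComplex) =ᶠ[𝓝 (z : ℂ)] (cuspFunction 1 F ∘ 𝕢 1) := by
    filter_upwards [isOpen_upperHalfPlaneSet.mem_nhds z.im_pos] with w hw
    simp only [comp_apply]
    rw [ofComplex_apply_of_im_pos hw]
    exact (eq_cuspFunction ⟨w, hw⟩ one_ne_zero hF.per).symm
  have hg : DifferentiableAt ℂ (cuspFunction 1 F) (𝕢 1 (z : ℂ)) :=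
    (differentiableOn_cuspFunction_ball one_pos hF.per hF.hol hF.bdd).differentiableAt
      (Metric.isOpen_ball.mem_nhds (qParam_mem_ball z))
  have hd : HasDerivAt (cuspFunction 1 F ∘ 𝕢 1)
      (deriv (cuspFunction 1 F) (𝕢 1 (z : ℂ)) * (2 * π * I * 𝕢 1 (z : ℂ))) (z : ℂ) :=
    hg.hasDerivAt.comp (z : ℂ) (hasDerivAt_qParam_one z)
  unfold normalizedDerivOfComplex
  rw [hev.deriv_eq, hd.deriv]
  have : (2 * π * I : ℂ) ≠ 0 := by
    simp [Real.pi_ne_zero]
  field_simp

theorem tendsto_D_of_isHolBdd {F : ℍ → ℂ} (hF : IsHolBdd 1 F) :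
    Tendsto (D F) atImInfty (𝓝 0) := by
  have h1 : ContinuousAt (deriv (cuspFunction 1 F)) 0 :=
    (hF.analyticAt one_pos).deriv.continuousAt
  have h2 : Tendsto (fun z : ℍ => 𝕢 1 (z : ℂ)) atImInfty (𝓝 0) :=
    UpperHalfPlane.qParam_tendsto_atImInfty one_pos
  have h3 := h2.mul (h1.tendsto.comp h2)
  rw [zero_mul] at h3
  refine h3.congr fun z => ?_
  simp only [comp_apply]
  exact (D_eq_of_isHolBdd hF z).symm

theorem isHolBdd_D {F : ℍ → ℂ} (hF : IsHolBdd 1 F) : IsHolBdd 1 (D F) where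
  per := by
    apply periodic_comp_ofComplex_of_vadd
    intro τ
    rw [D_eq_of_isHolBdd hF, D_eq_of_isHolBdd hF]
    have : 𝕢 1 (((1 : ℝ) +ᵥ τ : ℍ) : ℂ) = 𝕢 1 (τ : ℂ) := by
      rw [UpperHalfPlane.coe_vadd, add_comm]
      exact_mod_cast qParam_add_period (h := 1) one_ne_zero (τ : ℂ)
    rw [this]
  hol := normalizedDerivOfComplex_mdifferentiable hF.hol
  bdd := (tendsto_D_of_isHolBdd hF).isBigO_one ℝ

theorem E2_vadd_one (z : ℍ) : E2 ((1 : ℝ) +ᵥ z) = E2 z := by
  have h := congrFun (E2_slash_action ModularGroup.T) z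
  rw [D2_T] at h
  simp only [smul_zero, sub_zero] at h
  rw [ModularForm.SL_slash_apply] at h
  have hd : denom ModularGroup.T z = 1 := by
    rw [ModularGroup.denom_apply]
    simp [ModularGroup.T]
  rw [hd] at h
  simp only [one_zpow, mul_one] at h
  rw [← h, UpperHalfPlane.modular_T_smul]

theorem isHolBdd_E2 : IsHolBdd 1 E2 where
  per := periodic_comp_ofComplex_of_vadd E2_vadd_one
  hol := E2_mdifferentiable
  bdd := isBoundedAtImInfty_E2

theorem tendsto_E2 : Tendsto E2 atImInfty (𝓝 1) := by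
  have h := tendsto_of_isHolBdd isHolBdd_E2
  have h0 := qExpansion_coeff_unique' (isHolBdd_E2.analyticAt one_pos)
    (c := fun m : ℕ => (if m = 0 then 1 else -24 * (ArithmeticFunction.sigma 1 m : ℂ)))
    (fun τ => by
      simpa only [Function.Periodic.qParam, ofReal_one, div_one] using
        hasSum_qExpansion_E2 (z := τ)) 0
  simp only [if_true] at h0
  rwa [← h0] at h

theorem tendsto_E (k : ℕ) (hk : 3 ≤ k) (hk2 : Even k) : Tendsto (E hk) atImInfty (𝓝 1) := by
  have h := tendsto_of_isHolBdd (isHolBdd_of_modularForm (E hk) one_pos (by simp))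
  rwa [E_qExpansion_coeff_zero hk hk2] at h


theorem slash_SL_eq_self {k : ℤ} (F : ModularForm 𝒮ℒ k) (γ : SL(2, ℤ)) : (⇑F) ∣[k] γ = ⇑F :=
  SlashInvariantFormClass.slash_action_eq F (Matrix.SpecialLinearGroup.mapGL ℝ γ) ⟨γ, rfl⟩

theorem tendsto_serreDerivative {k : ℤ} (F : ModularForm 𝒮ℒ k) :
    Tendsto (serreDerivative k F) atImInfty
      (𝓝 (-(k : ℂ) * 12⁻¹ * (qExpansion 1 F).coeff 0)) := by
  have hF := isHolBdd_of_modularForm F one_pos (by simp)
  have h1 := tendsto_D_of_isHolBdd hF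
  have h2 := tendsto_of_isHolBdd hF
  have h3 := tendsto_E2
  have := h1.sub (((tendsto_const_nhds (x := (k : ℂ) * 12⁻¹)).mul h3).mul h2)
  refine (this.congr fun x => rfl).mono_right (le_of_eq ?_)
  congr 1
  ring

/-- The Serre derivative of a level one modular form, as a modular form of weight `k + 2`. -/
noncomputable def serreForm {k : ℤ} (F : ModularForm 𝒮ℒ k) : ModularForm 𝒮ℒ (k + 2) where
  toFun := serreDerivative k F
  slash_action_eq' A hA := by
    obtain ⟨γ, rfl⟩ := hA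
    exact serreDerivative_slash_invariant (ModularFormClass.holo F) (slash_SL_eq_self F γ)
  holo' := serreDerivative_mdifferentiable k (ModularFormClass.holo F)
  bdd_at_cusps' {c} hc := by
    rw [Subgroup.IsArithmetic.isCusp_iff_isCusp_SL2Z] at hc
    rw [OnePoint.isBoundedAt_iff_forall_SL2Z hc]
    intro γ _
    have hinv : serreDerivative (k : ℂ) (⇑F) ∣[k + 2] γ = serreDerivative (k : ℂ) (⇑F) :=
      serreDerivative_slash_invariant (ModularFormClass.holo F) (slash_SL_eq_self F γ)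
    rw [hinv]
    exact (tendsto_serreDerivative F).isBigO_one ℝ

theorem serreForm_apply {k : ℤ} (F : ModularForm 𝒮ℒ k) (z : ℍ) :
    serreForm F z = D F z - k * 12⁻¹ * E2 z * F z := rfl


/-- In a one-dimensional space of level-one forms spanned by `G` (with `G → 1` at `i∞`),
a form `F` with `F → c` equals `c • G`. -/
theorem eq_smul_of_rank_one {k : ℤ} (hr : Module.rank ℂ (ModularForm 𝒮ℒ k) = 1)
    (G F : ModularForm 𝒮ℒ k) (hG : Tendsto G atImInfty (𝓝 1)) {c : ℂ}
    (hF : Tendsto F atImInfty (𝓝 c)) : ∀ z, F z = c * G z := by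
  have hG0 : G ≠ 0 := by
    rintro rfl
    have : Tendsto (fun _ : ℍ => (0 : ℂ)) atImInfty (𝓝 1) := hG
    have := tendsto_nhds_unique this tendsto_const_nhds
    exact one_ne_zero this
  have hfin : Module.finrank ℂ (ModularForm 𝒮ℒ k) = 1 :=
    Module.finrank_eq_of_rank_eq hr
  obtain ⟨a, ha⟩ := (finrank_eq_one_iff_of_nonzero' G hG0).mp hfin F
  have hlim : Tendsto F atImInfty (𝓝 (a * 1)) := by
    rw [← ha]
    exact (hG.const_mul a).congr fun z => rfl
  have hac : c = a := by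
    rw [mul_one] at hlim
    exact tendsto_nhds_unique hF hlim
  intro z
  rw [hac, ← ha]
  rfl

theorem rank_weight_eight : Module.rank ℂ (ModularForm 𝒮ℒ 8) = 1 := by
  have := dimension_level_one 8 ⟨4, rfl⟩
  simpa [Nat.ModEq] using this

theorem ramanujan_E₄ (z : ℍ) : D E₄ z = 3⁻¹ * (E2 z * E₄ z - E₆ z) := by
  have h1 := eq_smul_of_rank_one levelOne_weight_six_rank_one E₆
    (ModularForm.mcast (by norm_num) (serreForm E₄)) (tendsto_E 6 (by norm_num) ⟨3, rfl⟩)
    (c := -(4 : ℂ) * 12⁻¹) (by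
      have := tendsto_serreDerivative E₄
      rw [E_qExpansion_coeff_zero _ ⟨2, rfl⟩, mul_one] at this
      exact this.congr fun z => rfl) z
  have h2 : (ModularForm.mcast (by norm_num : (4 : ℤ) + 2 = 6) (serreForm E₄)) z =
      D E₄ z - 4 * 12⁻¹ * E2 z * E₄ z := rfl
  rw [h2] at h1
  linear_combination h1

theorem ramanujan_E₆ (z : ℍ) : D E₆ z = 2⁻¹ * (E2 z * E₆ z - E₄ z ^ 2) := by
  have hE4sq : Tendsto ((E₄.mul E₄ : ModularForm 𝒮ℒ (4 + 4)) : ℍ → ℂ) atImInfty (𝓝 1) := by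
    have := (tendsto_E 4 (by norm_num) ⟨2, rfl⟩).mul (tendsto_E 4 (by norm_num) ⟨2, rfl⟩)
    rw [one_mul] at this
    exact this.congr fun z => rfl
  have h1 := eq_smul_of_rank_one rank_weight_eight
    (ModularForm.mcast (by norm_num) (E₄.mul E₄))
    (ModularForm.mcast (by norm_num) (serreForm E₆)) hE4sq
    (c := -(6 : ℂ) * 12⁻¹) (by
      have := tendsto_serreDerivative E₆
      rw [E_qExpansion_coeff_zero _ ⟨3, rfl⟩, mul_one] at this
      exact this.congr fun z => rfl) z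
  have h2 : (ModularForm.mcast (by norm_num : (6 : ℤ) + 2 = 8) (serreForm E₆)) z =
      D E₆ z - 6 * 12⁻¹ * E2 z * E₆ z := rfl
  have h3 : (ModularForm.mcast (by norm_num : (4 : ℤ) + 4 = 8) (E₄.mul E₄)) z = E₄ z * E₄ z := rfl
  rw [h2, h3] at h1
  linear_combination h1


theorem mdiff_discriminant : MDiff Δ := CuspForm.discriminant.holo'

theorem D_jFun_mul_discriminant (z : ℍ) : D jFun z * Δ z = -(E₄ z ^ 2 * E₆ z) := by
  have hE4 : MDiff (⇑E₄) := ModularFormClass.holo E₄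
  have hE6 : MDiff (⇑E₆) := ModularFormClass.holo E₆
  -- D Δ = E2 Δ
  have hΔ : Δ = (1728 : ℂ)⁻¹ • ((⇑E₄) ^ 3 - (⇑E₆) ^ 2) := by
    ext w
    simp only [Pi.smul_apply, Pi.sub_apply, Pi.pow_apply, smul_eq_mul]
    rw [discriminant_eq_E₄_cube_sub_E₆_sq]
    ring
  have hDΔ : D Δ z = E2 z * Δ z := by
    have h1 : D Δ = (1728 : ℂ)⁻¹ • (D ((⇑E₄) ^ 3) - D ((⇑E₆) ^ 2)) := by
      rw [hΔ, normalizedDerivOfComplex_smul _ _ ((hE4.pow 3).sub (hE6.pow 2)),
        normalizedDerivOfComplex_sub _ _ (hE4.pow 3) (hE6.pow 2)]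
    rw [h1, normalizedDerivOfComplex_pow _ _ hE4, normalizedDerivOfComplex_pow _ _ hE6]
    simp only [Pi.smul_apply, Pi.sub_apply, Pi.mul_apply, Pi.pow_apply, smul_eq_mul,
      Pi.natCast_apply]
    rw [ramanujan_E₄, ramanujan_E₆, discriminant_eq_E₄_cube_sub_E₆_sq]
    push_cast
    ring
  -- product rule for j Δ = E₄³
  have hprod : jFun * Δ = (⇑E₄) ^ 3 := by
    ext w
    exact jFun_mul_discriminant w
  have h2 := congrFun (normalizedDerivOfComplex_mul jFun Δ mdiff_jFun mdiff_discriminant) z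
  rw [hprod, normalizedDerivOfComplex_pow _ _ hE4] at h2
  simp only [Pi.mul_apply, Pi.pow_apply, Pi.add_apply, Pi.natCast_apply] at h2
  rw [hDΔ, ramanujan_E₄] at h2
  have h3 := jFun_mul_discriminant z
  push_cast at h2
  linear_combination -h2 + (-E2 z) * h3


theorem analyticAt_comp_ofComplex {F : ℍ → ℂ} (hF : MDiff F) (z : ℍ) :
    AnalyticAt ℂ (F ∘ ofComplex) (z : ℂ) := by
  rw [UpperHalfPlane.mdifferentiable_iff] at hF
  exact hF.analyticAt (isOpen_upperHalfPlaneSet.mem_nhds z.im_pos)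

theorem deriv_comp_ofComplex (F : ℍ → ℂ) (z : ℍ) :
    deriv (F ∘ ofComplex) (z : ℂ) = 2 * π * I * D F z := by
  unfold normalizedDerivOfComplex
  have : (2 * π * I : ℂ) ≠ 0 := by simp [Real.pi_ne_zero]
  field_simp

theorem two_pi_I_ne_zero' : (2 * π * I : ℂ) ≠ 0 := by simp [Real.pi_ne_zero]

/-- order of vanishing `1` from `F z₀ = 0`, `D F z₀ ≠ 0` -/
theorem analyticOrderAt_eq_one_of_D_ne_zero {F : ℍ → ℂ} (hF : MDiff F) {z₀ : ℍ}
    (h0 : F z₀ = 0) (h1 : D F z₀ ≠ 0) :
    analyticOrderAt (F ∘ ofComplex) (z₀ : ℂ) = 1 := by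
  apply (analyticAt_comp_ofComplex hF z₀).analyticOrderAt_eq_one_of_zero_deriv_ne_zero
  · simpa using h0
  · rw [deriv_comp_ofComplex]
    exact mul_ne_zero two_pi_I_ne_zero' h1

theorem E₄_ne_zero_of_jFun_ne {z : ℍ} (h : jFun z ≠ 0) : E₄ z ≠ 0 := by
  intro h0
  apply h
  unfold jFun
  rw [h0]; simp

theorem E₆_ne_zero_of_jFun_ne {z : ℍ} (h : jFun z ≠ 1728) : E₆ z ≠ 0 := by
  intro h0
  apply h
  have := jFun_sub_mul_discriminant z
  rw [h0] at this
  have h2 : jFun z - 1728 = 0 := by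
    rcases mul_eq_zero.mp (this.trans (by ring)) with h | h
    · exact h
    · exact absurd h (discriminant_ne_zero z)
  linear_combination h2

theorem E₄_eq_zero_of_jFun_eq {z : ℍ} (h : jFun z = 0) : E₄ z = 0 := by
  have := jFun_mul_discriminant z
  rw [h, zero_mul] at this
  exact (pow_eq_zero_iff (by norm_num)).mp this.symm

theorem E₆_eq_zero_of_jFun_eq {z : ℍ} (h : jFun z = 1728) : E₆ z = 0 := by
  have := jFun_sub_mul_discriminant z
  rw [h, sub_self, zero_mul] at this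
  exact (pow_eq_zero_iff (by norm_num)).mp this.symm

theorem E₆_ne_zero_of_E₄_eq_zero {z : ℍ} (h : E₄ z = 0) : E₆ z ≠ 0 := by
  intro h6
  have := discriminant_ne_zero z
  rw [discriminant_eq_E₄_cube_sub_E₆_sq, h, h6] at this
  simp at this

theorem E₄_ne_zero_of_E₆_eq_zero {z : ℍ} (h : E₆ z = 0) : E₄ z ≠ 0 := by
  intro h4
  have := discriminant_ne_zero z
  rw [discriminant_eq_E₄_cube_sub_E₆_sq, h, h4] at this
  simp at this

/-- `j - j(z₀)` has a simple zero at non-elliptic points. -/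
theorem analyticOrderAt_jFun_sub_of_ne {z₀ : ℍ} (h0 : jFun z₀ ≠ 0) (h1 : jFun z₀ ≠ 1728) :
    analyticOrderAt (fun w : ℂ => jFun (ofComplex w) - jFun z₀) (z₀ : ℂ) = 1 := by
  have hF : MDiff (fun z : ℍ => jFun z - jFun z₀) := mdiff_jFun.sub mdifferentiable_const
  have := analyticOrderAt_eq_one_of_D_ne_zero hF (z₀ := z₀) (by simp) ?_
  · exact this
  · have hD : D (fun z : ℍ => jFun z - jFun z₀) = D jFun := by
      have := normalizedDerivOfComplex_sub jFun (fun _ => jFun z₀) mdiff_jFun mdifferentiable_const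
      rw [normalizedDerivOfComplex_const, sub_zero] at this
      exact this
    rw [hD]
    intro hz
    have h2 := D_jFun_mul_discriminant z₀
    rw [hz, zero_mul] at h2
    have h3 : E₄ z₀ ^ 2 * E₆ z₀ = 0 := by linear_combination h2
    rcases mul_eq_zero.mp h3 with h | h
    · exact E₄_ne_zero_of_jFun_ne h0 ((pow_eq_zero_iff (by norm_num)).mp h)
    · exact E₆_ne_zero_of_jFun_ne h1 h


theorem analyticOrderAt_E₆_of_eq_zero {z₀ : ℍ} (h : E₆ z₀ = 0) :
    analyticOrderAt (⇑E₆ ∘ ofComplex) (z₀ : ℂ) = 1 := by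
  apply analyticOrderAt_eq_one_of_D_ne_zero (ModularFormClass.holo E₆) h
  rw [ramanujan_E₆, h]
  have := E₄_ne_zero_of_E₆_eq_zero h
  simp [this]

theorem analyticOrderAt_E₄_of_eq_zero {z₀ : ℍ} (h : E₄ z₀ = 0) :
    analyticOrderAt (⇑E₄ ∘ ofComplex) (z₀ : ℂ) = 1 := by
  apply analyticOrderAt_eq_one_of_D_ne_zero (ModularFormClass.holo E₄) h
  rw [ramanujan_E₄, h]
  have := E₆_ne_zero_of_E₄_eq_zero h
  simp [this]

theorem analyticOrderAt_discriminant (z₀ : ℍ) :
    analyticOrderAt (Δ ∘ ofComplex) (z₀ : ℂ) = 0 := by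
  rw [(analyticAt_comp_ofComplex mdiff_discriminant z₀).analyticOrderAt_eq_zero]
  simpa using discriminant_ne_zero z₀

/-- `j - 1728` has a double zero at the points with `j = 1728`. -/
theorem analyticOrderAt_jFun_sub_of_eq_1728 {z₀ : ℍ} (h : jFun z₀ = 1728) :
    analyticOrderAt (fun w : ℂ => jFun (ofComplex w) - 1728) (z₀ : ℂ) = 2 := by
  have hF : MDiff (fun z : ℍ => jFun z - 1728) := mdiff_jFun.sub mdifferentiable_const
  have hf := analyticAt_comp_ofComplex hF z₀
  have hg := analyticAt_comp_ofComplex mdiff_discriminant z₀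
  have he := analyticAt_comp_ofComplex (ModularFormClass.holo E₆) z₀
  have hmul : ((fun z : ℍ => jFun z - 1728) ∘ ofComplex) * (Δ ∘ ofComplex) =
      (⇑E₆ ∘ ofComplex) ^ 2 := by
    ext w
    simp only [Pi.mul_apply, comp_apply, Pi.pow_apply]
    exact jFun_sub_mul_discriminant _
  have h1 := analyticOrderAt_mul hf hg
  rw [hmul, analyticOrderAt_pow he, analyticOrderAt_discriminant,
    analyticOrderAt_E₆_of_eq_zero (E₆_eq_zero_of_jFun_eq h), add_zero] at h1
  rw [← show ((fun z : ℍ => jFun z - 1728) ∘ ofComplex) =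
    (fun w : ℂ => jFun (ofComplex w) - 1728) from rfl, ← h1]
  norm_num

/-- `j` has a triple zero at the points with `j = 0`. -/
theorem analyticOrderAt_jFun_of_eq_zero {z₀ : ℍ} (h : jFun z₀ = 0) :
    analyticOrderAt (fun w : ℂ => jFun (ofComplex w)) (z₀ : ℂ) = 3 := by
  have hf := analyticAt_comp_ofComplex mdiff_jFun z₀
  have hg := analyticAt_comp_ofComplex mdiff_discriminant z₀
  have he := analyticAt_comp_ofComplex (ModularFormClass.holo E₄) z₀
  have hmul : (jFun ∘ ofComplex) * (Δ ∘ ofComplex) = (⇑E₄ ∘ ofComplex) ^ 3 := by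
    ext w
    simp only [Pi.mul_apply, comp_apply, Pi.pow_apply]
    exact jFun_mul_discriminant _
  have h1 := analyticOrderAt_mul hf hg
  rw [hmul, analyticOrderAt_pow he, analyticOrderAt_discriminant,
    analyticOrderAt_E₄_of_eq_zero (E₄_eq_zero_of_jFun_eq h), add_zero] at h1
  rw [← show (jFun ∘ ofComplex) = (fun w : ℂ => jFun (ofComplex w)) from rfl, ← h1]
  norm_num


end Fermat.Agent.X0N
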