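import Mathlib

/-!
# Euler characteristic of a transitive permutation triple (lead)

For permutations `a b c` of a finite set `X` with `a * b * c = 1` generating a transitive group,
the numbers of cycles (orbits, including fixed points) satisfy
* parity: `card X + orb a + orb b + orb c` is even (sign argument);
* Ree / Riemann–Hurwitz inequality: `orb a + orb b + orb c ≤ card X + 2`
  (Scott's lemma, linear algebra).
Hence `1 + card X / 2 - (orb a + orb b + orb c) / 2` is a natural number (the genus).
-/

set_option autoImplicit false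

namespace Fermat.Agent.X0N.GenusNat

open Equiv

section Orb

variable {X : Type*} [Fintype X] [DecidableEq X]

/-- number of cycles of a permutation, fixed points included -/
noncomputable def orb (σ : Perm X) : ℕ := Nat.card (Quotient (Perm.SameCycle.setoid σ))

/-- the map from points to `cycles ⊕ fixed points` -/
noncomputable def orbMap (σ : Perm X) (x : X) :
    {c : Perm X // c ∈ σ.cycleFactorsFinset} ⊕ {x : X // σ x = x} :=
  if h : σ x = x then Sum.inr ⟨x, h⟩
  else Sum.inl ⟨σ.cycleOf x, Perm.cycleOf_mem_cycleFactorsFinset_iff.mpr (Perm.mem_support.mpr h)⟩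

theorem orbMap_eq_of_sameCycle (σ : Perm X) {x y : X} (h : σ.SameCycle x y) :
    orbMap σ x = orbMap σ y := by
  unfold orbMap
  by_cases hx : σ x = x
  · have hxy : x = y := h.eq_of_left hx
    subst hxy
    rfl
  · have hy : ¬ σ y = y := fun hy => hx (h.apply_eq_self_iff.mpr hy)
    rw [dif_neg hx, dif_neg hy]
    congr 2
    exact h.cycleOf_eq

theorem sameCycle_of_orbMap_eq (σ : Perm X) {x y : X} (h : orbMap σ x = orbMap σ y) :
    σ.SameCycle x y := by
  unfold orbMap at h
  by_cases hx : σ x = x
  · by_cases hy : σ y = y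
    · rw [dif_pos hx, dif_pos hy] at h
      have := Sum.inr.inj h
      have hxy : x = y := congrArg Subtype.val this
      rw [hxy]
    · rw [dif_pos hx, dif_neg hy] at h
      exact absurd h (by simp)
  · by_cases hy : σ y = y
    · rw [dif_neg hx, dif_pos hy] at h
      exact absurd h (by simp)
    · rw [dif_neg hx, dif_neg hy] at h
      have h1 := Sum.inl.inj h
      have h2 : σ.cycleOf x = σ.cycleOf y := congrArg Subtype.val h1
      exact (Perm.sameCycle_iff_cycleOf_eq_of_mem_support (Perm.mem_support.mpr hx)
        (Perm.mem_support.mpr hy)).mpr h2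

theorem orbMap_surjective (σ : Perm X) : Function.Surjective (orbMap σ) := by
  rintro (⟨c, hc⟩ | ⟨x, hx⟩)
  · obtain ⟨hcyc, -⟩ := Perm.mem_cycleFactorsFinset_iff.mp hc
    obtain ⟨x, hx⟩ := hcyc.nonempty_support
    have hcx : c = σ.cycleOf x := Perm.cycle_is_cycleOf hx hc
    have hσx : σ x ≠ x := by
      have := (Perm.mem_cycleFactorsFinset_iff.mp hc).2 x hx
      rw [← this]
      exact Perm.mem_support.mp hx
    refine ⟨x, ?_⟩
    unfold orbMap
    rw [dif_neg hσx]
    congr 2
    exact hcx.symm
  · refine ⟨x, ?_⟩
    unfold orbMap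
    rw [dif_pos hx]

/-- the orbits of `σ` are its nontrivial cycles together with its fixed points -/
noncomputable def orbEquiv (σ : Perm X) :
    Quotient (Perm.SameCycle.setoid σ) ≃
      {c : Perm X // c ∈ σ.cycleFactorsFinset} ⊕ {x : X // σ x = x} :=
  Equiv.ofBijective
    (Quotient.lift (orbMap σ) (fun _ _ h => orbMap_eq_of_sameCycle σ h))
    ⟨by
      rintro ⟨x⟩ ⟨y⟩ h
      exact Quotient.sound (sameCycle_of_orbMap_eq σ h),
     fun z => by
      obtain ⟨x, hx⟩ := orbMap_surjective σ z
      exact ⟨Quotient.mk _ x, hx⟩⟩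

theorem orb_eq (σ : Perm X) :
    orb σ = σ.cycleFactorsFinset.card + (Fintype.card X - σ.support.card) := by
  classical
  unfold orb
  rw [Nat.card_congr (orbEquiv σ), Nat.card_sum, Nat.card_eq_fintype_card,
    Nat.card_eq_fintype_card, Fintype.card_coe]
  congr 1
  have := Perm.card_fixedPoints σ
  rw [Perm.sum_cycleType] at this
  rw [← this]
  apply Fintype.card_congr
  exact Equiv.subtypeEquivRight (fun x => by simp [Function.mem_fixedPoints, Function.IsFixedPt])

theorem sign_eq (σ : Perm X) : Perm.sign σ = (-1 : ℤˣ) ^ (Fintype.card X + orb σ) := by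
  rw [Perm.sign_of_cycleType, orb_eq, Perm.sum_cycleType]
  have hc : Multiset.card σ.cycleType = σ.cycleFactorsFinset.card := by
    rw [Perm.cycleType_def]
    simp
  rw [hc]
  have hle : σ.support.card ≤ Fintype.card X := Finset.card_le_univ _
  have : Fintype.card X + (σ.cycleFactorsFinset.card + (Fintype.card X - σ.support.card))
      = (σ.support.card + σ.cycleFactorsFinset.card) + 2 * (Fintype.card X - σ.support.card) := by
    omega
  rw [this, pow_add (-1 : ℤˣ) (σ.support.card + σ.cycleFactorsFinset.card), pow_mul]
  simp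

theorem even_card_add_orb (a b c : Perm X) (habc : a * b * c = 1) :
    Even (Fintype.card X + orb a + orb b + orb c) := by
  have h := congrArg Perm.sign habc
  rw [map_mul, map_mul, map_one, sign_eq, sign_eq, sign_eq, ← pow_add, ← pow_add] at h
  have h2 : Even ((Fintype.card X + orb a) + (Fintype.card X + orb b) + (Fintype.card X + orb c)) := by
    by_contra hodd
    rw [Nat.not_even_iff_odd] at hodd
    rw [hodd.neg_one_pow] at h
    exact absurd h (by decide)
  obtain ⟨k, hk⟩ := h2
  exact ⟨k - Fintype.card X, by omega⟩

end Orb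

end Fermat.Agent.X0N.GenusNat
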