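import Mathlib
import Fermat.Prelude.Def_ModularCurve_X0

/-!
# (AN0) part 1: the formal eta product of the Prelude is the Taylor series of the analytic one
-/

namespace Fermat.Agent.X0N

open Filter Topology Complex
open scoped PowerSeries.WithPiTopology

/-- Locally uniform limits of holomorphic functions: all iterated derivatives converge. -/
theorem tendstoLocallyUniformlyOn_iteratedDeriv {ι : Type*} {φ : Filter ι} {F : ι → ℂ → ℂ}
    {f : ℂ → ℂ} {U : Set ℂ} (hU : IsOpen U) (hf : TendstoLocallyUniformlyOn F f φ U)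
    (hF : ∀ᶠ n in φ, DifferentiableOn ℂ (F n) U) (m : ℕ) :
    TendstoLocallyUniformlyOn (fun n => iteratedDeriv m (F n)) (iteratedDeriv m f) φ U ∧
      (∀ᶠ n in φ, DifferentiableOn ℂ (iteratedDeriv m (F n)) U) := by
  induction m with
  | zero =>
    simp only [iteratedDeriv_zero]
    exact ⟨hf, hF⟩
  | succ m ih =>
    refine ⟨?_, ?_⟩
    · have := ih.1.deriv ih.2 hU
      simp only [iteratedDeriv_succ]
      exact this
    · filter_upwards [ih.2] with n hn
      rw [iteratedDeriv_succ]
      exact hn.deriv hU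

theorem tendsto_iteratedDeriv_of_tendstoLocallyUniformlyOn {ι : Type*} {φ : Filter ι}
    {F : ι → ℂ → ℂ} {f : ℂ → ℂ} {U : Set ℂ} (hU : IsOpen U)
    (hf : TendstoLocallyUniformlyOn F f φ U)
    (hF : ∀ᶠ n in φ, DifferentiableOn ℂ (F n) U) (m : ℕ) {x : ℂ} (hx : x ∈ U) :
    Tendsto (fun n => iteratedDeriv m (F n) x) φ (𝓝 (iteratedDeriv m f x)) :=
  (tendstoLocallyUniformlyOn_iteratedDeriv hU hf hF m).1.tendsto_at hx

/-- Iterated derivative at `0` of a polynomial function. -/
theorem iteratedDeriv_polynomial_eval_zero (P : Polynomial ℂ) (m : ℕ) :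
    iteratedDeriv m (fun q : ℂ => P.eval q) 0 = (m.factorial : ℂ) * P.coeff m := by
  have h : ∀ (m : ℕ) (P : Polynomial ℂ), iteratedDeriv m (fun q : ℂ => P.eval q) =
      fun q => (Polynomial.derivative^[m] P).eval q := by
    intro m
    induction m with
    | zero => intro P; simp
    | succ m ih =>
      intro P
      rw [iteratedDeriv_succ, ih P]
      ext q
      rw [Polynomial.deriv, Function.iterate_succ_apply']
  rw [h m P]
  simp only
  rw [← Polynomial.coeff_zero_eq_eval_zero, Polynomial.coeff_iterate_derivative]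
  simp [Nat.descFactorial_self]

/-- The analytic Euler product `∏ (1 - q^(n+1))`. -/
noncomputable def etaFun (q : ℂ) : ℂ := ∏' n : ℕ, (1 - q ^ (n + 1))

/-- finite partial product as an integer polynomial -/
noncomputable def etaPoly (I : Finset ℕ) : Polynomial ℤ := ∏ i ∈ I, (1 - Polynomial.X ^ (i + 1))

theorem etaPoly_coe (I : Finset ℕ) :
    ((etaPoly I : Polynomial ℤ) : PowerSeries ℤ) = ∏ i ∈ I, (1 - PowerSeries.X ^ (i + 1)) := by
  unfold etaPoly
  rw [← Polynomial.coeToPowerSeries.ringHom_apply, map_prod]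
  simp

theorem etaPoly_eval (I : Finset ℕ) (q : ℂ) :
    ((etaPoly I).map (Int.castRingHom ℂ)).eval q = ∏ i ∈ I, (1 - q ^ (i + 1)) := by
  unfold etaPoly
  rw [Polynomial.map_prod, Polynomial.eval_prod]
  simp

theorem iteratedDeriv_etaFun_zero (m : ℕ) :
    iteratedDeriv m etaFun 0 = (m.factorial : ℂ) * ((ModularCurve.etaProd.coeff m : ℤ) : ℂ) := by
  -- analytic side
  have hA := ModularForm.multipliableLocallyUniformlyOn_one_sub_pow.hasProdLocallyUniformlyOn
  rw [hasProdLocallyUniformlyOn_iff_tendstoLocallyUniformlyOn] at hA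
  have hA' : Tendsto (fun I : Finset ℕ =>
      iteratedDeriv m (fun q : ℂ => ∏ i ∈ I, (1 - q ^ (i + 1))) 0) atTop
      (𝓝 (iteratedDeriv m etaFun 0)) :=
    tendsto_iteratedDeriv_of_tendstoLocallyUniformlyOn (Metric.isOpen_ball) hA
      (.of_forall fun I => by
        show DifferentiableOn ℂ (fun q : ℂ => ∏ i ∈ I, (1 - q ^ (i + 1))) _
        exact (Differentiable.fun_finsetProd (fun i _ => by fun_prop)).differentiableOn) m
      (x := 0) (by simp)
  have hA'' : ∀ I : Finset ℕ, iteratedDeriv m (fun q : ℂ => ∏ i ∈ I, (1 - q ^ (i + 1))) 0 =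
      (m.factorial : ℂ) * (((etaPoly I : Polynomial ℤ) : PowerSeries ℤ).coeff m : ℤ) := by
    intro I
    have := iteratedDeriv_polynomial_eval_zero ((etaPoly I).map (Int.castRingHom ℂ)) m
    simp only [etaPoly_eval] at this
    rw [this, Polynomial.coeff_map, Polynomial.coeff_coe]
    simp
  simp only [hA'', etaPoly_coe] at hA'
  -- formal side
  have hF := (PowerSeries.WithPiTopology.multipliable_one_sub_X_pow ℤ).hasProd
  have hF' : Tendsto (fun I : Finset ℕ =>
      (m.factorial : ℂ) * (((∏ i ∈ I, (1 - PowerSeries.X ^ (i + 1)) : PowerSeries ℤ).coeff m : ℤ) : ℂ))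
      atTop (𝓝 ((m.factorial : ℂ) * ((ModularCurve.etaProd.coeff m : ℤ) : ℂ))) := by
    refine Tendsto.const_mul _ ?_
    have h1 := ((PowerSeries.WithPiTopology.continuous_coeff ℤ m).tendsto _).comp hF
    have h2 : Continuous (fun n : ℤ => (n : ℂ)) := continuous_of_discreteTopology
    exact (h2.tendsto _).comp h1
  exact tendsto_nhds_unique hA' hF'


end Fermat.Agent.X0N
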