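import Fermat.Agent.X0N.SYM_helper2_Integral
import Fermat.Agent.X0N.SYM_helper2_Dilate
import Fermat.Agent.X0N.Mer_helper6_RealN
import Fermat.Agent.X0N.Mer_helper6_Conj
import Fermat.Agent.X0N.Mer_helper6_LinDisj
import Fermat.Agent.X0N.LD_helper1_Minpoly
import Fermat.Agent.FF.PlaceBasic
import Fermat.Agent.FF.Zeros

set_option autoImplicit false

/-!
# (SYM) descent of the integrality criterion to a subfield `k ⊆ ℂ`
-/

namespace Fermat.Agent.X0N

open UpperHalfPlane ModularForm Filter Function Polynomial ModularCurve IntermediateField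
open scoped MatrixGroups ModularForm Manifold Topology
open Fermat.Agent.RatStr CongruenceSubgroup

noncomputable section

/-! ### the realisation lands in the modular functions for `Γ₀(N)` -/

section Real

variable {k : Type*} [Field k] [Algebra ℚ k] (ι : k →+* ℂ) (N : ℕ) [NeZero N]

theorem heckeDiagMatrix_one_smul (z : ℍ) : heckeDiagMatrix 1 • z = z := by
  rw [heckeDiagMatrix_eq_alphaN]
  ext
  rw [alphaN, coe_utGL_smul]
  simp

theorem jFunN_one : jFunN 1 = jFun := by
  funext z
  show jFun (heckeDiagMatrix 1 • z) = jFun z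
  rw [heckeDiagMatrix_one_smul]

theorem jdHol_one_eq : jdHol 1 = jHol1 := Subtype.ext jFunN_one

/-- `j(q)` in the Prelude function field. -/
def jB : ↥(laurentBaseChange k (modularFunctionFieldFull N)) := jdBar N (one_dvd N)

omit [NeZero N] in
theorem realN_jB : realN ι N (jB (k := k) N) = jM := by
  rw [jB, realN_jdBar, jdHol_one_eq]
  rfl

end Real

/-! ### coefficients of the minimal polynomial over `ℂ(j)` -/

section Minpoly

variable {Γ : Subgroup SL(2, ℤ)} [Γ.FiniteIndex] {y : MerH}

theorem charPolyM_splits (y : MerH) : (charPolyM Γ y).Splits :=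
  Splits.prod fun _ _ => Splits.X_sub_C _

theorem exists_conjM_of_charPolyM_eval_eq_zero {a : MerH} (h : (charPolyM Γ y).eval a = 0) :
    ∃ q, a = conjM Γ y q := by
  unfold charPolyM at h
  rw [eval_prod, Finset.prod_eq_zero_iff] at h
  obtain ⟨q, -, hq⟩ := h
  refine ⟨q, ?_⟩
  simpa [sub_eq_zero] using hq

/-- **The coefficients of the minimal polynomial over `ℂ(j)` lie in every subring containing
all the conjugates.** -/
theorem coeff_minpoly_mem (hy : IsModFun Γ y) (K : IntermediateField ℂ MerH) (hK : K = CjM)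
    (S : Subring MerH) (hS : ∀ q, conjM Γ y q ∈ S) (i : ℕ) :
    algebraMap K MerH ((minpoly K y).coeff i) ∈ S := by
  subst hK
  obtain ⟨p, hmon, -, hp, hroot⟩ := exists_charPoly_CjM hy
  set m := (minpoly CjM y).map (algebraMap CjM MerH) with hm
  have hint : IsIntegral CjM y := isIntegral_CjM hy
  have hdvd : m ∣ charPolyM Γ y := by
    rw [← hp, hm]
    exact Polynomial.map_dvd _ (minpoly.dvd CjM y hroot)
  have hmmonic : m.Monic := (minpoly.monic hint).map _
  have hsplit : m.Splits := (charPolyM_splits y).of_dvd (charPolyM_monic y).ne_zero hdvd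
  have hroots : ∀ a ∈ m.roots, a ∈ S.subtype.range := by
    intro a ha
    have h1 : m.eval a = 0 := (Polynomial.mem_roots hmmonic.ne_zero).mp ha
    obtain ⟨c, hc⟩ := hdvd
    have h2 : (charPolyM Γ y).eval a = 0 := by rw [hc, eval_mul, h1, zero_mul]
    obtain ⟨q, rfl⟩ := exists_conjM_of_charPolyM_eval_eq_zero h2
    exact ⟨⟨_, hS q⟩, rfl⟩
  have hl := hsplit.mem_lift_of_roots_mem_range hmmonic S.subtype hroots
  rw [Polynomial.lifts_iff_coeff_lifts] at hl
  obtain ⟨s, hs⟩ := hl i
  rw [hm, coeff_map] at hs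
  rw [← hs]
  exact s.2

end Minpoly

/-! ### general lemmas on places and rational functions -/

section General

open AlgebraicCurve Fermat.Agent.FF

variable {k E : Type*} [Field k] [Field E] [Algebra k E]

/-- elements of `k(α)` are quotients of coprime polynomials in `α`. -/
theorem exists_coprime_rep (α : E) (r : k⟮α⟯) :
    ∃ P Q : k[X], IsCoprime P Q ∧ Polynomial.aeval α Q ≠ 0 ∧
      (r : E) = Polynomial.aeval α P / Polynomial.aeval α Q := by
  classical
  obtain ⟨P₀, Q₀, hr⟩ := (IntermediateField.mem_adjoin_simple_iff k (r : E)).mp r.2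
  by_cases hQ₀ : Polynomial.aeval α Q₀ = 0
  · refine ⟨0, 1, isCoprime_one_right, by simp, ?_⟩
    rw [hr, hQ₀, div_zero, map_zero, zero_div]
  have hQ₀' : Q₀ ≠ 0 := by
    rintro rfl
    simp at hQ₀
  set d := GCDMonoid.gcd P₀ Q₀ with hd
  have hd0 : d ≠ 0 := gcd_ne_zero_of_right hQ₀'
  have hP : P₀ = d * (P₀ / d) := (EuclideanDomain.mul_div_cancel' hd0 (gcd_dvd_left _ _)).symm
  have hQ : Q₀ = d * (Q₀ / d) := (EuclideanDomain.mul_div_cancel' hd0 (gcd_dvd_right _ _)).symm
  have hcop : IsCoprime (P₀ / d) (Q₀ / d) := isCoprime_div_gcd_div_gcd hQ₀'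
  have hdj : Polynomial.aeval α d ≠ 0 := by
    intro h0
    apply hQ₀
    rw [hQ, map_mul, h0, zero_mul]
  have hQj : Polynomial.aeval α (Q₀ / d) ≠ 0 := by
    intro h0
    apply hQ₀
    rw [hQ, map_mul, h0, mul_zero]
  refine ⟨P₀ / d, Q₀ / d, hcop, hQj, ?_⟩
  rw [hr]
  conv_lhs => rw [hP, hQ, map_mul, map_mul]
  rw [mul_div_mul_left _ _ hdj]

variable (v : Place k E) {x : E}

/-- polynomials in `x` are regular at every place where `x` is. -/
theorem aeval_mem_place (hx : x ∈ v.toValuationSubring) (P : k[X]) :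
    Polynomial.aeval x P ∈ v.toValuationSubring := by
  induction P using Polynomial.induction_on' with
  | add p q hp hq => rw [map_add]; exact v.toValuationSubring.add_mem _ _ hp hq
  | monomial n a =>
    rw [Polynomial.aeval_monomial]
    exact v.toValuationSubring.mul_mem _ _ (v.algebraMap_mem' a)
      (v.toValuationSubring.pow_mem hx n)

theorem mem_place_of_ord_sub_pos {a : k} (hv : 0 < v.ord (x - algebraMap k E a)) :
    x ∈ v.toValuationSubring := by
  have h1 : x - algebraMap k E a ∈ v.toValuationSubring := by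
    rw [PlaceAux.mem_iff_ord_nonneg]
    exact Or.inr hv.le
  have := v.toValuationSubring.add_mem _ _ h1 (v.algebraMap_mem' a)
  simpa using this

/-- if `v` lies over `x = a` and `Q(a) ≠ 0` then `Q(x)` is a unit at `v`. -/
theorem ord_aeval_eq_zero {a : k} (hv : 0 < v.ord (x - algebraMap k E a)) {Q : k[X]}
    (hQa : Q.eval a ≠ 0) : v.ord (Polynomial.aeval x Q) = 0 := by
  have hxmem := mem_place_of_ord_sub_pos v hv
  obtain ⟨R, hR⟩ := Polynomial.X_sub_C_dvd_sub_C_eval (a := a) (p := Q)
  have h1 : Polynomial.aeval x Q =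
      algebraMap k E (Q.eval a) + (x - algebraMap k E a) * Polynomial.aeval x R := by
    have := congrArg (Polynomial.aeval x) hR
    simp only [map_sub, map_mul, Polynomial.aeval_X, Polynomial.aeval_C] at this
    rw [← this]; ring
  have hc0 : algebraMap k E (Q.eval a) ≠ 0 := by
    rwa [Ne, map_eq_zero]
  by_cases hR0 : (x - algebraMap k E a) * Polynomial.aeval x R = 0
  · rw [h1, hR0, add_zero, PlaceAux.ord_algebraMap]
  · have hR1 : Polynomial.aeval x R ≠ 0 := right_ne_zero_of_mul hR0
    have hjne : x - algebraMap k E a ≠ 0 := left_ne_zero_of_mul hR0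
    have h2 : 0 < v.ord ((x - algebraMap k E a) * Polynomial.aeval x R) := by
      rw [v.ord_mul hjne hR1]
      have := PlaceAux.ord_nonneg_of_mem v (aeval_mem_place v hxmem R)
      omega
    rw [h1, PlaceAux.ord_add_eq_of_lt v hc0 hR0 (by rw [PlaceAux.ord_algebraMap]; exact h2),
      PlaceAux.ord_algebraMap]

theorem div_aeval_mem_place {a : k} (hv : 0 < v.ord (x - algebraMap k E a)) (P : k[X])
    {Q : k[X]} (hQa : Q.eval a ≠ 0) :
    Polynomial.aeval x P / Polynomial.aeval x Q ∈ v.toValuationSubring := by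
  have hQord := ord_aeval_eq_zero v hv hQa
  have hxmem := mem_place_of_ord_sub_pos v hv
  by_cases hP0 : Polynomial.aeval x P = 0
  · rw [hP0, zero_div]; exact v.toValuationSubring.zero_mem
  have hQj : Polynomial.aeval x Q ≠ 0 := by
    intro h0
    obtain ⟨R, hR⟩ := Polynomial.X_sub_C_dvd_sub_C_eval (a := a) (p := Q)
    have := congrArg (Polynomial.aeval x) hR
    simp only [map_sub, map_mul, Polynomial.aeval_X, Polynomial.aeval_C, h0, zero_sub] at this
    -- `-(Q a) = (x - a) R(x)` has positive order unless zero, but `Q a` is a nonzero constant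
    have hc0 : algebraMap k E (Q.eval a) ≠ 0 := by rwa [Ne, map_eq_zero]
    have h3 : v.ord (-(algebraMap k E (Q.eval a))) = 0 := by
      rw [← map_neg, PlaceAux.ord_algebraMap]
    rw [this] at h3
    have hne : (x - algebraMap k E a) * Polynomial.aeval x R ≠ 0 := by
      rw [← this]; exact neg_ne_zero.mpr hc0
    rw [v.ord_mul (left_ne_zero_of_mul hne) (right_ne_zero_of_mul hne)] at h3
    have := PlaceAux.ord_nonneg_of_mem v (aeval_mem_place v hxmem R)
    omega
  rw [PlaceAux.mem_iff_ord_nonneg' v (div_ne_zero hP0 hQj), PlaceAux.ord_div v hP0 hQj, hQord,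
    sub_zero]
  exact PlaceAux.ord_nonneg_of_mem v (aeval_mem_place v hxmem P)

end General

/-! ### descent to `k` -/

section Descent

open AlgebraicCurve Fermat.Agent.FF

/-- the Prelude function field `k(j(q^d) : d ∣ N)` as a type. -/
abbrev FNk (k : Type*) [Field k] [Algebra ℚ k] (N : ℕ) : Type _ :=
  ↥(laurentBaseChange k (modularFunctionFieldFull N))

variable {k : Type*} [Field k] [Algebra ℚ k] [Algebra k ℂ] (N : ℕ) [NeZero N]

local notation "FN" => FNk k N
local notation "φN" => realN (algebraMap k ℂ) N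

variable (hφ : IsLinDisjHom k ℂ (realN (algebraMap k ℂ) N))

include hφ

omit [NeZero N] in
theorem realN_aeval (P : k[X]) (z : FN) :
    φN (Polynomial.aeval z P) = Polynomial.aeval (φN z) (P.map (algebraMap k ℂ)) := by
  refine Polynomial.map_aeval_eq_aeval_map ?_ P z
  ext c
  exact (hφ.map_algebraMap c).symm

theorem transcendental_jB : Transcendental k (jB (k := k) N) := by
  intro h
  obtain ⟨P, hP, hP0⟩ := h
  have h1 := realN_aeval N hφ P (jB N)
  rw [hP0, map_zero, realN_jB] at h1
  have h2 : P.map (algebraMap k ℂ) = 0 := by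
    by_contra h3
    exact aeval_jM_ne_zero h3 h1.symm
  exact hP ((Polynomial.map_eq_zero_iff (algebraMap k ℂ).injective).mp h2)

omit hφ in
theorem adjoin_realN_jB : ℂ⟮φN (jB (k := k) N)⟯ = CjM := by
  rw [realN_jB]; rfl

/-- every element of the function field is algebraic over `k(j)`. -/
theorem isIntegral_jB (x : FN) : IsIntegral k⟮jB (k := k) N⟯ x := by
  by_contra h
  have htr : Transcendental k⟮jB (k := k) N⟯ x := by
    rwa [Transcendental, isAlgebraic_iff_isIntegral]
  have h1 := linearIndependent_pow_of_transcendental htr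
  have h2 := hφ.linearIndependent_adjoin (transcendental_jB N hφ) h1
  have h3 : Transcendental ℂ⟮φN (jB (k := k) N)⟯ (φN x) := by
    apply transcendental_of_linearIndependent_pow
    have e : (fun a : ℕ => (φN x) ^ a) = fun a : ℕ => φN (x ^ a) := by
      ext a : 1
      simp
    rw [e]
    exact h2
  have h4 : IsIntegral ℂ⟮φN (jB (k := k) N)⟯ (φN x) := by
    rw [adjoin_realN_jB N]
    exact isIntegral_CjM (isModFun_realN _ N x)
  exact h3 h4.isAlgebraic

/-- **Descent**: the coefficients of the minimal polynomial of `x` over `k(j)` are realised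
in every subring of `MerH` containing all conjugates of `realN x`. -/
theorem realN_coeff_minpoly_mem (x : FN) (S : Subring MerH)
    (hS : ∀ q, conjM (Gamma0 N) (φN x) q ∈ S) (i : ℕ) :
    φN (((minpoly k⟮jB (k := k) N⟯ x).coeff i : k⟮jB (k := k) N⟯) : FN) ∈ S := by
  have h1 := hφ.minpoly_map (transcendental_jB N hφ) (isIntegral_jB N hφ x)
  have h2 := coeff_minpoly_mem (isModFun_realN (algebraMap k ℂ) N x)
    ℂ⟮φN (jB (k := k) N)⟯ (adjoin_realN_jB N) S hS i
  rw [← h1, coeff_map] at h2
  exact h2

/-- an element of `k(j)` whose realisation is regular at `τ₀` is regular at every place of the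
function field lying over `j = a`, `a = j(τ₀)`. -/
theorem mem_place_of_realN_regular (r : k⟮jB (k := k) N⟯) (a : k) (τ₀ : ℍ)
    (hτ₀ : jH τ₀ = algebraMap k ℂ a) (hreg : φN (r : FN) ∈ regularAt τ₀)
    (v : Place k FN) (hv : 0 < v.ord (jB (k := k) N - algebraMap k FN a)) :
    (r : FN) ∈ v.toValuationSubring := by
  obtain ⟨P, Q, hcop, hQj, hr'⟩ := exists_coprime_rep (jB (k := k) N) r
  -- transfer to `ℂ`
  have hQ0 : Q ≠ 0 := by
    intro h0
    rw [h0, map_zero] at hQj
    exact hQj rfl
  have hQc : Q.map (algebraMap k ℂ) ≠ 0 :=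
    (Polynomial.map_ne_zero_iff (algebraMap k ℂ).injective).mpr hQ0
  have hcopc : IsCoprime (P.map (algebraMap k ℂ)) (Q.map (algebraMap k ℂ)) :=
    hcop.map (Polynomial.mapRingHom (algebraMap k ℂ))
  have hrel : φN (r : FN) * Polynomial.aeval jM (Q.map (algebraMap k ℂ)) =
      Polynomial.aeval jM (P.map (algebraMap k ℂ)) := by
    rw [hr', map_div₀, realN_aeval N hφ, realN_aeval N hφ, realN_jB,
      div_mul_cancel₀ _ (aeval_jM_ne_zero hQc)]
  have hne := eval_ne_zero_of_regular hcopc hQc hrel hreg
  rw [hτ₀, Polynomial.eval_map, Polynomial.eval₂_at_apply] at hne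
  have hQa : Q.eval a ≠ 0 := fun h0 => hne (by rw [h0, map_zero])
  rw [hr']
  exact div_aeval_mem_place v hv P hQa

/-- **(SYM), final form over `k`**: if the realisation of `x` is regular at every point of the
`SL(2,ℤ)`-orbit of `τ₀` and `j(τ₀) = a ∈ k`, then `x` is regular at every place of the function
field over `j = a`. -/
theorem mem_place_of_forall_regular (x : FN) (a : k) (τ₀ : ℍ)
    (hτ₀ : jH τ₀ = algebraMap k ℂ a)
    (hreg : ∀ γ : SL(2, ℤ), 0 ≤ MerH.ordAt (γ • τ₀) (φN x))
    (v : Place k FN) (hv : 0 < v.ord (jB (k := k) N - algebraMap k FN a)) :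
    x ∈ v.toValuationSubring := by
  have hint := isIntegral_jB N hφ x
  have hcoeff : ∀ i, (((minpoly k⟮jB (k := k) N⟯ x).coeff i : k⟮jB (k := k) N⟯) : FN) ∈
      v.toValuationSubring := by
    intro i
    apply mem_place_of_realN_regular N hφ _ a τ₀ hτ₀ _ v hv
    apply realN_coeff_minpoly_mem N hφ x (regularAt τ₀)
    intro q
    rw [mem_regularAt, ordAt_conjM]
    exact hreg _
  -- `x` is integral over the valuation ring
  have hl : (minpoly k⟮jB (k := k) N⟯ x).map (algebraMap k⟮jB (k := k) N⟯ FN) ∈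
      Polynomial.lifts v.toValuationSubring.subtype := by
    rw [Polynomial.lifts_iff_coeff_lifts]
    intro i
    rw [coeff_map]
    exact ⟨⟨_, hcoeff i⟩, rfl⟩
  obtain ⟨p, hp, -, hmon⟩ :=
    Polynomial.lifts_and_natDegree_eq_and_monic hl ((minpoly.monic hint).map _)
  have hx : IsIntegral v.toValuationSubring x := by
    refine ⟨p, hmon, ?_⟩
    have : Polynomial.eval₂ (algebraMap v.toValuationSubring FN) x p =
        (p.map v.toValuationSubring.subtype).eval x := (Polynomial.eval_map _ _).symm
    rw [this, hp, Polynomial.eval_map, ← Polynomial.aeval_def, minpoly.aeval]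
  obtain ⟨z, hz⟩ := IsIntegrallyClosed.isIntegral_iff.mp hx
  rw [← hz]
  exact z.2

end Descent

end

end Fermat.Agent.X0N
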