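import Fermat.Agent.X0N.SYM_helper2_Core

set_option autoImplicit false

/-!
# (SYM) core: an `SL(2,ℤ)`-invariant ratio of two modular forms is a rational function of `j`
-/

namespace Fermat.Agent.X0N

open UpperHalfPlane ModularForm Filter Function EisensteinSeries Polynomial
open scoped MatrixGroups ModularForm Manifold Topology
open Fermat.Agent.RatStr

noncomputable section

open scoped Classical

local notation "Δ" => ModularForm.discriminant

variable (H : Subgroup SL(2, ℤ)) [H.FiniteIndex]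

/-- The norm `∏_q h_q` of `h` over all `SL(2,ℤ)`-conjugates. -/
def normFn (k : ℤ) (h : ℍ → ℂ) : ℍ → ℂ := ∏ q : SL(2, ℤ) ⧸ H, cj H k h q

/-- The cofactor `∏_{q ≠ 1} h_q`. -/
def conormFn (k : ℤ) (h : ℍ → ℂ) : ℍ → ℂ :=
  ∏ q ∈ (Finset.univ : Finset (SL(2, ℤ) ⧸ H)).erase ((1 : SL(2, ℤ)) : SL(2, ℤ) ⧸ H), cj H k h q

variable {H} {k : ℤ} {g h : ℍ → ℂ}

theorem normFn_slash (hh : ∀ γ ∈ H, h ∣[k] γ = h) (γ : SL(2, ℤ)) :
    (normFn H k h) ∣[k * idx H] γ = normFn H k h := by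
  unfold normFn idx
  have := prod_slash_SL2 (Finset.univ : Finset (SL(2, ℤ) ⧸ H)) (fun q => cj H k h q) k γ
  rw [Finset.card_univ] at this
  rw [this]
  simp_rw [cj_slash hh]
  exact Equiv.prod_comp (MulAction.toPerm γ⁻¹ : Equiv.Perm (SL(2, ℤ) ⧸ H)) (fun q => cj H k h q)

theorem normFn_isMF (hh : IsMF H k h) : IsMF ⊤ (k * idx H) (normFn H k h) := by
  have hb : IsBoundedAtImInfty (normFn H k h) :=
    BoundedAtFilter.prod _ fun q _ => cj_bdd hh q
  refine ⟨MDifferentiable.prod fun q _ => cj_holo hh.holo q,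
    fun γ _ => normFn_slash hh.inv γ, fun γ => ?_⟩
  rw [normFn_slash hh.inv]
  exact hb

theorem slash_ne_zero {f : ℍ → ℂ} (hf : f ≠ 0) (γ : SL(2, ℤ)) : f ∣[k] γ ≠ 0 := by
  intro h0
  apply hf
  have : (f ∣[k] γ) ∣[k] γ⁻¹ = f := by
    rw [← SlashAction.slash_mul, mul_inv_cancel, SlashAction.slash_one]
  rw [← this, h0, SlashAction.zero_slash]

theorem normFn_ne_zero (hh : MDiff h) (h0 : h ≠ 0) : normFn H k h ≠ 0 := by
  unfold normFn
  intro hz
  rw [UpperHalfPlane.prod_eq_zero_iff (fun q _ => cj_holo hh q)] at hz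
  obtain ⟨q, -, hq⟩ := hz
  exact slash_ne_zero h0 _ hq

theorem mul_conormFn (hh : ∀ γ ∈ H, h ∣[k] γ = h) : h * conormFn H k h = normFn H k h := by
  unfold normFn conormFn
  rw [← Finset.mul_prod_erase _ _ (Finset.mem_univ ((1 : SL(2, ℤ)) : SL(2, ℤ) ⧸ H)), cj_one hh]

theorem conormFn_holo (hh : MDiff h) : MDiff (conormFn H k h) :=
  MDifferentiable.prod fun q _ => cj_holo hh q

theorem conormFn_bdd (hh : IsMF H k h) : IsBoundedAtImInfty (conormFn H k h) :=
  BoundedAtFilter.prod _ fun q _ => cj_bdd hh q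

/-- **An `SL(2,ℤ)`-invariant ratio `g/h` of modular forms for a finite index subgroup is a
rational function of `j`.** The invariance is expressed without division. -/
theorem ratio_invariant (hg : IsMF H k g) (hh : IsMF H k h) (h0 : h ≠ 0)
    (hinv : ∀ γ : SL(2, ℤ), (g ∣[k] γ) * h = g * (h ∣[k] γ)) :
    ∃ P Q : ℂ[X], Q ≠ 0 ∧ ∀ τ, g τ * Q.eval (jH τ) = h τ * P.eval (jH τ) := by
  set Nh := normFn H k h with hNh
  set G' := g * conormFn H k h with hG'
  have hGh : G' * h = g * Nh := by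
    rw [hG', hNh, ← mul_conormFn hh.inv]; ring
  have hG'holo : MDiff G' := hg.holo.mul (conormFn_holo hh.holo)
  have hNhMF : IsMF ⊤ (k * idx H) Nh := normFn_isMF hh
  -- invariance of `G'`
  have hG'inv : ∀ γ : SL(2, ℤ), G' ∣[k * idx H] γ = G' := by
    intro γ
    have e1 : (G' * h) ∣[k * idx H + k] γ = (G' ∣[k * idx H] γ) * (h ∣[k] γ) := mul_slash_SL2 _ _ _ _ _
    have e2 : (g * Nh) ∣[k + k * idx H] γ = (g ∣[k] γ) * Nh := by
      rw [mul_slash_SL2, normFn_slash hh.inv]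
    have e3 : (G' ∣[k * idx H] γ) * (h ∣[k] γ) = (g ∣[k] γ) * Nh := by
      rw [← e1, ← e2, hGh, add_comm]
    have e4 : (G' ∣[k * idx H] γ - G') * ((h ∣[k] γ) * h) = 0 := by
      have : (G' ∣[k * idx H] γ) * (h ∣[k] γ) * h = G' * h * (h ∣[k] γ) := by
        rw [e3, hGh, mul_assoc, mul_comm Nh h, ← mul_assoc, hinv γ]; ring
      rw [sub_mul, ← mul_assoc, this]; ring
    have hhγ : MDiff (h ∣[k] γ) := hh.holo.slash k γ
    rcases (UpperHalfPlane.mul_eq_zero_iff ((hG'holo.slash _ γ).sub hG'holo)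
      (hhγ.mul hh.holo)).mp e4 with h1 | h1
    · exact sub_eq_zero.mp h1
    · rcases (UpperHalfPlane.mul_eq_zero_iff hhγ hh.holo).mp h1 with h2 | h2
      · exact absurd h2 (slash_ne_zero h0 γ)
      · exact absurd h2 h0
  have hG'MF : IsMF ⊤ (k * idx H) G' := by
    have hb : IsBoundedAtImInfty G' :=
      (boundedAtImInftySubalgebra ℂ).mul_mem hg.bdd_one (conormFn_bdd hh)
    refine ⟨hG'holo, fun γ _ => hG'inv γ, fun γ => ?_⟩
    rw [hG'inv]; exact hb
  have hNh0 : Nh ≠ 0 := normFn_ne_zero hh.holo h0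
  obtain ⟨P, Q, hQ, hPQ⟩ := levelOne_ratio hG'MF hNhMF hNh0
  refine ⟨P, Q, hQ, ?_⟩
  -- cancel `Nh`
  have hPholo : MDiff (fun τ : ℍ => g τ * Q.eval (jH τ) - h τ * P.eval (jH τ)) := by
    have hj : MDiff jH := by
      have : jH = fun τ => E₄ τ ^ 3 / Δ τ := rfl
      rw [this]
      exact ((ModularFormClass.holo E₄).pow 3).div
        (ModularFormClass.holo (CuspForm.discriminant)) discriminant_ne_zero
    exact (hg.holo.mul ((Polynomial.differentiable Q).comp_mdifferentiable hj)).sub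
      (hh.holo.mul ((Polynomial.differentiable P).comp_mdifferentiable hj))
  have hmul : Nh * (fun τ : ℍ => g τ * Q.eval (jH τ) - h τ * P.eval (jH τ)) = 0 := by
    funext τ
    have h1 := hPQ τ
    have h2 := congrFun hGh τ
    simp only [Pi.mul_apply, Pi.zero_apply] at h1 h2 ⊢
    linear_combination (-(Q.eval (jH τ))) * h2 + (h τ) * h1
  rcases (UpperHalfPlane.mul_eq_zero_iff hNhMF.holo hPholo).mp hmul with h1 | h1
  · exact absurd h1 hNh0
  · intro τ
    exact sub_eq_zero.mp (congrFun h1 τ)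

end

end Fermat.Agent.X0N
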