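import Fermat.Agent.X0N.Mer_helper6_Basic
import Fermat.Agent.X0N.SYM_helper2_Invariant

set_option autoImplicit false

/-!
# (SYM) the field of modular functions of a finite index subgroup inside `MerH`
-/

namespace Fermat.Agent.X0N

open UpperHalfPlane ModularForm Filter Function EisensteinSeries Polynomial
open scoped MatrixGroups ModularForm Manifold Topology
open Fermat.Agent.RatStr

noncomputable section

local notation "Δ" => ModularForm.discriminant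

/-- `x ∈ MerH` is a ratio of two modular forms of equal weight for `Γ`. -/
def IsModFun (Γ : Subgroup SL(2, ℤ)) (x : MerH) : Prop :=
  ∃ (k : ℤ) (g h : HolH), IsMF Γ k (g : ℍ → ℂ) ∧ IsMF Γ k (h : ℍ → ℂ) ∧ h ≠ 0 ∧
    x = MerH.ofHol g / MerH.ofHol h

variable {Γ : Subgroup SL(2, ℤ)} {x y : MerH}

theorem IsModFun.mono {Γ' : Subgroup SL(2, ℤ)} (h : Γ' ≤ Γ) (hx : IsModFun Γ x) :
    IsModFun Γ' x := by
  obtain ⟨k, g, h', hg, hh, h0, rfl⟩ := hx
  exact ⟨k, g, h', hg.mono h, hh.mono h, h0, rfl⟩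

theorem isModFun_algebraMap (c : ℂ) : IsModFun Γ (algebraMap ℂ MerH c) := by
  refine ⟨0, HolH.const c, 1, IsMF.const c, IsMF.one, one_ne_zero, ?_⟩
  rw [map_one, div_one, MerH.algebraMap_eq_const]
  rfl

theorem IsModFun.add (hx : IsModFun Γ x) (hy : IsModFun Γ y) : IsModFun Γ (x + y) := by
  obtain ⟨k₁, g₁, h₁, hg₁, hh₁, h₁0, rfl⟩ := hx
  obtain ⟨k₂, g₂, h₂, hg₂, hh₂, h₂0, rfl⟩ := hy
  refine ⟨k₁ + k₂, g₁ * h₂ + h₁ * g₂, h₁ * h₂, (hg₁.mul hh₂).add (hh₁.mul hg₂), hh₁.mul hh₂,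
    mul_ne_zero h₁0 h₂0, ?_⟩
  rw [div_add_div _ _ (MerH.ofHol_ne_zero h₁0) (MerH.ofHol_ne_zero h₂0)]
  simp only [map_add, map_mul]

theorem IsModFun.mul (hx : IsModFun Γ x) (hy : IsModFun Γ y) : IsModFun Γ (x * y) := by
  obtain ⟨k₁, g₁, h₁, hg₁, hh₁, h₁0, rfl⟩ := hx
  obtain ⟨k₂, g₂, h₂, hg₂, hh₂, h₂0, rfl⟩ := hy
  refine ⟨k₁ + k₂, g₁ * g₂, h₁ * h₂, hg₁.mul hg₂, hh₁.mul hh₂, mul_ne_zero h₁0 h₂0, ?_⟩
  rw [div_mul_div_comm]
  simp only [map_mul]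

theorem IsModFun.neg (hx : IsModFun Γ x) : IsModFun Γ (-x) := by
  obtain ⟨k, g, h, hg, hh, h0, rfl⟩ := hx
  refine ⟨k, -g, h, hg.neg, hh, h0, ?_⟩
  rw [map_neg, neg_div]

theorem IsModFun.inv (hx : IsModFun Γ x) : IsModFun Γ x⁻¹ := by
  obtain ⟨k, g, h, hg, hh, h0, rfl⟩ := hx
  by_cases hg0 : g = 0
  · subst hg0
    rw [map_zero, zero_div, inv_zero]
    simpa using isModFun_algebraMap (Γ := Γ) 0
  · exact ⟨k, h, g, hh, hg, hg0, by rw [inv_div]⟩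

/-- The field of modular functions for `Γ` as an intermediate field of `MerH / ℂ`. -/
def modFun (Γ : Subgroup SL(2, ℤ)) : IntermediateField ℂ MerH where
  carrier := {x | IsModFun Γ x}
  mul_mem' := IsModFun.mul
  one_mem' := by simpa using isModFun_algebraMap (Γ := Γ) 1
  add_mem' := IsModFun.add
  zero_mem' := by simpa using isModFun_algebraMap (Γ := Γ) 0
  algebraMap_mem' := isModFun_algebraMap
  inv_mem' _ := IsModFun.inv

theorem mem_modFun : x ∈ modFun Γ ↔ IsModFun Γ x := Iff.rfl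

theorem modFun_mono {Γ' : Subgroup SL(2, ℤ)} (h : Γ' ≤ Γ) : modFun Γ ≤ modFun Γ' :=
  fun _ hx => IsModFun.mono h hx

/-! ### slash and composition -/

/-- slash of a holomorphic function by `γ ∈ SL(2,ℤ)`, as an element of `HolH`. -/
def HolH.slashSL (k : ℤ) (γ : SL(2, ℤ)) (g : HolH) : HolH :=
  ⟨(g : ℍ → ℂ) ∣[k] γ, g.2.slash k γ⟩

@[simp] theorem HolH.coe_slashSL (k : ℤ) (γ : SL(2, ℤ)) (g : HolH) :
    (HolH.slashSL k γ g : ℍ → ℂ) = (g : ℍ → ℂ) ∣[k] γ := rfl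

theorem HolH.slashSL_ne_zero {k : ℤ} (γ : SL(2, ℤ)) {g : HolH} (hg : g ≠ 0) :
    HolH.slashSL k γ g ≠ 0 := by
  intro h
  have h1 : (g : ℍ → ℂ) ≠ 0 := fun h2 => hg (Subtype.ext h2)
  exact slash_ne_zero h1 γ (congrArg Subtype.val h)

theorem HolH.comp_mul_slashSL (k : ℤ) (γ : SL(2, ℤ)) (g h : HolH) :
    HolH.comp γ g * HolH.slashSL k γ h = HolH.slashSL k γ g * HolH.comp γ h := by
  ext τ
  simp only [Subring.coe_mul, Pi.mul_apply, HolH.comp_apply, HolH.coe_slashSL, SL_slash_apply]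
  ring

theorem MerH.comp_div_eq_slash (k : ℤ) (γ : SL(2, ℤ)) (g : HolH) {h : HolH} (h0 : h ≠ 0) :
    MerH.comp γ (MerH.ofHol g / MerH.ofHol h) =
      MerH.ofHol (HolH.slashSL k γ g) / MerH.ofHol (HolH.slashSL k γ h) := by
  have hc : HolH.comp γ h ≠ 0 := by simpa using h0
  rw [map_div₀, MerH.comp_algebraMap, MerH.comp_algebraMap,
    div_eq_div_iff (MerH.ofHol_ne_zero hc) (MerH.ofHol_ne_zero (HolH.slashSL_ne_zero γ h0)),
    ← map_mul, ← map_mul, HolH.comp_mul_slashSL]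

/-- for a normal subgroup, slashing by any `γ` preserves modular forms. -/
theorem isMF_slash_of_normal [hn : Γ.Normal] {k : ℤ} {g : ℍ → ℂ} (hg : IsMF Γ k g)
    (γ : SL(2, ℤ)) : IsMF Γ k (g ∣[k] γ) := by
  refine ⟨hg.holo.slash k γ, fun δ hδ => ?_, fun δ => ?_⟩
  · have h1 : γ * δ * γ⁻¹ ∈ Γ := hn.conj_mem δ hδ γ
    have h2 : γ * δ = (γ * δ * γ⁻¹) * γ := by group
    rw [← SlashAction.slash_mul, h2, SlashAction.slash_mul, hg.inv _ h1]
  · rw [← SlashAction.slash_mul]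
    exact hg.bdd _

theorem IsModFun.comp [Γ.Normal] (hx : IsModFun Γ x) (γ : SL(2, ℤ)) :
    IsModFun Γ (MerH.comp γ x) := by
  obtain ⟨k, g, h, hg, hh, h0, rfl⟩ := hx
  refine ⟨k, HolH.slashSL k γ g, HolH.slashSL k γ h, isMF_slash_of_normal hg γ, isMF_slash_of_normal hh γ,
    HolH.slashSL_ne_zero γ h0, MerH.comp_div_eq_slash k γ g h0⟩

theorem IsModFun.comp_of_mem (hx : IsModFun Γ x) {γ : SL(2, ℤ)} (hγ : γ ∈ Γ) :
    MerH.comp γ x = x := by
  obtain ⟨k, g, h, hg, hh, h0, rfl⟩ := hx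
  rw [MerH.comp_div_eq_slash k γ g h0]
  congr 2
  · exact Subtype.ext (hg.inv γ hγ)
  · exact Subtype.ext (hh.inv γ hγ)

/-! ### the `j`-function in `MerH` -/

theorem mdiff_jH : MDiff jH := by
  have : jH = fun τ => E₄ τ ^ 3 / Δ τ := rfl
  rw [this]
  exact ((ModularFormClass.holo E₄).pow 3).div
    (ModularFormClass.holo (CuspForm.discriminant)) discriminant_ne_zero

/-- `j` as a holomorphic function. -/
def jHol1 : HolH := ⟨jH, mdiff_jH⟩

/-- `j` as an element of `MerH`. -/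
def jM : MerH := MerH.ofHol jHol1

theorem coe_aeval_jHol1 (P : ℂ[X]) (τ : ℍ) :
    ((Polynomial.aeval jHol1 P : HolH) : ℍ → ℂ) τ = P.eval (jH τ) := by
  induction P using Polynomial.induction_on' with
  | add p q hp hq => simp [hp, hq]
  | monomial n a =>
    simp only [aeval_monomial, eval_monomial]
    rfl

theorem aeval_jM (P : ℂ[X]) : Polynomial.aeval jM P = MerH.ofHol (Polynomial.aeval jHol1 P) := by
  rw [jM, MerH.ofHol, Polynomial.aeval_algebraMap_apply]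

theorem aeval_jHol1_ne_zero {Q : ℂ[X]} (hQ : Q ≠ 0) : Polynomial.aeval jHol1 Q ≠ 0 := by
  intro h
  apply hQ
  apply eq_zero_of_eval_jH_eq_zero
  intro τ
  rw [← coe_aeval_jHol1, h]
  rfl

theorem aeval_jM_ne_zero {Q : ℂ[X]} (hQ : Q ≠ 0) : Polynomial.aeval jM Q ≠ 0 := by
  rw [aeval_jM]
  exact MerH.ofHol_ne_zero (aeval_jHol1_ne_zero hQ)

/-- `j` is transcendental over `ℂ` in `MerH`. -/
theorem transcendental_jM : Transcendental ℂ jM := by
  intro h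
  obtain ⟨Q, hQ, hQ0⟩ := h
  exact aeval_jM_ne_zero hQ hQ0

/-- **Invariant modular functions are rational functions of `j`.** -/
theorem IsModFun.exists_rat_of_invariant [Γ.FiniteIndex] (hx : IsModFun Γ x)
    (hinv : ∀ γ : SL(2, ℤ), MerH.comp γ x = x) :
    ∃ P Q : ℂ[X], Q ≠ 0 ∧ x * Polynomial.aeval jM Q = Polynomial.aeval jM P := by
  obtain ⟨k, g, h, hg, hh, h0, rfl⟩ := hx
  have h0' : (h : ℍ → ℂ) ≠ 0 := fun h2 => h0 (Subtype.ext h2)
  have hinv' : ∀ γ : SL(2, ℤ), ((g : ℍ → ℂ) ∣[k] γ) * (h : ℍ → ℂ) =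
      (g : ℍ → ℂ) * ((h : ℍ → ℂ) ∣[k] γ) := by
    intro γ
    have h1 := hinv γ
    rw [MerH.comp_div_eq_slash k γ g h0,
      div_eq_div_iff (MerH.ofHol_ne_zero (HolH.slashSL_ne_zero γ h0)) (MerH.ofHol_ne_zero h0),
      ← map_mul, ← map_mul] at h1
    exact congrArg Subtype.val (MerH.ofHol_injective h1)
  obtain ⟨P, Q, hQ, hPQ⟩ := ratio_invariant hg hh h0' hinv'
  refine ⟨P, Q, hQ, ?_⟩
  rw [aeval_jM, aeval_jM, div_mul_eq_mul_div, div_eq_iff (MerH.ofHol_ne_zero h0), ← map_mul,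
    ← map_mul]
  congr 1
  ext τ
  simp only [Subring.coe_mul, Pi.mul_apply, coe_aeval_jHol1]
  rw [hPQ τ]
  ring

end

end Fermat.Agent.X0N
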